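import Mathlib.Tactic
import Mathlib.Data.Real.Basic

/-!
# Route (beta) of strand H, leaf DEG-ARITH: the integer junction of (DEG)

Setting of the division route: `n` the prime, `g` the genus, `M0 = [M : ρ₀ F]` the degree of the
generic point, `d2 = ∑ₖ [M : ρₖ F]` the degree of the moving divisor, `δ` the degree of the pole
divisor of the coefficient vector, `I1` the total coincidence of `ρ₀` with the `ρₖ`, `β` the total
coincidence of the ordered pairs `ρₖ ≠ ρₖ'`.  The four degree counts on the one function field `M`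

* (i)   `δ = M0 + n d2`                                   (the function `Φ_Q`),
* (ii)  `n I1 = δ + (n g + 2 g - 1) M0`                   (the first derivative at the simple zero),
* (iii) `n β + I1 = g δ + n (2 g - 2) d2 + (n g + 1) d2`  (the `n`-th derivatives at the `n`-fold zeros),
* (B)   `β ≤ (4 g - 4) d2`                                (the determinant of the canonical sections)

give `n ^ 2 * d2 ≤ g * M0`.  Only ONE direction of each of (i), (ii), (iii) is used, and the file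
records that: `deg_arith_of_le` takes the four counts as inequalities
(`M0 + n d2 ≤ δ`, `n I1 ≤ δ + ..`, `g δ + .. ≤ n β + I1`, `β ≤ ..`).
Everything here is elementary integer arithmetic; no curve appears.
-/

set_option autoImplicit false

namespace Fermat.Agent.S17.HB.Arith

/-- **DEG-ARITH, inequality form** (integers).  The directions that are actually used:
a lower bound for the pole degree `δ` (i), an upper bound for the coincidence `I1` of the generic
point with the moving points (ii), a lower bound for `n β + I1` (iii), and the upper bound (B)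
for `β`. -/
theorem deg_arith_of_le {n g M0 d2 δ I1 β : ℤ} (hn : 1 ≤ n) (hg : 1 ≤ g)
    (h1 : M0 + n * d2 ≤ δ)
    (h2 : n * I1 ≤ δ + (n * g + 2 * g - 1) * M0)
    (h3 : g * δ + n * (2 * g - 2) * d2 + (n * g + 1) * d2 ≤ n * β + I1)
    (hB : β ≤ (4 * g - 4) * d2) :
    n ^ 2 * d2 ≤ g * M0 := by
  have hn0 : (0 : ℤ) ≤ n := by linarith
  have hng : (0 : ℤ) ≤ n * g - 1 := by nlinarith
  -- `n` times (iii), then (ii):
  have e3 : n * (g * δ + n * (2 * g - 2) * d2 + (n * g + 1) * d2) ≤ n * (n * β + I1) :=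
    mul_le_mul_of_nonneg_left h3 hn0
  -- the lower bound (i) for `δ`, weighted by `n g - 1 ≥ 0`:
  have e1 : (n * g - 1) * (M0 + n * d2) ≤ (n * g - 1) * δ :=
    mul_le_mul_of_nonneg_left h1 hng
  -- (B), weighted by `n ^ 2 ≥ 0`:
  have eB : n ^ 2 * β ≤ n ^ 2 * ((4 * g - 4) * d2) :=
    mul_le_mul_of_nonneg_left hB (sq_nonneg n)
  nlinarith [e3, e1, eB, h2]

/-- **DEG-ARITH** (integers): the four degree counts (i), (ii), (iii) as identities and the
inequality (B) give `n ^ 2 * d2 ≤ g * M0`. -/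
theorem deg_arith {n g M0 d2 δ I1 β : ℤ} (hn : 1 ≤ n) (hg : 1 ≤ g)
    (h1 : δ = M0 + n * d2)
    (h2 : n * I1 = δ + (n * g + 2 * g - 1) * M0)
    (h3 : n * β + I1 = g * δ + n * (2 * g - 2) * d2 + (n * g + 1) * d2)
    (hB : β ≤ (4 * g - 4) * d2) :
    n ^ 2 * d2 ≤ g * M0 :=
  deg_arith_of_le hn hg h1.ge h2.le h3.ge hB

/-- The exact value of `β` forced by (i), (ii), (iii): `n ^ 2 β = n ^ 2 (4 g - 2) d2 - 2 g M0`
(the identity (A) of the route, cleared of denominators). -/
theorem sq_mul_beta_eq {n g M0 d2 δ I1 β : ℤ}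
    (h1 : δ = M0 + n * d2)
    (h2 : n * I1 = δ + (n * g + 2 * g - 1) * M0)
    (h3 : n * β + I1 = g * δ + n * (2 * g - 2) * d2 + (n * g + 1) * d2) :
    n ^ 2 * β = n ^ 2 * ((4 * g - 2) * d2) - 2 * g * M0 := by
  have e3 : n * (n * β + I1) = n * (g * δ + n * (2 * g - 2) * d2 + (n * g + 1) * d2) := by
    rw [h3]
  subst h1
  linear_combination e3 - h2

/-- **DEG-ARITH, natural-number form**: all seven numbers are natural numbers and the four counts
are read in `ℤ` (so that `2 g - 2` and `4 g - 4` are honest). -/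
theorem deg_arith_nat {n g M0 d2 δ I1 β : ℕ} (hn : 1 ≤ n) (hg : 1 ≤ g)
    (h1 : (M0 : ℤ) + n * d2 ≤ δ)
    (h2 : (n : ℤ) * I1 ≤ δ + (n * g + 2 * g - 1) * M0)
    (h3 : (g : ℤ) * δ + n * (2 * g - 2) * d2 + (n * g + 1) * d2 ≤ n * β + I1)
    (hB : (β : ℤ) ≤ (4 * g - 4) * d2) :
    n ^ 2 * d2 ≤ g * M0 := by
  have h := deg_arith_of_le (n := (n : ℤ)) (g := (g : ℤ)) (by exact_mod_cast hn)
    (by exact_mod_cast hg) h1 h2 h3 hB
  exact_mod_cast h

/-- **DEG-ARITH, the ratio consumed by the height leaf**: `d2 / M0 ≤ g / n ^ 2` in `ℝ`. -/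
theorem div_le_div_of_deg {n g M0 d2 : ℕ} (hn : 1 ≤ n) (hM : 0 < M0)
    (h : n ^ 2 * d2 ≤ g * M0) :
    (d2 : ℝ) / (M0 : ℝ) ≤ (g : ℝ) / (n : ℝ) ^ 2 := by
  have hn' : (0 : ℝ) < (n : ℝ) ^ 2 := by positivity
  have hM' : (0 : ℝ) < (M0 : ℝ) := by exact_mod_cast hM
  rw [div_le_div_iff₀ hM' hn']
  have h' : ((n ^ 2 * d2 : ℕ) : ℝ) ≤ ((g * M0 : ℕ) : ℝ) := by exact_mod_cast h
  push_cast at h'
  linarith

/-- The height inequality in the shape the pigeonhole step uses: a bound `c * d2 / M0 * x` is a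
bound `c * g / n ^ 2 * x` for `c, x ≥ 0`. -/
theorem mul_div_mul_le_of_deg {n g M0 d2 : ℕ} (hn : 1 ≤ n) (hM : 0 < M0)
    (h : n ^ 2 * d2 ≤ g * M0) {c x : ℝ} (hc : 0 ≤ c) (hx : 0 ≤ x) :
    c * (d2 : ℝ) / (M0 : ℝ) * x ≤ c * (g : ℝ) / (n : ℝ) ^ 2 * x := by
  have h0 := div_le_div_of_deg hn hM h
  have h1 : c * ((d2 : ℝ) / (M0 : ℝ)) ≤ c * ((g : ℝ) / (n : ℝ) ^ 2) :=
    mul_le_mul_of_nonneg_left h0 hc
  have h2 := mul_le_mul_of_nonneg_right h1 hx
  simpa [mul_div_assoc] using h2

end Fermat.Agent.S17.HB.Arith
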