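import Mathlib.Tactic
import Mathlib.Data.Real.Basic

/-!
# Route (beta) of strand H, leaf DEG-ARITH with a free canonical degree `κ`

In the degree counts (ii) and (iii) of the division route the number `2 g - 2` is the degree `κ`
of the divisor of the DERIVATION (`κ = ∑ over the places v of the order of dt at v`), while in (B)
it is the degree of the canonical divisor of Riemann-Roch.  This file keeps `κ` free:

* (i)   `δ = M0 + n d2`,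
* (ii)  `n I1 = δ + (n g + κ + 1) M0`,
* (iii) `n β + I1 = g δ + n κ d2 + (n g + 1) d2`,
* (B)   `β ≤ (4 g - 4) d2`

give `n ^ 2 * (κ - 2 g + 4) * d2 ≤ (κ + 2) * M0`, and with the Hurwitz INEQUALITY `2 g - 2 ≤ κ`
(and `0 ≤ d2`, `0 ≤ M0`) again `n ^ 2 * d2 ≤ g * M0`.  Only one direction of each of (i), (ii),
(iii) is used; the `_of_le` forms record which.  Elementary integer arithmetic; no curve appears.
-/

set_option autoImplicit false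

namespace Fermat.Agent.S17.HB.ArithK

/-- **DEG-ARITH with a free canonical degree, inequality form.**  The directions used:
`M0 + n d2 ≤ δ` (i), `n I1 ≤ δ + (n g + κ + 1) M0` (ii),
`g δ + n κ d2 + (n g + 1) d2 ≤ n β + I1` (iii), `β ≤ (4 g - 4) d2` (B). -/
theorem deg_arith_kappa {n g M0 d2 δ I1 β κ : ℤ} (hn : 1 ≤ n) (hg : 1 ≤ g)
    (h1 : M0 + n * d2 ≤ δ)
    (h2 : n * I1 ≤ δ + (n * g + κ + 1) * M0)
    (h3 : g * δ + n * κ * d2 + (n * g + 1) * d2 ≤ n * β + I1)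
    (hB : β ≤ (4 * g - 4) * d2) :
    n ^ 2 * (κ - 2 * g + 4) * d2 ≤ (κ + 2) * M0 := by
  have hn0 : (0 : ℤ) ≤ n := by linarith
  have hng : (0 : ℤ) ≤ n * g - 1 := by nlinarith
  have e3 : n * (g * δ + n * κ * d2 + (n * g + 1) * d2) ≤ n * (n * β + I1) :=
    mul_le_mul_of_nonneg_left h3 hn0
  have e1 : (n * g - 1) * (M0 + n * d2) ≤ (n * g - 1) * δ :=
    mul_le_mul_of_nonneg_left h1 hng
  have eB : n ^ 2 * β ≤ n ^ 2 * ((4 * g - 4) * d2) :=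
    mul_le_mul_of_nonneg_left hB (sq_nonneg n)
  nlinarith [e3, e1, eB, h2]

/-- From `n ^ 2 (κ - 2 g + 4) d2 ≤ (κ + 2) M0` and the Hurwitz inequality `2 g - 2 ≤ κ`:
`n ^ 2 d2 ≤ g M0` (because `(κ + 2) / (κ - 2 g + 4) ≤ g`). -/
theorem sq_mul_le_of_kappa {n g M0 d2 κ : ℤ} (hg : 1 ≤ g) (hκ : 2 * g - 2 ≤ κ)
    (hd2 : 0 ≤ d2) (hM0 : 0 ≤ M0)
    (h : n ^ 2 * (κ - 2 * g + 4) * d2 ≤ (κ + 2) * M0) :
    n ^ 2 * d2 ≤ g * M0 := by
  -- `a := κ - 2 g + 2 ≥ 0`:  `(a + 2) n² d2 ≤ (a + 2 g) M0 ≤ (a + 2) g M0`.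
  have ha : (0 : ℤ) ≤ κ - 2 * g + 2 := by linarith
  have hnd : (0 : ℤ) ≤ n ^ 2 * d2 := mul_nonneg (sq_nonneg n) hd2
  have h1 : (κ + 2) * M0 ≤ (κ - 2 * g + 4) * (g * M0) := by
    have : (0 : ℤ) ≤ (κ - 2 * g + 2) * (g - 1) * M0 :=
      mul_nonneg (mul_nonneg ha (by linarith)) hM0
    nlinarith [this]
  have h2 : (κ - 2 * g + 4) * (n ^ 2 * d2) ≤ (κ - 2 * g + 4) * (g * M0) := by
    calc (κ - 2 * g + 4) * (n ^ 2 * d2) = n ^ 2 * (κ - 2 * g + 4) * d2 := by ring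
      _ ≤ (κ + 2) * M0 := h
      _ ≤ (κ - 2 * g + 4) * (g * M0) := h1
  exact le_of_mul_le_mul_left h2 (by linarith)

/-- **DEG-ARITH with a free canonical degree and the Hurwitz inequality, inequality form.** -/
theorem arith_of_le {n g M0 d2 δ I1 β κ : ℤ} (hn : 1 ≤ n) (hg : 1 ≤ g)
    (h1 : M0 + n * d2 ≤ δ)
    (h2 : n * I1 ≤ δ + (n * g + κ + 1) * M0)
    (h3 : g * δ + n * κ * d2 + (n * g + 1) * d2 ≤ n * β + I1)
    (hB : β ≤ (4 * g - 4) * d2) (hHUR : 2 * g - 2 ≤ κ) (hd2 : 0 ≤ d2) (hM0 : 0 ≤ M0) :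
    n ^ 2 * d2 ≤ g * M0 :=
  sq_mul_le_of_kappa hg hHUR hd2 hM0 (deg_arith_kappa hn hg h1 h2 h3 hB)

/-- **ARITH** (the literal asked for by the DEG second): the three counts as identities, (B),
and the Hurwitz inequality `2 g - 2 ≤ κ` give `n ^ 2 * d2 ≤ g * M0`. -/
theorem arith (n g M0 d2 δ I1 β κ : ℤ) (hn : 0 < n) (hg : 1 ≤ g)
    (h1 : δ = M0 + n * d2)
    (h2 : n * I1 = δ + (n * g + κ + 1) * M0)
    (h3 : n * β + I1 = g * δ + n * κ * d2 + (n * g + 1) * d2)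
    (hB : β ≤ (4 * g - 4) * d2) (hHUR : 2 * g - 2 ≤ κ) (hd2 : 0 ≤ d2) (hM0 : 0 ≤ M0) :
    n ^ 2 * d2 ≤ g * M0 :=
  arith_of_le (by linarith) hg h1.ge h2.le h3.ge hB hHUR hd2 hM0

/-- The exact value of `β` forced by (i), (ii), (iii):
`n ^ 2 β = n ^ 2 (2 g + κ) d2 - (κ + 2) M0`. -/
theorem sq_mul_beta_eq {n g M0 d2 δ I1 β κ : ℤ}
    (h1 : δ = M0 + n * d2)
    (h2 : n * I1 = δ + (n * g + κ + 1) * M0)
    (h3 : n * β + I1 = g * δ + n * κ * d2 + (n * g + 1) * d2) :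
    n ^ 2 * β = n ^ 2 * ((2 * g + κ) * d2) - (κ + 2) * M0 := by
  have e3 : n * (n * β + I1) = n * (g * δ + n * κ * d2 + (n * g + 1) * d2) := by
    rw [h3]
  subst h1
  linear_combination e3 - h2

/-- **ARITH, natural-number form**: the seven counts are natural numbers, `κ` an integer, the
relations are read in `ℤ`. -/
theorem arith_nat {n g M0 d2 δ I1 β : ℕ} {κ : ℤ} (hn : 1 ≤ n) (hg : 1 ≤ g)
    (h1 : (M0 : ℤ) + n * d2 ≤ δ)
    (h2 : (n : ℤ) * I1 ≤ δ + (n * g + κ + 1) * M0)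
    (h3 : (g : ℤ) * δ + n * κ * d2 + (n * g + 1) * d2 ≤ n * β + I1)
    (hB : (β : ℤ) ≤ (4 * g - 4) * d2) (hHUR : 2 * (g : ℤ) - 2 ≤ κ) :
    n ^ 2 * d2 ≤ g * M0 := by
  have h := arith_of_le (n := (n : ℤ)) (g := (g : ℤ)) (by exact_mod_cast hn)
    (by exact_mod_cast hg) h1 h2 h3 hB hHUR (by positivity) (by positivity)
  exact_mod_cast h

/-- The ratio consumed by the height leaf: `d2 / M0 ≤ g / n ^ 2` in `ℝ`. -/
theorem div_le_div_of_sq_mul_le {n g M0 d2 : ℕ} (hn : 1 ≤ n) (hM : 0 < M0)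
    (h : n ^ 2 * d2 ≤ g * M0) :
    (d2 : ℝ) / (M0 : ℝ) ≤ (g : ℝ) / (n : ℝ) ^ 2 := by
  have hn' : (0 : ℝ) < (n : ℝ) ^ 2 := by positivity
  have hM' : (0 : ℝ) < (M0 : ℝ) := by exact_mod_cast hM
  rw [div_le_div_iff₀ hM' hn']
  have h' : ((n ^ 2 * d2 : ℕ) : ℝ) ≤ ((g * M0 : ℕ) : ℝ) := by exact_mod_cast h
  push_cast at h'
  linarith

end Fermat.Agent.S17.HB.ArithK
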