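import Mathlib

/-!
# Program MW (statement S17), strand HB (route beta), leaf CAR: the abstract derivation lemma

`derivation_vanish` : let `D` be a derivation of a field `M` that kills the image of the generic
point `ρ₀ : F → M`.  Suppose that along every moving point `ρ k` the derivation obeys the chain
rule `D (ρ k f) = lam k * ρ k (d k f)`, that the coefficients `c j` (`c 0 = 1`) satisfy the
generic equation and the jet equations of order `< n`, that the linear system of the generic
equation and the jets of order `< n - 1` is non-degenerate, and that the jet of order `n` does not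
vanish.  Then `D` kills the coefficients `c j` and every `lam k` vanishes.  This is the
algebraicity of the division curve over the generic point (implicit function theorem, read on
derivations).
-/

set_option autoImplicit false

namespace Fermat.Agent.S17.HB.CarAlgAbs

theorem derivation_vanish {F M : Type*} [Field F] [Field M] {g m n : ℕ}
    (D : M →+ M) (hD : ∀ a b : M, D (a * b) = a * D b + b * D a)
    (ρ₀ : F →+* M) (ρ : Fin g → F →+* M) (hρ₀ : ∀ f, D (ρ₀ f) = 0)
    (d : Fin g → F → F) (lam : Fin g → M)
    (hchain : ∀ k f, D (ρ k f) = lam k * ρ k (d k f))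
    (c : Fin (m + 1) → M) (hc0 : c 0 = 1) (v r : Fin (m + 1) → F)
    (hgen : ∑ j, c j * ρ₀ (v j) = 0)
    (hjets : ∀ k, ∀ i < n, ∑ j, c j * ρ k ((d k)^[i] (r j)) = 0)
    (hn : 0 < n)
    (hnd : ∀ x : Fin (m + 1) → M, x 0 = 0 → ∑ j, x j * ρ₀ (v j) = 0 →
      (∀ k, ∀ i, i + 1 < n → ∑ j, x j * ρ k ((d k)^[i] (r j)) = 0) → x = 0)
    (hΛ : ∀ k, ∑ j, c j * ρ k ((d k)^[n] (r j)) ≠ 0) :
    (∀ j, D (c j) = 0) ∧ ∀ k, lam k = 0 := by
  have hD1 : D 1 = 0 := by
    have h := hD 1 1
    rw [mul_one, one_mul] at h
    exact left_eq_add.mp h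
  -- the derivative of a jet equation
  have hjetD : ∀ k i, D (∑ j, c j * ρ k ((d k)^[i] (r j))) =
      lam k * ∑ j, c j * ρ k ((d k)^[i + 1] (r j)) + ∑ j, D (c j) * ρ k ((d k)^[i] (r j)) := by
    intro k i
    rw [map_sum, Finset.mul_sum, ← Finset.sum_add_distrib]
    refine Finset.sum_congr rfl fun j _ => ?_
    rw [hD, hchain, Function.iterate_succ_apply']
    ring
  have hx : (fun j => D (c j)) = 0 := by
    apply hnd
    · show D (c 0) = 0
      rw [hc0, hD1]
    · have h := congrArg D hgen
      rw [map_zero, map_sum] at h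
      rw [← h]
      refine Finset.sum_congr rfl fun j _ => ?_
      rw [hD, hρ₀]
      ring
    · intro k i hi
      have h := hjetD k i
      rw [hjets k i (by omega), map_zero, hjets k (i + 1) hi, mul_zero, zero_add] at h
      exact h.symm
  have hx' : ∀ j, D (c j) = 0 := fun j => congrFun hx j
  refine ⟨hx', fun k => ?_⟩
  obtain ⟨n', rfl⟩ : ∃ n', n = n' + 1 := ⟨n - 1, by omega⟩
  have h := hjetD k n'
  rw [hjets k n' (by omega), map_zero] at h
  simp only [hx', zero_mul, Finset.sum_const_zero, add_zero] at h
  exact (mul_eq_zero.mp h.symm).resolve_right (hΛ k)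

end Fermat.Agent.S17.HB.CarAlgAbs
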