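/-
MW strand HB (route beta), leaf CAR, the algebraic core of ALG (Mathlib only).

* `isAlgebraic_of_forall_derivation_eq_zero`: an essentially finitely generated field extension
  `M / L₀` all of whose `L₀`-derivations `M → M` vanish is algebraic.  (The Kaehler module is a
  vector space over `M`; a non-zero vector is detected by a linear form, and a linear form composed
  with the universal derivation is a derivation; so `Ω[M⁄L₀] = 0`, the extension is formally
  unramified, hence separable algebraic.)
* `trdeg_eq_one_of_isAlgebraic`: if `F / K` has transcendence degree one and `M` is integral over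
  the image of a `K`-embedding `ρ : F →ₐ[K] M`, then `M / K` has transcendence degree one.
* `essFiniteType_adjoin`: a field generated over `K` by a finite set is essentially of finite
  type over `K`.
-/
import Mathlib

set_option autoImplicit false
set_option linter.style.haveILetI false

namespace Fermat.Agent.S17.HB.CarAlgCore

universe uK uF

/-- If every derivation `M → M` over `L₀` vanishes, then the module of Kaehler differentials of
`M / L₀` is zero. -/
theorem subsingleton_kaehlerDifferential {L₀ M : Type*} [Field L₀] [Field M] [Algebra L₀ M]
    (h : ∀ D : Derivation L₀ M M, D = 0) : Subsingleton (KaehlerDifferential L₀ M) := by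
  refine subsingleton_of_forall_eq 0 fun x => ?_
  rw [← Module.forall_dual_apply_eq_zero_iff M x]
  intro φ
  have hφ : φ = 0 := by
    apply Derivation.liftKaehlerDifferential_unique
    rw [h (φ.compDer (KaehlerDifferential.D L₀ M)),
      h ((0 : KaehlerDifferential L₀ M →ₗ[M] M).compDer (KaehlerDifferential.D L₀ M))]
  rw [hφ]
  rfl

/-- An essentially finitely generated field extension without non-zero derivations is
algebraic. -/
theorem isAlgebraic_of_forall_derivation_eq_zero {L₀ M : Type*} [Field L₀] [Field M]
    [Algebra L₀ M] [CharZero L₀] [Algebra.EssFiniteType L₀ M]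
    (h : ∀ D : Derivation L₀ M M, D = 0) : Algebra.IsAlgebraic L₀ M := by
  haveI : Subsingleton (KaehlerDifferential L₀ M) := subsingleton_kaehlerDifferential h
  haveI : Algebra.FormallyUnramified L₀ M := ⟨inferInstance⟩
  haveI : Algebra.IsSeparable L₀ M := Algebra.FormallyUnramified.isSeparable L₀ M
  exact ⟨fun x => (Algebra.IsSeparable.isIntegral L₀ x).isAlgebraic⟩

/-- A field which is integral over the image of a function field of one variable has
transcendence degree one. -/
theorem trdeg_eq_one_of_isAlgebraic {K : Type uK} {F : Type uF} {M : Type uK} [Field K] [Field F]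
    [Field M] [Algebra K F] [Algebra K M] (htr : Algebra.trdeg K F = 1) (ρ : F →ₐ[K] M)
    (halg : (ρ : F →+* M).IsIntegral) : Algebra.trdeg K M = 1 := by
  letI : Algebra F M := ρ.toRingHom.toAlgebra
  haveI : IsScalarTower K F M := IsScalarTower.of_algebraMap_eq fun a => (ρ.commutes a).symm
  haveI : Algebra.IsIntegral F M := ⟨halg⟩
  haveI : Algebra.IsAlgebraic F M := Algebra.IsIntegral.isAlgebraic
  have hadd := lift_trdeg_add_eq K F M
  rw [htr, trdeg_eq_zero (R := F) (A := M), Cardinal.lift_one, Cardinal.lift_zero, add_zero]
    at hadd
  exact Cardinal.lift_eq_one.mp hadd.symm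

/-- A field generated over `K` by a finite set is essentially of finite type over `K`. -/
theorem essFiniteType_adjoin {K L : Type*} [Field K] [Field L] [Algebra K L] (s : Finset L) :
    Algebra.EssFiniteType K ↥(IntermediateField.adjoin K (s : Set L)) :=
  IntermediateField.essFiniteType_iff.mpr (IntermediateField.fg_adjoin_finset s)

end Fermat.Agent.S17.HB.CarAlgCore
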