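/-
PROGRAM MW (statement S17), strand HB (route beta), leaf CAR / DER, first half (no Laurent
series): derivations of a function field of one variable.

* `derivation_eq_zero_of_algebraic` (DER0, Mathlib only): an additive map `D : F → N` which
  satisfies the Leibniz rule over a ring homomorphism `σ : F →+* M'` into a field and kills a
  subfield `S₀` over which `F` is algebraic, is zero (characteristic zero);
* `leibniz_eq_zero_of_transcendental` : the same for the subfield `K(t)`, `t` transcendental, in
  a function field of one variable: it is enough that `D` kills the constants and `t`;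
* `exists_derivation_ne_zero`   : there is a non-zero `K`-derivation of `F`;
* `derivation_apply_ne_zero`    : a non-zero derivation does not kill a transcendental element;
* `derivation_apply_unif_ne_zero` : in particular it does not kill a uniformiser;
* `exists_derivation_eq_one`    (DER2) : for `π` transcendental there is `δ` with `δ π = 1`;
* `derivation_eq_smul`          : the `K`-derivations of `F` form a line.

The chain rule on Laurent expansions and the order rule are in `CarChain.lean`.
-/
import Mathlib
import Fermat.Agent.S24.FF.Basic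
import Fermat.Agent.S24.FF.Ord

set_option autoImplicit false

namespace Fermat.Agent.S17.HB.CarDer

open AlgebraicCurve

section Algebra

variable {F M' N : Type*} [Field F] [Field M'] [AddCommGroup N] [Module M' N]

/-- A Leibniz map kills `1`. -/
theorem leibniz_one (σ : F →+* M') (D : F →+ N)
    (hD : ∀ a b : F, D (a * b) = σ a • D b + σ b • D a) : D 1 = 0 := by
  have h := hD 1 1
  rw [mul_one, map_one σ, one_smul] at h
  exact add_eq_left.mp h.symm

/-- A Leibniz map on powers. -/
theorem leibniz_pow (σ : F →+* M') (D : F →+ N)
    (hD : ∀ a b : F, D (a * b) = σ a • D b + σ b • D a) (f : F) (n : ℕ) :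
    D (f ^ n) = ((n : M') * σ f ^ (n - 1)) • D f := by
  induction n with
  | zero => simp [leibniz_one σ D hD]
  | succ n ih =>
    rw [pow_succ, hD, ih, smul_smul, ← add_smul]
    congr 1
    cases n with
    | zero => simp
    | succ m =>
      simp only [Nat.add_sub_cancel, map_pow]
      push_cast
      ring

/-- A Leibniz map which kills `x ≠ 0` kills `x⁻¹`. -/
theorem leibniz_inv (σ : F →+* M') (D : F →+ N)
    (hD : ∀ a b : F, D (a * b) = σ a • D b + σ b • D a) {x : F} (hx : D x = 0) : D x⁻¹ = 0 := by
  rcases eq_or_ne x 0 with rfl | hx0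
  · rw [inv_zero, map_zero]
  · have h := hD x x⁻¹
    rw [mul_inv_cancel₀ hx0, leibniz_one σ D hD, hx, smul_zero, add_zero] at h
    rcases smul_eq_zero.mp h.symm with h1 | h1
    · exact absurd ((map_eq_zero σ).mp h1) hx0
    · exact h1

/-- A Leibniz map on polynomial expressions with killed coefficients. -/
theorem leibniz_aeval (σ : F →+* M') (D : F →+ N)
    (hD : ∀ a b : F, D (a * b) = σ a • D b + σ b • D a) (S₀ : Subfield F)
    (hS₀ : ∀ a ∈ S₀, D a = 0) (f : F) (p : Polynomial S₀) :
    D (Polynomial.aeval f p) = σ (Polynomial.aeval f (Polynomial.derivative p)) • D f := by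
  induction p using Polynomial.induction_on' with
  | add p q hp hq =>
    rw [map_add, map_add, hp, hq, Polynomial.derivative_add, map_add, map_add, add_smul]
  | monomial n a =>
    have ha : D (algebraMap S₀ F a) = 0 := hS₀ _ a.2
    rw [Polynomial.aeval_monomial, hD, leibniz_pow σ D hD, ha, smul_zero, add_zero,
      Polynomial.derivative_monomial, Polynomial.aeval_monomial, smul_smul]
    congr 1
    rw [map_mul, map_mul, map_mul, map_natCast, map_natCast, map_pow]
    ring

/-- **DER0.**  An additive map `D : F → N` which satisfies the Leibniz rule over a ring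
homomorphism `σ` into a field and kills a subfield `S₀` over which `F` is algebraic is zero
(characteristic zero: a polynomial of minimal degree killing `f` is separable at `f`). -/
theorem derivation_eq_zero_of_algebraic {F M' N : Type*} [Field F] [CharZero F] [Field M']
    [AddCommGroup N] [Module M' N] (σ : F →+* M') (D : F →+ N)
    (hD : ∀ a b : F, D (a * b) = σ a • D b + σ b • D a) (S₀ : Subfield F)
    (hS₀ : ∀ a ∈ S₀, D a = 0) (halg : ∀ f : F, IsAlgebraic S₀ f) : ∀ f : F, D f = 0 := by
  classical
  intro f
  have hex : ∃ n : ℕ, ∃ p : Polynomial S₀, p ≠ 0 ∧ Polynomial.aeval f p = 0 ∧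
      p.natDegree = n := by
    obtain ⟨p, hp0, hp⟩ := halg f
    exact ⟨_, p, hp0, hp, rfl⟩
  obtain ⟨p, hp0, hp, hdeg⟩ := Nat.find_spec hex
  have h1 := leibniz_aeval σ D hD S₀ hS₀ f p
  rw [hp, map_zero] at h1
  rcases smul_eq_zero.mp h1.symm with h | h
  · exfalso
    have h' : Polynomial.aeval f (Polynomial.derivative p) = 0 := (map_eq_zero σ).mp h
    have hnd : p.natDegree ≠ 0 := by
      intro h0
      obtain ⟨a, rfl⟩ := Polynomial.natDegree_eq_zero.mp h0
      rw [Polynomial.aeval_C] at hp
      have ha : a = 0 := by
        apply (algebraMap S₀ F).injective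
        rw [hp, map_zero]
      exact hp0 (by rw [ha, map_zero])
    have hder0 : Polynomial.derivative p ≠ 0 := Polynomial.derivative_ne_zero.mpr hnd
    have hlt : (Polynomial.derivative p).natDegree < Nat.find hex := by
      rw [← hdeg]
      exact Polynomial.natDegree_derivative_lt hnd
    exact Nat.find_min hex hlt ⟨Polynomial.derivative p, hder0, h', rfl⟩
  · exact h

/-- A Leibniz map which kills the constants and `t` kills the subfield `K(t)`. -/
theorem leibniz_adjoin {K : Type*} [Field K] [Algebra K F] (σ : F →+* M') (D : F →+ N)
    (hD : ∀ a b : F, D (a * b) = σ a • D b + σ b • D a)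
    (hK : ∀ c : K, D (algebraMap K F c) = 0) {t : F} (ht : D t = 0) :
    ∀ a ∈ (IntermediateField.adjoin K {t}).toSubfield, D a = 0 := by
  intro a ha
  rw [IntermediateField.adjoin_toSubfield] at ha
  induction ha using Subfield.closure_induction with
  | mem x hx =>
    rcases hx with ⟨c, rfl⟩ | hx
    · exact hK c
    · rw [Set.mem_singleton_iff] at hx
      rw [hx]
      exact ht
  | one => exact leibniz_one σ D hD
  | add x y _ _ hx hy => rw [map_add, hx, hy, add_zero]
  | neg x _ hx => rw [map_neg, hx, neg_zero]
  | inv x _ hx => exact leibniz_inv σ D hD hx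
  | mul x y _ _ hx hy => rw [hD, hx, hy, smul_zero, smul_zero, add_zero]

end Algebra

variable {K F : Type*} [Field K] [Field F] [Algebra K F]

/-- `F` is algebraic over the subfield `K(t)`, `t` transcendental. -/
theorem isAlgebraic_toSubfield (htr : Algebra.trdeg K F = 1) {t : F} (ht : Transcendental K t)
    (f : F) : IsAlgebraic (IntermediateField.adjoin K {t}).toSubfield f := by
  have halg : Algebra.IsAlgebraic (IntermediateField.adjoin K {t}) F :=
    Fermat.Agent.S24.FF.isAlgebraic_adjoin_simple htr ht
  exact halg.isAlgebraic f

/-- In a function field of one variable (characteristic zero) an additive map which satisfies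
the Leibniz rule over `σ` and kills the constants and a transcendental element is zero. -/
theorem leibniz_eq_zero_of_transcendental [CharZero K] (htr : Algebra.trdeg K F = 1)
    {M' N : Type*} [Field M'] [AddCommGroup N] [Module M' N] (σ : F →+* M') (D : F →+ N)
    (hD : ∀ a b : F, D (a * b) = σ a • D b + σ b • D a)
    (hK : ∀ c : K, D (algebraMap K F c) = 0) {t : F} (ht : Transcendental K t)
    (hDt : D t = 0) : ∀ f : F, D f = 0 := by
  have : CharZero F := charZero_of_injective_algebraMap (algebraMap K F).injective
  exact derivation_eq_zero_of_algebraic σ D hD (IntermediateField.adjoin K {t}).toSubfield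
    (leibniz_adjoin σ D hD hK hDt) (isAlgebraic_toSubfield htr ht)

/-- A `K`-derivation of `F` which kills a transcendental element is zero. -/
theorem derivation_eq_zero [CharZero K] (htr : Algebra.trdeg K F = 1) (δ : Derivation K F F)
    {t : F} (ht : Transcendental K t) (hδ : δ t = 0) : δ = 0 := by
  ext f
  exact leibniz_eq_zero_of_transcendental htr (RingHom.id F) (δ : F →ₗ[K] F).toAddMonoidHom
    (fun a b => δ.leibniz a b) (fun c => δ.map_algebraMap c) ht hδ f

/-- A non-zero `K`-derivation of `F` does not kill a transcendental element. -/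
theorem derivation_apply_ne_zero [CharZero K] (htr : Algebra.trdeg K F = 1)
    {δ : Derivation K F F} (hδ : δ ≠ 0) {t : F} (ht : Transcendental K t) : δ t ≠ 0 :=
  fun h => hδ (derivation_eq_zero htr δ ht h)

/-- The `K`-derivations of `F` form a line: `δ' = (δ' t / δ t) • δ`. -/
theorem derivation_eq_smul [CharZero K] (htr : Algebra.trdeg K F = 1)
    {δ : Derivation K F F} (hδ : δ ≠ 0) (δ' : Derivation K F F) {t : F}
    (ht : Transcendental K t) (f : F) : δ' f = δ' t / δ t * δ f := by
  have h0 := derivation_apply_ne_zero htr hδ ht
  have h := derivation_eq_zero htr (δ' - (δ' t / δ t) • δ) ht (by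
    rw [Derivation.sub_apply, Derivation.smul_apply, smul_eq_mul, div_mul_cancel₀ _ h0, sub_self])
  have h2 : (δ' - (δ' t / δ t) • δ) f = 0 := by rw [h]; rfl
  rw [Derivation.sub_apply, Derivation.smul_apply, smul_eq_mul, sub_eq_zero] at h2
  exact h2

/-- There is a non-zero `K`-derivation of `F`: otherwise `Ω[F⁄K] = 0` and `F / K` would be
algebraic. -/
theorem exists_derivation_ne_zero [Algebra.EssFiniteType K F] (htr : Algebra.trdeg K F = 1) :
    ∃ δ : Derivation K F F, δ ≠ 0 := by
  by_contra hcon
  push Not at hcon
  have hsub : Subsingleton Ω[F⁄K] := by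
    refine ⟨fun a b => ?_⟩
    rw [← sub_eq_zero, ← Module.forall_dual_apply_eq_zero_iff F]
    intro φ
    have h := hcon (KaehlerDifferential.linearMapEquivDerivation K F φ)
    have h2 : φ = 0 := (KaehlerDifferential.linearMapEquivDerivation K F).injective
      (by rw [h, map_zero])
    rw [h2]
    rfl
  have hfu : Algebra.FormallyUnramified K F := ⟨hsub⟩
  have hsep : Algebra.IsSeparable K F := Algebra.FormallyUnramified.isSeparable K F
  have halg : Algebra.IsAlgebraic K F := inferInstance
  have h0 : Algebra.trdeg K F = 0 := trdeg_eq_zero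
  rw [htr] at h0
  exact one_ne_zero h0

/-- **DER2.**  For `π` transcendental there is a `K`-derivation `δ` of `F` with `δ π = 1`. -/
theorem exists_derivation_eq_one [CharZero K] [Algebra.EssFiniteType K F]
    (htr : Algebra.trdeg K F = 1) (π : F) (hπ : Transcendental K π) :
    ∃ δ : Derivation K F F, δ π = 1 := by
  obtain ⟨δ, hδ⟩ := exists_derivation_ne_zero htr
  have h0 := derivation_apply_ne_zero htr hδ hπ
  exact ⟨(δ π)⁻¹ • δ, by rw [Derivation.smul_apply, smul_eq_mul, inv_mul_cancel₀ h0]⟩

variable [IsAlgClosed K]

/-- A uniformiser is transcendental. -/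
theorem transcendental_of_ord_eq_one (v : Place K F) {π : F} (hπ : v.ord π = 1) :
    Transcendental K π := by
  apply Fermat.Agent.S24.FF.transcendental_of_not_mem_range
  rintro ⟨c, rfl⟩
  rw [Fermat.Agent.S24.FF.ord_algebraMap v c] at hπ
  exact zero_ne_one hπ

/-- A non-zero `K`-derivation of `F` does not kill a uniformiser. -/
theorem derivation_apply_unif_ne_zero [CharZero K] (htr : Algebra.trdeg K F = 1)
    {δ : Derivation K F F} (hδ : δ ≠ 0) (v : Place K F) {π : F} (hπ : v.ord π = 1) :
    δ π ≠ 0 :=
  derivation_apply_ne_zero htr hδ (transcendental_of_ord_eq_one v hπ)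

end Fermat.Agent.S17.HB.CarDer
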