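import Mathlib

/-!
# S17, strand HB (route beta), block CAR: the derivative of Laurent series

Mathlib has `LaurentSeries.derivative` as a linear map (the first Hasse derivative) with its
coefficient formula, but no Leibniz rule.  Mathlib only:

* `coeff_derivative` : `(derivative K f).coeff n = (n + 1) * f.coeff (n + 1)`;
* `derivative_ofPowerSeries` : the derivative of (the image of) a power series is (the image of)
  `PowerSeries.derivative K p`;
* `derivative_single_mul` : `d (X ^ m * h) = X ^ m * d h + m * (X ^ (m - 1) * h)`;
* `laurent_derivative_mul` : **Leibniz**;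
* `laurent_order_derivative` : `ord f - 1 ≤ ord (d f)`, with equality if `ord f ≠ 0`
  (characteristic zero, `d f ≠ 0`);
* `laurent_derivative_eq_zero_iff` : `d f = 0 ↔ f` is a constant (characteristic zero).
-/

set_option autoImplicit false

namespace Fermat.Agent.S17.HB.LaurentDer

open HahnSeries

variable {K : Type*} [Field K]

/-- The coefficients of the derivative of a Laurent series. -/
theorem coeff_derivative (f : LaurentSeries K) (n : ℤ) :
    (LaurentSeries.derivative K f).coeff n = ((n + 1 : ℤ) : K) * f.coeff (n + 1) := by
  rw [LaurentSeries.derivative_apply, LaurentSeries.hasseDeriv_coeff, Nat.cast_one,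
    Ring.choose_one_right, zsmul_eq_mul]

/-- The derivative of a power series, computed in the Laurent series. -/
theorem derivative_ofPowerSeries (p : PowerSeries K) :
    LaurentSeries.derivative K (HahnSeries.ofPowerSeries ℤ K p) =
      HahnSeries.ofPowerSeries ℤ K (PowerSeries.derivative K p) := by
  ext n
  rw [coeff_derivative]
  have h1 : (HahnSeries.ofPowerSeries ℤ K p).coeff (n + 1) =
      if n + 1 < 0 then 0 else PowerSeries.coeff (n + 1).natAbs p :=
    PowerSeries.coeff_coe (f := p) (n + 1)
  have h2 : (HahnSeries.ofPowerSeries ℤ K (PowerSeries.derivative K p)).coeff n =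
      if n < 0 then 0 else PowerSeries.coeff n.natAbs (PowerSeries.derivative K p) :=
    PowerSeries.coeff_coe (f := PowerSeries.derivative K p) n
  rw [h1, h2]
  rcases lt_trichotomy n (-1) with h | rfl | h
  · rw [if_pos (by omega), if_pos (by omega), mul_zero]
  · simp
  · obtain ⟨m, rfl⟩ : ∃ m : ℕ, n = (m : ℤ) := ⟨n.toNat, by omega⟩
    rw [if_neg (by omega), if_neg (by omega), PowerSeries.coeff_derivative]
    have e : ((m : ℤ) + 1).natAbs = m + 1 := by omega
    rw [e, Int.natAbs_natCast]
    push_cast
    ring

/-- The shift rule: `d (X ^ m * h) = X ^ m * d h + m * (X ^ (m - 1) * h)`. -/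
theorem derivative_single_mul (m : ℤ) (h : LaurentSeries K) :
    LaurentSeries.derivative K (single m (1 : K) * h) =
      single m (1 : K) * LaurentSeries.derivative K h +
        (m : LaurentSeries K) * (single (m - 1) (1 : K) * h) := by
  ext n
  rw [coeff_derivative, HahnSeries.coeff_add]
  have c1 : (single m (1 : K) * h).coeff (n + 1) = h.coeff (n + 1 - m) := by
    have e := HahnSeries.coeff_single_mul_add (r := (1 : K)) (x := h) (a := n + 1 - m) (b := m)
    rw [sub_add_cancel, one_mul] at e
    exact e
  have c2 : (single m (1 : K) * LaurentSeries.derivative K h).coeff n =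
      (LaurentSeries.derivative K h).coeff (n - m) := by
    have e := HahnSeries.coeff_single_mul_add (r := (1 : K))
      (x := LaurentSeries.derivative K h) (a := n - m) (b := m)
    rw [sub_add_cancel, one_mul] at e
    exact e
  have c3 : (single (m - 1) (1 : K) * h).coeff n = h.coeff (n + 1 - m) := by
    have e := HahnSeries.coeff_single_mul_add (r := (1 : K)) (x := h) (a := n + 1 - m)
      (b := m - 1)
    rw [show n + 1 - m + (m - 1) = n by ring, one_mul] at e
    exact e
  have c4 : ((m : LaurentSeries K) * (single (m - 1) (1 : K) * h)).coeff n =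
      (m : K) * h.coeff (n + 1 - m) := by
    have e : (m : LaurentSeries K) = HahnSeries.C (m : K) := (map_intCast HahnSeries.C m).symm
    rw [e, HahnSeries.C_mul_eq_smul, HahnSeries.coeff_smul, smul_eq_mul, c3]
  rw [c1, c2, c4, coeff_derivative, show n - m + 1 = n + 1 - m by ring]
  push_cast
  ring

/-- Leibniz for (the images of) power series. -/
theorem derivative_ofPowerSeries_mul (p q : PowerSeries K) :
    LaurentSeries.derivative K (HahnSeries.ofPowerSeries ℤ K p * HahnSeries.ofPowerSeries ℤ K q) =
      HahnSeries.ofPowerSeries ℤ K p * LaurentSeries.derivative K (HahnSeries.ofPowerSeries ℤ K q)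
        + HahnSeries.ofPowerSeries ℤ K q *
          LaurentSeries.derivative K (HahnSeries.ofPowerSeries ℤ K p) := by
  rw [← map_mul, derivative_ofPowerSeries, derivative_ofPowerSeries, derivative_ofPowerSeries,
    Derivation.leibniz, map_add, smul_eq_mul, smul_eq_mul, map_mul, map_mul]

/-- **Leibniz** for the derivative of Laurent series. -/
theorem laurent_derivative_mul {K : Type*} [Field K] (f g : LaurentSeries K) :
    LaurentSeries.derivative K (f * g) =
      f * LaurentSeries.derivative K g + g * LaurentSeries.derivative K f := by
  obtain ⟨a, p, rfl⟩ : ∃ (a : ℤ) (p : PowerSeries K),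
      f = single a (1 : K) * HahnSeries.ofPowerSeries ℤ K p :=
    ⟨f.order, f.powerSeriesPart, (LaurentSeries.single_order_mul_powerSeriesPart f).symm⟩
  obtain ⟨b, q, rfl⟩ : ∃ (b : ℤ) (q : PowerSeries K),
      g = single b (1 : K) * HahnSeries.ofPowerSeries ℤ K q :=
    ⟨g.order, g.powerSeriesPart, (LaurentSeries.single_order_mul_powerSeriesPart g).symm⟩
  have h0 : (single a (1 : K) : LaurentSeries K) * single b (1 : K) = single (a + b) (1 : K) := by
    rw [single_mul_single, one_mul]
  have h1 : (single a (1 : K) : LaurentSeries K) * single (b - 1) (1 : K) =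
      single (a + b - 1) (1 : K) := by
    rw [single_mul_single, one_mul, show a + (b - 1) = a + b - 1 by ring]
  have h2 : (single b (1 : K) : LaurentSeries K) * single (a - 1) (1 : K) =
      single (a + b - 1) (1 : K) := by
    rw [single_mul_single, one_mul, show b + (a - 1) = a + b - 1 by ring]
  have e : single a (1 : K) * HahnSeries.ofPowerSeries ℤ K p *
      (single b (1 : K) * HahnSeries.ofPowerSeries ℤ K q) =
      single (a + b) (1 : K) *
        (HahnSeries.ofPowerSeries ℤ K p * HahnSeries.ofPowerSeries ℤ K q) := by
    rw [← h0]
    ring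
  rw [e, derivative_single_mul (a + b), derivative_single_mul b, derivative_single_mul a,
    derivative_ofPowerSeries_mul p q]
  push_cast
  linear_combination
    (-(HahnSeries.ofPowerSeries ℤ K p * LaurentSeries.derivative K (HahnSeries.ofPowerSeries ℤ K q)
        + HahnSeries.ofPowerSeries ℤ K q *
          LaurentSeries.derivative K (HahnSeries.ofPowerSeries ℤ K p))) * h0
      - (b : LaurentSeries K) * HahnSeries.ofPowerSeries ℤ K p * HahnSeries.ofPowerSeries ℤ K q * h1
      - (a : LaurentSeries K) * HahnSeries.ofPowerSeries ℤ K p * HahnSeries.ofPowerSeries ℤ K q * h2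

/-- The order of the derivative (characteristic zero). -/
theorem laurent_order_derivative {K : Type*} [Field K] [CharZero K] (f : LaurentSeries K)
    (hf : LaurentSeries.derivative K f ≠ 0) :
    f.order - 1 ≤ (LaurentSeries.derivative K f).order ∧
      (f.order ≠ 0 → (LaurentSeries.derivative K f).order = f.order - 1) := by
  have hf0 : f ≠ 0 := by
    rintro rfl
    exact hf (map_zero _)
  have hlow : f.order - 1 ≤ (LaurentSeries.derivative K f).order := by
    by_contra hlt
    have hlt' := not_le.mp hlt
    have h1 : (LaurentSeries.derivative K f).coeff (LaurentSeries.derivative K f).order = 0 := by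
      rw [coeff_derivative, HahnSeries.coeff_eq_zero_of_lt_order (by omega), mul_zero]
    exact hf (HahnSeries.coeff_order_eq_zero.mp h1)
  refine ⟨hlow, fun hord => le_antisymm ?_ hlow⟩
  apply HahnSeries.order_le_of_coeff_ne_zero
  rw [coeff_derivative, sub_add_cancel]
  exact mul_ne_zero (Int.cast_ne_zero.mpr hord)
    (fun h => hf0 (HahnSeries.coeff_order_eq_zero.mp h))

/-- In characteristic zero the derivative vanishes exactly on the constants. -/
theorem laurent_derivative_eq_zero_iff {K : Type*} [Field K] [CharZero K] (f : LaurentSeries K) :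
    LaurentSeries.derivative K f = 0 ↔ ∃ a : K, f = HahnSeries.C a := by
  constructor
  · intro h
    refine ⟨f.coeff 0, ?_⟩
    ext n
    rw [HahnSeries.C_apply, HahnSeries.coeff_single]
    split_ifs with hn
    · rw [hn]
    · have h1 : (LaurentSeries.derivative K f).coeff (n - 1) = 0 := by
        rw [h]
        rfl
      rw [coeff_derivative, sub_add_cancel] at h1
      exact (mul_eq_zero.mp h1).resolve_left (Int.cast_ne_zero.mpr hn)
  · rintro ⟨a, rfl⟩
    ext n
    rw [coeff_derivative, HahnSeries.C_apply, HahnSeries.coeff_single, HahnSeries.coeff_zero]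
    split_ifs with hn
    · rw [hn]
      simp
    · simp

end Fermat.Agent.S17.HB.LaurentDer
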