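import Mathlib
import Fermat.Prelude.Def_AlgebraicCurve_DivisorClassGroup

/-!
# Program MW (statement S17), strand HB (route beta): the order rule of a derivation

`OrdRule δ` is the chain rule of a `K`-derivation `δ` of a function field `F / K` of one variable,
read on orders at the places (characteristic zero): for a uniformiser `π` at a place `v` and a
function `h ≠ 0`,

* `ord_v (δ h) ≥ ord_v h - 1 + ord_v (δ π)` whenever `δ h ≠ 0`,
* if `ord_v h ≠ 0` then `δ h ≠ 0` and `ord_v (δ h) = ord_v h - 1 + ord_v (δ π)`.

CONVENTION: `Place.ord 0 = 0` (junk value), hence the explicit side conditions `δ h ≠ 0`: the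
inequality is asserted only for `δ h ≠ 0`, and `δ h ≠ 0` is part of the conclusion of the second
clause.  In particular `OrdRule δ` forces `δ π ≠ 0` for every uniformiser `π`, so it fails for
`δ = 0`; it holds for every non-zero derivation (leaf DER of CAR).

The definition is shared by the two proofs of the Hurwitz inequality (`HurS`, `HurN`) and by the
leaf DER, which proves it from the chain rule.
-/

set_option autoImplicit false

namespace Fermat.Agent.S17.HB

open AlgebraicCurve

variable {K F : Type*} [Field K] [Field F] [Algebra K F]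

/-- **The order rule** of a derivation: the chain rule read on orders. -/
def OrdRule (δ : Derivation K F F) : Prop :=
  ∀ (v : Place K F) (π : F), v.ord π = 1 → ∀ h : F, h ≠ 0 →
    (δ h ≠ 0 → v.ord h - 1 + v.ord (δ π) ≤ v.ord (δ h)) ∧
    (v.ord h ≠ 0 → δ h ≠ 0 ∧ v.ord (δ h) = v.ord h - 1 + v.ord (δ π))

namespace OrdRule

variable {δ : Derivation K F F}

/-- A function of non-zero order is non-zero. -/
theorem ne_zero_of_ord_ne_zero (v : Place K F) {h : F} (hh : v.ord h ≠ 0) : h ≠ 0 := by
  rintro rfl
  exact hh v.ord_zero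

/-- The order of the derivative of a function of non-zero order. -/
theorem ord_deriv (hδ : OrdRule δ) {v : Place K F} {π : F} (hπ : v.ord π = 1) {h : F}
    (hh : v.ord h ≠ 0) : v.ord (δ h) = v.ord h - 1 + v.ord (δ π) :=
  ((hδ v π hπ h (ne_zero_of_ord_ne_zero v hh)).2 hh).2

/-- The derivative of a function of non-zero order is non-zero. -/
theorem deriv_ne_zero (hδ : OrdRule δ) {v : Place K F} {π : F} (hπ : v.ord π = 1) {h : F}
    (hh : v.ord h ≠ 0) : δ h ≠ 0 :=
  ((hδ v π hπ h (ne_zero_of_ord_ne_zero v hh)).2 hh).1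

/-- The derivative of a uniformiser is non-zero. -/
theorem deriv_unif_ne_zero (hδ : OrdRule δ) {v : Place K F} {π : F} (hπ : v.ord π = 1) :
    δ π ≠ 0 :=
  deriv_ne_zero hδ hπ (by rw [hπ]; exact one_ne_zero)

/-- The order of the derivative of a uniformiser does not depend on the uniformiser. -/
theorem ord_deriv_unif (hδ : OrdRule δ) {v : Place K F} {π π' : F} (hπ : v.ord π = 1)
    (hπ' : v.ord π' = 1) : v.ord (δ π') = v.ord (δ π) := by
  have h := ord_deriv hδ hπ (h := π') (by rw [hπ']; exact one_ne_zero)
  rw [hπ'] at h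
  rw [h]
  ring

/-- The inequality of the order rule. -/
theorem le_ord_deriv (hδ : OrdRule δ) {v : Place K F} {π : F} (hπ : v.ord π = 1) {h : F}
    (hh : h ≠ 0) (hδh : δ h ≠ 0) : v.ord h - 1 + v.ord (δ π) ≤ v.ord (δ h) :=
  (hδ v π hπ h hh).1 hδh

end OrdRule

end Fermat.Agent.S17.HB
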