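/-
PROGRAM MW (statement S17), strand HB (route beta), leaf CAR / DER, second half: the chain rule
of a derivation of a function field of one variable on Laurent expansions, and the order rule.

* `derivation_chain` (DER3) : for ANY embedding `τ : F →ₐ[K] K⸨X⸩`, any `K`-derivation `δ` of
  `F` and a transcendental `π`:  `τ (δ f) * d (τ π) = τ (δ π) * d (τ f)`;
* `taylorLR_derivation`     : at a place `v` with uniformiser `π`:
  `τ (δ f) = τ (δ π) * d (τ f)` for the Laurent expansion `τ` at `(v, π)`;
* `ordRule_guarded` (DER4)  : the chain rule read on orders (guarded form, `Place.ord 0 = 0`);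
* `ordRule`                 : `OrdRule δ` for every non-zero derivation `δ`;
* `chain_rule`              : the integral form: `(δ π)⁻¹ • δ` preserves the valuation ring of
  `v` and is `d/dX` on the Taylor expansions `R.taylor htr v π hπ`.

Proof of DER3: the difference of the two sides is an additive map `F → K⸨X⸩` which satisfies the
Leibniz rule over `τ` (Leibniz for the derivative of Laurent series, `LaurentDer`), kills the
constants and `π`; by `CarDer.leibniz_eq_zero_of_transcendental` it is zero.
-/
import Mathlib
import Fermat.Agent.S17.D.TaylorL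
import Fermat.Agent.S17.HB.CarDer
import Fermat.Agent.S17.HB.LaurentDer
import Fermat.Agent.S17.HB.OrdRule

set_option autoImplicit false

namespace Fermat.Agent.S17.HB.CarChain

open AlgebraicCurve

universe uK uF

variable {K : Type uK} {F : Type uF} [Field K] [Field F] [Algebra K F]

/-- The derivative of a constant Laurent series is zero. -/
theorem derivative_algebraMap (c : K) :
    LaurentSeries.derivative K (algebraMap K (LaurentSeries K) c) = 0 := by
  have h : algebraMap K (LaurentSeries K) c =
      HahnSeries.ofPowerSeries ℤ K (algebraMap K (PowerSeries K) c) := rfl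
  rw [h, LaurentDer.derivative_ofPowerSeries, Derivation.map_algebraMap, map_zero]

/-- The derivative of the variable is `1`. -/
theorem derivative_single_one :
    LaurentSeries.derivative K (HahnSeries.single (1 : ℤ) (1 : K)) = 1 := by
  rw [← HahnSeries.ofPowerSeries_X, LaurentDer.derivative_ofPowerSeries, PowerSeries.derivative_X,
    map_one]

/-- **DER3, the chain rule on Laurent expansions.**  For any embedding `τ` of `F` into the
Laurent series, any `K`-derivation `δ` of `F` and a transcendental `π`:
`τ (δ f) * d (τ π) = τ (δ π) * d (τ f)`. -/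
theorem derivation_chain [CharZero K] (htr : Algebra.trdeg K F = 1)
    (τ : F →ₐ[K] LaurentSeries K) (π : F) (hπ : Transcendental K π) (δ : Derivation K F F)
    (f : F) :
    τ (δ f) * LaurentSeries.derivative K (τ π) = τ (δ π) * LaurentSeries.derivative K (τ f) := by
  let D : F →+ LaurentSeries K :=
    { toFun := fun f => τ (δ f) * LaurentSeries.derivative K (τ π) -
        τ (δ π) * LaurentSeries.derivative K (τ f)
      map_zero' := by simp
      map_add' := fun a b => by
        simp only [map_add]
        ring }
  have hD : ∀ a b : F, D (a * b) =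
      (τ : F →+* LaurentSeries K) a • D b + (τ : F →+* LaurentSeries K) b • D a := by
    intro a b
    show τ (δ (a * b)) * LaurentSeries.derivative K (τ π) -
        τ (δ π) * LaurentSeries.derivative K (τ (a * b)) =
      τ a * (τ (δ b) * LaurentSeries.derivative K (τ π) -
        τ (δ π) * LaurentSeries.derivative K (τ b)) +
      τ b * (τ (δ a) * LaurentSeries.derivative K (τ π) -
        τ (δ π) * LaurentSeries.derivative K (τ a))
    rw [δ.leibniz, map_add, smul_eq_mul, smul_eq_mul, map_mul, map_mul, map_mul,
      LaurentDer.laurent_derivative_mul]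
    ring
  have hK : ∀ c : K, D (algebraMap K F c) = 0 := by
    intro c
    show τ (δ (algebraMap K F c)) * LaurentSeries.derivative K (τ π) -
        τ (δ π) * LaurentSeries.derivative K (τ (algebraMap K F c)) = 0
    rw [δ.map_algebraMap, map_zero, zero_mul, AlgHom.commutes, derivative_algebraMap, mul_zero,
      sub_zero]
  have hDπ : D π = 0 := by
    show τ (δ π) * LaurentSeries.derivative K (τ π) -
        τ (δ π) * LaurentSeries.derivative K (τ π) = 0
    exact sub_self _
  have h := CarDer.leibniz_eq_zero_of_transcendental htr (τ : F →+* LaurentSeries K) D hD hK hπ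
    hDπ f
  exact sub_eq_zero.mp h

variable [IsAlgClosed K] [CharZero K] [Algebra.EssFiniteType K F]

/-- The chain rule for the Laurent expansion at a place `v` with respect to a uniformiser `π`:
`τ (δ f) = τ (δ π) * d (τ f)`. -/
theorem taylorLR_derivation (htr : Algebra.trdeg K F = 1) (δ : Derivation K F F) (v : Place K F)
    (π : F) (hπ : v.ord π = 1) (f : F) :
    D.TaylorL.taylorLR htr v π hπ (δ f) =
      D.TaylorL.taylorLR htr v π hπ (δ π) *
        LaurentSeries.derivative K (D.TaylorL.taylorLR htr v π hπ f) := by
  have h := derivation_chain htr (D.TaylorL.taylorLR htr v π hπ) π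
    (CarDer.transcendental_of_ord_eq_one v hπ) δ f
  rw [D.TaylorL.taylorLR_unif, derivative_single_one, mul_one] at h
  exact h

/-- **DER4, the order rule (guarded form).**  `Place.ord 0 = 0`, hence the side conditions. -/
theorem ordRule_guarded (htr : Algebra.trdeg K F = 1) (δ : Derivation K F F) (v : Place K F)
    (π : F) (hπ : v.ord π = 1) (h : F) :
    (δ h ≠ 0 → v.ord h - 1 + v.ord (δ π) ≤ v.ord (δ h)) ∧
    (v.ord h ≠ 0 → δ π ≠ 0 → δ h ≠ 0 ∧ v.ord (δ h) = v.ord h - 1 + v.ord (δ π)) := by
  have hchain := taylorLR_derivation htr δ v π hπ h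
  have hord : ∀ {x : F}, x ≠ 0 → (D.TaylorL.taylorLR htr v π hπ x).order = v.ord x :=
    fun hx => D.TaylorL.order_taylorLR htr v π hπ hx
  have hne : ∀ {x : F}, x ≠ 0 → D.TaylorL.taylorLR htr v π hπ x ≠ 0 :=
    fun hx => (map_ne_zero (D.TaylorL.taylorLR htr v π hπ)).mpr hx
  constructor
  · intro hδh
    have h1 := hne hδh
    rw [hchain] at h1
    have hδπ1 := left_ne_zero_of_mul h1
    have hder := right_ne_zero_of_mul h1
    have hδπ : δ π ≠ 0 := fun h0 => hδπ1 (by rw [h0, map_zero])
    have hh0 : h ≠ 0 := by
      rintro rfl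
      exact hδh (map_zero δ)
    have h2 := (LaurentDer.laurent_order_derivative _ hder).1
    have h3 := congrArg HahnSeries.order hchain
    rw [HahnSeries.order_mul hδπ1 hder, hord hδh, hord hδπ] at h3
    rw [hord hh0] at h2
    omega
  · intro hh hδπ
    have hh0 : h ≠ 0 := by
      rintro rfl
      exact hh v.ord_zero
    have hder : LaurentSeries.derivative K (D.TaylorL.taylorLR htr v π hπ h) ≠ 0 := by
      intro h0
      obtain ⟨a, ha⟩ := (LaurentDer.laurent_derivative_eq_zero_iff _).mp h0
      have h1 := hord hh0
      rw [ha, HahnSeries.order_C] at h1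
      exact hh h1.symm
    have hδπ1 := hne hδπ
    have hδh1 : D.TaylorL.taylorLR htr v π hπ (δ h) ≠ 0 := by
      rw [hchain]
      exact mul_ne_zero hδπ1 hder
    have hδh : δ h ≠ 0 := fun h0 => hδh1 (by rw [h0, map_zero])
    refine ⟨hδh, ?_⟩
    have h2 := (LaurentDer.laurent_order_derivative _ hder).2 (by rw [hord hh0]; exact hh)
    have h3 := congrArg HahnSeries.order hchain
    rw [HahnSeries.order_mul hδπ1 hder, hord hδh, hord hδπ, h2, hord hh0] at h3
    omega

/-- **The order rule** for every non-zero derivation. -/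
theorem ordRule (htr : Algebra.trdeg K F = 1) (δ : Derivation K F F) (hδ : δ ≠ 0) : OrdRule δ :=
  fun v π hπ h _ => ⟨(ordRule_guarded htr δ v π hπ h).1, fun hh =>
    (ordRule_guarded htr δ v π hπ h).2 hh (CarDer.derivation_apply_unif_ne_zero htr hδ v hπ)⟩

/-- **The chain rule, integral form**: for a non-zero derivation `δ` and a uniformiser `t` at
`T`, the derivation `(δ t)⁻¹ • δ` preserves the valuation ring of `T` and is `d/dX` on the
Taylor expansions. -/
theorem chain_rule (htr : Algebra.trdeg K F = 1) {δ : Derivation K F F} (hδ : δ ≠ 0)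
    (T : Place K F) (t : F) (ht : T.ord t = 1) (f : F) (hf : f ∈ T.toValuationSubring) :
    ∃ hf' : (δ t)⁻¹ * δ f ∈ T.toValuationSubring,
      R.taylor htr T t ht ⟨(δ t)⁻¹ * δ f, hf'⟩ =
        PowerSeries.derivative K (R.taylor htr T t ht ⟨f, hf⟩) := by
  have hδt := CarDer.derivation_apply_unif_ne_zero htr hδ T ht
  have hchain := taylorLR_derivation htr δ T t ht f
  have h1 : D.TaylorL.taylorLR htr T t ht ((δ t)⁻¹ * δ f) =
      HahnSeries.ofPowerSeries ℤ K (PowerSeries.derivative K (R.taylor htr T t ht ⟨f, hf⟩)) := by
    rw [map_mul, hchain, map_inv₀, ← mul_assoc,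
      inv_mul_cancel₀ ((map_ne_zero (D.TaylorL.taylorLR htr T t ht)).mpr hδt), one_mul,
      D.TaylorL.taylorLR_of_mem htr T t ht hf, LaurentDer.derivative_ofPowerSeries]
  have hmem : (δ t)⁻¹ * δ f ∈ T.toValuationSubring := by
    by_cases h0 : (δ t)⁻¹ * δ f = 0
    · rw [h0]
      exact zero_mem _
    · rw [← Fermat.Agent.S24.FF.ord_nonneg_iff T h0, ← D.TaylorL.order_taylorLR htr T t ht h0, h1]
      by_cases hs : PowerSeries.derivative K (R.taylor htr T t ht ⟨f, hf⟩) = 0
      · rw [hs, map_zero, HahnSeries.order_zero]
      · rw [D.TaylorL.order_ofPowerSeries _ hs]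
        exact Int.natCast_nonneg _
  refine ⟨hmem, HahnSeries.ofPowerSeries_injective (Γ := ℤ) ?_⟩
  rw [← D.TaylorL.taylorLR_of_mem htr T t ht hmem, h1]

end Fermat.Agent.S17.HB.CarChain
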