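/-
MW strand HB (route beta), leaf LOC2: the centre of an embedding at a place, and the expansion
of the embedding at that place.

Setting: `K` algebraically closed, `F`, `M` function fields of one variable over `K`, and a
`K`-embedding `F → M` (instance form: `[Algebra F M] [IsScalarTower K F M]`; `AlgHom` form:
`ρ : F →ₐ[K] M`, for several embeddings of the same pair of fields).  For a place `c` of `M`:

* the centre of `c` on `F` is the Prelude's `c.restrict F` (instance form), `centre ρ hρ c`
  (`AlgHom` form, the same place by unfolding);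
* for a uniformiser `t` at the centre and ANY expansions `τR` at the centre (`τR t = X`) and `τc`
  at `c` (`τc π = X`), the embedding followed by `τc` is `τR` followed by the substitution of
  `r := τc (ρ t)`:  `τc (ρ f) = (τR f).subst r`; `r` has zero constant coefficient and its order
  is the ramification index (`expansion_restrict`, `expansion_centre`, `expansion_of_centre_eq`);
* two embeddings with the same centre at `c` which agree on one uniformiser at that centre are
  equal (`eq_of_centre_eq_of_map_unif_eq`).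

The core is the universal property of the expansion at a place (`map_eq_subst`): a `K`-algebra
map `φ : O_v → K⟦X⟧` with `φ t ∈ X K⟦X⟧` is `f ↦ (τ f).subst (φ t)`; in particular every
expansion with `τ t = X` is the Taylor map of `D/Taylor.lean` (`eq_taylor`).

Also: a `K`-embedding between function fields of one variable is integral (`algHom_isIntegral`).

Comap form (no integrality, no instance; the shape LOC3 consumes): for `T` with
`T.toValuationSubring = c.toValuationSubring.comap ρ`: `expansion_of_comap_eq`,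
`eq_of_comap_eq_of_map_unif_eq`, and `rTaylor_map_eq_subst` for the Taylor maps of `R/Taylor.lean`.
-/
import Mathlib
import Fermat.Prelude.Def_AlgebraicCurve_DivisorPushPull
import Fermat.Agent.S17.D.Taylor
import Fermat.Agent.S17.R.Taylor

set_option autoImplicit false
set_option linter.style.haveILetI false

namespace Fermat.Agent.S17.HB.Loc2

open AlgebraicCurve

section Abstract

variable {K O : Type*} [Field K] [CommRing O] [Algebra K O]

/-- Two `K`-algebra maps `O → K⟦X⟧` which agree on `t` and send it into `X K⟦X⟧` are equal, when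
every element of `O` is a constant plus a multiple of `t`. -/
theorem algHom_ext_of_unif (t : O)
    (hres : ∀ a : O, ∃ c : K, ∃ b : O, a = algebraMap K O c + t * b)
    (ψ₁ ψ₂ : O →ₐ[K] PowerSeries K) (h : ψ₁ t = ψ₂ t)
    (hX : (PowerSeries.X : PowerSeries K) ∣ ψ₁ t) : ψ₁ = ψ₂ := by
  have key : ∀ n : ℕ, ∀ a : O, (PowerSeries.X : PowerSeries K) ^ n ∣ ψ₁ a - ψ₂ a := by
    intro n
    induction n with
    | zero => intro a; simp
    | succ n ih =>
      intro a
      obtain ⟨c, b, rfl⟩ := hres a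
      have e : ψ₁ (algebraMap K O c + t * b) - ψ₂ (algebraMap K O c + t * b)
          = ψ₁ t * (ψ₁ b - ψ₂ b) := by
        rw [map_add, map_add, map_mul, map_mul, AlgHom.commutes, AlgHom.commutes, ← h]
        ring
      rw [e, pow_succ']
      exact mul_dvd_mul hX (ih b)
  refine AlgHom.ext fun a => ?_
  rw [← sub_eq_zero]
  ext m
  have h1 := (PowerSeries.X_pow_dvd_iff.mp (key (m + 1) a)) m (Nat.lt_succ_self m)
  simpa using h1

end Abstract

section Core

variable {K F : Type*} [Field K] [Field F] [Algebra K F] [IsAlgClosed K]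

theorem hres_unif (htr : Algebra.trdeg K F = 1) (v : Place K F)
    (t : ↥v.toValuationSubring) (ht : v.ord (t : F) = 1) :
    ∀ a : ↥v.toValuationSubring, ∃ c : K, ∃ b : ↥v.toValuationSubring,
      a = algebraMap K ↥v.toValuationSubring c + t * b :=
  D.Taylor.unif_hres htr v ht

theorem map_eq_subst (htr : Algebra.trdeg K F = 1) (v : Place K F)
    (t : ↥v.toValuationSubring) (ht : v.ord (t : F) = 1)
    (τ φ : ↥v.toValuationSubring →ₐ[K] PowerSeries K)
    (hτ : τ t = PowerSeries.X) (hφ : PowerSeries.constantCoeff (φ t) = 0)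
    (f : ↥v.toValuationSubring) : φ f = (τ f).subst (φ t) := by
  have hsub : PowerSeries.HasSubst (φ t) := PowerSeries.HasSubst.of_constantCoeff_zero' hφ
  have hX : (PowerSeries.X : PowerSeries K) ∣ φ t := PowerSeries.X_dvd_iff.mpr hφ
  have h2 : φ = ((PowerSeries.substAlgHom hsub).comp τ : ↥v.toValuationSubring →ₐ[K] PowerSeries K) := by
    refine algHom_ext_of_unif t (hres_unif htr v t ht) φ _ ?_ hX
    rw [AlgHom.comp_apply, hτ, PowerSeries.coe_substAlgHom, PowerSeries.subst_X hsub]
  calc φ f = ((PowerSeries.substAlgHom hsub).comp τ : ↥v.toValuationSubring →ₐ[K] PowerSeries K) f := by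
        rw [← h2]
    _ = (τ f).subst (φ t) := by rw [AlgHom.comp_apply, PowerSeries.coe_substAlgHom]

theorem eq_taylor (htr : Algebra.trdeg K F = 1) (v : Place K F)
    (t : ↥v.toValuationSubring) (ht : v.ord (t : F) = 1)
    (τ : ↥v.toValuationSubring →ₐ[K] PowerSeries K) (hτ : τ t = PowerSeries.X) :
    τ = D.Taylor.taylor htr v (t : F) ht := by
  have h1 : D.Taylor.taylor htr v (t : F) ht t = PowerSeries.X :=
    D.Taylor.taylor_unif htr v (t : F) ht t.2
  refine algHom_ext_of_unif t (hres_unif htr v t ht) τ _ ?_ ?_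
  · rw [hτ, h1]
  · rw [hτ]

theorem X_pow_dvd_iff (htr : Algebra.trdeg K F = 1) (v : Place K F)
    (t : ↥v.toValuationSubring) (ht : v.ord (t : F) = 1)
    (τ : ↥v.toValuationSubring →ₐ[K] PowerSeries K) (hτ : τ t = PowerSeries.X)
    (f : ↥v.toValuationSubring) (hf : (f : F) ≠ 0) (d : ℕ) :
    PowerSeries.X ^ d ∣ τ f ↔ (d : ℤ) ≤ v.ord (f : F) := by
  rw [eq_taylor htr v t ht τ hτ, D.Taylor.X_pow_dvd_taylor_iff htr v (t : F) ht f d]
  exact ⟨fun h => h.resolve_left hf, fun h => Or.inr h⟩

theorem order_eq (htr : Algebra.trdeg K F = 1) (v : Place K F)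
    (t : ↥v.toValuationSubring) (ht : v.ord (t : F) = 1)
    (τ : ↥v.toValuationSubring →ₐ[K] PowerSeries K) (hτ : τ t = PowerSeries.X)
    (f : ↥v.toValuationSubring) (hf : (f : F) ≠ 0) :
    (τ f).order = ((v.ord (f : F)).toNat : ℕ∞) := by
  have h0 : 0 ≤ v.ord (f : F) := Fermat.Agent.S24.FF.ord_nonneg_of_mem v f.2
  have hd : (((v.ord (f : F)).toNat : ℕ) : ℤ) = v.ord (f : F) := Int.toNat_of_nonneg h0
  have h1 := (X_pow_dvd_iff htr v t ht τ hτ f hf (v.ord (f : F)).toNat).mpr (by omega)
  have h2 : ¬ (PowerSeries.X : PowerSeries K) ^ ((v.ord (f : F)).toNat + 1) ∣ τ f := by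
    rw [X_pow_dvd_iff htr v t ht τ hτ f hf]
    push_cast
    omega
  rw [PowerSeries.X_pow_dvd_iff] at h1 h2
  push Not at h2
  obtain ⟨m, hm, hm0⟩ := h2
  have hmd : m = (v.ord (f : F)).toNat := by
    by_contra hne
    exact hm0 (h1 m (by omega))
  subst hmd
  exact PowerSeries.order_eq_nat.mpr ⟨hm0, h1⟩

theorem injective (htr : Algebra.trdeg K F = 1) (v : Place K F)
    (t : ↥v.toValuationSubring) (ht : v.ord (t : F) = 1)
    (τ : ↥v.toValuationSubring →ₐ[K] PowerSeries K) (hτ : τ t = PowerSeries.X) :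
    Function.Injective τ := by
  rw [eq_taylor htr v t ht τ hτ]
  exact D.Taylor.taylor_injective htr v (t : F) ht

theorem constantCoeff_eq_iff (htr : Algebra.trdeg K F = 1) (v : Place K F)
    (t : ↥v.toValuationSubring) (ht : v.ord (t : F) = 1)
    (τ : ↥v.toValuationSubring →ₐ[K] PowerSeries K) (hτ : τ t = PowerSeries.X)
    (f : ↥v.toValuationSubring) (a : K) :
    PowerSeries.constantCoeff (τ f) = a ↔
      ((f : F) = algebraMap K F a ∨ 0 < v.ord ((f : F) - algebraMap K F a)) := by
  rw [eq_taylor htr v t ht τ hτ]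
  exact D.Taylor.constantCoeff_taylor_eq_iff htr v (t : F) ht f a

end Core

/-! ## Instance form: the centre is the Prelude's `Place.restrict` -/

section Restrict

variable {K F M : Type*} [Field K] [Field F] [Field M] [Algebra K F] [Algebra K M]
  [Algebra F M] [IsScalarTower K F M] [Algebra.IsIntegral F M]

/-- The inclusion of the local ring of the centre into the local ring of `c`, as a `K`-algebra
homomorphism (`Place.restrictInclusion`). -/
noncomputable def restrictAlgHom (c : Place K M) :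
    ↥(c.restrict F).toValuationSubring →ₐ[K] ↥c.toValuationSubring :=
  { Place.restrictInclusion F c with
    commutes' := fun a => Subtype.ext (by
      show algebraMap F M (algebraMap K F a) = algebraMap K M a
      rw [← IsScalarTower.algebraMap_apply]) }

theorem coe_restrictAlgHom (c : Place K M) (f : ↥(c.restrict F).toValuationSubring) :
    ((restrictAlgHom c f : ↥c.toValuationSubring) : M) = algebraMap F M (f : F) := rfl

theorem ord_unif_restrict (c : Place K M) (t : ↥(c.restrict F).toValuationSubring)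
    (ht : (c.restrict F).ord (t : F) = 1) :
    c.ord ((restrictAlgHom c t : ↥c.toValuationSubring) : M)
      = (Place.ramificationIndex (F := F) c : ℤ) := by
  rw [coe_restrictAlgHom, c.ord_restrict (t : F), ht, mul_one]

variable [IsAlgClosed K]

/-- **LOC2, instance form.** -/
theorem expansion_restrict (htrF : Algebra.trdeg K F = 1) (htrM : Algebra.trdeg K M = 1)
    (c : Place K M)
    (t : ↥(c.restrict F).toValuationSubring) (ht : (c.restrict F).ord (t : F) = 1)
    (τR : ↥(c.restrict F).toValuationSubring →ₐ[K] PowerSeries K) (hτR : τR t = PowerSeries.X)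
    (π : ↥c.toValuationSubring) (hπ : c.ord (π : M) = 1)
    (τc : ↥c.toValuationSubring →ₐ[K] PowerSeries K) (hτc : τc π = PowerSeries.X) :
    PowerSeries.constantCoeff (τc (restrictAlgHom c t)) = 0 ∧
    (τc (restrictAlgHom c t)).order = (Place.ramificationIndex (F := F) c : ℕ∞) ∧
    ∀ f : ↥(c.restrict F).toValuationSubring,
      τc (restrictAlgHom c f) = (τR f).subst (τc (restrictAlgHom c t)) := by
  have hord := ord_unif_restrict c t ht
  have hepos : 0 < Place.ramificationIndex (F := F) c := c.ramificationIndex_pos (F := F)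
  have hne : ((restrictAlgHom c t : ↥c.toValuationSubring) : M) ≠ 0 := by
    intro h0
    rw [h0, Place.ord_zero] at hord
    omega
  have h1 : PowerSeries.constantCoeff (τc (restrictAlgHom c t)) = 0 := by
    rw [constantCoeff_eq_iff htrM c π hπ τc hτc]
    right
    rw [map_zero, sub_zero, hord]
    exact_mod_cast hepos
  refine ⟨h1, ?_, fun f => ?_⟩
  · rw [order_eq htrM c π hπ τc hτc _ hne, hord, Int.toNat_natCast]
  · exact map_eq_subst htrF (c.restrict F) t ht τR (τc.comp (restrictAlgHom c)) hτR h1 f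

end Restrict

/-! ## `AlgHom` form: several embeddings `ρ : F →ₐ[K] M` of the same pair of fields -/

section AlgHomForm

variable {K F M : Type*} [Field K] [Field F] [Field M] [Algebra K F] [Algebra K M]

/-- A `K`-embedding between function fields of one variable is integral. -/
theorem algHom_isIntegral (htrF : Algebra.trdeg K F = 1)
    (htrM : Algebra.trdeg K M = 1) (ρ : F →ₐ[K] M) : ρ.toRingHom.IsIntegral := by
  letI : Algebra F M := ρ.toRingHom.toAlgebra
  haveI : IsScalarTower K F M := IsScalarTower.of_algebraMap_eq fun a => (ρ.commutes a).symm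
  have hadd := lift_trdeg_add_eq K F M
  rw [htrF, htrM, Cardinal.lift_one, Cardinal.lift_one] at hadd
  have h0 : Cardinal.lift.{_, _} (Algebra.trdeg F M) = 0 :=
    Cardinal.eq_of_add_eq_add_left (hadd.trans (add_zero 1).symm) Cardinal.one_lt_aleph0
  have h1 : Algebra.trdeg F M = 0 := Cardinal.lift_eq_zero.mp h0
  haveI : Algebra.IsAlgebraic F M := trdeg_eq_zero_iff.mp h1
  intro m
  exact (Algebra.IsAlgebraic.isAlgebraic (R := F) m).isIntegral

/-- The centre on `F` of the place `c` of `M` under the embedding `ρ`: the Prelude's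
`c.restrict F` for the algebra structure `ρ`. -/
noncomputable def centre (ρ : F →ₐ[K] M) (hρ : ρ.toRingHom.IsIntegral) (c : Place K M) :
    Place K F :=
  letI : Algebra F M := ρ.toRingHom.toAlgebra
  haveI : IsScalarTower K F M := IsScalarTower.of_algebraMap_eq fun a => (ρ.commutes a).symm
  haveI : Algebra.IsIntegral F M := ⟨hρ⟩
  c.restrict F

theorem mem_centre_iff (ρ : F →ₐ[K] M) (hρ : ρ.toRingHom.IsIntegral) (c : Place K M) (f : F) :
    f ∈ (centre ρ hρ c).toValuationSubring ↔ ρ f ∈ c.toValuationSubring :=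
  Iff.rfl

/-- The local ring of the centre is the preimage of the local ring of `c` (the hypothesis of the
comap form below; `IsCentre` of LOC3). -/
theorem centre_toValuationSubring (ρ : F →ₐ[K] M) (hρ : ρ.toRingHom.IsIntegral) (c : Place K M) :
    (centre ρ hρ c).toValuationSubring = c.toValuationSubring.comap (ρ : F →+* M) := rfl

/-- The centre is the only place of `F` whose local ring is mapped into the local ring of `c`. -/
theorem centre_eq_of_forall_mem (ρ : F →ₐ[K] M) (hρ : ρ.toRingHom.IsIntegral) (c : Place K M)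
    (R : Place K F) (h : ∀ f ∈ R.toValuationSubring, ρ f ∈ c.toValuationSubring) :
    centre ρ hρ c = R := by
  have hle : R.toValuationSubring ≤ (centre ρ hρ c).toValuationSubring := fun f hf =>
    (mem_centre_iff ρ hρ c f).mpr (h f hf)
  exact Place.ext (ValuationSubring.eq_of_le_of_ne_top _ hle (centre ρ hρ c).ne_top').symm

/-- If the centre of `c` under `ρ` is `R`, then `ρ` maps the local ring of `R` into the local
ring of `c`. -/
theorem map_mem_of_centre_eq (ρ : F →ₐ[K] M) (hρ : ρ.toRingHom.IsIntegral) (c : Place K M)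
    (R : Place K F) (hR : centre ρ hρ c = R) (f : F) (hf : f ∈ R.toValuationSubring) :
    ρ f ∈ c.toValuationSubring := by
  subst hR
  exact (mem_centre_iff ρ hρ c f).mp hf

/-- The ramification index of `c` over its centre. -/
noncomputable def ram (ρ : F →ₐ[K] M) (c : Place K M) : ℕ :=
  letI : Algebra F M := ρ.toRingHom.toAlgebra
  Place.ramificationIndex (F := F) c

theorem ram_pos (ρ : F →ₐ[K] M) (hρ : ρ.toRingHom.IsIntegral) (c : Place K M) :
    0 < ram ρ c := by
  letI : Algebra F M := ρ.toRingHom.toAlgebra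
  haveI : Algebra.IsIntegral F M := ⟨hρ⟩
  exact c.ramificationIndex_pos (F := F)

theorem ord_map (ρ : F →ₐ[K] M) (hρ : ρ.toRingHom.IsIntegral) (c : Place K M) (f : F) :
    c.ord (ρ f) = ram ρ c * (centre ρ hρ c).ord f := by
  letI : Algebra F M := ρ.toRingHom.toAlgebra
  haveI : IsScalarTower K F M := IsScalarTower.of_algebraMap_eq fun a => (ρ.commutes a).symm
  haveI : Algebra.IsIntegral F M := ⟨hρ⟩
  exact c.ord_restrict (F := F) f

/-- `ρ` on the local ring of the centre, with values in the local ring of `c`. -/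
noncomputable def localHom (ρ : F →ₐ[K] M) (hρ : ρ.toRingHom.IsIntegral) (c : Place K M) :
    ↥(centre ρ hρ c).toValuationSubring →ₐ[K] ↥c.toValuationSubring :=
  letI : Algebra F M := ρ.toRingHom.toAlgebra
  haveI : IsScalarTower K F M := IsScalarTower.of_algebraMap_eq fun a => (ρ.commutes a).symm
  haveI : Algebra.IsIntegral F M := ⟨hρ⟩
  restrictAlgHom c

theorem coe_localHom (ρ : F →ₐ[K] M) (hρ : ρ.toRingHom.IsIntegral) (c : Place K M)
    (f : ↥(centre ρ hρ c).toValuationSubring) :
    ((localHom ρ hρ c f : ↥c.toValuationSubring) : M) = ρ (f : F) := rfl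

variable [IsAlgClosed K]

/-- **LOC2.** -/
theorem expansion_centre (htrF : Algebra.trdeg K F = 1) (htrM : Algebra.trdeg K M = 1)
    (ρ : F →ₐ[K] M) (hρ : ρ.toRingHom.IsIntegral) (c : Place K M)
    (t : ↥(centre ρ hρ c).toValuationSubring) (ht : (centre ρ hρ c).ord (t : F) = 1)
    (τR : ↥(centre ρ hρ c).toValuationSubring →ₐ[K] PowerSeries K) (hτR : τR t = PowerSeries.X)
    (π : ↥c.toValuationSubring) (hπ : c.ord (π : M) = 1)
    (τc : ↥c.toValuationSubring →ₐ[K] PowerSeries K) (hτc : τc π = PowerSeries.X) :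
    PowerSeries.constantCoeff (τc (localHom ρ hρ c t)) = 0 ∧
    (τc (localHom ρ hρ c t)).order = (ram ρ c : ℕ∞) ∧
    ∀ f : ↥(centre ρ hρ c).toValuationSubring,
      τc (localHom ρ hρ c f) = (τR f).subst (τc (localHom ρ hρ c t)) := by
  letI : Algebra F M := ρ.toRingHom.toAlgebra
  haveI : IsScalarTower K F M := IsScalarTower.of_algebraMap_eq fun a => (ρ.commutes a).symm
  haveI : Algebra.IsIntegral F M := ⟨hρ⟩
  exact expansion_restrict htrF htrM c t ht τR hτR π hπ τc hτc

/-- The value of `ρ f` at `c` is the value of `f` at the centre. -/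
theorem constantCoeff_expansion_centre (htrF : Algebra.trdeg K F = 1)
    (htrM : Algebra.trdeg K M = 1)
    (ρ : F →ₐ[K] M) (hρ : ρ.toRingHom.IsIntegral) (c : Place K M)
    (t : ↥(centre ρ hρ c).toValuationSubring) (ht : (centre ρ hρ c).ord (t : F) = 1)
    (τR : ↥(centre ρ hρ c).toValuationSubring →ₐ[K] PowerSeries K) (hτR : τR t = PowerSeries.X)
    (π : ↥c.toValuationSubring) (hπ : c.ord (π : M) = 1)
    (τc : ↥c.toValuationSubring →ₐ[K] PowerSeries K) (hτc : τc π = PowerSeries.X)
    (f : ↥(centre ρ hρ c).toValuationSubring) :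
    PowerSeries.constantCoeff (τc (localHom ρ hρ c f)) = PowerSeries.constantCoeff (τR f) := by
  -- both sides are the residue of `f`: write `f = a + t * b`
  obtain ⟨a, b, hab⟩ := hres_unif htrF (centre ρ hρ c) t ht f
  obtain ⟨h1, -, -⟩ := expansion_centre htrF htrM ρ hρ c t ht τR hτR π hπ τc hτc
  have hX : (PowerSeries.X : PowerSeries K) ∣ τc (localHom ρ hρ c t) := PowerSeries.X_dvd_iff.mpr h1
  have e1 : PowerSeries.constantCoeff (τc (localHom ρ hρ c f)) = a := by
    rw [hab, map_add, map_add, map_mul, map_mul, AlgHom.commutes, AlgHom.commutes, map_add,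
      map_mul, h1, zero_mul, add_zero]
    simp
  have e2 : PowerSeries.constantCoeff (τR f) = a := by
    rw [hab, map_add, map_mul, AlgHom.commutes, hτR, map_add, map_mul]
    simp
  rw [e1, e2]

/-- **LOC2 for a named centre.**  The same statement as `expansion_centre` when the centre is
known to be the place `R` (no dependent type in `τR`). -/
theorem expansion_of_centre_eq (htrF : Algebra.trdeg K F = 1) (htrM : Algebra.trdeg K M = 1)
    (ρ : F →ₐ[K] M) (hρ : ρ.toRingHom.IsIntegral) (c : Place K M)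
    (R : Place K F) (hR : centre ρ hρ c = R)
    (t : ↥R.toValuationSubring) (ht : R.ord (t : F) = 1)
    (τR : ↥R.toValuationSubring →ₐ[K] PowerSeries K) (hτR : τR t = PowerSeries.X)
    (π : ↥c.toValuationSubring) (hπ : c.ord (π : M) = 1)
    (τc : ↥c.toValuationSubring →ₐ[K] PowerSeries K) (hτc : τc π = PowerSeries.X)
    (hmem : ∀ f : ↥R.toValuationSubring, ρ (f : F) ∈ c.toValuationSubring) :
    PowerSeries.constantCoeff (τc ⟨ρ (t : F), hmem t⟩) = 0 ∧
    (τc ⟨ρ (t : F), hmem t⟩).order = (ram ρ c : ℕ∞) ∧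
    ∀ f : ↥R.toValuationSubring,
      τc ⟨ρ (f : F), hmem f⟩ = (τR f).subst (τc ⟨ρ (t : F), hmem t⟩) := by
  subst hR
  exact expansion_centre htrF htrM ρ hρ c t ht τR hτR π hπ τc hτc

/-- Two embeddings with the same centre at `c` which agree on ONE uniformiser at that centre
are equal.  (So distinct moving points with the same centre have distinct local coordinates
`τc (ρ t)`: the hypothesis "pairwise distinct" of LOC1.) -/
theorem eq_of_centre_eq_of_map_unif_eq (htrF : Algebra.trdeg K F = 1)
    (htrM : Algebra.trdeg K M = 1)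
    (ρ₁ ρ₂ : F →ₐ[K] M) (hρ₁ : ρ₁.toRingHom.IsIntegral) (hρ₂ : ρ₂.toRingHom.IsIntegral)
    (c : Place K M) (hc : centre ρ₁ hρ₁ c = centre ρ₂ hρ₂ c)
    (t : F) (ht : (centre ρ₁ hρ₁ c).ord t = 1) (h : ρ₁ t = ρ₂ t) : ρ₁ = ρ₂ := by
  obtain ⟨R, hR₁⟩ : ∃ R : Place K F, centre ρ₁ hρ₁ c = R := ⟨_, rfl⟩
  have hR₂ : centre ρ₂ hρ₂ c = R := hc.symm.trans hR₁
  rw [hR₁] at ht
  have htmem : t ∈ R.toValuationSubring := D.Taylor.unif_mem R ht
  obtain ⟨π, hπ⟩ := IsDiscreteValuationRing.exists_irreducible ↥c.toValuationSubring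
  have hπ1 : c.ord (π : M) = 1 := c.ord_coe_irreducible hπ
  have hm₁ : ∀ f : ↥R.toValuationSubring, ρ₁ (f : F) ∈ c.toValuationSubring := fun f =>
    map_mem_of_centre_eq ρ₁ hρ₁ c R hR₁ f f.2
  have hm₂ : ∀ f : ↥R.toValuationSubring, ρ₂ (f : F) ∈ c.toValuationSubring := fun f =>
    map_mem_of_centre_eq ρ₂ hρ₂ c R hR₂ f f.2
  have hτc : D.Taylor.taylor htrM c (π : M) hπ1 π = PowerSeries.X :=
    D.Taylor.taylor_unif htrM c (π : M) hπ1 π.2
  have hτR : D.Taylor.taylor htrF R t ht ⟨t, htmem⟩ = PowerSeries.X :=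
    D.Taylor.taylor_unif htrF R t ht htmem
  have e₁ := (expansion_of_centre_eq htrF htrM ρ₁ hρ₁ c R hR₁ ⟨t, htmem⟩ ht
    (D.Taylor.taylor htrF R t ht) hτR π hπ1 (D.Taylor.taylor htrM c (π : M) hπ1) hτc hm₁).2.2
  have e₂ := (expansion_of_centre_eq htrF htrM ρ₂ hρ₂ c R hR₂ ⟨t, htmem⟩ ht
    (D.Taylor.taylor htrF R t ht) hτR π hπ1 (D.Taylor.taylor htrM c (π : M) hπ1) hτc hm₂).2.2
  have ht12 : (⟨ρ₁ t, hm₁ ⟨t, htmem⟩⟩ : ↥c.toValuationSubring) = ⟨ρ₂ t, hm₂ ⟨t, htmem⟩⟩ :=
    Subtype.ext h
  have hreg : ∀ f : F, f ∈ R.toValuationSubring → ρ₁ f = ρ₂ f := by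
    intro f hf
    have h1 := e₁ ⟨f, hf⟩
    have h2 := e₂ ⟨f, hf⟩
    rw [ht12, ← h2] at h1
    have h3 := D.Taylor.taylor_injective htrM c (π : M) hπ1 h1
    exact congrArg Subtype.val h3
  refine AlgHom.ext fun f => ?_
  rcases R.toValuationSubring.mem_or_inv_mem f with hf | hf
  · exact hreg f hf
  · have h1 := hreg f⁻¹ hf
    rw [map_inv₀, map_inv₀] at h1
    exact inv_injective h1

end AlgHomForm

/-! ## Comap form: the centre given by `T.toValuationSubring = c.toValuationSubring.comap ρ`

No integrality hypothesis, no instance `Algebra F M`: the shape consumed by LOC3. -/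

section ComapForm

variable {K F M : Type*} [Field K] [Field F] [Field M] [Algebra K F] [Algebra K M]

/-- If `O_T` is the preimage of `O_c` under `ρ`, then `ρ` maps `O_T` into `O_c`. -/
theorem map_mem_of_comap_eq (ρ : F →ₐ[K] M) (c : Place K M) (T : Place K F)
    (hT : T.toValuationSubring = c.toValuationSubring.comap (ρ : F →+* M)) (f : F)
    (hf : f ∈ T.toValuationSubring) : ρ f ∈ c.toValuationSubring := by
  rw [hT] at hf
  exact hf

/-- `ρ` on the local ring of `T`, with values in the local ring of `c`. -/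
noncomputable def comapHom (ρ : F →ₐ[K] M) (c : Place K M) (T : Place K F)
    (hT : T.toValuationSubring = c.toValuationSubring.comap (ρ : F →+* M)) :
    ↥T.toValuationSubring →ₐ[K] ↥c.toValuationSubring where
  toFun f := ⟨ρ (f : F), map_mem_of_comap_eq ρ c T hT f f.2⟩
  map_one' := Subtype.ext (map_one ρ)
  map_mul' a b := Subtype.ext (map_mul ρ (a : F) (b : F))
  map_zero' := Subtype.ext (map_zero ρ)
  map_add' a b := Subtype.ext (map_add ρ (a : F) (b : F))
  commutes' a := Subtype.ext (ρ.commutes a)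

theorem coe_comapHom (ρ : F →ₐ[K] M) (c : Place K M) (T : Place K F)
    (hT : T.toValuationSubring = c.toValuationSubring.comap (ρ : F →+* M))
    (f : ↥T.toValuationSubring) :
    ((comapHom ρ c T hT f : ↥c.toValuationSubring) : M) = ρ (f : F) := rfl

/-- A uniformiser at the centre has positive order at `c`. -/
theorem ord_map_unif_pos (ρ : F →ₐ[K] M) (c : Place K M) (T : Place K F)
    (hT : T.toValuationSubring = c.toValuationSubring.comap (ρ : F →+* M))
    (t : F) (ht : T.ord t = 1) : 0 < c.ord (ρ t) := by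
  have ht0 : t ≠ 0 := D.Taylor.unif_ne_zero T ht
  have hρt0 : ρ t ≠ 0 := (map_ne_zero ρ).mpr ht0
  have hinv : t⁻¹ ∉ T.toValuationSubring := by
    intro hmem
    have h1 := Fermat.Agent.S24.FF.ord_nonneg_of_mem T hmem
    rw [T.ord_inv, ht] at h1
    omega
  have hinv' : (ρ t)⁻¹ ∉ c.toValuationSubring := by
    intro hmem
    apply hinv
    rw [hT, ValuationSubring.mem_comap]
    show ρ t⁻¹ ∈ c.toValuationSubring
    rw [map_inv₀]
    exact hmem
  have h2 : ¬ 0 ≤ c.ord (ρ t)⁻¹ := fun h =>
    hinv' ((Fermat.Agent.S24.FF.ord_nonneg_iff c (inv_ne_zero hρt0)).mp h)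
  rw [c.ord_inv] at h2
  omega

variable [IsAlgClosed K]

/-- **LOC2, comap form.**  `T` the centre of `c` under `ρ` (`O_T = ρ⁻¹ O_c`), `t` a uniformiser
at `T`, `τT` ANY expansion at `T` with `τT t = X`, `τc` ANY expansion at `c` with `τc ϖ = X`:
`τc (ρ t)` has zero constant coefficient and `τc (ρ f) = (τT f).subst (τc (ρ t))` for every `f`
regular at `T`. -/
theorem expansion_of_comap_eq (htrF : Algebra.trdeg K F = 1) (htrM : Algebra.trdeg K M = 1)
    (ρ : F →ₐ[K] M) (c : Place K M) (T : Place K F)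
    (hT : T.toValuationSubring = c.toValuationSubring.comap (ρ : F →+* M))
    (t : ↥T.toValuationSubring) (ht : T.ord (t : F) = 1)
    (τT : ↥T.toValuationSubring →ₐ[K] PowerSeries K) (hτT : τT t = PowerSeries.X)
    (ϖ : ↥c.toValuationSubring) (hϖ : c.ord (ϖ : M) = 1)
    (τc : ↥c.toValuationSubring →ₐ[K] PowerSeries K) (hτc : τc ϖ = PowerSeries.X) :
    PowerSeries.constantCoeff (τc (comapHom ρ c T hT t)) = 0 ∧
    ∀ f : ↥T.toValuationSubring,
      τc (comapHom ρ c T hT f) = (τT f).subst (τc (comapHom ρ c T hT t)) := by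
  have h1 : PowerSeries.constantCoeff (τc (comapHom ρ c T hT t)) = 0 := by
    rw [constantCoeff_eq_iff htrM c ϖ hϖ τc hτc]
    right
    rw [map_zero, sub_zero, coe_comapHom]
    exact ord_map_unif_pos ρ c T hT (t : F) ht
  exact ⟨h1, fun f => map_eq_subst htrF T t ht τT (τc.comp (comapHom ρ c T hT)) hτT h1 f⟩

/-- Two embeddings with the same centre `T` at `c` which agree on ONE uniformiser at `T` are
equal. -/
theorem eq_of_comap_eq_of_map_unif_eq (htrF : Algebra.trdeg K F = 1)
    (htrM : Algebra.trdeg K M = 1) (ρ₁ ρ₂ : F →ₐ[K] M) (c : Place K M) (T : Place K F)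
    (hT₁ : T.toValuationSubring = c.toValuationSubring.comap (ρ₁ : F →+* M))
    (hT₂ : T.toValuationSubring = c.toValuationSubring.comap (ρ₂ : F →+* M))
    (t : F) (ht : T.ord t = 1) (h : ρ₁ t = ρ₂ t) : ρ₁ = ρ₂ := by
  have htmem : t ∈ T.toValuationSubring := D.Taylor.unif_mem T ht
  obtain ⟨π, hπ⟩ := IsDiscreteValuationRing.exists_irreducible ↥c.toValuationSubring
  have hπ1 : c.ord (π : M) = 1 := c.ord_coe_irreducible hπ
  have hτc : D.Taylor.taylor htrM c (π : M) hπ1 π = PowerSeries.X :=
    D.Taylor.taylor_unif htrM c (π : M) hπ1 π.2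
  have hτT : D.Taylor.taylor htrF T t ht ⟨t, htmem⟩ = PowerSeries.X :=
    D.Taylor.taylor_unif htrF T t ht htmem
  have e₁ := (expansion_of_comap_eq htrF htrM ρ₁ c T hT₁ ⟨t, htmem⟩ ht
    (D.Taylor.taylor htrF T t ht) hτT π hπ1 (D.Taylor.taylor htrM c (π : M) hπ1) hτc).2
  have e₂ := (expansion_of_comap_eq htrF htrM ρ₂ c T hT₂ ⟨t, htmem⟩ ht
    (D.Taylor.taylor htrF T t ht) hτT π hπ1 (D.Taylor.taylor htrM c (π : M) hπ1) hτc).2
  have ht12 : comapHom ρ₁ c T hT₁ ⟨t, htmem⟩ = comapHom ρ₂ c T hT₂ ⟨t, htmem⟩ :=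
    Subtype.ext h
  have hreg : ∀ f : F, f ∈ T.toValuationSubring → ρ₁ f = ρ₂ f := by
    intro f hf
    have h1 := e₁ ⟨f, hf⟩
    have h2 := e₂ ⟨f, hf⟩
    rw [ht12, ← h2] at h1
    have h3 := D.Taylor.taylor_injective htrM c (π : M) hπ1 h1
    exact congrArg Subtype.val h3
  refine AlgHom.ext fun f => ?_
  rcases T.toValuationSubring.mem_or_inv_mem f with hf | hf
  · exact hreg f hf
  · have h1 := hreg f⁻¹ hf
    rw [map_inv₀, map_inv₀] at h1
    exact inv_injective h1

variable [CharZero K] [Algebra.EssFiniteType K F] [Algebra.EssFiniteType K M]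

/-- **LOC2 for the Taylor maps of `R/Taylor.lean`** (the literal LOC3 consumes): membership
proofs are arguments, so that the statement rewrites under any `dif_pos`. -/
theorem rTaylor_map_eq_subst (htrF : Algebra.trdeg K F = 1) (htrM : Algebra.trdeg K M = 1)
    (ρ : F →ₐ[K] M) (c : Place K M) (T : Place K F)
    (hT : T.toValuationSubring = c.toValuationSubring.comap (ρ : F →+* M))
    (t : F) (ht : T.ord t = 1) (ϖ : M) (hϖ : c.ord ϖ = 1)
    (htm : t ∈ T.toValuationSubring) (hρt : ρ t ∈ c.toValuationSubring) :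
    PowerSeries.constantCoeff (R.taylor htrM c ϖ hϖ ⟨ρ t, hρt⟩) = 0 ∧
    ∀ (f : F) (hf : f ∈ T.toValuationSubring) (hρf : ρ f ∈ c.toValuationSubring),
      R.taylor htrM c ϖ hϖ ⟨ρ f, hρf⟩
        = (R.taylor htrF T t ht ⟨f, hf⟩).subst (R.taylor htrM c ϖ hϖ ⟨ρ t, hρt⟩) := by
  have hϖm : ϖ ∈ c.toValuationSubring := D.Taylor.unif_mem c hϖ
  have h := expansion_of_comap_eq htrF htrM ρ c T hT ⟨t, htm⟩ ht
    (R.taylor htrF T t ht) (R.taylor_unif htrF T t ht htm) ⟨ϖ, hϖm⟩ hϖ
    (R.taylor htrM c ϖ hϖ) (R.taylor_unif htrM c ϖ hϖ hϖm)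
  exact ⟨h.1, fun f hf hρf => h.2 ⟨f, hf⟩⟩

end ComapForm

end Fermat.Agent.S17.HB.Loc2
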