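import Mathlib
import Fermat.Agent.S17.R.LSpace
import Fermat.Agent.S17.R.ReducedCore
import Fermat.Agent.S17.R.Taylor
import Fermat.Agent.S17.D.Hasse
import Fermat.Agent.S17.D.Count
import Fermat.Agent.S17.HB.Loc2

/-!
# Program MW (statement S17), strand HB, leaf LOC3: specialisation at every place of `M`

`F / K` is the function field of the curve, `M / K` the function field of the division curve,
`ρ none : F →ₐ[K] M` the generic point and `ρ (some k)`, `k : Fin g`, the moving points;
`∑ j, cM j ⊗ v j` is the generic division function: it vanishes at the generic point (`generic`)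
and to order `n` along the moving points (`jets`, in the form of iterated derivatives for a
derivation `∂` of `F` with the chain rule at every place, `ChainRule`).

For a place `c` of `M` with uniformiser `ϖ` and the exponent `e` which normalises the vector
`cM` at `c`, the specialised function `Ψ_c = ∑ j, (ϖ ^ e * cM j)(c) • v j` is non-zero and

  `div Ψ_c = P(c) + n ∑ R_k(c) - n E₀ - Q₀`          (`divOf_spec_of_easy`),

where `P(c)`, `R_k(c)` are the centres at `c` of the generic point and of the moving points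
(`IsCentre`).  Moreover at every place `T` of `F` the two-variable local series
`∑ j, C j (ϖ) * W j (t)`, `C j = ` expansion at `c` of `ϖ ^ e * cM j`, `W j = ` expansion at `T`
of `t ^ q * v j`, satisfies the hypotheses of the normal form LOC1 (`loc1_hyps_of_easy`): its
zeros on the residue disc are the expansions `r x` of `ρ x t` for the points `x` with centre `T`,
with multiplicity `1` for the generic point and `n` for a moving point, and its closed fibre has
order exactly the sum of the multiplicities (`ord_spec_of_easy` is the same in terms of orders).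

The one input from LOC1 is its easy half (`Loc1.X_pow_dvd_closedFibre`), taken here as the
hypothesis `EasyHalf`, so that this file does not depend on LOC1.

Proof.  (1) Switching (`van_mul`, `van_smul`): the vanishing of the jets `∑ j, a j * ρ (∂^i (g j))`,
`i < μ`, does not change when `g` is multiplied by a function or `∂` by a function.  (2) Chain
rule: `η • ∂` is `d/dX` on expansions at `T`, so its iterates are `i! •` Hasse derivatives
(`tay_iterate`).  (3) LOC2 (`Loc2.rTaylor_map_eq_subst`): the expansion at `c` of `ρ f` is the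
expansion of `f` at the centre, substituted at the expansion of `ρ t`; so the jets become Hasse
jets of the local series (`local_van`, `jets_local`), and distinct points with the same centre
have distinct expansions (`eq_of_tay_eq`).  (4) The easy half gives
`ord_T Ψ_c ≥ ∑_{cen x = T} mult x - q_T` at every `T`; both sides are divisors of degree `0`
(`Divisor.degree`, all places have degree one), hence equality.
-/

set_option autoImplicit false

open AlgebraicCurve

namespace Fermat.Agent.S17.HB.Loc3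

open Fermat.Agent.S17 Fermat.Agent.S17.D

variable {K F M : Type*} [Field K] [Field F] [Algebra K F] [Field M] [Algebra K M]

/-- `T` is the centre at the place `c` of the embedding `ρ`. -/
def IsCentre (ρ : F →ₐ[K] M) (c : Place K M) (T : Place K F) : Prop :=
  T.toValuationSubring = c.toValuationSubring.comap (ρ : F →+* M)

open Classical in
/-- The allowed pole order at `T` of a function of `L(n E₀ + Q₀)`. -/
noncomputable def poleBound (n : ℕ) (Q₀ : Place K F) (E₀ : Finset (Place K F)) (T : Place K F) :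
    ℕ :=
  (if T ∈ E₀ then n else 0) + (if T = Q₀ then 1 else 0)

/-- The multiplicity of a point: `1` for the generic point, `n` for a moving point. -/
def mult (n : ℕ) {g : ℕ} : Option (Fin g) → ℕ
  | none => 1
  | some _ => n

section Curve

variable [IsAlgClosed K] [CharZero K] [Algebra.EssFiniteType K F]

open Classical in
/-- Taylor expansion at a place with respect to a uniformiser, extended by zero outside the
valuation ring. -/
noncomputable def tay (htr : Algebra.trdeg K F = 1) (v : Place K F) (π : F) (hπ : v.ord π = 1)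
    (f : F) : PowerSeries K :=
  if h : f ∈ v.toValuationSubring then R.taylor htr v π hπ ⟨f, h⟩ else 0

/-- (CAR1) The chain rule at every place, in integral form: for a uniformiser `t` at `T` a
multiple `η • ∂` of the derivation `∂` preserves the valuation ring of `T` and is `d/dX` on
Taylor expansions. -/
def ChainRule (htr : Algebra.trdeg K F = 1) (δ : Derivation K F F) : Prop :=
  ∀ (T : Place K F) (t : F) (ht : T.ord t = 1), ∃ η : F, η ≠ 0 ∧
    ∀ f : F, f ∈ T.toValuationSubring → η * δ f ∈ T.toValuationSubring ∧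
      tay htr T t ht (η * δ f) = PowerSeries.derivative K (tay htr T t ht f)

/-- The hypotheses of LOC3: the generic division function on the division curve. -/
structure Data (htr : Algebra.trdeg K F = 1) (M : Type*) [Field M] [Algebra K M] (n g m : ℕ)
    (Q₀ : Place K F) (E₀ : Finset (Place K F)) where
  v : Fin (m + 1) → F
  v_indep : LinearIndependent K v
  v_mem : ∀ j, v j ∈ riemannRochSpace ((n : ℤ) • ∑ P ∈ E₀, Finsupp.single P (1 : ℤ) +
    Finsupp.single Q₀ 1)
  card_E₀ : E₀.card = g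
  ρ : Option (Fin g) → (F →ₐ[K] M)
  ρ_inj : Function.Injective ρ
  cM : Fin (m + 1) → M
  generic : ∑ j, cM j * ρ none (v j) = 0
  δ : Derivation K F F
  chain : ChainRule htr δ
  b₁ : F
  b₁_ne : b₁ ≠ 0
  jets : ∀ k : Fin g, ∀ i < n, ∑ j, cM j * ρ (some k) ((⇑δ)^[i] (b₁ * v j)) = 0

/-! ### The total Taylor expansion `tay` -/

section Tay

variable (htr : Algebra.trdeg K F = 1) (v : Place K F) (π : F) (hπ : v.ord π = 1)

theorem tay_of_mem {f : F} (hf : f ∈ v.toValuationSubring) :
    tay htr v π hπ f = R.taylor htr v π hπ ⟨f, hf⟩ :=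
  dif_pos hf

theorem tay_zero : tay htr v π hπ 0 = 0 := by
  rw [tay_of_mem htr v π hπ (zero_mem _)]
  exact map_zero (R.taylor htr v π hπ)

theorem tay_one : tay htr v π hπ 1 = 1 := by
  rw [tay_of_mem htr v π hπ (one_mem _)]
  exact map_one (R.taylor htr v π hπ)

theorem tay_add {f g : F} (hf : f ∈ v.toValuationSubring) (hg : g ∈ v.toValuationSubring) :
    tay htr v π hπ (f + g) = tay htr v π hπ f + tay htr v π hπ g := by
  rw [tay_of_mem htr v π hπ hf, tay_of_mem htr v π hπ hg, tay_of_mem htr v π hπ (add_mem hf hg),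
    ← map_add]
  rfl

theorem tay_mul {f g : F} (hf : f ∈ v.toValuationSubring) (hg : g ∈ v.toValuationSubring) :
    tay htr v π hπ (f * g) = tay htr v π hπ f * tay htr v π hπ g := by
  rw [tay_of_mem htr v π hπ hf, tay_of_mem htr v π hπ hg, tay_of_mem htr v π hπ (mul_mem hf hg),
    ← map_mul]
  rfl

theorem tay_algebraMap (a : K) : tay htr v π hπ (algebraMap K F a) = PowerSeries.C a := by
  rw [tay_of_mem htr v π hπ (v.algebraMap_mem' a)]
  have h := (R.taylor htr v π hπ).commutes a
  rw [PowerSeries.algebraMap_apply] at h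
  exact h

theorem tay_smul (a : K) {f : F} (hf : f ∈ v.toValuationSubring) :
    tay htr v π hπ (a • f) = a • tay htr v π hπ f := by
  rw [Algebra.smul_def, tay_mul htr v π hπ (v.algebraMap_mem' a) hf, tay_algebraMap,
    ← PowerSeries.smul_eq_C_mul]

theorem tay_sum {ι : Type*} (s : Finset ι) (f : ι → F)
    (hf : ∀ i ∈ s, f i ∈ v.toValuationSubring) :
    tay htr v π hπ (∑ i ∈ s, f i) = ∑ i ∈ s, tay htr v π hπ (f i) := by
  classical
  induction s using Finset.induction_on with
  | empty => simp [tay_zero]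
  | insert i s hi ih =>
    rw [Finset.sum_insert hi, Finset.sum_insert hi,
      tay_add htr v π hπ (hf i (Finset.mem_insert_self i s))
        (sum_mem fun k hk => hf k (Finset.mem_insert_of_mem hk)),
      ih fun k hk => hf k (Finset.mem_insert_of_mem hk)]

theorem tay_unif : tay htr v π hπ π = PowerSeries.X := by
  rw [tay_of_mem htr v π hπ (R.Taylor.unif_mem v hπ)]
  exact R.taylor_unif htr v π hπ _

theorem tay_eq_zero_iff {f : F} (hf : f ∈ v.toValuationSubring) :
    tay htr v π hπ f = 0 ↔ f = 0 := by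
  rw [tay_of_mem htr v π hπ hf]
  constructor
  · intro h
    have h1 := R.taylor_injective htr v π hπ (h.trans (map_zero (R.taylor htr v π hπ)).symm)
    exact congrArg Subtype.val h1
  · rintro rfl
    exact map_zero (R.taylor htr v π hπ)

theorem tay_injOn {f g : F} (hf : f ∈ v.toValuationSubring) (hg : g ∈ v.toValuationSubring)
    (h : tay htr v π hπ f = tay htr v π hπ g) : f = g := by
  rw [tay_of_mem htr v π hπ hf, tay_of_mem htr v π hπ hg] at h
  exact congrArg Subtype.val (R.taylor_injective htr v π hπ h)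

theorem X_pow_dvd_tay_iff {f : F} (hf : f ∈ v.toValuationSubring) (d : ℕ) :
    (PowerSeries.X : PowerSeries K) ^ d ∣ tay htr v π hπ f ↔ f = 0 ∨ (d : ℤ) ≤ v.ord f := by
  rw [tay_of_mem htr v π hπ hf, PowerSeries.X_pow_dvd_iff]
  exact R.coeff_taylor_eq_zero_iff htr v π hπ ⟨f, hf⟩ d

theorem constantCoeff_tay_eq_zero_iff {f : F} (hf : f ∈ v.toValuationSubring) :
    PowerSeries.constantCoeff (tay htr v π hπ f) = 0 ↔ f = 0 ∨ 0 < v.ord f := by
  rw [← PowerSeries.X_dvd_iff, ← pow_one (PowerSeries.X : PowerSeries K),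
    X_pow_dvd_tay_iff htr v π hπ hf 1]
  constructor
  · rintro (h | h)
    · exact Or.inl h
    · exact Or.inr (by push_cast at h; omega)
  · rintro (h | h)
    · exact Or.inl h
    · exact Or.inr (by push_cast; omega)

theorem order_tay {f : F} (hf : f ∈ v.toValuationSubring) (hf0 : f ≠ 0) :
    (tay htr v π hπ f).order = ((v.ord f).toNat : ℕ∞) := by
  have hnn : 0 ≤ v.ord f := Fermat.Agent.S24.FF.ord_nonneg_of_mem v hf
  have h1 : (PowerSeries.X : PowerSeries K) ^ (v.ord f).toNat ∣ tay htr v π hπ f :=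
    (X_pow_dvd_tay_iff htr v π hπ hf _).mpr (Or.inr (by rw [Int.toNat_of_nonneg hnn]))
  have h2 : ¬ (PowerSeries.X : PowerSeries K) ^ ((v.ord f).toNat + 1) ∣ tay htr v π hπ f := by
    rw [X_pow_dvd_tay_iff htr v π hπ hf]
    rintro (h | h)
    · exact hf0 h
    · push_cast at h
      rw [Int.toNat_of_nonneg hnn] at h
      omega
  have hne : tay htr v π hπ f ≠ 0 := fun h => hf0 ((tay_eq_zero_iff htr v π hπ hf).mp h)
  apply le_antisymm
  · by_contra hlt
    rw [not_le] at hlt
    apply h2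
    rw [PowerSeries.X_pow_dvd_iff]
    intro i hi
    exact PowerSeries.coeff_of_lt_order i
      (lt_of_le_of_lt (by exact_mod_cast Nat.lt_succ_iff.mp hi) hlt)
  · exact PowerSeries.nat_le_order _ _ (PowerSeries.X_pow_dvd_iff.mp h1)

end Tay

/-! ### Switching the derivation and the multiplier (pure algebra) -/

section Switch

omit [IsAlgClosed K] [CharZero K] [Algebra.EssFiniteType K F] in
/-- Vanishing of the jets `∑ j, a j * ρ (∂^l (g j))`, `l ≤ i`, is stable under multiplication of
the family `g` by a function `h`. -/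
theorem van_mul {ι : Type*} [Fintype ι] (ρ : F →ₐ[K] M) (δ : Derivation K F F) (a : ι → M) :
    ∀ (i : ℕ) (g : ι → F) (h : F), (∀ l ≤ i, ∑ j, a j * ρ ((⇑δ)^[l] (g j)) = 0) →
      ∑ j, a j * ρ ((⇑δ)^[i] (h * g j)) = 0 := by
  intro i
  induction i with
  | zero =>
    intro g h hv
    have h0 := hv 0 le_rfl
    simp only [Function.iterate_zero, id_eq] at h0 ⊢
    calc ∑ j, a j * ρ (h * g j) = ρ h * ∑ j, a j * ρ (g j) := by
          rw [Finset.mul_sum]
          refine Finset.sum_congr rfl fun j _ => ?_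
          rw [map_mul]
          ring
      _ = 0 := by rw [h0, mul_zero]
  | succ i ih =>
    intro g h hv
    have e : ∀ j, (⇑δ)^[i + 1] (h * g j) =
        (⇑δ)^[i] (h * δ (g j)) + (⇑δ)^[i] (δ h * g j) := by
      intro j
      rw [Function.iterate_succ_apply, Derivation.leibniz, smul_eq_mul, smul_eq_mul,
        iterate_map_add, mul_comm (g j) (δ h)]
    have h1 : ∑ j, a j * ρ ((⇑δ)^[i] (h * δ (g j))) = 0 := by
      refine ih (fun j => δ (g j)) h fun l hl => ?_
      have h2 := hv (l + 1) (by omega)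
      simpa only [Function.iterate_succ_apply] using h2
    have h2 : ∑ j, a j * ρ ((⇑δ)^[i] (δ h * g j)) = 0 :=
      ih g (δ h) fun l hl => hv l (by omega)
    simp only [e, map_add, mul_add, Finset.sum_add_distrib]
    rw [h1, h2, add_zero]

omit [IsAlgClosed K] [CharZero K] [Algebra.EssFiniteType K F] in
/-- Vanishing of the jets is stable under the change of derivation `∂ ↦ η • ∂`. -/
theorem van_smul {ι : Type*} [Fintype ι] (ρ : F →ₐ[K] M) (δ : Derivation K F F) (η : F)
    (a : ι → M) :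
    ∀ (i : ℕ) (g : ι → F), (∀ l ≤ i, ∑ j, a j * ρ ((⇑δ)^[l] (g j)) = 0) →
      ∑ j, a j * ρ ((⇑(η • δ))^[i] (g j)) = 0 := by
  intro i
  induction i with
  | zero =>
    intro g hv
    simpa only [Function.iterate_zero, id_eq] using hv 0 le_rfl
  | succ i ih =>
    intro g hv
    have e : ∀ j, (⇑(η • δ))^[i + 1] (g j) = (⇑(η • δ))^[i] (η * δ (g j)) := by
      intro j
      rw [Function.iterate_succ_apply, Derivation.smul_apply, smul_eq_mul]
    simp only [e]
    refine ih (fun j => η * δ (g j)) fun l hl => ?_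
    refine van_mul ρ δ a l (fun j => δ (g j)) η fun l' hl' => ?_
    have h2 := hv (l' + 1) (by omega)
    simpa only [Function.iterate_succ_apply] using h2

end Switch

/-! ### Iterated derivatives and Hasse derivatives -/

section HasseDer

omit [IsAlgClosed K] [CharZero K] in
theorem derivative_eq_hasse_one (φ : PowerSeries K) :
    PowerSeries.derivative K φ = hasse 1 φ := by
  ext m
  rw [PowerSeries.coeff_derivative, coeff_hasse, Nat.choose_one_right]
  push_cast
  ring

omit [IsAlgClosed K] [CharZero K] in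
theorem iterate_derivative_eq (i : ℕ) (φ : PowerSeries K) :
    (⇑(PowerSeries.derivative K))^[i] φ = ((i.factorial : ℕ) : K) • hasse i φ := by
  induction i with
  | zero => simp [hasse_zero]
  | succ i ih =>
    rw [Function.iterate_succ_apply', ih, Derivation.map_smul, derivative_eq_hasse_one,
      hasse_one_hasse, smul_smul, Nat.factorial_succ]
    congr 1
    push_cast
    ring

end HasseDer


/-! ### Centres and the expansion of an embedding (LOC2) -/

section Centre

variable [Algebra.EssFiniteType K M]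

omit [IsAlgClosed K] [CharZero K] [Algebra.EssFiniteType K F] [Algebra.EssFiniteType K M] in
theorem IsCentre.map_mem {ρ : F →ₐ[K] M} {c : Place K M} {T : Place K F} (h : IsCentre ρ c T)
    {f : F} (hf : f ∈ T.toValuationSubring) : ρ f ∈ c.toValuationSubring :=
  Loc2.map_mem_of_comap_eq ρ c T h f hf

/-- LOC2 for the total expansions `tay`. -/
theorem tay_map_eq_subst (htr : Algebra.trdeg K F = 1) (htrM : Algebra.trdeg K M = 1)
    {ρ : F →ₐ[K] M} {c : Place K M} {T : Place K F} (h : IsCentre ρ c T)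
    (t : F) (ht : T.ord t = 1) (ϖ : M) (hϖ : c.ord ϖ = 1) :
    PowerSeries.constantCoeff (tay htrM c ϖ hϖ (ρ t)) = 0 ∧
    ∀ f : F, f ∈ T.toValuationSubring →
      tay htrM c ϖ hϖ (ρ f) = (tay htr T t ht f).subst (tay htrM c ϖ hϖ (ρ t)) := by
  have htm : t ∈ T.toValuationSubring := R.Taylor.unif_mem T ht
  have hρt : ρ t ∈ c.toValuationSubring := h.map_mem htm
  obtain ⟨h1, h2⟩ := Loc2.rTaylor_map_eq_subst htr htrM ρ c T h t ht ϖ hϖ htm hρt
  rw [tay_of_mem htrM c ϖ hϖ hρt]
  refine ⟨h1, fun f hf => ?_⟩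
  rw [tay_of_mem htrM c ϖ hϖ (h.map_mem hf), tay_of_mem htr T t ht hf]
  exact h2 f hf _

/-- Two embeddings with the same centre `T` at `c` and the same expansion of a uniformiser at `T`
are equal. -/
theorem eq_of_tay_eq (htr : Algebra.trdeg K F = 1) (htrM : Algebra.trdeg K M = 1)
    {ρ₁ ρ₂ : F →ₐ[K] M} {c : Place K M} {T : Place K F} (h₁ : IsCentre ρ₁ c T)
    (h₂ : IsCentre ρ₂ c T) (t : F) (ht : T.ord t = 1) (ϖ : M) (hϖ : c.ord ϖ = 1)
    (h : tay htrM c ϖ hϖ (ρ₁ t) = tay htrM c ϖ hϖ (ρ₂ t)) : ρ₁ = ρ₂ := by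
  have htm : t ∈ T.toValuationSubring := R.Taylor.unif_mem T ht
  exact Loc2.eq_of_comap_eq_of_map_unif_eq htr htrM ρ₁ ρ₂ c T h₁ h₂ t ht
    (tay_injOn htrM c ϖ hϖ (h₁.map_mem htm) (h₂.map_mem htm) h)

end Centre

/-! ### The local vanishing -/

section LocalVan

variable [Algebra.EssFiniteType K M]

/-- The iterates of `η • ∂` in the expansion at `T`, when `η • ∂` is `d/dX` there. -/
theorem tay_iterate (htr : Algebra.trdeg K F = 1) (δ : Derivation K F F) {T : Place K F} {t : F}
    (ht : T.ord t = 1) {η : F}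
    (hη : ∀ f : F, f ∈ T.toValuationSubring → η * δ f ∈ T.toValuationSubring ∧
      tay htr T t ht (η * δ f) = PowerSeries.derivative K (tay htr T t ht f)) :
    ∀ (i : ℕ) (f : F), f ∈ T.toValuationSubring →
      (⇑(η • δ))^[i] f ∈ T.toValuationSubring ∧
      tay htr T t ht ((⇑(η • δ))^[i] f) = ((i.factorial : ℕ) : K) • hasse i (tay htr T t ht f) := by
  intro i
  induction i with
  | zero =>
    intro f hf
    refine ⟨hf, ?_⟩
    simp [hasse_zero]
  | succ i ih =>
    intro f hf
    obtain ⟨h1, h2⟩ := ih f hf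
    obtain ⟨h3, h4⟩ := hη _ h1
    rw [Function.iterate_succ_apply', Derivation.smul_apply, smul_eq_mul]
    refine ⟨h3, ?_⟩
    rw [h4, h2, Derivation.map_smul, derivative_eq_hasse_one, hasse_one_hasse, smul_smul,
      Nat.factorial_succ]
    congr 1
    push_cast
    ring

/-- The local vanishing: jets along `ρ` for the derivation `∂` give Hasse jets of the local
series at the expansion of `ρ t`. -/
theorem local_van (htr : Algebra.trdeg K F = 1) (htrM : Algebra.trdeg K M = 1)
    (δ : Derivation K F F) (chain : ChainRule htr δ) {ι : Type*} [Fintype ι]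
    {ρ : F →ₐ[K] M} {c : Place K M} {T : Place K F} (hT : IsCentre ρ c T)
    (t : F) (ht : T.ord t = 1) (ϖ : M) (hϖ : c.ord ϖ = 1)
    (a : ι → M) (ha : ∀ j, a j ∈ c.toValuationSubring)
    (w : ι → F) (hw : ∀ j, w j ∈ T.toValuationSubring)
    (μ : ℕ) (hv : ∀ i < μ, ∑ j, a j * ρ ((⇑δ)^[i] (w j)) = 0) :
    ∀ i < μ, ∑ j, tay htrM c ϖ hϖ (a j) *
      (hasse i (tay htr T t ht (w j))).subst (tay htrM c ϖ hϖ (ρ t)) = 0 := by
  intro i hi
  obtain ⟨η, -, hη⟩ := chain T t ht
  obtain ⟨hr0, hsub⟩ := tay_map_eq_subst htr htrM hT t ht ϖ hϖ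
  have hs : PowerSeries.HasSubst (tay htrM c ϖ hϖ (ρ t)) :=
    PowerSeries.HasSubst.of_constantCoeff_zero' hr0
  have hv' : ∑ j, a j * ρ ((⇑(η • δ))^[i] (w j)) = 0 :=
    van_smul ρ δ η a i w fun l hl => hv l (by omega)
  have hit := tay_iterate htr δ ht hη i
  have hmem : ∀ j, a j * ρ ((⇑(η • δ))^[i] (w j)) ∈ c.toValuationSubring := fun j =>
    mul_mem (ha j) (hT.map_mem (hit (w j) (hw j)).1)
  have h1 := congrArg (tay htrM c ϖ hϖ) hv'
  rw [tay_zero, tay_sum htrM c ϖ hϖ _ _ fun j _ => hmem j] at h1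
  have h2 : ∀ j, tay htrM c ϖ hϖ (a j * ρ ((⇑(η • δ))^[i] (w j))) =
      ((i.factorial : ℕ) : K) • (tay htrM c ϖ hϖ (a j) *
        (hasse i (tay htr T t ht (w j))).subst (tay htrM c ϖ hϖ (ρ t))) := by
    intro j
    rw [tay_mul htrM c ϖ hϖ (ha j) (hT.map_mem (hit (w j) (hw j)).1),
      hsub _ (hit (w j) (hw j)).1, (hit (w j) (hw j)).2, PowerSeries.subst_smul hs,
      mul_smul_comm]
  simp only [h2] at h1
  rw [← Finset.smul_sum] at h1
  have hfac : ((i.factorial : ℕ) : K) ≠ 0 := Nat.cast_ne_zero.mpr (Nat.factorial_ne_zero i)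
  have h3 := congrArg (fun z => (((i.factorial : ℕ) : K))⁻¹ • z) h1
  simpa only [inv_smul_smul₀ hfac, smul_zero] using h3

end LocalVan


/-! ### The space `L(n E₀ + Q₀)` at a place -/

section LSpace

omit [IsAlgClosed K] [CharZero K] [Algebra.EssFiniteType K F] in
theorem poleDiv_apply (n : ℕ) (Q₀ : Place K F) (E₀ : Finset (Place K F)) (T : Place K F) :
    ((n : ℤ) • ∑ P ∈ E₀, Finsupp.single P (1 : ℤ) + Finsupp.single Q₀ 1 : Place K F →₀ ℤ) T =
      (poleBound n Q₀ E₀ T : ℤ) := by
  classical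
  have e1 : (∑ P ∈ E₀, Finsupp.single P (1 : ℤ)) T = if T ∈ E₀ then 1 else 0 := by
    split_ifs with h
    · exact D.Count.sum_single_apply_of_mem h
    · exact D.Count.sum_single_apply_of_notMem h
  have e2 : (Finsupp.single Q₀ (1 : ℤ)) T = if T = Q₀ then 1 else 0 := by
    rw [Finsupp.single_apply]
    simp only [eq_comm]
  unfold poleBound
  rw [Finsupp.add_apply, Finsupp.smul_apply, smul_eq_mul, e1, e2]
  push_cast
  split_ifs <;> simp

omit [IsAlgClosed K] [CharZero K] [Algebra.EssFiniteType K F] in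
theorem exists_unif (T : Place K F) : ∃ t : F, T.ord t = 1 := by
  obtain ⟨π, hπ⟩ := IsDiscreteValuationRing.exists_irreducible ↥T.toValuationSubring
  exact ⟨π, T.ord_coe_irreducible hπ⟩

theorem ord_pow_mul (T : Place K F) {t : F} (ht : T.ord t = 1) (q : ℕ) {f : F} (hf : f ≠ 0) :
    T.ord (t ^ q * f) = q + T.ord f := by
  rw [T.ord_mul (pow_ne_zero q (R.Taylor.unif_ne_zero T ht)) hf, R.Taylor.ord_unif_pow T ht]

theorem pow_mul_mem {n : ℕ} {Q₀ : Place K F} {E₀ : Finset (Place K F)} (T : Place K F) {t : F}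
    (ht : T.ord t = 1) {f : F}
    (hf : f ∈ riemannRochSpace ((n : ℤ) • ∑ P ∈ E₀, Finsupp.single P (1 : ℤ) +
      Finsupp.single Q₀ 1)) :
    t ^ poleBound n Q₀ E₀ T * f ∈ T.toValuationSubring := by
  rcases eq_or_ne f 0 with rfl | hf0
  · rw [mul_zero]
    exact zero_mem _
  · have h1 := (R.mem_L_of_ne_zero hf0).mp hf T
    rw [poleDiv_apply] at h1
    have hne : t ^ poleBound n Q₀ E₀ T * f ≠ 0 :=
      mul_ne_zero (pow_ne_zero _ (R.Taylor.unif_ne_zero T ht)) hf0
    refine (Fermat.Agent.S24.FF.ord_nonneg_iff T hne).mp ?_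
    rw [ord_pow_mul T ht _ hf0]
    omega

open Classical in
omit [IsAlgClosed K] [CharZero K] [Algebra.EssFiniteType K F] in
theorem zeroDiv_apply (n : ℕ) {g : ℕ} (cen : Option (Fin g) → Place K F) (T : Place K F) :
    (∑ x : Option (Fin g), (mult n x : ℤ) • Finsupp.single (cen x) (1 : ℤ)) T =
      ((∑ x : {x : Option (Fin g) // cen x = T}, mult n x.1 : ℕ) : ℤ) := by
  rw [Finsupp.finsetSum_apply]
  simp only [Finsupp.smul_apply, Finsupp.single_apply, smul_eq_mul, mul_ite, mul_one, mul_zero]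
  rw [← Finset.sum_filter]
  push_cast
  rw [← Finset.sum_subtype (Finset.univ.filter fun x => cen x = T) (by simp)
    (fun x => (mult n x : ℤ))]

omit [CharZero K] [Algebra.EssFiniteType K F] in
theorem degree_zeroDiv (htr : Algebra.trdeg K F = 1) (n : ℕ) {g : ℕ}
    (cen : Option (Fin g) → Place K F) :
    Divisor.degree (∑ x : Option (Fin g), (mult n x : ℤ) • Finsupp.single (cen x) (1 : ℤ)) =
      1 + (n : ℤ) * g := by
  rw [map_sum, Fintype.sum_option]
  simp [mult, Divisor.degree_single, Fermat.Agent.S24.FF.deg_eq_one htr]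
  ring

end LSpace

/-! ### The easy half of LOC1, as a hypothesis -/

/-- The easy half of LOC1 (`Loc1.X_pow_dvd_closedFibre`): zeros of total multiplicity `∑ μ i` on
the residue disc force the closed fibre to vanish to that order. -/
def EasyHalf (K : Type*) [Field K] (ι : Type*) [Fintype ι] : Prop :=
  ∀ (a : ℕ) (C W : ι → PowerSeries K) (r : Fin a → PowerSeries K) (μ : Fin a → ℕ),
    (∀ i, PowerSeries.constantCoeff (r i) = 0) → Function.Injective r →
    (∀ i, ∀ j < μ i, ∑ l, C l * (hasse j (W l)).subst (r i) = 0) →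
    (PowerSeries.X : PowerSeries K) ^ (∑ i, μ i) ∣ ∑ l, PowerSeries.constantCoeff (C l) • W l

omit [IsAlgClosed K] [CharZero K] in
theorem EasyHalf.fintype {ι : Type*} [Fintype ι] (easy : EasyHalf K ι) {α : Type*} [Fintype α]
    (C W : ι → PowerSeries K) (r : α → PowerSeries K) (μ : α → ℕ)
    (hr0 : ∀ i, PowerSeries.constantCoeff (r i) = 0) (hr : Function.Injective r)
    (hvan : ∀ i, ∀ j < μ i, ∑ l, C l * (hasse j (W l)).subst (r i) = 0) :
    (PowerSeries.X : PowerSeries K) ^ (∑ i, μ i) ∣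
      ∑ l, PowerSeries.constantCoeff (C l) • W l := by
  have e := Fintype.equivFin α
  have h := easy (Fintype.card α) C W (r ∘ e.symm) (μ ∘ e.symm) (fun i => hr0 _)
    (hr.comp e.symm.injective) (fun i j hj => hvan _ j hj)
  rwa [show ∑ i, (μ ∘ e.symm) i = ∑ i, μ i from Equiv.sum_comp e.symm μ] at h


/-! ### The generic division function at a place of `M` -/

section Main

variable [Algebra.EssFiniteType K M]
variable {htr : Algebra.trdeg K F = 1} {n g m : ℕ} {Q₀ : Place K F} {E₀ : Finset (Place K F)}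

omit [Algebra.EssFiniteType K M] in
/-- The jets of the generic division function along any of its points. -/
theorem Data.jets' (d : Data htr M n g m Q₀ E₀) (x : Option (Fin g)) :
    ∃ b : F, b ≠ 0 ∧ ∀ i < mult n x, ∑ j, d.cM j * d.ρ x ((⇑d.δ)^[i] (b * d.v j)) = 0 := by
  cases x with
  | none =>
    refine ⟨1, one_ne_zero, fun i hi => ?_⟩
    have hi0 : i = 0 := by
      simp only [mult] at hi
      omega
    subst hi0
    simpa only [Function.iterate_zero, id_eq, one_mul] using d.generic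
  | some k => exact ⟨d.b₁, d.b₁_ne, d.jets k⟩

/-- The Hasse jets of the local series vanish at the expansion of `ρ x t`, for a point `x` with
centre `T`. -/
theorem jets_local (htrM : Algebra.trdeg K M = 1) (d : Data htr M n g m Q₀ E₀) (c : Place K M)
    (ϖ : M) (hϖ : c.ord ϖ = 1) (e : ℕ) (he : ∀ j, ϖ ^ e * d.cM j ∈ c.toValuationSubring)
    (T : Place K F) (t : F) (ht : T.ord t = 1) (x : Option (Fin g))
    (hx : IsCentre (d.ρ x) c T) :
    ∀ i < mult n x, ∑ j, tay htrM c ϖ hϖ (ϖ ^ e * d.cM j) *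
      (hasse i (tay htr T t ht (t ^ poleBound n Q₀ E₀ T * d.v j))).subst
        (tay htrM c ϖ hϖ (d.ρ x t)) = 0 := by
  obtain ⟨b, hb, hj⟩ := d.jets' x
  refine local_van htr htrM d.δ d.chain hx t ht ϖ hϖ (fun j => ϖ ^ e * d.cM j) he
    (fun j => t ^ poleBound n Q₀ E₀ T * d.v j) (fun j => pow_mul_mem T ht (d.v_mem j))
    (mult n x) ?_
  intro i hi
  have h1 := van_mul (d.ρ x) d.δ d.cM i (fun j => b * d.v j) (t ^ poleBound n Q₀ E₀ T / b)
    (fun l hl => hj l (by omega))
  have e1 : ∀ j, t ^ poleBound n Q₀ E₀ T / b * (b * d.v j) = t ^ poleBound n Q₀ E₀ T * d.v j := by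
    intro j
    field_simp
  simp only [e1] at h1
  calc ∑ j, ϖ ^ e * d.cM j * d.ρ x ((⇑d.δ)^[i] (t ^ poleBound n Q₀ E₀ T * d.v j))
      = ϖ ^ e * ∑ j, d.cM j * d.ρ x ((⇑d.δ)^[i] (t ^ poleBound n Q₀ E₀ T * d.v j)) := by
        rw [Finset.mul_sum]
        exact Finset.sum_congr rfl fun j _ => mul_assoc _ _ _
    _ = 0 := by rw [h1, mul_zero]

/-- The specialised function is non-zero. -/
theorem spec_ne_zero (htrM : Algebra.trdeg K M = 1) (d : Data htr M n g m Q₀ E₀) (c : Place K M)
    (ϖ : M) (hϖ : c.ord ϖ = 1) (e : ℕ) (he : ∀ j, ϖ ^ e * d.cM j ∈ c.toValuationSubring)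
    (he0 : ∃ j, d.cM j ≠ 0 ∧ c.ord (ϖ ^ e * d.cM j) = 0) :
    (∑ j, PowerSeries.constantCoeff (tay htrM c ϖ hϖ (ϖ ^ e * d.cM j)) • d.v j) ≠ 0 := by
  intro h0
  obtain ⟨j₀, hj₀, hord⟩ := he0
  have h1 := (Fintype.linearIndependent_iff.mp d.v_indep) _ h0 j₀
  rw [constantCoeff_tay_eq_zero_iff htrM c ϖ hϖ (he j₀)] at h1
  rcases h1 with h1 | h1
  · exact (mul_ne_zero (pow_ne_zero e (R.Taylor.unif_ne_zero c hϖ)) hj₀) h1
  · omega

omit [Algebra.EssFiniteType K M] in
theorem spec_mem (d : Data htr M n g m Q₀ E₀) (κ : Fin (m + 1) → K) :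
    (∑ j, κ j • d.v j) ∈ riemannRochSpace ((n : ℤ) • ∑ P ∈ E₀, Finsupp.single P (1 : ℤ) +
      Finsupp.single Q₀ 1) :=
  sum_mem fun j _ => Submodule.smul_mem _ _ (d.v_mem j)

omit [Algebra.EssFiniteType K M] in
/-- The expansion at `T` of the specialised function is the closed fibre of the local series. -/
theorem tay_spec (d : Data htr M n g m Q₀ E₀) (κ : Fin (m + 1) → K) (T : Place K F) (t : F)
    (ht : T.ord t = 1) :
    tay htr T t ht (t ^ poleBound n Q₀ E₀ T * ∑ j, κ j • d.v j) =
      ∑ j, κ j • tay htr T t ht (t ^ poleBound n Q₀ E₀ T * d.v j) := by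
  have hm : ∀ j, t ^ poleBound n Q₀ E₀ T * d.v j ∈ T.toValuationSubring := fun j =>
    pow_mul_mem T ht (d.v_mem j)
  have e1 : t ^ poleBound n Q₀ E₀ T * ∑ j, κ j • d.v j =
      ∑ j, κ j • (t ^ poleBound n Q₀ E₀ T * d.v j) := by
    rw [Finset.mul_sum]
    exact Finset.sum_congr rfl fun j _ => mul_smul_comm _ _ _
  rw [e1, tay_sum htr T t ht _ _ fun j _ => ?_]
  · exact Finset.sum_congr rfl fun j _ => tay_smul htr T t ht _ (hm j)
  · rw [Algebra.smul_def]
    exact mul_mem (T.algebraMap_mem' _) (hm j)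

open Classical in
/-- The easy half at a place `T`: the expansion of the specialised function vanishes to the
order `∑ mult x`, `x` running over the points with centre `T`. -/
theorem X_pow_dvd_tay_spec (easy : EasyHalf K (Fin (m + 1))) (htrM : Algebra.trdeg K M = 1)
    (d : Data htr M n g m Q₀ E₀) (c : Place K M) (cen : Option (Fin g) → Place K F)
    (hcen : ∀ x, IsCentre (d.ρ x) c (cen x)) (ϖ : M) (hϖ : c.ord ϖ = 1) (e : ℕ)
    (he : ∀ j, ϖ ^ e * d.cM j ∈ c.toValuationSubring) (T : Place K F) (t : F)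
    (ht : T.ord t = 1) :
    (PowerSeries.X : PowerSeries K) ^ (∑ x : {x : Option (Fin g) // cen x = T}, mult n x.1) ∣
      tay htr T t ht (t ^ poleBound n Q₀ E₀ T *
        ∑ j, PowerSeries.constantCoeff (tay htrM c ϖ hϖ (ϖ ^ e * d.cM j)) • d.v j) := by
  have hc : ∀ x : {x : Option (Fin g) // cen x = T}, IsCentre (d.ρ x.1) c T := fun x => by
    have h := hcen x.1
    rwa [x.2] at h
  rw [tay_spec d _ T t ht]
  exact easy.fintype (fun j => tay htrM c ϖ hϖ (ϖ ^ e * d.cM j))
    (fun j => tay htr T t ht (t ^ poleBound n Q₀ E₀ T * d.v j))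
    (fun x : {x : Option (Fin g) // cen x = T} => tay htrM c ϖ hϖ (d.ρ x.1 t))
    (fun x => mult n x.1)
    (fun x => (tay_map_eq_subst htr htrM (hc x) t ht ϖ hϖ).1)
    (fun x y hxy => Subtype.ext (d.ρ_inj (eq_of_tay_eq htr htrM (hc x) (hc y) t ht ϖ hϖ hxy)))
    (fun x i hi => jets_local htrM d c ϖ hϖ e he T t ht x.1 (hc x) i hi)

open Classical in
/-- The easy half in terms of orders. -/
theorem le_ord_spec (easy : EasyHalf K (Fin (m + 1))) (htrM : Algebra.trdeg K M = 1)
    (d : Data htr M n g m Q₀ E₀) (c : Place K M) (cen : Option (Fin g) → Place K F)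
    (hcen : ∀ x, IsCentre (d.ρ x) c (cen x)) (ϖ : M) (hϖ : c.ord ϖ = 1) (e : ℕ)
    (he : ∀ j, ϖ ^ e * d.cM j ∈ c.toValuationSubring)
    (hΨ : (∑ j, PowerSeries.constantCoeff (tay htrM c ϖ hϖ (ϖ ^ e * d.cM j)) • d.v j) ≠ 0)
    (T : Place K F) :
    ((∑ x : {x : Option (Fin g) // cen x = T}, mult n x.1 : ℕ) : ℤ) ≤
      poleBound n Q₀ E₀ T +
        T.ord (∑ j, PowerSeries.constantCoeff (tay htrM c ϖ hϖ (ϖ ^ e * d.cM j)) • d.v j) := by
  obtain ⟨t, ht⟩ := exists_unif T
  have h1 := X_pow_dvd_tay_spec easy htrM d c cen hcen ϖ hϖ e he T t ht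
  rw [X_pow_dvd_tay_iff htr T t ht (pow_mul_mem T ht (spec_mem d _))] at h1
  rcases h1 with h1 | h1
  · exact absurd h1 (mul_ne_zero (pow_ne_zero _ (R.Taylor.unif_ne_zero T ht)) hΨ)
  · rwa [ord_pow_mul T ht _ hΨ] at h1

end Main

section Final

variable [Algebra.EssFiniteType K M]

/-- **LOC3, global form** (with the easy half of LOC1 as a hypothesis).  The specialised function
at a place `c` of `M` is non-zero and its divisor is `P(c) + n ∑ R_k(c) - n E₀ - Q₀`. -/
theorem divOf_spec_of_easy (htr : Algebra.trdeg K F = 1) (htrM : Algebra.trdeg K M = 1)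
    {n g m : ℕ} {Q₀ : Place K F} {E₀ : Finset (Place K F)} (easy : EasyHalf K (Fin (m + 1)))
    (d : Data htr M n g m Q₀ E₀)
    (c : Place K M) (cen : Option (Fin g) → Place K F) (hcen : ∀ x, IsCentre (d.ρ x) c (cen x))
    (ϖ : M) (hϖ : c.ord ϖ = 1) (e : ℕ) (he : ∀ j, ϖ ^ e * d.cM j ∈ c.toValuationSubring)
    (he0 : ∃ j, d.cM j ≠ 0 ∧ c.ord (ϖ ^ e * d.cM j) = 0) :
    (∑ j, PowerSeries.constantCoeff (tay htrM c ϖ hϖ (ϖ ^ e * d.cM j)) • d.v j) ≠ 0 ∧
    R.divOf K (∑ j, PowerSeries.constantCoeff (tay htrM c ϖ hϖ (ϖ ^ e * d.cM j)) • d.v j) =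
      ∑ x : Option (Fin g), (mult n x : ℤ) • Finsupp.single (cen x) (1 : ℤ) -
        (n : ℤ) • ∑ P ∈ E₀, Finsupp.single P (1 : ℤ) - Finsupp.single Q₀ 1 := by
  classical
  have hΨ := spec_ne_zero htrM d c ϖ hϖ e he he0
  refine ⟨hΨ, ?_⟩
  have key : R.divOf K (∑ j, PowerSeries.constantCoeff (tay htrM c ϖ hϖ (ϖ ^ e * d.cM j)) • d.v j)
      - (∑ x : Option (Fin g), (mult n x : ℤ) • Finsupp.single (cen x) (1 : ℤ) -
        ((n : ℤ) • ∑ P ∈ E₀, Finsupp.single P (1 : ℤ) + Finsupp.single Q₀ 1)) = 0 := by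
    apply R.ReducedCore.eq_zero_of_nonneg_of_degree_eq_zero htr
    · rw [Finsupp.le_def]
      intro T
      have h1 := le_ord_spec easy htrM d c cen hcen ϖ hϖ e he hΨ T
      have h2 := zeroDiv_apply n cen T
      have h3 := poleDiv_apply n Q₀ E₀ T
      simp only [Finsupp.coe_zero, Pi.zero_apply, Finsupp.coe_sub, Pi.sub_apply]
      rw [R.divOf_apply htr, h2, h3]
      linarith
    · rw [map_sub, map_sub, R.degree_divOf htr, degree_zeroDiv htr, map_add, map_zsmul,
        D.Count.degree_sum_single htr, d.card_E₀, Divisor.degree_single,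
        Fermat.Agent.S24.FF.deg_eq_one htr]
      simp
      ring
  rw [sub_eq_zero] at key
  rw [key, sub_add_eq_sub_sub]


open Classical in
/-- The order at `T` of the specialised function. -/
theorem ord_spec_of_easy (htr : Algebra.trdeg K F = 1) (htrM : Algebra.trdeg K M = 1)
    {n g m : ℕ} {Q₀ : Place K F} {E₀ : Finset (Place K F)} (easy : EasyHalf K (Fin (m + 1)))
    (d : Data htr M n g m Q₀ E₀)
    (c : Place K M) (cen : Option (Fin g) → Place K F) (hcen : ∀ x, IsCentre (d.ρ x) c (cen x))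
    (ϖ : M) (hϖ : c.ord ϖ = 1) (e : ℕ) (he : ∀ j, ϖ ^ e * d.cM j ∈ c.toValuationSubring)
    (he0 : ∃ j, d.cM j ≠ 0 ∧ c.ord (ϖ ^ e * d.cM j) = 0) (T : Place K F) :
    (poleBound n Q₀ E₀ T : ℤ) +
        T.ord (∑ j, PowerSeries.constantCoeff (tay htrM c ϖ hϖ (ϖ ^ e * d.cM j)) • d.v j) =
      ((∑ x : {x : Option (Fin g) // cen x = T}, mult n x.1 : ℕ) : ℤ) := by
  obtain ⟨-, h⟩ := divOf_spec_of_easy htr htrM easy d c cen hcen ϖ hϖ e he he0
  have h1 := congrArg (fun D : Place K F →₀ ℤ => D T) h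
  simp only [Finsupp.coe_sub, Pi.sub_apply] at h1
  rw [R.divOf_apply htr, zeroDiv_apply] at h1
  have h3 := poleDiv_apply n Q₀ E₀ T
  rw [Finsupp.add_apply] at h3
  linarith

open Classical in
/-- **LOC3, local form** (with the easy half of LOC1 as a hypothesis).  At every place `T` of `F`
(uniformiser `t`) the local series `∑ j, C j (ϖ) * W j (t)` satisfies the hypotheses of the normal
form LOC1, with the zeros `r x`, `x` running over the points with centre `T`. -/
theorem loc1_hyps_of_easy (htr : Algebra.trdeg K F = 1) (htrM : Algebra.trdeg K M = 1)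
    {n g m : ℕ} {Q₀ : Place K F} {E₀ : Finset (Place K F)} (easy : EasyHalf K (Fin (m + 1)))
    (d : Data htr M n g m Q₀ E₀)
    (c : Place K M) (cen : Option (Fin g) → Place K F) (hcen : ∀ x, IsCentre (d.ρ x) c (cen x))
    (ϖ : M) (hϖ : c.ord ϖ = 1) (e : ℕ) (he : ∀ j, ϖ ^ e * d.cM j ∈ c.toValuationSubring)
    (he0 : ∃ j, d.cM j ≠ 0 ∧ c.ord (ϖ ^ e * d.cM j) = 0)
    (T : Place K F) (t : F) (ht : T.ord t = 1)
    (C W : Fin (m + 1) → PowerSeries K)
    (hC : ∀ j, C j = tay htrM c ϖ hϖ (ϖ ^ e * d.cM j))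
    (hW : ∀ j, W j = tay htr T t ht (t ^ poleBound n Q₀ E₀ T * d.v j))
    (r : {x : Option (Fin g) // cen x = T} → PowerSeries K)
    (hr : ∀ x, r x = tay htrM c ϖ hϖ (d.ρ x.1 t)) :
    (∀ j, t ^ poleBound n Q₀ E₀ T * d.v j ∈ T.toValuationSubring) ∧
    (∀ x : {x : Option (Fin g) // cen x = T}, d.ρ x.1 t ∈ c.toValuationSubring) ∧
    (∀ x, PowerSeries.constantCoeff (r x) = 0) ∧ Function.Injective r ∧
    (∀ x, ∀ i < mult n x.1, ∑ j, C j * (hasse i (W j)).subst (r x) = 0) ∧
    (∑ j, PowerSeries.constantCoeff (C j) • W j).order =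
      ((∑ x : {x : Option (Fin g) // cen x = T}, mult n x.1 : ℕ) : ℕ∞) := by
  have hc : ∀ x : {x : Option (Fin g) // cen x = T}, IsCentre (d.ρ x.1) c T := fun x => by
    have h := hcen x.1
    rwa [x.2] at h
  have hΨ := spec_ne_zero htrM d c ϖ hϖ e he he0
  obtain rfl : C = fun j => tay htrM c ϖ hϖ (ϖ ^ e * d.cM j) := funext hC
  obtain rfl : W = fun j => tay htr T t ht (t ^ poleBound n Q₀ E₀ T * d.v j) := funext hW
  obtain rfl : r = fun x => tay htrM c ϖ hϖ (d.ρ x.1 t) := funext hr
  refine ⟨fun j => pow_mul_mem T ht (d.v_mem j),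
    fun x => (hc x).map_mem (R.Taylor.unif_mem T ht),
    fun x => (tay_map_eq_subst htr htrM (hc x) t ht ϖ hϖ).1,
    fun x y hxy => Subtype.ext (d.ρ_inj (eq_of_tay_eq htr htrM (hc x) (hc y) t ht ϖ hϖ hxy)),
    fun x i hi => jets_local htrM d c ϖ hϖ e he T t ht x.1 (hc x) i hi, ?_⟩
  have h1 := tay_spec d (fun j => PowerSeries.constantCoeff (tay htrM c ϖ hϖ (ϖ ^ e * d.cM j)))
    T t ht
  rw [← h1, order_tay htr T t ht (pow_mul_mem T ht (spec_mem d _))
    (mul_ne_zero (pow_ne_zero _ (R.Taylor.unif_ne_zero T ht)) hΨ), ord_pow_mul T ht _ hΨ,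
    ord_spec_of_easy htr htrM easy d c cen hcen ϖ hϖ e he he0 T, Int.toNat_natCast]

end Final

end Curve

end Fermat.Agent.S17.HB.Loc3
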