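/-
PROGRAM MW (statement S17), strand HB (route beta), leaf CAR / DER: the chain rule in the shape
LOC3 consumes: every non-zero `K`-derivation `δ` of `F` satisfies `Loc3.ChainRule htr δ`
(with `η = (δ t)⁻¹` at a place `T` with uniformiser `t`).
-/
import Mathlib
import Fermat.Agent.S17.HB.CarChain
import Fermat.Agent.S17.HB.Loc3

set_option autoImplicit false

namespace Fermat.Agent.S17.HB.CarChainLoc3

open AlgebraicCurve

variable {K F : Type*} [Field K] [Field F] [Algebra K F]
variable [IsAlgClosed K] [CharZero K] [Algebra.EssFiniteType K F]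

/-- **CAR1 in the vocabulary of LOC3**: the chain rule at every place, integral form, for every
non-zero derivation. -/
theorem chainRule (htr : Algebra.trdeg K F = 1) {δ : Derivation K F F} (hδ : δ ≠ 0) :
    Loc3.ChainRule htr δ := by
  intro T t ht
  have hδt := CarDer.derivation_apply_unif_ne_zero htr hδ T ht
  refine ⟨(δ t)⁻¹, inv_ne_zero hδt, fun f hf => ?_⟩
  obtain ⟨hf', h⟩ := CarChain.chain_rule htr hδ T t ht f hf
  refine ⟨hf', ?_⟩
  rw [Loc3.tay, dif_pos hf', Loc3.tay, dif_pos hf, h]

omit [Algebra.EssFiniteType K F] in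
/-- The multiplier of the chain rule: `(δ t)⁻¹ * δ t = 1`. -/
theorem inv_mul_derivation_unif (htr : Algebra.trdeg K F = 1) {δ : Derivation K F F}
    (hδ : δ ≠ 0) (T : Place K F) {t : F} (ht : T.ord t = 1) : (δ t)⁻¹ * δ t = 1 :=
  inv_mul_cancel₀ (CarDer.derivation_apply_unif_ne_zero htr hδ T ht)

end Fermat.Agent.S17.HB.CarChainLoc3
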