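/-
PROGRAM MW (statement S17), strand HB (route beta), leaf CAR0a: GENERIC POSITION of the
non-special divisor `E₀` with respect to the base point `Q₀`, in the one-call shape of the
carrier, and the consumer form of the new clause.

The mathematics is strand R's leaf R22 (`R/GenericPos.lean`, `exists_generic_finset_sub`); this
file only packages it with `D.NonSpecialFinset.le_finrank`:

* `exists_generic_position`         : `D.NonSpecialFinset.exists_data` verbatim (the three
                                      hypotheses `hQ`, `hE`, `hdim` of `D.nonempty_setup` in one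
                                      call) plus, for every `P ∈ E₀`, `l(∑ E₀ - P + Q₀) = 1`;
* `eq_algebraMap_of_finrank_eq_one` : an effective `D` with `l(D) = 1` has `L(D) = K`;
* `eq_algebraMap_of_mem`            : the consumer form: a function of `L(∑ E₀ - P + Q₀)` is
                                      constant.
-/
import Mathlib
import Fermat.Agent.S17.R.GenericPos
import Fermat.Agent.S17.D.NonSpecialFinset

set_option autoImplicit false

namespace Fermat.Agent.S17.HB.CarPos

open AlgebraicCurve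

variable {K F : Type*} [Field K] [Field F] [Algebra K F]

/-- `∑ E₀ - P + Q₀` is `Q₀` plus the points of `E₀` other than `P`. -/
theorem sum_sub_add_eq_addPts [DecidableEq (Place K F)] (Q₀ : Place K F)
    {E₀ : Finset (Place K F)} {P : Place K F} (hP : P ∈ E₀) :
    ∑ v ∈ E₀, Finsupp.single v (1 : ℤ) - Finsupp.single P (1 : ℤ) + Finsupp.single Q₀ 1 =
      R.NonSpecialStep.addPts (Finsupp.single Q₀ (1 : ℤ)) (E₀.erase P) := by
  unfold R.NonSpecialStep.addPts
  rw [← Finset.add_sum_erase E₀ (fun v => Finsupp.single v (1 : ℤ)) hP]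
  abel

/-- For `P ∈ E₀` the divisor `∑ E₀ - P + Q₀` is effective. -/
theorem sum_sub_add_nonneg (Q₀ : Place K F) {E₀ : Finset (Place K F)} {P : Place K F}
    (hP : P ∈ E₀) :
    (0 : Divisor K F) ≤
      ∑ v ∈ E₀, Finsupp.single v (1 : ℤ) - Finsupp.single P (1 : ℤ) + Finsupp.single Q₀ 1 := by
  classical
  rw [sum_sub_add_eq_addPts Q₀ hP]
  exact (R.NonSpecialStep.single_one_nonneg Q₀).trans (R.NonSpecialStep.le_addPts _ _)

variable [IsAlgClosed K] [CharZero K] [Algebra.EssFiniteType K F]

/-- **CAR0a, generic position** (level-free): for `0 < n`, a base place `Q₀` and a finite set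
`S`, a Finset `E₀` of `gR` places, disjoint from `S`, not containing `Q₀`, with `l(∑ E₀) = 1`,
`(n - 1) * card E₀ + 2 ≤ l(n ∑ E₀ + Q₀)` and, for every `P ∈ E₀`, `l(∑ E₀ - P + Q₀) = 1`. -/
theorem exists_generic_position (htr : Algebra.trdeg K F = 1) (n : ℕ) (hn : 0 < n)
    (Q₀ : Place K F) (S : Finset (Place K F)) :
    ∃ E₀ : Finset (Place K F), E₀.card = R.gR K F ∧ Disjoint E₀ S ∧ Q₀ ∉ E₀ ∧
      Module.finrank K ↥(riemannRochSpace (∑ v ∈ E₀, Finsupp.single v (1 : ℤ))) = 1 ∧
      (n - 1) * E₀.card + 2 ≤ Module.finrank K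
        ↥(riemannRochSpace ((n : ℤ) • ∑ v ∈ E₀, Finsupp.single v (1 : ℤ) +
          Finsupp.single Q₀ 1)) ∧
      ∀ P ∈ E₀, Module.finrank K ↥(riemannRochSpace
        (∑ v ∈ E₀, Finsupp.single v (1 : ℤ) - Finsupp.single P (1 : ℤ) +
          Finsupp.single Q₀ 1)) = 1 := by
  obtain ⟨E₀, hcard, hdisj, hQ, hE, hgen⟩ := R.GenericPos.exists_generic_finset_sub htr Q₀ S
  exact ⟨E₀, hcard, hdisj, hQ, hE, D.NonSpecialFinset.le_finrank htr n hn Q₀ E₀ hcard, hgen⟩

/-- An effective divisor with `l(D) = 1` has only the constants in `L(D)`. -/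
theorem eq_algebraMap_of_finrank_eq_one (htr : Algebra.trdeg K F = 1) {D : Divisor K F}
    (hD : 0 ≤ D) (h1 : Module.finrank K ↥(riemannRochSpace D) = 1) {f : F}
    (hf : f ∈ riemannRochSpace D) : ∃ a : K, f = algebraMap K F a := by
  have hfin := R.finite_L htr D
  have hle : riemannRochSpace (0 : Divisor K F) ≤ riemannRochSpace D := R.L_mono hD
  have heq : riemannRochSpace (0 : Divisor K F) = riemannRochSpace D :=
    Submodule.eq_of_le_of_finrank_eq hle (by rw [R.NonSpecialStep.finrank_L_zero htr, h1])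
  rw [← heq, R.mem_L_zero_iff htr] at hf
  obtain ⟨a, ha⟩ := hf
  exact ⟨a, ha.symm⟩

/-- The consumer form of the last clause of `exists_generic_position`: a function of
`L(∑ E₀ - P + Q₀)` is constant. -/
theorem eq_algebraMap_of_mem (htr : Algebra.trdeg K F = 1) {Q₀ : Place K F}
    {E₀ : Finset (Place K F)} {P : Place K F} (hP : P ∈ E₀)
    (h1 : Module.finrank K ↥(riemannRochSpace
        (∑ v ∈ E₀, Finsupp.single v (1 : ℤ) - Finsupp.single P (1 : ℤ) +
          Finsupp.single Q₀ 1)) = 1) {f : F}
    (hf : f ∈ riemannRochSpace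
        (∑ v ∈ E₀, Finsupp.single v (1 : ℤ) - Finsupp.single P (1 : ℤ) +
          Finsupp.single Q₀ 1)) : ∃ a : K, f = algebraMap K F a :=
  eq_algebraMap_of_finrank_eq_one htr (sum_sub_add_nonneg Q₀ hP) h1 hf

end Fermat.Agent.S17.HB.CarPos
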