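/-
PROGRAM MW (statement S17), strand HB (route beta), leaf CAR.FIRST: the first order terms of the
formal solution of a `D.Setup`.

For a `D.Setup R n Q₀ E₀` whose divisor `E₀` is in generic position with respect to `Q₀`
(`l(∑ E₀ - P + Q₀) = 1` for every `P ∈ E₀`, the last clause of `CarPos.exists_generic_position`):

* the constant coefficient of `s.c j` vanishes for `j ≠ 0` (the function `∑ c_j(0) v_j` has no
  pole at `Q₀` by the `X⁻¹` term of `s.generic`, none at the points of `E₀` by the constant terms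
  of `s.jets`, hence it is constant, and `v` is linearly independent with `v 0 = 1`);
* the linear coefficient of every moving point `s.u k` is non-zero (the function
  `Ψ₁ := ∑ c_j'(0) v_j` has an exact simple pole at `Q₀` by the `X⁰` term of `s.generic` and at
  most simple poles at the points of `E₀` by the `X¹` terms of `s.jets`; if `u_k'(0) = 0` it is
  regular at the `k`-th point, so it lies in `L(∑ E₀ - E_k + Q₀) = K`: contradiction).

So no moving point of the carrier is constant.
-/
import Mathlib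
import Fermat.Agent.S17.D.Setup
import Fermat.Agent.S17.D.SubstEst
import Fermat.Agent.S17.HB.CarPos

set_option autoImplicit false

open AlgebraicCurve IsDedekindDomain

namespace Fermat.Agent.S17.HB.CarFirst

/-! ### Power series and Laurent series -/

section PS

variable {K : Type*} [Field K]

/-- The linear coefficient of a product. -/
theorem coeff_one_mul_eq (f g : PowerSeries K) :
    PowerSeries.coeff 1 (f * g) =
      PowerSeries.constantCoeff f * PowerSeries.coeff 1 g +
        PowerSeries.coeff 1 f * PowerSeries.constantCoeff g := by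
  rw [PowerSeries.coeff_mul, Finset.Nat.sum_antidiagonal_eq_sum_range_succ_mk,
    Finset.sum_range_succ, Finset.sum_range_one]
  simp

/-- The constant coefficient of `f (u)` for `u (0) = 0`. -/
theorem constantCoeff_subst_eq (f u : PowerSeries K) (hu : PowerSeries.constantCoeff u = 0) :
    PowerSeries.constantCoeff (f.subst u) = PowerSeries.constantCoeff f := by
  have h := D.SubstEst.dvd_subst_sub_C f (PowerSeries.X_dvd_iff.mpr hu)
  rw [PowerSeries.X_dvd_iff, map_sub, PowerSeries.constantCoeff_C, sub_eq_zero] at h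
  exact h

/-- The linear coefficient of `f (u)` for `u (0) = 0`: the chain rule at the origin. -/
theorem coeff_one_subst_eq (f u : PowerSeries K) (hu : PowerSeries.constantCoeff u = 0) :
    PowerSeries.coeff 1 (f.subst u) = PowerSeries.coeff 1 f * PowerSeries.coeff 1 u := by
  have hX : (PowerSeries.X : PowerSeries K) ∣ u := PowerSeries.X_dvd_iff.mpr hu
  rw [PowerSeries.coeff_subst' (D.SubstEst.hasSubst_of_X_dvd hX), finsum_eq_single _ 1]
  · rw [pow_one, smul_eq_mul]
  · intro d hd
    rcases Nat.lt_or_ge d 2 with h2 | h2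
    · have hd0 : d = 0 := by omega
      rw [hd0, pow_zero, PowerSeries.coeff_one, if_neg one_ne_zero, smul_zero]
    · have h1 : (PowerSeries.X : PowerSeries K) ^ 2 ∣ u ^ d :=
        (pow_dvd_pow_of_dvd hX 2).trans (pow_dvd_pow u h2)
      rw [PowerSeries.X_pow_dvd_iff.mp h1 1 (by norm_num), smul_zero]

/-- A power series has non-negative order inside the Laurent series. -/
theorem order_ofPowerSeries_nonneg (φ : PowerSeries K) :
    0 ≤ (HahnSeries.ofPowerSeries ℤ K φ).order := by
  by_contra h
  rw [not_le] at h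
  have h1 : (HahnSeries.ofPowerSeries ℤ K φ).coeff (HahnSeries.ofPowerSeries ℤ K φ).order = 0 := by
    rw [PowerSeries.coeff_coe, if_pos h]
  have h2 := HahnSeries.coeff_order_eq_zero.mp h1
  rw [h2, HahnSeries.order_zero] at h
  exact lt_irrefl _ h

/-- `X * y` is a power series when the Laurent series `y` has no term below degree `-1`. -/
theorem exists_ofPowerSeries_eq_single_mul (y : LaurentSeries K)
    (hy : ∀ i : ℤ, i < -1 → y.coeff i = 0) :
    ∃ p : PowerSeries K, HahnSeries.ofPowerSeries ℤ K p = HahnSeries.single 1 1 * y := by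
  refine ⟨PowerSeries.mk fun i => y.coeff ((i : ℤ) - 1), ?_⟩
  ext i
  have h1 : (HahnSeries.single (1 : ℤ) (1 : K) * y).coeff i = y.coeff (i - 1) := by
    have h2 := HahnSeries.coeff_single_mul_add (r := (1 : K)) (x := y) (a := i - 1) (b := (1 : ℤ))
    rw [sub_add_cancel, one_mul] at h2
    exact h2
  rw [h1, PowerSeries.coeff_coe]
  split_ifs with hi
  · exact (hy _ (by omega)).symm
  · rw [PowerSeries.coeff_mk]
    have h3 : ((i.natAbs : ℕ) : ℤ) - 1 = i - 1 := by omega
    rw [h3]

end PS

/-! ### The first order terms of a setup -/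

section Setup

variable {K F : Type*} [Field K] [Field F] [Algebra K F]
variable [IsAlgClosed K] [CharZero K] [Algebra.EssFiniteType K F]
variable {R : Type*} [CommRing R] [IsDedekindDomain R] [Algebra R F] [IsFractionRing R F]
  [Algebra K R] [IsScalarTower K R F]

/-- **CAR.FIRST**: in a setup over a divisor `E₀` in generic position with respect to `Q₀`, the
constant coefficients of the `c j`, `j ≠ 0`, vanish and the linear coefficient of every moving
point `u k` is non-zero. -/
theorem coeff_one_u_ne_zero (htr : Algebra.trdeg K F = 1) (n : ℕ) (hn : 0 < n)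
    (Q₀ : Place K F) (E₀ : Finset (Place K F)) (hQ : Q₀ ∉ E₀)
    (hR : ∀ v : Place K F, v ≠ Q₀ ↔
      ∃ w : HeightOneSpectrum R, Place.ofHeightOneSpectrum (K := K) (F := F) w = v)
    (hE : Module.finrank K ↥(riemannRochSpace (∑ v ∈ E₀, Finsupp.single v (1 : ℤ))) = 1)
    (hgen : ∀ P ∈ E₀, Module.finrank K ↥(riemannRochSpace
      (∑ v ∈ E₀, Finsupp.single v (1 : ℤ) - Finsupp.single P 1 + Finsupp.single Q₀ 1)) = 1)
    (s : D.Setup (K := K) (F := F) R n Q₀ E₀) :
    (∀ j, j ≠ 0 → PowerSeries.constantCoeff (s.c j) = 0) ∧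
      ∀ k, PowerSeries.coeff 1 (s.u k) ≠ 0 := by
  classical
  -- the constant and the linear coefficients of the `c j`
  set a : Fin (s.m + 1) → K := fun j => PowerSeries.constantCoeff (s.c j) with ha
  set a' : Fin (s.m + 1) → K := fun j => PowerSeries.coeff 1 (s.c j) with ha'
  have ha0 : a 0 = 1 := by
    show PowerSeries.constantCoeff (s.c 0) = 1
    rw [s.c_zero, map_one]
  have hinjR : Function.Injective (algebraMap R F) := IsFractionRing.injective R F
  have hb₁F : algebraMap R F s.b₁ ≠ 0 := fun h => s.b₁_ne (hinjR (h.trans (map_zero _).symm))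
  have hr0 : s.r 0 = s.b₁ := hinjR (by rw [s.r_spec 0, s.v_zero, mul_one])
  -- the values of the divisors
  have hD₀ : ∀ P : Place K F,
      (∑ v ∈ E₀, Finsupp.single v (1 : ℤ)) P = if P ∈ E₀ then 1 else 0 :=
    fun P => D.sum_single_one_apply E₀ P
  have hD₁ : ∀ P : Place K F,
      ((n : ℤ) • ∑ v ∈ E₀, Finsupp.single v (1 : ℤ) + Finsupp.single Q₀ 1 : Divisor K F) P
        = (if P ∈ E₀ then (n : ℤ) else 0) + (if P = Q₀ then 1 else 0) := by
    intro P
    rw [Finsupp.add_apply, Finsupp.smul_apply, hD₀ P, Finsupp.single_apply]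
    by_cases h1 : P ∈ E₀ <;> by_cases h2 : P = Q₀
    · simp [h2]
    · simp [h1, h2, Ne.symm h2]
    · simp [h2]
    · simp [h1, h2, Ne.symm h2]
  -- `K`-combinations of the `v j` stay in `L(n E₀ + Q₀)`
  have hbig : ∀ b : Fin (s.m + 1) → K, (∑ j, algebraMap K F (b j) * s.v j) ∈ riemannRochSpace
      ((n : ℤ) • ∑ P ∈ E₀, Finsupp.single P (1 : ℤ) + Finsupp.single Q₀ 1) := by
    intro b
    refine Submodule.sum_mem _ fun j _ => ?_
    rw [← Algebra.smul_def]
    exact Submodule.smul_mem _ _ (s.v_mem j)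
  -- the expansions of the `v j` at `Q₀`, multiplied by `X`
  have hvord : ∀ j, ∀ i : ℤ, i < -1 → (s.τL (s.v j)).coeff i = 0 := by
    intro j i hi
    rcases eq_or_ne (s.v j) 0 with h0 | h0
    · rw [h0, map_zero, HahnSeries.coeff_zero]
    · apply HahnSeries.coeff_eq_zero_of_lt_order
      rw [s.order_τL _ h0]
      have h1 := (Fermat.Agent.S17.R.mem_L_of_ne_zero h0).mp (s.v_mem j) Q₀
      rw [hD₁, if_neg hQ, if_pos rfl] at h1
      omega
  choose p hp using fun j => exists_ofPowerSeries_eq_single_mul (s.τL (s.v j)) (hvord j)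
  have hp0 : p 0 = PowerSeries.X := by
    apply HahnSeries.ofPowerSeries_injective (Γ := ℤ) (R := K)
    rw [hp 0, s.v_zero, map_one s.τL, mul_one, HahnSeries.ofPowerSeries_X]
  -- the generic equation as an identity of power series
  have hG : ∑ j, s.c j * p j = 0 := by
    apply HahnSeries.ofPowerSeries_injective (Γ := ℤ) (R := K)
    rw [map_sum, map_zero]
    have h1 : ∑ j, HahnSeries.ofPowerSeries ℤ K (s.c j * p j) =
        HahnSeries.single 1 1 * ∑ j, HahnSeries.ofPowerSeries ℤ K (s.c j) * s.τL (s.v j) := by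
      rw [Finset.mul_sum]
      refine Finset.sum_congr rfl fun j _ => ?_
      rw [map_mul, hp j]
      ring
    rw [h1, s.generic, mul_zero]
  have hG0 : ∑ j, a j * PowerSeries.constantCoeff (p j) = 0 := by
    have h1 := congrArg PowerSeries.constantCoeff hG
    rw [map_sum, map_zero] at h1
    rw [← h1]
    refine Finset.sum_congr rfl fun j _ => ?_
    rw [map_mul]
  have hG1 : ∑ j, (a j * PowerSeries.coeff 1 (p j) + a' j * PowerSeries.constantCoeff (p j))
      = 0 := by
    have h1 := congrArg (PowerSeries.coeff 1) hG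
    rw [map_sum, map_zero] at h1
    rw [← h1]
    refine Finset.sum_congr rfl fun j _ => ?_
    rw [coeff_one_mul_eq]
  -- the expansion at `Q₀` of a `K`-combination of the `v j`
  have hτL : ∀ b : Fin (s.m + 1) → K,
      HahnSeries.single 1 1 * s.τL (∑ j, algebraMap K F (b j) * s.v j)
        = HahnSeries.ofPowerSeries ℤ K (∑ j, PowerSeries.C (b j) * p j) := by
    intro b
    rw [map_sum, map_sum, Finset.mul_sum]
    refine Finset.sum_congr rfl fun j _ => ?_
    have h1 : algebraMap K (LaurentSeries K) (b j)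
        = HahnSeries.ofPowerSeries ℤ K (PowerSeries.C (b j)) := rfl
    rw [map_mul, map_mul, hp j, AlgHom.commutes, h1]
    ring
  -- no pole at `Q₀` when the `X⁻¹` coefficient vanishes
  have hQ₀ord : ∀ b : Fin (s.m + 1) → K, ∑ j, b j * PowerSeries.constantCoeff (p j) = 0 →
      (∑ j, algebraMap K F (b j) * s.v j) ≠ 0 →
      0 ≤ Q₀.ord (∑ j, algebraMap K F (b j) * s.v j) := by
    intro b hb hne
    have hX : (PowerSeries.X : PowerSeries K) ∣ ∑ j, PowerSeries.C (b j) * p j := by
      rw [PowerSeries.X_dvd_iff, map_sum, ← hb]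
      refine Finset.sum_congr rfl fun j _ => ?_
      rw [map_mul, PowerSeries.constantCoeff_C]
    obtain ⟨q, hq⟩ := hX
    have h1 : s.τL (∑ j, algebraMap K F (b j) * s.v j) = HahnSeries.ofPowerSeries ℤ K q := by
      have h2 := hτL b
      rw [hq, map_mul, HahnSeries.ofPowerSeries_X] at h2
      exact mul_left_cancel₀ (HahnSeries.single_ne_zero one_ne_zero) h2
    rw [← s.order_τL _ hne, h1]
    exact order_ofPowerSeries_nonneg q
  -- the order at the points of `E₀` from the Taylor coefficients
  have hEord : ∀ (b : Fin (s.m + 1) → K) (k : Fin s.g) (d : ℕ),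
      (∀ i < d, ∑ j, b j * PowerSeries.coeff i (s.τ k (s.r j)) = 0) →
      (∑ j, algebraMap K F (b j) * s.v j) ≠ 0 →
      (d : ℤ) - n ≤ (Place.ofHeightOneSpectrum (K := K) (F := F) (s.w k)).ord
        (∑ j, algebraMap K F (b j) * s.v j) := by
    intro b k d hb hne
    have hρF : algebraMap R F (∑ j, b j • s.r j)
        = algebraMap R F s.b₁ * ∑ j, algebraMap K F (b j) * s.v j := by
      rw [map_sum, Finset.mul_sum]
      refine Finset.sum_congr rfl fun j _ => ?_
      rw [Algebra.smul_def, map_mul, s.r_spec, ← IsScalarTower.algebraMap_apply K R F]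
      ring
    have hρ0 : (∑ j, b j • s.r j) ≠ 0 := by
      intro h0
      rw [h0, map_zero] at hρF
      exact (mul_ne_zero hb₁F hne) hρF.symm
    have hdvd : (PowerSeries.X : PowerSeries K) ^ d ∣ s.τ k (∑ j, b j • s.r j) := by
      rw [PowerSeries.X_pow_dvd_iff]
      intro i hi
      rw [map_sum, map_sum, ← hb i hi]
      refine Finset.sum_congr rfl fun j _ => ?_
      rw [map_smul, PowerSeries.coeff_smul, smul_eq_mul]
    have h1 := (s.τ_dvd k _ d hρ0).mp hdvd
    rw [hρF, Place.ord_mul _ hb₁F hne, s.ord_b₁ k] at h1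
    omega
  -- the constant terms of the jets
  have hJ0 : ∀ k, ∀ i < n, ∑ j, a j * PowerSeries.coeff i (s.τ k (s.r j)) = 0 := by
    intro k i hi
    have h1 := congrArg PowerSeries.constantCoeff (s.jets k i hi)
    rw [map_sum, map_zero] at h1
    rw [← h1]
    refine Finset.sum_congr rfl fun j _ => ?_
    rw [map_mul, constantCoeff_subst_eq _ _ (s.u_zero k), D.constantCoeff_hasse]
  -- `Ψ₀ = ∑ c_j(0) v_j` has no pole: it is constant
  have hΨ₀mem : (∑ j, algebraMap K F (a j) * s.v j) ∈ riemannRochSpace (0 : Divisor K F) := by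
    rw [Fermat.Agent.S17.R.mem_L_iff]
    by_cases h0 : (∑ j, algebraMap K F (a j) * s.v j) = 0
    · exact Or.inl h0
    refine Or.inr fun v => ?_
    rw [Finsupp.zero_apply, neg_zero]
    by_cases hvQ : v = Q₀
    · rw [hvQ]
      exact hQ₀ord a hG0 h0
    by_cases hvE : v ∈ E₀
    · obtain ⟨k, rfl⟩ := (s.mem_E₀ v).mp hvE
      have h1 := hEord a k n (hJ0 k) h0
      omega
    · have h1 := (Fermat.Agent.S17.R.mem_L_of_ne_zero h0).mp (hbig a) v
      rw [hD₁, if_neg hvE, if_neg hvQ] at h1
      omega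
  obtain ⟨lam, hlam⟩ := (Fermat.Agent.S17.R.mem_L_zero_iff htr).mp hΨ₀mem
  have hcoef := Fintype.linearIndependent_iff.mp s.v_indep
    (fun j => a j - if j = 0 then lam else 0) (by
      have h1 : ∀ j, (a j - if j = 0 then lam else 0) • s.v j
          = algebraMap K F (a j) * s.v j - if j = 0 then algebraMap K F lam else 0 := by
        intro j
        rw [sub_smul, Algebra.smul_def]
        split_ifs with hj
        · rw [hj, s.v_zero, Algebra.smul_def, mul_one, mul_one]
        · rw [zero_smul]
      rw [Finset.sum_congr rfl fun j _ => h1 j, Finset.sum_sub_distrib,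
        Finset.sum_ite_eq' Finset.univ (0 : Fin (s.m + 1)), if_pos (Finset.mem_univ _), hlam,
        sub_self])
  have hzero : ∀ j, j ≠ 0 → a j = 0 := by
    intro j hj
    have h1 := hcoef j
    rw [if_neg hj, sub_zero] at h1
    exact h1
  refine ⟨hzero, fun k hμ => ?_⟩
  -- the exact simple pole of `Ψ₁ = ∑ c_j'(0) v_j` at `Q₀`
  have hP₁ : PowerSeries.constantCoeff (∑ j, PowerSeries.C (a' j) * p j) = -1 := by
    have h2 : ∑ j, a j * PowerSeries.coeff 1 (p j) = 1 := by
      rw [Finset.sum_eq_single 0]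
      · rw [ha0, one_mul, hp0, PowerSeries.coeff_one_X]
      · intro j _ hj
        rw [hzero j hj, zero_mul]
      · intro h
        exact absurd (Finset.mem_univ _) h
    have h3 := hG1
    rw [Finset.sum_add_distrib, h2] at h3
    rw [map_sum]
    have h4 : ∑ j, PowerSeries.constantCoeff (PowerSeries.C (a' j) * p j)
        = ∑ j, a' j * PowerSeries.constantCoeff (p j) := by
      refine Finset.sum_congr rfl fun j _ => ?_
      rw [map_mul, PowerSeries.constantCoeff_C]
    rw [h4]
    linear_combination h3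
  have hnotconst : ∀ e : K, (∑ j, algebraMap K F (a' j) * s.v j) ≠ algebraMap K F e := by
    intro e he
    have h1 := hτL a'
    have h2 : algebraMap K (LaurentSeries K) e
        = HahnSeries.ofPowerSeries ℤ K (PowerSeries.C e) := rfl
    rw [he, AlgHom.commutes, h2, ← HahnSeries.ofPowerSeries_X, ← map_mul] at h1
    have h3 := congrArg PowerSeries.constantCoeff
      (HahnSeries.ofPowerSeries_injective (Γ := ℤ) (R := K) h1)
    rw [hP₁, map_mul, PowerSeries.constantCoeff_X, zero_mul] at h3
    exact one_ne_zero (neg_eq_zero.mp h3.symm)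
  -- the linear terms of the jets
  have hJ1 : ∀ k' : Fin s.g, ∀ i < n,
      PowerSeries.coeff 1 (D.hasse i (s.τ k' s.b₁)) * PowerSeries.coeff 1 (s.u k')
        + ∑ j, a' j * PowerSeries.coeff i (s.τ k' (s.r j)) = 0 := by
    intro k' i hi
    have h1 := congrArg (PowerSeries.coeff 1) (s.jets k' i hi)
    rw [map_sum, map_zero] at h1
    have h2 : ∀ j, PowerSeries.coeff 1 (s.c j * (D.hasse i (s.τ k' (s.r j))).subst (s.u k'))
        = a j * (PowerSeries.coeff 1 (D.hasse i (s.τ k' (s.r j))) * PowerSeries.coeff 1 (s.u k'))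
          + a' j * PowerSeries.coeff i (s.τ k' (s.r j)) := by
      intro j
      rw [coeff_one_mul_eq, coeff_one_subst_eq _ _ (s.u_zero k'),
        constantCoeff_subst_eq _ _ (s.u_zero k'), D.constantCoeff_hasse]
    rw [Finset.sum_congr rfl fun j _ => h2 j, Finset.sum_add_distrib] at h1
    rw [← h1]
    congr 1
    rw [Finset.sum_eq_single 0]
    · rw [ha0, one_mul, hr0]
    · intro j _ hj
      rw [hzero j hj, zero_mul]
    · intro h
      exact absurd (Finset.mem_univ _) h
  have hb₁dvd : ∀ k' : Fin s.g, (PowerSeries.X : PowerSeries K) ^ n ∣ s.τ k' s.b₁ := fun k' =>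
    (s.τ_dvd k' s.b₁ n s.b₁_ne).mpr (by rw [s.ord_b₁ k'])
  have hJ1' : ∀ k' : Fin s.g, ∀ i, i < n - 1 →
      ∑ j, a' j * PowerSeries.coeff i (s.τ k' (s.r j)) = 0 := by
    intro k' i hi
    have h1 := hJ1 k' i (by omega)
    rw [D.coeff_hasse, PowerSeries.X_pow_dvd_iff.mp (hb₁dvd k') (1 + i) (by omega), mul_zero,
      zero_mul, zero_add] at h1
    exact h1
  have hJ1k : ∀ i < n, ∑ j, a' j * PowerSeries.coeff i (s.τ k (s.r j)) = 0 := by
    intro i hi
    have h1 := hJ1 k i hi
    rw [hμ, mul_zero, zero_add] at h1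
    exact h1
  -- `Ψ₁` lies in `L(∑ E₀ - E_k + Q₀)`
  have hPmem : Place.ofHeightOneSpectrum (K := K) (F := F) (s.w k) ∈ E₀ :=
    (s.mem_E₀ _).mpr ⟨k, rfl⟩
  have hPQ : Place.ofHeightOneSpectrum (K := K) (F := F) (s.w k) ≠ Q₀ := fun h => hQ (h ▸ hPmem)
  have hΨ₁mem : (∑ j, algebraMap K F (a' j) * s.v j) ∈ riemannRochSpace
      (∑ v ∈ E₀, Finsupp.single v (1 : ℤ)
        - Finsupp.single (Place.ofHeightOneSpectrum (K := K) (F := F) (s.w k)) 1
        + Finsupp.single Q₀ 1) := by
    rw [Fermat.Agent.S17.R.mem_L_iff]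
    by_cases h0 : (∑ j, algebraMap K F (a' j) * s.v j) = 0
    · exact Or.inl h0
    refine Or.inr fun v => ?_
    have hbigv := (Fermat.Agent.S17.R.mem_L_of_ne_zero h0).mp (hbig a') v
    rw [hD₁] at hbigv
    rw [Finsupp.add_apply, Finsupp.sub_apply, hD₀ v, Finsupp.single_apply, Finsupp.single_apply]
    by_cases hvQ : v = Q₀
    · rw [hvQ] at hbigv ⊢
      rw [if_neg hQ, if_pos rfl] at hbigv
      rw [if_neg hQ, if_neg hPQ, if_pos rfl]
      omega
    by_cases hvP : v = Place.ofHeightOneSpectrum (K := K) (F := F) (s.w k)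
    · rw [hvP]
      rw [if_pos hPmem, if_pos rfl, if_neg (Ne.symm hPQ)]
      have h1 := hEord a' k n hJ1k h0
      omega
    by_cases hvE : v ∈ E₀
    · obtain ⟨k', rfl⟩ := (s.mem_E₀ v).mp hvE
      rw [if_pos hvE, if_neg (Ne.symm hvP), if_neg (Ne.symm hvQ)]
      have h1 := hEord a' k' (n - 1) (hJ1' k') h0
      omega
    · rw [if_neg hvE, if_neg (Ne.symm hvP), if_neg (Ne.symm hvQ)]
      rw [if_neg hvE, if_neg hvQ] at hbigv
      omega
  obtain ⟨e, he⟩ := CarPos.eq_algebraMap_of_mem htr hPmem (hgen _ hPmem) hΨ₁mem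
  exact hnotconst e he

end Setup

end Fermat.Agent.S17.HB.CarFirst
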