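/-
MW strand HB (route beta), leaf CAR, two Mathlib-only lemmas.

* `exists_leading`: a non-zero vector `x` of Laurent series has a non-zero "leading" vector `y`
  of constants such that every linear relation `∑ a j * x j = 0` with power series coefficients
  specialises to `∑ a j (0) * y j = 0`.
* `jets_transfer`: vanishing of the jets of order `< n` of the family `b * v j` for a derivation
  `δ'` gives the vanishing of the jets of order `< n` of the family `v j` for every multiple
  `δ = h • δ'` (`b ≠ 0`).
-/
import Mathlib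

set_option autoImplicit false

namespace Fermat.Agent.S17.HB.CarLin

/-! ### The leading vector of a vector of Laurent series -/

section Leading

variable {K : Type*} [Field K]

/-- The coefficient at `N` of a product `A * X` of Laurent series, when `A` has no negative
coefficients and `X` no coefficient below `N`. -/
theorem coeff_mul_of_bounds (A X : LaurentSeries K) (N : ℤ) (hA : ∀ p : ℤ, p < 0 → A.coeff p = 0)
    (hX : ∀ q : ℤ, q < N → X.coeff q = 0) : (A * X).coeff N = A.coeff 0 * X.coeff N := by
  rw [HahnSeries.coeff_mul]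
  rw [Finset.sum_eq_single ((0 : ℤ), N)]
  · rintro ⟨p, q⟩ hpq hne
    rw [Finset.mem_antidiagonal] at hpq
    obtain ⟨-, -, hsum⟩ := hpq
    simp only at hsum ⊢
    rcases lt_trichotomy p 0 with hp | hp | hp
    · rw [hA p hp, zero_mul]
    · exfalso
      apply hne
      rw [Prod.mk.injEq]
      exact ⟨hp, by omega⟩
    · rw [hX q (by omega), mul_zero]
  · intro hnot
    rw [Finset.mem_antidiagonal] at hnot
    by_contra hne
    apply hnot
    refine ⟨?_, ?_, zero_add N⟩
    · exact (HahnSeries.mem_support _ _).mpr (left_ne_zero_of_mul hne)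
    · exact (HahnSeries.mem_support _ _).mpr (right_ne_zero_of_mul hne)

theorem exists_leading {K : Type*} [Field K] {κ : Type*} [Fintype κ] (x : κ → LaurentSeries K)
    (hx : x ≠ 0) : ∃ y : κ → K, y ≠ 0 ∧ ∀ a : κ → PowerSeries K,
      ∑ j, HahnSeries.ofPowerSeries ℤ K (a j) * x j = 0 →
        ∑ j, PowerSeries.constantCoeff (a j) * y j = 0 := by
  classical
  have hne : (Finset.univ.filter fun j => x j ≠ 0).Nonempty := by
    by_contra hemp
    apply hx
    funext j
    by_contra hj
    exact hemp ⟨j, Finset.mem_filter.mpr ⟨Finset.mem_univ j, hj⟩⟩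
  obtain ⟨j₀, hj₀, hmin⟩ := Finset.exists_min_image _ (fun j => (x j).order) hne
  have hj₀' : x j₀ ≠ 0 := (Finset.mem_filter.mp hj₀).2
  have hlow : ∀ j, ∀ q : ℤ, q < (x j₀).order → (x j).coeff q = 0 := by
    intro j q hq
    by_cases hj : x j = 0
    · rw [hj, HahnSeries.coeff_zero]
    · have h1 := hmin j (Finset.mem_filter.mpr ⟨Finset.mem_univ j, hj⟩)
      exact HahnSeries.coeff_eq_zero_of_lt_order (lt_of_lt_of_le hq h1)
  refine ⟨fun j => (x j).coeff (x j₀).order, ?_, fun a ha => ?_⟩
  · intro h0
    have h1 := congrFun h0 j₀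
    simp only [Pi.zero_apply] at h1
    exact hj₀' (HahnSeries.coeff_order_eq_zero.mp h1)
  · have h1 := congrArg (fun s : LaurentSeries K => s.coeff (x j₀).order) ha
    simp only [HahnSeries.coeff_sum, HahnSeries.coeff_zero] at h1
    rw [← h1]
    refine Finset.sum_congr rfl fun j _ => ?_
    rw [coeff_mul_of_bounds _ _ _ (fun p hp => ?_) (hlow j)]
    · congr 1
      have h2 := PowerSeries.coeff_coe (a j) (0 : ℤ)
      rw [if_neg (lt_irrefl 0)] at h2
      rw [h2]
      simp
    · have h2 := PowerSeries.coeff_coe (a j) p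
      rw [if_pos hp] at h2
      exact h2

end Leading

/-! ### Transfer of jets along a change of derivation and of multiplier -/

section Jets

variable {K F L : Type*} [Field K] [Field F] [Algebra K F] [Field L]

/-- Iterates of a derivation are additive. -/
theorem iterate_add (d : Derivation K F F) (i : ℕ) (x y : F) :
    (⇑d)^[i] (x + y) = (⇑d)^[i] x + (⇑d)^[i] y := by
  induction i generalizing x y with
  | zero => rfl
  | succ i ih =>
    rw [Function.iterate_succ_apply, Function.iterate_succ_apply, Function.iterate_succ_apply,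
      map_add, ih]

variable {ι : Type*} [Fintype ι]

/-- The jets of order `< m` of the family `w` vanish. -/
def Jets (d : F → F) (ρ : F →+* L) (c : ι → L) (m : ℕ) (w : ι → F) : Prop :=
  ∀ i < m, ∑ j, c j * ρ (d^[i] (w j)) = 0

theorem Jets.mono {d : F → F} {ρ : F →+* L} {c : ι → L} {m : ℕ} {w : ι → F}
    (h : Jets d ρ c (m + 1) w) : Jets d ρ c m w := fun i hi => h i (Nat.lt_succ_of_lt hi)

theorem Jets.shift {d : F → F} {ρ : F →+* L} {c : ι → L} {m : ℕ} {w : ι → F}
    (h : Jets d ρ c (m + 1) w) : Jets d ρ c m (fun j => d (w j)) := by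
  intro i hi
  have h1 := h (i + 1) (Nat.succ_lt_succ hi)
  simpa only [Function.iterate_succ_apply] using h1

/-- Vanishing jets are stable under multiplication of the family by a function. -/
theorem Jets.mul_left (d : Derivation K F F) (ρ : F →+* L) (c : ι → L) :
    ∀ (m : ℕ) (w : ι → F) (a : F), Jets (⇑d) ρ c m w → Jets (⇑d) ρ c m (fun j => a * w j) := by
  intro m
  induction m with
  | zero => intro w a _ i hi; exact absurd hi (Nat.not_lt_zero i)
  | succ m ih =>
    intro w a h i hi
    rcases Nat.eq_zero_or_pos i with rfl | hpos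
    · have h0 := h 0 (Nat.succ_pos m)
      simp only [Function.iterate_zero, id_eq] at h0 ⊢
      have e : ∑ j, c j * ρ (a * w j) = ρ a * ∑ j, c j * ρ (w j) := by
        rw [Finset.mul_sum]
        refine Finset.sum_congr rfl fun j _ => ?_
        rw [map_mul]
        ring
      rw [e, h0, mul_zero]
    · obtain ⟨i', rfl⟩ := Nat.exists_eq_succ_of_ne_zero (Nat.pos_iff_ne_zero.mp hpos)
      have hi' : i' < m := Nat.lt_of_succ_lt_succ hi
      have h1 := ih w (d a) h.mono i' hi'
      have h2 := ih (fun j => d (w j)) a h.shift i' hi'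
      have e : ∀ j, (⇑d)^[i' + 1] (a * w j)
          = (⇑d)^[i'] (d a * w j) + (⇑d)^[i'] (a * d (w j)) := by
        intro j
        rw [Function.iterate_succ_apply, d.leibniz, smul_eq_mul, smul_eq_mul, iterate_add,
          add_comm, mul_comm (w j) (d a)]
      simp only [e, map_add, mul_add, Finset.sum_add_distrib]
      rw [h1, h2, add_zero]

/-- Vanishing jets for `δ'` give vanishing jets for every multiple `δ = h • δ'`. -/
theorem Jets.change (δ δ' : Derivation K F F) (h : F) (hδ : ∀ f, δ f = h * δ' f) (ρ : F →+* L)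
    (c : ι → L) : ∀ (m : ℕ) (w : ι → F), Jets (⇑δ') ρ c m w → Jets (⇑δ) ρ c m w := by
  intro m
  induction m with
  | zero => intro w _ i hi; exact absurd hi (Nat.not_lt_zero i)
  | succ m ih =>
    intro w hw i hi
    rcases Nat.eq_zero_or_pos i with rfl | hpos
    · exact hw 0 (Nat.succ_pos m)
    · obtain ⟨i', rfl⟩ := Nat.exists_eq_succ_of_ne_zero (Nat.pos_iff_ne_zero.mp hpos)
      have hi' : i' < m := Nat.lt_of_succ_lt_succ hi
      have h1 : Jets (⇑δ') ρ c m (fun j => h * δ' (w j)) :=
        Jets.mul_left δ' ρ c m (fun j => δ' (w j)) h hw.shift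
      have h2 := ih (fun j => h * δ' (w j)) h1 i' hi'
      simpa only [Function.iterate_succ_apply, hδ] using h2

theorem jets_transfer {K F L : Type*} [Field K] [Field F] [Algebra K F] [Field L]
    (δ δ' : Derivation K F F) (h : F) (hδ : ∀ f, δ f = h * δ' f) (ρ : F →+* L) (b : F)
    (hb : b ≠ 0) {ι : Type*} [Fintype ι] (c : ι → L) (v : ι → F) (n : ℕ)
    (hjets : ∀ i < n, ∑ j, c j * ρ ((⇑δ')^[i] (b * v j)) = 0) :
    ∀ i < n, ∑ j, c j * ρ ((⇑δ)^[i] (v j)) = 0 := by
  have h1 : Jets (⇑δ') ρ c n (fun j => b * v j) := hjets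
  have h2 : Jets (⇑δ') ρ c n (fun j => b⁻¹ * (b * v j)) :=
    Jets.mul_left δ' ρ c n (fun j => b * v j) b⁻¹ h1
  have h3 : (fun j => b⁻¹ * (b * v j)) = v := by
    funext j
    rw [← mul_assoc, inv_mul_cancel₀ hb, one_mul]
  rw [h3] at h2
  exact Jets.change δ δ' h hδ ρ c n v h2

end Jets

end Fermat.Agent.S17.HB.CarLin
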