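import Mathlib
import Fermat.Agent.S17.D.SetupDef
import Fermat.Agent.S17.D.SpecJets
import Fermat.Agent.S17.D.TaylorL

/-!
# Program MW (statement S17), strand HB (route beta), leaf CAR: the moving embeddings

For a setup `s` of strand D (`D.Setup R n Q₀ E₀`) and a base point `k` this file builds, inside
the Laurent series `K⸨s⸩`:

* `tauT s k : F →ₐ[K] K⸨X⸩`, the Laurent expansion at the `k`-th base point (the extension of the
  Taylor map `s.τ k` of the model to the function field);
* `rho s k hu : F →ₐ[K] K⸨X⸩` (for `hu : s.u k ≠ 0`), the `k`-th moving point: the expansion at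
  the base point followed by the substitution `X ↦ s.u k`;
* `rho_eq_of_tauT_eq` : if the expansion of `f` is the power series `p`, the moving point takes
  `f` to `p (u k)`.
-/

set_option autoImplicit false

namespace Fermat.Agent.S17.HB.CarRho

open AlgebraicCurve IsDedekindDomain PowerSeries
open Fermat.Agent.S17.D (Setup)
open Fermat.Agent.S17.D.SpecJets (ofPS ofPS_apply constantCoeff_subst_eq)

section PS

variable {K : Type*} [Field K]

theorem hasSubst_of_zero {u : PowerSeries K} (hu : constantCoeff u = 0) : HasSubst u :=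
  HasSubst.of_constantCoeff_zero' hu

/-- Substitution of a non-zero series without constant term kills no non-zero series. -/
theorem subst_ne_zero {u : PowerSeries K} (hu : constantCoeff u = 0) (hu0 : u ≠ 0)
    {f : PowerSeries K} (hf : f ≠ 0) : f.subst u ≠ 0 := by
  have hs := hasSubst_of_zero hu
  have h1 : X ^ f.order.toNat * divXPowOrder f = f := X_pow_order_mul_divXPowOrder
  intro h0
  rw [← h1, subst_mul hs, subst_pow hs, subst_X hs] at h0
  rcases mul_eq_zero.mp h0 with h | h
  · exact hu0 (eq_zero_of_pow_eq_zero h)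
  · have h2 := constantCoeff_subst_eq (divXPowOrder f) u hu
    rw [h, map_zero] at h2
    exact hf (constantCoeff_divXPowOrder_eq_zero_iff.mp h2.symm)

/-- The substitution `X ↦ u` as a `K`-algebra map. -/
noncomputable def substHom (u : PowerSeries K) (hu : constantCoeff u = 0) :
    PowerSeries K →ₐ[K] PowerSeries K :=
  substAlgHom (hasSubst_of_zero hu)

theorem substHom_apply (u : PowerSeries K) (hu : constantCoeff u = 0) (f : PowerSeries K) :
    substHom u hu f = f.subst u := by
  rw [substHom, coe_substAlgHom]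

end PS

section Setup

variable {K F : Type*} [Field K] [Field F] [Algebra K F]
variable {R : Type*} [CommRing R] [IsDedekindDomain R] [Algebra R F] [IsFractionRing R F]
  [Algebra K R] [IsScalarTower K R F]
variable {n : ℕ} {Q₀ : Place K F} {E₀ : Finset (Place K F)}

/-- The Taylor maps of a setup are injective. -/
theorem τ_ne_zero (s : Setup (K := K) (F := F) R n Q₀ E₀) (k : Fin s.g) {b : R} (hb : b ≠ 0) :
    s.τ k b ≠ 0 := by
  intro h0
  have h1 := (s.τ_dvd k b
    ((Place.ofHeightOneSpectrum (K := K) (F := F) (s.w k)).ord (algebraMap R F b)).toNat.succ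
    hb).mp (by rw [h0]; exact dvd_zero _)
  have h2 := Int.self_le_toNat
    ((Place.ofHeightOneSpectrum (K := K) (F := F) (s.w k)).ord (algebraMap R F b))
  push_cast at h1
  omega

/-- The expansion at the `k`-th base point, on the model. -/
noncomputable def tauR (s : Setup (K := K) (F := F) R n Q₀ E₀) (k : Fin s.g) :
    R →ₐ[K] LaurentSeries K :=
  (ofPS (K := K)).comp (s.τ k)

theorem tauR_apply (s : Setup (K := K) (F := F) R n Q₀ E₀) (k : Fin s.g) (b : R) :
    tauR s k b = HahnSeries.ofPowerSeries ℤ K (s.τ k b) := rfl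

theorem tauR_injective (s : Setup (K := K) (F := F) R n Q₀ E₀) (k : Fin s.g) :
    Function.Injective (tauR s k) := by
  rw [injective_iff_map_eq_zero]
  intro b hb
  by_contra hb0
  rw [tauR_apply] at hb
  exact τ_ne_zero s k hb0 (HahnSeries.ofPowerSeries_injective (hb.trans (map_zero _).symm))

/-- The Laurent expansion at the `k`-th base point, on the function field. -/
noncomputable def tauT (s : Setup (K := K) (F := F) R n Q₀ E₀) (k : Fin s.g) :
    F →ₐ[K] LaurentSeries K :=
  IsFractionRing.liftAlgHom (g := tauR s k) (tauR_injective s k)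

theorem tauT_algebraMap (s : Setup (K := K) (F := F) R n Q₀ E₀) (k : Fin s.g) (b : R) :
    tauT s k (algebraMap R F b) = HahnSeries.ofPowerSeries ℤ K (s.τ k b) := by
  rw [tauT, IsFractionRing.liftAlgHom_apply, IsFractionRing.lift_algebraMap]
  rfl

/-- The `k`-th moving point, on the model. -/
noncomputable def rhoR (s : Setup (K := K) (F := F) R n Q₀ E₀) (k : Fin s.g) :
    R →ₐ[K] LaurentSeries K :=
  (ofPS (K := K)).comp ((substHom (s.u k) (s.u_zero k)).comp (s.τ k))

theorem rhoR_apply (s : Setup (K := K) (F := F) R n Q₀ E₀) (k : Fin s.g) (b : R) :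
    rhoR s k b = HahnSeries.ofPowerSeries ℤ K ((s.τ k b).subst (s.u k)) := by
  show ofPS (substHom (s.u k) (s.u_zero k) (s.τ k b)) = _
  rw [substHom_apply, ofPS_apply]

theorem rhoR_injective (s : Setup (K := K) (F := F) R n Q₀ E₀) (k : Fin s.g)
    (hu : s.u k ≠ 0) : Function.Injective (rhoR s k) := by
  rw [injective_iff_map_eq_zero]
  intro b hb
  by_contra hb0
  rw [rhoR_apply] at hb
  exact subst_ne_zero (s.u_zero k) hu (τ_ne_zero s k hb0)
    (HahnSeries.ofPowerSeries_injective (hb.trans (map_zero _).symm))

/-- The `k`-th moving point: the expansion at the base point followed by `X ↦ u k`. -/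
noncomputable def rho (s : Setup (K := K) (F := F) R n Q₀ E₀) (k : Fin s.g) (hu : s.u k ≠ 0) :
    F →ₐ[K] LaurentSeries K :=
  IsFractionRing.liftAlgHom (g := rhoR s k) (rhoR_injective s k hu)

theorem rho_algebraMap (s : Setup (K := K) (F := F) R n Q₀ E₀) (k : Fin s.g) (hu : s.u k ≠ 0)
    (b : R) :
    rho s k hu (algebraMap R F b) = HahnSeries.ofPowerSeries ℤ K ((s.τ k b).subst (s.u k)) := by
  rw [rho, IsFractionRing.liftAlgHom_apply, IsFractionRing.lift_algebraMap]
  exact rhoR_apply s k b

/-- If the expansion of `f` at the base point is a power series `p`, the moving point takes `f`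
to `p (u k)`. -/
theorem rho_eq_of_tauT_eq (s : Setup (K := K) (F := F) R n Q₀ E₀) (k : Fin s.g)
    (hu : s.u k ≠ 0) (f : F) (p : PowerSeries K)
    (h : tauT s k f = HahnSeries.ofPowerSeries ℤ K p) :
    rho s k hu f = HahnSeries.ofPowerSeries ℤ K (p.subst (s.u k)) := by
  obtain ⟨a, b, hb, rfl⟩ := IsFractionRing.div_surjective (A := R) f
  have hb0 : algebraMap R F b ≠ 0 :=
    (map_ne_zero_iff _ (IsFractionRing.injective R F)).mpr (nonZeroDivisors.ne_zero hb)
  have hs := hasSubst_of_zero (s.u_zero k)
  have h1 : s.τ k a = p * s.τ k b := by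
    apply HahnSeries.ofPowerSeries_injective (Γ := ℤ)
    rw [(HahnSeries.ofPowerSeries ℤ K).map_mul, ← h, ← tauT_algebraMap, ← tauT_algebraMap,
      ← map_mul, div_mul_cancel₀ _ hb0]
  have h2 : rho s k hu (algebraMap R F b) ≠ 0 :=
    (map_ne_zero_iff _ (rho s k hu).toRingHom.injective).mpr hb0
  rw [map_div₀, div_eq_iff h2, rho_algebraMap, rho_algebraMap, h1, subst_mul hs,
    (HahnSeries.ofPowerSeries ℤ K).map_mul]

end Setup

end Fermat.Agent.S17.HB.CarRho
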