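/-
MW strand HB (route beta, the division route): the contract of the strand, with its leaves
B3 (Northcott) and B6 (assembly) proved.

`Hpl` is a height on the places of `Fb N` (for the strand: the height of the value of `j`).
The height of a class `x` of `JZero N` is the height of its reduced divisor (base place: the
cusp at infinity), `clH N Hpl x = sum of n_P * Hpl P over redDivInf N x`.

The two inputs of the strand are Props of this file:

* `RedBound N Hpl` (B4): `clH (x + y) ≤ A * (clH x + clH y) + C` with ONE pair of constants;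
* `DivPt N Hpl` (B5): there is `κ` such that for arbitrarily large primes `l` every point class
  `ptCls N P = [P - ∞]`, `P` outside a finite set, is `l • z` with
  `clH z ≤ κ / l ^ 2 * Hpl P + C_l`.

Proved here:

* `contraction_abs` (B6, abstract, Mathlib only): the contraction
  `H x ≤ A ^ (g + 1) * κ * H (l • x) + c₀`;
* `northcott` (B3): finitely many points of `MW N` of bounded `clH`, from the bounded-orbit
  Northcott property of `Hpl` (`OrbitNorthcott N Hpl`);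
* `heightDescent_of_chain` (B6): `RedBound`, `DivPt`, `OrbitNorthcott`, divisibility and the
  finiteness of the torsion give the contract's `HeightDescent N`.
-/
import Mathlib
import Fermat.Agent.S17.Contract
import Fermat.Agent.S17.R.FbReduced
import Fermat.Agent.S17.R.Move
import Fermat.Agent.S17.R.NonSpecialStep
import Fermat.Agent.S17.H.Pos.SpecialNorthcott

set_option autoImplicit false

namespace Fermat.Agent.S17.HB.Contract

open AlgebraicCurve ModularCurve Fermat.Agent.S17 Fermat.Agent.S17.R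

section Abstract

variable {J Pt : Type*} [AddCommGroup J]

/-- Iterating `H (x + y) ≤ A * (H x + H y) + C` along a multiple. -/
theorem red_nsmul_add {H : J → ℝ} (hH0 : ∀ x, 0 ≤ H x) {A C : ℝ} (hA : 1 ≤ A) (hC : 0 ≤ C)
    (hred : ∀ x y : J, H (x + y) ≤ A * (H x + H y) + C) (n : ℕ) (z w : J) :
    H (n • z + w) ≤ A ^ n * ((n : ℝ) * H z + H w + (n : ℝ) * C) := by
  induction n with
  | zero => simp
  | succ n ih =>
    have e : (n + 1) • z + w = z + (n • z + w) := by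
      rw [succ_nsmul]; abel
    rw [e]
    have h1 := hred z (n • z + w)
    have hAn : (1 : ℝ) ≤ A ^ n := one_le_pow₀ hA
    have hA0 : (0 : ℝ) ≤ A := le_trans zero_le_one hA
    have hz := hH0 z
    have hw := hH0 w
    have hn : (0 : ℝ) ≤ (n : ℝ) := Nat.cast_nonneg n
    have h2 : A * H (n • z + w) ≤ A * (A ^ n * ((n : ℝ) * H z + H w + (n : ℝ) * C)) :=
      mul_le_mul_of_nonneg_left ih hA0
    have hAn1 : A ≤ A ^ (n + 1) := by
      rw [pow_succ]
      nlinarith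
    have h3 : A * H z ≤ A ^ (n + 1) * H z := mul_le_mul_of_nonneg_right hAn1 hz
    have h4 : C ≤ A ^ (n + 1) * C := by
      have : (1 : ℝ) ≤ A ^ (n + 1) := one_le_pow₀ hA
      nlinarith
    have e2 : A * (A ^ n * ((n : ℝ) * H z + H w + (n : ℝ) * C))
        = A ^ (n + 1) * ((n : ℝ) * H z + H w + (n : ℝ) * C) := by
      rw [pow_succ]; ring
    rw [e2] at h2
    push_cast
    nlinarith

/-- Iterating `H (x + y) ≤ A * (H x + H y) + C` along a weighted finite sum. -/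
theorem red_sum {H : J → ℝ} (hH0 : ∀ x, 0 ≤ H x) {A C : ℝ} (hA : 1 ≤ A) (hC : 0 ≤ C)
    (hred : ∀ x y : J, H (x + y) ≤ A * (H x + H y) + C) (Z : Pt → J) (m : Pt → ℕ)
    (S : Finset Pt) :
    H (∑ a ∈ S, m a • Z a) ≤ A ^ (∑ a ∈ S, m a) *
      (∑ a ∈ S, (m a : ℝ) * H (Z a) + H 0 + ((∑ a ∈ S, m a : ℕ) : ℝ) * C) := by
  classical
  induction S using Finset.induction_on with
  | empty => simp
  | insert b S hb ih =>
    rw [Finset.sum_insert hb, Finset.sum_insert hb, Finset.sum_insert hb]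
    have h1 := red_nsmul_add hH0 hA hC hred (m b) (Z b) (∑ a ∈ S, m a • Z a)
    have hA0 : (0 : ℝ) ≤ A := le_trans zero_le_one hA
    have hAb : (1 : ℝ) ≤ A ^ (m b) := one_le_pow₀ hA
    have hAS : (1 : ℝ) ≤ A ^ (∑ a ∈ S, m a) := one_le_pow₀ hA
    have hb0 : (0 : ℝ) ≤ (m b : ℝ) * H (Z b) := mul_nonneg (Nat.cast_nonneg _) (hH0 _)
    have hbC : (0 : ℝ) ≤ (m b : ℝ) * C := mul_nonneg (Nat.cast_nonneg _) hC
    have hSC : (0 : ℝ) ≤ ((∑ a ∈ S, m a : ℕ) : ℝ) * C := mul_nonneg (Nat.cast_nonneg _) hC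
    have hS0 : (0 : ℝ) ≤ ∑ a ∈ S, (m a : ℝ) * H (Z a) :=
      Finset.sum_nonneg fun a _ => mul_nonneg (Nat.cast_nonneg _) (hH0 _)
    have h00 := hH0 (0 : J)
    -- abbreviations
    set X : ℝ := ∑ a ∈ S, (m a : ℝ) * H (Z a) + H 0 + ((∑ a ∈ S, m a : ℕ) : ℝ) * C with hX
    have hX0 : 0 ≤ X := by rw [hX]; linarith
    have h2 : H (∑ a ∈ S, m a • Z a) ≤ A ^ (∑ a ∈ S, m a) * X := ih
    have h3 : (m b : ℝ) * H (Z b) + H (∑ a ∈ S, m a • Z a) + (m b : ℝ) * C
        ≤ A ^ (∑ a ∈ S, m a) * ((m b : ℝ) * H (Z b) + X + (m b : ℝ) * C) := by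
      nlinarith
    have h4 : A ^ (m b) * ((m b : ℝ) * H (Z b) + H (∑ a ∈ S, m a • Z a) + (m b : ℝ) * C)
        ≤ A ^ (m b) * (A ^ (∑ a ∈ S, m a) * ((m b : ℝ) * H (Z b) + X + (m b : ℝ) * C)) :=
      mul_le_mul_of_nonneg_left h3 (le_trans zero_le_one hAb)
    refine le_trans h1 (le_trans h4 (le_of_eq ?_))
    rw [hX, pow_add]
    push_cast
    ring

/-- **B6, abstract form.**  A height `H ≥ 0` on an abelian group with the crude subadditivity
`H (x + y) ≤ A * (H x + H y) + C`, a representation of every element as a weighted sum of at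
most `g` point classes whose point heights are bounded by `H`, division of the point classes by
`l` with a height bound, and finitely many `l`-torsion elements: then
`H x ≤ A ^ (g + 1) * κ * H (l • x) + c₀`. -/
theorem contraction_abs (l g : ℕ) (cls : Pt → J) (hP : Pt → ℝ) (H : J → ℝ)
    (hH0 : ∀ x, 0 ≤ H x) {A C : ℝ} (hA : 1 ≤ A) (hC : 0 ≤ C)
    (hred : ∀ x y : J, H (x + y) ≤ A * (H x + H y) + C)
    (hrep : ∀ y : J, ∃ (S : Finset Pt) (m : Pt → ℕ), ∑ a ∈ S, m a ≤ g ∧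
      ∑ a ∈ S, m a • cls a = y ∧ ∑ a ∈ S, (m a : ℝ) * hP a ≤ H y)
    {κ Cl : ℝ} (hκ : 0 ≤ κ) (hCl : 0 ≤ Cl)
    (hdiv : ∀ P : Pt, ∃ z : J, l • z = cls P ∧ H z ≤ κ * hP P + Cl)
    (htors : {t : J | l • t = 0}.Finite) :
    ∃ c₀ : ℝ, ∀ x : J, H x ≤ A ^ (g + 1) * κ * H (l • x) + c₀ := by
  classical
  choose Z hZ1 hZ2 using hdiv
  have hA0 : (0 : ℝ) ≤ A := le_trans zero_le_one hA
  -- a bound for `H` on the torsion
  set T : ℝ := ∑ t ∈ htors.toFinset, H t with hT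
  have hTle : ∀ t : J, l • t = 0 → H t ≤ T := by
    intro t ht
    rw [hT]
    exact Finset.single_le_sum (f := fun t => H t) (fun t _ => hH0 t)
      ((Set.Finite.mem_toFinset htors).mpr ht)
  refine ⟨A ^ (g + 1) * ((g : ℝ) * Cl + H 0 + (g : ℝ) * C) + A * T + C, fun x => ?_⟩
  obtain ⟨S, m, hmg, hsum, hle⟩ := hrep (l • x)
  set w : J := ∑ a ∈ S, m a • Z a with hw
  have hlw : l • w = l • x := by
    rw [hw, Finset.smul_sum, ← hsum]
    refine Finset.sum_congr rfl fun a _ => ?_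
    rw [smul_comm, hZ1]
  have htor : l • (x - w) = 0 := by rw [smul_sub, hlw, sub_self]
  have hx : x = (x - w) + w := by abel
  have h1 : H x ≤ A * (H (x - w) + H w) + C := by
    have := hred (x - w) w
    rwa [← hx] at this
  have h2 : H (x - w) ≤ T := hTle _ htor
  have h3 := red_sum hH0 hA hC hred Z m S
  rw [← hw] at h3
  -- the weighted sum of the heights of the `Z a`
  have h4 : ∑ a ∈ S, (m a : ℝ) * H (Z a) ≤ κ * H (l • x) + (g : ℝ) * Cl := by
    have h5 : ∑ a ∈ S, (m a : ℝ) * H (Z a) ≤ ∑ a ∈ S, (m a : ℝ) * (κ * hP a + Cl) :=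
      Finset.sum_le_sum fun a _ => mul_le_mul_of_nonneg_left (hZ2 a) (Nat.cast_nonneg _)
    have h6 : ∑ a ∈ S, (m a : ℝ) * (κ * hP a + Cl)
        = κ * ∑ a ∈ S, (m a : ℝ) * hP a + ((∑ a ∈ S, m a : ℕ) : ℝ) * Cl := by
      rw [Finset.mul_sum, Nat.cast_sum, Finset.sum_mul, ← Finset.sum_add_distrib]
      refine Finset.sum_congr rfl fun a _ => ?_
      ring
    have h7 : κ * ∑ a ∈ S, (m a : ℝ) * hP a ≤ κ * H (l • x) :=
      mul_le_mul_of_nonneg_left hle hκ
    have h8 : ((∑ a ∈ S, m a : ℕ) : ℝ) * Cl ≤ (g : ℝ) * Cl :=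
      mul_le_mul_of_nonneg_right (by exact_mod_cast hmg) hCl
    linarith
  have hM : ((∑ a ∈ S, m a : ℕ) : ℝ) * C ≤ (g : ℝ) * C :=
    mul_le_mul_of_nonneg_right (by exact_mod_cast hmg) hC
  have hpow : A ^ (∑ a ∈ S, m a) ≤ A ^ g := pow_le_pow_right₀ hA hmg
  have hY0 : 0 ≤ κ * H (l • x) + (g : ℝ) * Cl + H 0 + (g : ℝ) * C := by
    have := hH0 (l • x)
    have := hH0 (0 : J)
    have : (0 : ℝ) ≤ (g : ℝ) := Nat.cast_nonneg g
    positivity
  have h9 : H w ≤ A ^ g * (κ * H (l • x) + (g : ℝ) * Cl + H 0 + (g : ℝ) * C) := by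
    refine le_trans h3 ?_
    have hpos : (0 : ℝ) ≤ A ^ (∑ a ∈ S, m a) := pow_nonneg hA0 _
    calc A ^ (∑ a ∈ S, m a) * (∑ a ∈ S, (m a : ℝ) * H (Z a) + H 0
            + ((∑ a ∈ S, m a : ℕ) : ℝ) * C)
        ≤ A ^ (∑ a ∈ S, m a) * (κ * H (l • x) + (g : ℝ) * Cl + H 0 + (g : ℝ) * C) :=
          mul_le_mul_of_nonneg_left (by linarith) hpos
      _ ≤ A ^ g * (κ * H (l • x) + (g : ℝ) * Cl + H 0 + (g : ℝ) * C) :=
          mul_le_mul_of_nonneg_right hpow hY0
  have h10 : A * H w ≤ A * (A ^ g * (κ * H (l • x) + (g : ℝ) * Cl + H 0 + (g : ℝ) * C)) :=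
    mul_le_mul_of_nonneg_left h9 hA0
  have h11 : A * H (x - w) ≤ A * T := mul_le_mul_of_nonneg_left h2 hA0
  have e : A * (A ^ g * (κ * H (l • x) + (g : ℝ) * Cl + H 0 + (g : ℝ) * C))
      = A ^ (g + 1) * κ * H (l • x) + A ^ (g + 1) * ((g : ℝ) * Cl + H 0 + (g : ℝ) * C) := by
    rw [pow_succ]; ring
  linarith

end Abstract

section Heights

variable (N : ℕ)

local notation "Qb" => AlgebraicClosure ℚ
local notation "Fb" => modularFunctionFieldBar

/-- The height of a divisor for a place height `Hpl`: the sum of `n_P * Hpl P`. -/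
noncomputable def divH (Hpl : Place Qb (Fb N) → ℝ) (E : Divisor Qb (Fb N)) : ℝ :=
  E.sum fun P n => (n : ℝ) * Hpl P

/-- The bounded-orbit Northcott property of a place height: for all `B`, `d` there are only
finitely many places `P` with `Hpl P ≤ B` whose Galois orbit lies in a set of at most `d`
places.  (Landed for `Glob.plH`: `H.Pos.PlaceNorthcott.plH_evalAt_orbit_northcott`.) -/
def OrbitNorthcott (Hpl : Place Qb (Fb N) → ℝ) : Prop :=
  ∀ (B : ℝ) (d : ℕ), {P : Place Qb (Fb N) | Hpl P ≤ B ∧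
    ∃ s : Finset (Place Qb (Fb N)), s.card ≤ d ∧
      ∀ σ : Qb ≃ₐ[ℚ] Qb, arithmeticGalois (modularFunctionFieldFull N) σ • P ∈ s}.Finite

theorem divH_nonneg (Hpl : Place Qb (Fb N) → ℝ) (hH0 : ∀ P, 0 ≤ Hpl P)
    {E : Divisor Qb (Fb N)} (hE : 0 ≤ E) : 0 ≤ divH N Hpl E := by
  unfold divH Finsupp.sum
  exact Finset.sum_nonneg fun P _ => mul_nonneg
    (by exact_mod_cast (show (0 : ℤ) ≤ E P by simpa using Finsupp.le_def.mp hE P)) (hH0 P)

end Heights

section Modular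

variable (N : ℕ) [NeZero N]

local notation "Qb" => AlgebraicClosure ℚ
local notation "Fb" => modularFunctionFieldBar

/-- The height of a class of `JZero N`: the height of its reduced divisor (base place `∞`). -/
noncomputable def clH (Hpl : Place Qb (Fb N) → ℝ) (x : JZero N) : ℝ :=
  divH N Hpl (redDivInf N x)

/-- The point class `[P - ∞]` of `JZero N`. -/
noncomputable def ptCls (P : Place Qb (Fb N)) : JZero N :=
  Move.cls (Fermat.Agent.S30.HeckeInputs.trdeg_bar N) (infPlace N) (Finsupp.single P 1)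

/-- **(B4) (RED)**: crude subadditivity of the height of the reduced divisor, with one pair of
constants. -/
def RedBound (Hpl : Place Qb (Fb N) → ℝ) : Prop :=
  ∃ A C : ℝ, ∀ x y : JZero N, clH N Hpl (x + y) ≤ A * (clH N Hpl x + clH N Hpl y) + C

/-- **(B5) (DIVPT)**: there is `κ` such that for arbitrarily large primes `l` every point
class `[P - ∞]`, `P` outside a finite set, is divisible by `l` with a quotient of height at
most `κ / l ^ 2 * Hpl P + C_l`. -/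
def DivPt (Hpl : Place Qb (Fb N) → ℝ) : Prop :=
  ∃ κ : ℝ, ∀ L₀ : ℕ, ∃ l : ℕ, l.Prime ∧ L₀ ≤ l ∧
    ∃ (Cl : ℝ) (S : Finset (Place Qb (Fb N))), ∀ P : Place Qb (Fb N), P ∉ S →
      ∃ z : JZero N, l • z = ptCls N P ∧ clH N Hpl z ≤ κ / (l : ℝ) ^ 2 * Hpl P + Cl

theorem clH_nonneg (Hpl : Place Qb (Fb N) → ℝ) (hH0 : ∀ P, 0 ≤ Hpl P) (x : JZero N) :
    0 ≤ clH N Hpl x :=
  divH_nonneg N Hpl hH0 (redDivInf_nonneg N x)

/-- A class is the class of its reduced divisor. -/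
theorem cls_redDivInf (x : JZero N) :
    Move.cls (Fermat.Agent.S30.HeckeInputs.trdeg_bar N) (infPlace N) (redDivInf N x) = x := by
  obtain ⟨h, hx⟩ := mk_redDivInf N x
  rw [Move.cls_apply]
  refine Eq.trans ?_ hx
  congr 1
  apply Subtype.ext
  rw [Move.coe_toDegZero, degree_redDivInf]
  show redDivInf N x - Finsupp.single (infPlace N) ((redDegInf N x : ℕ) : ℤ)
    = redDivInf N x - ((redDegInf N x : ℕ) : ℤ) • Finsupp.single (infPlace N) (1 : ℤ)
  rw [Finsupp.smul_single, smul_eq_mul, mul_one]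

/-- **(B2)** Every class is a weighted sum of at most `gR` point classes, the points of its
reduced divisor, and `clH` is the weighted sum of their heights. -/
theorem exists_rep (Hpl : Place Qb (Fb N) → ℝ) (x : JZero N) :
    ∃ (S : Finset (Place Qb (Fb N))) (m : Place Qb (Fb N) → ℕ),
      ∑ a ∈ S, m a ≤ gR Qb (Fb N) ∧ ∑ a ∈ S, m a • ptCls N a = x ∧
      ∑ a ∈ S, (m a : ℝ) * Hpl a ≤ clH N Hpl x := by
  classical
  have htr := Fermat.Agent.S30.HeckeInputs.trdeg_bar N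
  have hE0 : 0 ≤ redDivInf N x := redDivInf_nonneg N x
  have hnn : ∀ a, (0 : ℤ) ≤ redDivInf N x a := fun a => by
    simpa using Finsupp.le_def.mp hE0 a
  have hcast : ∀ a, (((redDivInf N x a).toNat : ℕ) : ℤ) = redDivInf N x a := fun a =>
    Int.toNat_of_nonneg (hnn a)
  refine ⟨(redDivInf N x).support, fun a => (redDivInf N x a).toNat, ?_, ?_, ?_⟩
  · have h1 := NonSpecialStep.degree_eq_sum_support htr (redDivInf N x)
    have h2 : Divisor.degree (redDivInf N x) = redDegInf N x := degree_redDivInf N x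
    have h3 := redDegInf_le_gR N x
    have h4 : ((∑ a ∈ (redDivInf N x).support, (redDivInf N x a).toNat : ℕ) : ℤ)
        = ∑ a ∈ (redDivInf N x).support, redDivInf N x a := by
      rw [Nat.cast_sum]
      exact Finset.sum_congr rfl fun a _ => hcast a
    have h5 : ((∑ a ∈ (redDivInf N x).support, (redDivInf N x a).toNat : ℕ) : ℤ)
        ≤ (gR Qb (Fb N) : ℤ) := by
      rw [h4, ← h1, h2]
      exact_mod_cast h3
    exact_mod_cast h5
  · have h1 := Move.cls_eq_sum htr (infPlace N) (redDivInf N x)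
    rw [cls_redDivInf] at h1
    refine Eq.trans ?_ h1.symm
    refine Finset.sum_congr rfl fun a _ => ?_
    show (redDivInf N x a).toNat • ptCls N a = redDivInf N x a • ptCls N a
    rw [← natCast_zsmul, hcast]
  · refine le_of_eq ?_
    unfold clH divH Finsupp.sum
    refine Finset.sum_congr rfl fun a _ => ?_
    have h1 : (((redDivInf N x a).toNat : ℕ) : ℝ) = ((redDivInf N x a : ℤ) : ℝ) := by
      rw [← Int.cast_natCast, hcast]
    show (((redDivInf N x a).toNat : ℕ) : ℝ) * Hpl a = ((redDivInf N x a : ℤ) : ℝ) * Hpl a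
    rw [h1]

/-- **(B3) Northcott** for the height of the reduced divisor on the Mordell-Weil group, from
the bounded-orbit Northcott property of the place height. -/
theorem northcott (Hpl : Place Qb (Fb N) → ℝ) (hH0 : ∀ P, 0 ≤ Hpl P)
    (hNor : OrbitNorthcott N Hpl) (B : ℝ) :
    {x : ↥(MW N) | clH N Hpl (x : JZero N) ≤ B}.Finite := by
  classical
  have htr := Fermat.Agent.S30.HeckeInputs.trdeg_bar N
  have hΩ := hNor B (gR Qb (Fb N))
  refine Set.Finite.of_injOn (f := fun x : ↥(MW N) => redDivInf N (x : JZero N))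
    (t := ((hΩ.toFinset.finsupp fun _ => Finset.Icc (0 : ℤ) (gR Qb (Fb N)) :
      Finset (Place Qb (Fb N) →₀ ℤ)) : Set (Place Qb (Fb N) →₀ ℤ))) ?_ ?_
    (Finset.finite_toSet _)
  · rintro x hB
    have hB' : clH N Hpl (x : JZero N) ≤ B := hB
    have hE0 : 0 ≤ redDivInf N (x : JZero N) := redDivInf_nonneg N x
    show redDivInf N (x : JZero N) ∈ ((hΩ.toFinset.finsupp fun _ =>
      Finset.Icc (0 : ℤ) (gR Qb (Fb N)) : Finset (Place Qb (Fb N) →₀ ℤ)) :
        Set (Place Qb (Fb N) →₀ ℤ))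
    rw [Finset.mem_coe, Finset.mem_finsupp_iff]
    refine ⟨fun P hP => ?_, fun P _ => ?_⟩
    · rw [Set.Finite.mem_toFinset]
      refine ⟨le_trans (H.Pos.SpecialNorthcott.height_le_sum hE0 Hpl hH0 hP) hB',
        (redDivInf N (x : JZero N)).support, ?_, fun σ => ?_⟩
      · exact H.Pos.SpecialNorthcott.card_support_redDiv_le htr (infPlace N) (x : JZero N)
      · rw [Finsupp.mem_support_iff, redDivInf_apply_galois_smul N (fun τ => x.2 τ) σ P]
        exact Finsupp.mem_support_iff.mp hP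
    · rw [Finset.mem_Icc]
      refine ⟨by simpa using Finsupp.le_def.mp hE0 P, ?_⟩
      have h1 := H.Pos.SpecialNorthcott.apply_le_degree htr hE0 P
      rw [degree_redDivInf] at h1
      exact le_trans h1 (by exact_mod_cast redDegInf_le_gR N x)
  · rintro x - x' - heq
    exact Subtype.ext (redDivInf_injective N heq)

/-- **(B6) The contraction** on `JZero N`, for one `l`: from (RED) with `A ≥ 1`, `C ≥ 0` and
the division of every point class by `l` with the bound `κ * Hpl P + Cl`. -/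
theorem contraction (Hpl : Place Qb (Fb N) → ℝ) (hH0 : ∀ P, 0 ≤ Hpl P) {A C : ℝ} (hA : 1 ≤ A)
    (hC : 0 ≤ C)
    (hred : ∀ x y : JZero N, clH N Hpl (x + y) ≤ A * (clH N Hpl x + clH N Hpl y) + C)
    (l : ℕ) {κ Cl : ℝ} (hκ : 0 ≤ κ) (hCl : 0 ≤ Cl)
    (hdiv : ∀ P : Place Qb (Fb N), ∃ z : JZero N, l • z = ptCls N P ∧
      clH N Hpl z ≤ κ * Hpl P + Cl)
    (htors : {t : JZero N | l • t = 0}.Finite) :
    ∃ c₀ : ℝ, ∀ x : JZero N,
      clH N Hpl x ≤ A ^ (gR Qb (Fb N) + 1) * κ * clH N Hpl (l • x) + c₀ :=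
  contraction_abs l (gR Qb (Fb N)) (ptCls N) Hpl (clH N Hpl) (clH_nonneg N Hpl hH0) hA hC hred
    (fun y => exists_rep N Hpl y) hκ hCl hdiv htors

/-- **(B6) The exit of the chain**: the contract's `HeightDescent N` from (RED), (DIVPT), the
bounded-orbit Northcott property of the place height, divisibility (strand D) and the
finiteness of the torsion (S19). -/
theorem heightDescent_of_chain (Hpl : Place Qb (Fb N) → ℝ) (hH0 : ∀ P, 0 ≤ Hpl P)
    (hNor : OrbitNorthcott N Hpl) (hRED : RedBound N Hpl) (hDIV : DivPt N Hpl)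
    (hD : Divisible N) (htors : ∀ l : ℕ, 0 < l → {t : JZero N | l • t = 0}.Finite) :
    HeightDescent N := by
  classical
  obtain ⟨A₀, C₀, hred₀⟩ := hRED
  obtain ⟨κ₀, hdiv₀⟩ := hDIV
  obtain ⟨LD, hLD⟩ := hD
  have hH : ∀ x : JZero N, 0 ≤ clH N Hpl x := clH_nonneg N Hpl hH0
  have hA1 : (1 : ℝ) ≤ max A₀ 1 := le_max_right _ _
  have hA0 : (0 : ℝ) ≤ max A₀ 1 := le_trans zero_le_one hA1
  have hC0 : (0 : ℝ) ≤ max C₀ 0 := le_max_right _ _
  have hκ1 : (1 : ℝ) ≤ max κ₀ 1 := le_max_right _ _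
  have hκ0 : (0 : ℝ) < max κ₀ 1 := lt_of_lt_of_le zero_lt_one hκ1
  have hred : ∀ x y : JZero N,
      clH N Hpl (x + y) ≤ max A₀ 1 * (clH N Hpl x + clH N Hpl y) + max C₀ 0 := by
    intro x y
    have h1 := hred₀ x y
    have h2 : A₀ * (clH N Hpl x + clH N Hpl y) ≤ max A₀ 1 * (clH N Hpl x + clH N Hpl y) :=
      mul_le_mul_of_nonneg_right (le_max_left _ _) (add_nonneg (hH x) (hH y))
    have h3 : C₀ ≤ max C₀ 0 := le_max_left _ _
    linarith
  intro L₀
  obtain ⟨l, hl, hle, Cl₀, S, hS⟩ :=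
    hdiv₀ (max (max L₀ LD) (⌈max A₀ 1 ^ (gR Qb (Fb N) + 2) * max κ₀ 1⌉₊ + 1))
  have hL₀ : L₀ ≤ l := le_trans (le_trans (le_max_left _ _) (le_max_left _ _)) hle
  have hLDl : LD ≤ l := le_trans (le_trans (le_max_right _ _) (le_max_left _ _)) hle
  have hl1 : (1 : ℝ) ≤ (l : ℝ) := by exact_mod_cast hl.pos
  have hl0 : (0 : ℝ) < (l : ℝ) := lt_of_lt_of_le zero_lt_one hl1
  have hl2 : (l : ℝ) ≤ (l : ℝ) ^ 2 := by nlinarith
  have hl20 : (0 : ℝ) < (l : ℝ) ^ 2 := by positivity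
  have hbig : max A₀ 1 ^ (gR Qb (Fb N) + 2) * max κ₀ 1 < (l : ℝ) ^ 2 := by
    have h1 : ⌈max A₀ 1 ^ (gR Qb (Fb N) + 2) * max κ₀ 1⌉₊ + 1 ≤ l :=
      le_trans (le_max_right _ _) hle
    have h2 : max A₀ 1 ^ (gR Qb (Fb N) + 2) * max κ₀ 1
        ≤ (⌈max A₀ 1 ^ (gR Qb (Fb N) + 2) * max κ₀ 1⌉₊ : ℝ) := Nat.le_ceil _
    have h3 : ((⌈max A₀ 1 ^ (gR Qb (Fb N) + 2) * max κ₀ 1⌉₊ + 1 : ℕ) : ℝ) ≤ (l : ℝ) := by
      exact_mod_cast h1
    push_cast at h3
    linarith
  -- division of every point class by `l`, with the bound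
  have hdivall : ∀ P : Place Qb (Fb N), ∃ z : JZero N, l • z = ptCls N P :=
    fun P => hLD l hl hLDl _
  choose Z₁ hZ₁ using hdivall
  have hκl : 0 ≤ max κ₀ 1 / (l : ℝ) ^ 2 := div_nonneg hκ0.le hl20.le
  have hsum0 : 0 ≤ ∑ Q ∈ S, clH N Hpl (Z₁ Q) := Finset.sum_nonneg fun Q _ => hH _
  have hCl0 : 0 ≤ max Cl₀ 0 + ∑ Q ∈ S, clH N Hpl (Z₁ Q) :=
    add_nonneg (le_max_right _ _) hsum0
  have hdiv : ∀ P : Place Qb (Fb N), ∃ z : JZero N, l • z = ptCls N P ∧
      clH N Hpl z ≤ max κ₀ 1 / (l : ℝ) ^ 2 * Hpl P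
        + (max Cl₀ 0 + ∑ Q ∈ S, clH N Hpl (Z₁ Q)) := by
    intro P
    by_cases hP : P ∈ S
    · refine ⟨Z₁ P, hZ₁ P, ?_⟩
      have h1 : clH N Hpl (Z₁ P) ≤ ∑ Q ∈ S, clH N Hpl (Z₁ Q) :=
        Finset.single_le_sum (f := fun Q => clH N Hpl (Z₁ Q)) (fun Q _ => hH _) hP
      have h2 : 0 ≤ max κ₀ 1 / (l : ℝ) ^ 2 * Hpl P := mul_nonneg hκl (hH0 P)
      have h3 : (0 : ℝ) ≤ max Cl₀ 0 := le_max_right _ _
      linarith
    · obtain ⟨z, hz1, hz2⟩ := hS P hP
      refine ⟨z, hz1, ?_⟩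
      have h1 : κ₀ / (l : ℝ) ^ 2 * Hpl P ≤ max κ₀ 1 / (l : ℝ) ^ 2 * Hpl P :=
        mul_le_mul_of_nonneg_right
          (div_le_div_of_nonneg_right (le_max_left _ _) hl20.le) (hH0 P)
      have h2 : Cl₀ ≤ max Cl₀ 0 := le_max_left _ _
      linarith
  obtain ⟨c₀, hc₀⟩ := contraction N Hpl hH0 hA1 hC0 hred l hκl hCl0 hdiv (htors l hl.pos)
  -- the contraction factor
  have hpow0 : (0 : ℝ) < max A₀ 1 ^ (gR Qb (Fb N) + 1) :=
    pow_pos (lt_of_lt_of_le zero_lt_one hA1) _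
  have hθ0 : 0 < max A₀ 1 ^ (gR Qb (Fb N) + 1) * (max κ₀ 1 / (l : ℝ) ^ 2) :=
    mul_pos hpow0 (div_pos hκ0 hl20)
  have hAθ : max A₀ 1 * (max A₀ 1 ^ (gR Qb (Fb N) + 1) * (max κ₀ 1 / (l : ℝ) ^ 2)) < 1 := by
    have e : max A₀ 1 * (max A₀ 1 ^ (gR Qb (Fb N) + 1) * (max κ₀ 1 / (l : ℝ) ^ 2))
        = max A₀ 1 ^ (gR Qb (Fb N) + 2) * max κ₀ 1 / (l : ℝ) ^ 2 := by
      rw [pow_succ (max A₀ 1) (gR Qb (Fb N) + 1)]
      ring
    rw [e]
    exact (div_lt_one hl20).mpr hbig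
  refine ⟨l, hl, hL₀, fun x => clH N Hpl (x : JZero N), northcott N Hpl hH0 hNor, max A₀ 1,
    (max A₀ 1 ^ (gR Qb (Fb N) + 1) * (max κ₀ 1 / (l : ℝ) ^ 2))⁻¹,
    (max A₀ 1 ^ (gR Qb (Fb N) + 1) * (max κ₀ 1 / (l : ℝ) ^ 2))⁻¹ * c₀,
    fun g' => max A₀ 1 * clH N Hpl (-(g' : JZero N)) + max C₀ 0, hA0, ?_, fun g' x => ?_,
    fun x => ?_⟩
  · rw [← one_div, lt_div_iff₀ hθ0]
    exact hAθ
  · show clH N Hpl (x : JZero N) ≤ max A₀ 1 * clH N Hpl ((g' + x : ↥(MW N)) : JZero N)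
      + (max A₀ 1 * clH N Hpl (-(g' : JZero N)) + max C₀ 0)
    have h1 := hred ((g' : JZero N) + (x : JZero N)) (-(g' : JZero N))
    rw [add_neg_cancel_comm] at h1
    rw [AddSubgroup.coe_add]
    linarith
  · show (max A₀ 1 ^ (gR Qb (Fb N) + 1) * (max κ₀ 1 / (l : ℝ) ^ 2))⁻¹ * clH N Hpl (x : JZero N)
        - (max A₀ 1 ^ (gR Qb (Fb N) + 1) * (max κ₀ 1 / (l : ℝ) ^ 2))⁻¹ * c₀
      ≤ clH N Hpl ((l • x : ↥(MW N)) : JZero N)
    rw [AddSubgroup.coe_nsmul]
    have h1 := hc₀ (x : JZero N)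
    have h2 := mul_le_mul_of_nonneg_left h1 (inv_nonneg.mpr hθ0.le)
    have h3 : (max A₀ 1 ^ (gR Qb (Fb N) + 1) * (max κ₀ 1 / (l : ℝ) ^ 2))⁻¹
        * (max A₀ 1 ^ (gR Qb (Fb N) + 1) * (max κ₀ 1 / (l : ℝ) ^ 2)
          * clH N Hpl (l • (x : JZero N)) + c₀)
        = clH N Hpl (l • (x : JZero N))
          + (max A₀ 1 ^ (gR Qb (Fb N) + 1) * (max κ₀ 1 / (l : ℝ) ^ 2))⁻¹ * c₀ := by
      rw [mul_add, ← mul_assoc, inv_mul_cancel₀ hθ0.ne', one_mul]
    linarith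

end Modular

end Fermat.Agent.S17.HB.Contract
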