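import Mathlib
import Fermat.Agent.S17.D.Hasse

/-!
# Program MW (statement S17), strand HB, leaf LOC1: the local normal form

`Ψ(π, u) = ∑ l, C l (π) * W l (u)` is a two-variable power series over a field `K`
(`C l`, `W l : PowerSeries K`; the first in the variable `π`, the second in the variable `u`).
Points are power series `r i` in `π` without constant term; `Ψ` vanishes at `u = r i` to order
`≥ μ i` when the Hasse jets `jetAt C W j (r i)`, `j < μ i`, vanish.

* `X_pow_dvd_closedFibre` (easy half): the closed fibre `Ψ(0, u)` has order `≥ ∑ μ i`;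
* `order_value_zero`, `order_jetAt` (normal form `Ψ = U * ∏ (u - r i) ^ μ i`, `U` a unit, when the
  closed fibre has order exactly `∑ μ i`): the orders in `π` of `Ψ(π, 0)` and of the `μ i`-th Hasse
  jet at `r i`;
* `vandermonde_dvd_det`: the block Vandermonde divisibility.

Everything is proved inside `PowerSeries (PowerSeries K)` (outer variable `u`) with the evaluation
`ev r` at a point `r` without constant term, the factor theorem `sub_C_ev_eq` and the Leibniz rule
of `D.hasse`.
-/

set_option autoImplicit false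

namespace Fermat.Agent.S17.HB.Loc1

open Fermat.Agent.S17.D

section Ev

variable {A₀ : Type*} [CommRing A₀]

/-- The value `f(r)` of `f ∈ A₀[[π]][[u]]` at `u = r`, for `r ∈ π A₀[[π]]` (junk otherwise):
coefficientwise limit of the values of the truncations. -/
noncomputable def ev (r : PowerSeries A₀) (f : PowerSeries (PowerSeries A₀)) : PowerSeries A₀ :=
  PowerSeries.mk fun e => PowerSeries.coeff e (Polynomial.eval r (PowerSeries.trunc (e + 1) f))

theorem coeff_mul_pow_eq_zero {r : PowerSeries A₀} (hr : PowerSeries.constantCoeff r = 0)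
    (c : PowerSeries A₀) {e m : ℕ} (h : e < m) : PowerSeries.coeff e (c * r ^ m) = 0 := by
  have h1 : (PowerSeries.X : PowerSeries A₀) ∣ r := PowerSeries.X_dvd_iff.mpr hr
  have h2 : (PowerSeries.X : PowerSeries A₀) ^ m ∣ c * r ^ m :=
    Dvd.dvd.mul_left (pow_dvd_pow_of_dvd h1 m) c
  exact PowerSeries.X_pow_dvd_iff.mp h2 e h

theorem coeff_eval_trunc_coe {r : PowerSeries A₀} (hr : PowerSeries.constantCoeff r = 0)
    (p : Polynomial (PowerSeries A₀)) {e N : ℕ} (h : e < N) :
    PowerSeries.coeff e
        (Polynomial.eval r (PowerSeries.trunc N (p : PowerSeries (PowerSeries A₀)))) =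
      PowerSeries.coeff e (Polynomial.eval r p) := by
  have hd : (Polynomial.X : Polynomial (PowerSeries A₀)) ^ N ∣
      p - PowerSeries.trunc N (p : PowerSeries (PowerSeries A₀)) := by
    rw [Polynomial.X_pow_dvd_iff]
    intro d hd
    rw [Polynomial.coeff_sub, PowerSeries.coeff_trunc, if_pos hd, Polynomial.coeff_coe, sub_self]
  obtain ⟨q, hq⟩ := hd
  have hp : p = PowerSeries.trunc N (p : PowerSeries (PowerSeries A₀)) + Polynomial.X ^ N * q := by
    rw [← hq]; ring
  have h1 : Polynomial.eval r p =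
      Polynomial.eval r (PowerSeries.trunc N (p : PowerSeries (PowerSeries A₀))) +
        Polynomial.eval r q * r ^ N := by
    conv_lhs => rw [hp]
    rw [Polynomial.eval_add, Polynomial.eval_mul, Polynomial.eval_pow, Polynomial.eval_X]
    ring
  rw [h1, map_add, coeff_mul_pow_eq_zero hr _ h, add_zero]

theorem coeff_ev {r : PowerSeries A₀} (hr : PowerSeries.constantCoeff r = 0)
    (f : PowerSeries (PowerSeries A₀)) {e N : ℕ} (h : e < N) :
    PowerSeries.coeff e (ev r f) =
      PowerSeries.coeff e (Polynomial.eval r (PowerSeries.trunc N f)) := by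
  rw [ev, PowerSeries.coeff_mk, ← PowerSeries.trunc_trunc_of_le f (Nat.succ_le_of_lt h)]
  exact coeff_eval_trunc_coe hr _ (Nat.lt_succ_self e)

theorem ev_add {r : PowerSeries A₀} (hr : PowerSeries.constantCoeff r = 0)
    (f g : PowerSeries (PowerSeries A₀)) : ev r (f + g) = ev r f + ev r g := by
  ext e
  rw [map_add, coeff_ev hr _ (Nat.lt_succ_self e), coeff_ev hr f (Nat.lt_succ_self e),
    coeff_ev hr g (Nat.lt_succ_self e), map_add, Polynomial.eval_add, map_add]

theorem ev_mul {r : PowerSeries A₀} (hr : PowerSeries.constantCoeff r = 0)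
    (f g : PowerSeries (PowerSeries A₀)) : ev r (f * g) = ev r f * ev r g := by
  ext e
  rw [coeff_ev hr _ (Nat.lt_succ_self e), ← PowerSeries.trunc_trunc_mul_trunc,
    ← Polynomial.coe_mul, coeff_eval_trunc_coe hr _ (Nat.lt_succ_self e), Polynomial.eval_mul,
    PowerSeries.coeff_mul, PowerSeries.coeff_mul]
  refine Finset.sum_congr rfl fun p hp => ?_
  have hp' : p.1 + p.2 = e := Finset.HasAntidiagonal.mem_antidiagonal.mp hp
  rw [coeff_ev hr f (N := e + 1) (by omega), coeff_ev hr g (N := e + 1) (by omega)]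

theorem ev_C {r : PowerSeries A₀} (hr : PowerSeries.constantCoeff r = 0) (a : PowerSeries A₀) :
    ev r (PowerSeries.C a) = a := by
  ext e
  rw [coeff_ev hr _ (Nat.lt_succ_self e), PowerSeries.trunc_C, Polynomial.eval_C]

theorem ev_X {r : PowerSeries A₀} (hr : PowerSeries.constantCoeff r = 0) :
    ev r (PowerSeries.X : PowerSeries (PowerSeries A₀)) = r := by
  ext e
  rw [coeff_ev hr _ (show e < e + 2 by omega), PowerSeries.trunc_X, Polynomial.eval_X]

/-- Evaluation at `u = r` as a ring homomorphism. -/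
noncomputable def evHom (r : PowerSeries A₀) (hr : PowerSeries.constantCoeff r = 0) :
    PowerSeries (PowerSeries A₀) →+* PowerSeries A₀ where
  toFun := ev r
  map_one' := by
    have h := ev_C hr (1 : PowerSeries A₀)
    rwa [map_one] at h
  map_mul' := ev_mul hr
  map_zero' := by
    have h := ev_C hr (0 : PowerSeries A₀)
    rwa [map_zero] at h
  map_add' := ev_add hr

theorem evHom_apply (r : PowerSeries A₀) (hr : PowerSeries.constantCoeff r = 0)
    (f : PowerSeries (PowerSeries A₀)) : evHom r hr f = ev r f := rfl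

/-- The shifted series `∑ b, coeff (b + a) f * X ^ b`. -/
noncomputable def shiftN (a : ℕ) (f : PowerSeries (PowerSeries A₀)) :
    PowerSeries (PowerSeries A₀) :=
  PowerSeries.mk fun b => PowerSeries.coeff (b + a) f

theorem shiftN_eq (a : ℕ) (f : PowerSeries (PowerSeries A₀)) :
    shiftN a f = PowerSeries.C (PowerSeries.coeff a f) + PowerSeries.X * shiftN (a + 1) f := by
  refine PowerSeries.ext fun b => ?_
  rcases b with _ | b
  · rw [map_add, PowerSeries.coeff_zero_X_mul, add_zero, PowerSeries.coeff_zero_C, shiftN,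
      PowerSeries.coeff_mk, zero_add]
  · rw [map_add, PowerSeries.coeff_succ_X_mul, PowerSeries.coeff_C, if_neg (Nat.succ_ne_zero b),
      zero_add, shiftN, shiftN, PowerSeries.coeff_mk, PowerSeries.coeff_mk,
      show b + 1 + a = b + (a + 1) by omega]

theorem shiftN_zero (f : PowerSeries (PowerSeries A₀)) : shiftN 0 f = f := by
  refine PowerSeries.ext fun b => ?_
  rw [shiftN, PowerSeries.coeff_mk, add_zero]

theorem ev_shiftN {r : PowerSeries A₀} (hr : PowerSeries.constantCoeff r = 0) (a : ℕ)
    (f : PowerSeries (PowerSeries A₀)) :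
    ev r (shiftN a f) = PowerSeries.coeff a f + r * ev r (shiftN (a + 1) f) := by
  conv_lhs => rw [shiftN_eq a f]
  rw [ev_add hr, ev_mul hr, ev_C hr, ev_X hr]

/-- The quotient of `f - f(r)` by `u - r`. -/
noncomputable def quot (r : PowerSeries A₀) (f : PowerSeries (PowerSeries A₀)) :
    PowerSeries (PowerSeries A₀) :=
  PowerSeries.mk fun a => ev r (shiftN (a + 1) f)

/-- Factor theorem: `f = f(r) + (u - r) * quot r f`. -/
theorem sub_C_ev_eq {r : PowerSeries A₀} (hr : PowerSeries.constantCoeff r = 0)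
    (f : PowerSeries (PowerSeries A₀)) :
    f = PowerSeries.C (ev r f) + (PowerSeries.X - PowerSeries.C r) * quot r f := by
  refine PowerSeries.ext fun a => ?_
  rw [map_add, sub_mul, map_sub, PowerSeries.coeff_C_mul]
  rcases a with _ | a
  · rw [PowerSeries.coeff_zero_X_mul, PowerSeries.coeff_zero_C, quot, PowerSeries.coeff_mk]
    have h := ev_shiftN hr 0 f
    rw [shiftN_zero] at h
    rw [h]
    ring
  · rw [PowerSeries.coeff_succ_X_mul, PowerSeries.coeff_C, if_neg (Nat.succ_ne_zero a), quot,
      PowerSeries.coeff_mk, PowerSeries.coeff_mk, ev_shiftN hr (a + 1) f]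
    ring

theorem ev_eq_add_mul {r t : PowerSeries A₀} (hr : PowerSeries.constantCoeff r = 0)
    (ht : PowerSeries.constantCoeff t = 0) (f : PowerSeries (PowerSeries A₀)) :
    ev t f = ev r f + (t - r) * ev t (quot r f) := by
  conv_lhs => rw [sub_C_ev_eq hr f]
  rw [ev_add ht, ev_mul ht, ev_C ht, ← evHom_apply t ht (PowerSeries.X - PowerSeries.C r),
    map_sub, evHom_apply, evHom_apply, ev_X ht, ev_C ht]

theorem constantCoeff_ev {r : PowerSeries A₀} (hr : PowerSeries.constantCoeff r = 0)
    (f : PowerSeries (PowerSeries A₀)) :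
    PowerSeries.constantCoeff (ev r f) =
      PowerSeries.constantCoeff (PowerSeries.constantCoeff f) := by
  have h := ev_shiftN hr 0 f
  rw [shiftN_zero] at h
  rw [h, map_add, map_mul, hr, zero_mul, add_zero, PowerSeries.coeff_zero_eq_constantCoeff_apply]

theorem ev_X_sub_C {s t : PowerSeries A₀} (ht : PowerSeries.constantCoeff t = 0) :
    ev t (PowerSeries.X - PowerSeries.C s) = t - s := by
  rw [← evHom_apply t ht, map_sub, evHom_apply, evHom_apply, ev_X ht, ev_C ht]

theorem ev_zero_eq (f : PowerSeries (PowerSeries A₀)) :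
    ev 0 f = PowerSeries.coeff 0 f := by
  have h := ev_shiftN (r := (0 : PowerSeries A₀)) (map_zero _) 0 f
  rw [shiftN_zero] at h
  rw [h, zero_mul, add_zero]

end Ev

section HasseExtra

variable {B : Type*} [CommRing B]

/-- `hasse j` as an additive map. -/
noncomputable def hasseHom (j : ℕ) : PowerSeries B →+ PowerSeries B :=
  AddMonoidHom.mk' (hasse j) (hasse_add j)

theorem hasseHom_apply (j : ℕ) (φ : PowerSeries B) : hasseHom j φ = hasse j φ := rfl

theorem hasse_sub (j : ℕ) (φ ψ : PowerSeries B) : hasse j (φ - ψ) = hasse j φ - hasse j ψ := by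
  rw [← hasseHom_apply, map_sub, hasseHom_apply, hasseHom_apply]

theorem hasse_sum {ι : Type*} (s : Finset ι) (j : ℕ) (φ : ι → PowerSeries B) :
    hasse j (∑ l ∈ s, φ l) = ∑ l ∈ s, hasse j (φ l) := by
  rw [← hasseHom_apply, map_sum]
  rfl

theorem hasse_C_mul (j : ℕ) (c : B) (φ : PowerSeries B) :
    hasse j (PowerSeries.C c * φ) = PowerSeries.C c * hasse j φ := by
  refine PowerSeries.ext fun m => ?_
  rw [coeff_hasse, PowerSeries.coeff_C_mul, PowerSeries.coeff_C_mul, coeff_hasse]
  ring

theorem hasse_map {B' : Type*} [CommRing B'] (φ : B →+* B') (j : ℕ) (W : PowerSeries B) :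
    hasse j (PowerSeries.map φ W) = PowerSeries.map φ (hasse j W) := by
  refine PowerSeries.ext fun m => ?_
  rw [coeff_hasse, PowerSeries.coeff_map, PowerSeries.coeff_map, coeff_hasse, map_mul,
    map_natCast]

/-- Leibniz rule for a linear factor. -/
theorem hasse_succ_sub_C_mul (j : ℕ) (s : B) (G : PowerSeries B) :
    hasse (j + 1) ((PowerSeries.X - PowerSeries.C s) * G) =
      (PowerSeries.X - PowerSeries.C s) * hasse (j + 1) G + hasse j G := by
  have h0 : ∀ i, hasse (i + 1 + 1) (PowerSeries.X - PowerSeries.C s : PowerSeries B) = 0 := by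
    intro i
    rw [hasse_sub, hasse_X_of_two_le (by omega), hasse_C_of_pos (by omega), sub_zero]
  have h1 : hasse (0 + 1) (PowerSeries.X - PowerSeries.C s : PowerSeries B) = 1 := by
    rw [hasse_sub, zero_add, hasse_one_X, hasse_C_of_pos (by omega), sub_zero]
  rw [hasse_mul, Finset.sum_range_succ', Finset.sum_range_succ',
    Finset.sum_eq_zero (fun i _ => by rw [h0 i, zero_mul]), zero_add, h1, one_mul, hasse_zero]
  have e1 : j + 1 - (0 + 1) = j := by omega
  have e2 : j + 1 - 0 = j + 1 := by omega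
  rw [e1, e2]
  ring

end HasseExtra

section Division

variable {A₀ : Type*} [CommRing A₀]

theorem ev_hasse_succ_sub_C_mul {s : PowerSeries A₀} (hs : PowerSeries.constantCoeff s = 0)
    (j : ℕ) (G : PowerSeries (PowerSeries A₀)) :
    ev s (hasse (j + 1) ((PowerSeries.X - PowerSeries.C s) * G)) = ev s (hasse j G) := by
  rw [hasse_succ_sub_C_mul, ev_add hs, ev_mul hs, ev_X_sub_C hs, sub_self, zero_mul, zero_add]

/-- Vanishing of the first `μ` Hasse jets at `s` gives divisibility by `(u - s) ^ μ`. -/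
theorem exists_eq_pow_mul {s : PowerSeries A₀} (hs : PowerSeries.constantCoeff s = 0) :
    ∀ (μ : ℕ) (f : PowerSeries (PowerSeries A₀)), (∀ j < μ, ev s (hasse j f) = 0) →
      ∃ Q, f = (PowerSeries.X - PowerSeries.C s) ^ μ * Q := by
  intro μ
  induction μ with
  | zero =>
    intro f _
    exact ⟨f, by rw [pow_zero, one_mul]⟩
  | succ μ ih =>
    intro f hf
    have h0 : ev s f = 0 := by
      have h := hf 0 (Nat.succ_pos μ)
      rwa [hasse_zero] at h
    have hq : f = (PowerSeries.X - PowerSeries.C s) * quot s f := by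
      have h := sub_C_ev_eq hs f
      rw [h0, map_zero, zero_add] at h
      exact h
    obtain ⟨Q, hQ⟩ := ih (quot s f) (fun j hj => by
      have h := hf (j + 1) (Nat.succ_lt_succ hj)
      rw [hq, ev_hasse_succ_sub_C_mul hs] at h
      exact h)
    refine ⟨Q, ?_⟩
    calc f = (PowerSeries.X - PowerSeries.C s) * quot s f := hq
      _ = (PowerSeries.X - PowerSeries.C s) * ((PowerSeries.X - PowerSeries.C s) ^ μ * Q) := by
          rw [← hQ]
      _ = (PowerSeries.X - PowerSeries.C s) ^ (μ + 1) * Q := by ring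

theorem ev_hasse_pow_mul {s : PowerSeries A₀} (hs : PowerSeries.constantCoeff s = 0) :
    ∀ (μ : ℕ) (G : PowerSeries (PowerSeries A₀)),
      ev s (hasse μ ((PowerSeries.X - PowerSeries.C s) ^ μ * G)) = ev s G := by
  intro μ
  induction μ with
  | zero =>
    intro G
    rw [pow_zero, one_mul, hasse_zero]
  | succ μ ih =>
    intro G
    rw [pow_succ', mul_assoc, ev_hasse_succ_sub_C_mul hs, ih]

theorem ev_hasse_mul {t : PowerSeries A₀} (ht : PowerSeries.constantCoeff t = 0) (j : ℕ)
    (P G : PowerSeries (PowerSeries A₀)) :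
    ev t (hasse j (P * G)) =
      ∑ i ∈ Finset.range (j + 1), ev t (hasse i P) * ev t (hasse (j - i) G) := by
  rw [hasse_mul, ← evHom_apply t ht, map_sum]
  refine Finset.sum_congr rfl fun i _ => ?_
  rw [map_mul]
  rfl

theorem ev_hasse_eq_zero_of_mul [IsDomain A₀] {t : PowerSeries A₀}
    (ht : PowerSeries.constantCoeff t = 0) (P G : PowerSeries (PowerSeries A₀))
    (hP : ev t P ≠ 0) (μ : ℕ) (h : ∀ j < μ, ev t (hasse j (P * G)) = 0) :
    ∀ j < μ, ev t (hasse j G) = 0 := by
  intro j
  induction j using Nat.strong_induction_on with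
  | _ j ih =>
    intro hj
    have h1 := h j hj
    rw [ev_hasse_mul ht, Finset.sum_range_succ', hasse_zero, Nat.sub_zero] at h1
    rw [Finset.sum_eq_zero, zero_add] at h1
    · exact (mul_eq_zero.mp h1).resolve_left hP
    · intro i hi
      have hi' := Finset.mem_range.mp hi
      rw [ih (j - (i + 1)) (by omega) (by omega), mul_zero]

/-- Zeros of multiplicities `μ i` at pairwise distinct points `r i`, `i ∈ T`, factor out. -/
theorem exists_eq_mul_prod [IsDomain A₀] {ι : Type*} [DecidableEq ι] (r : ι → PowerSeries A₀)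
    (μ : ι → ℕ) (hr0 : ∀ i, PowerSeries.constantCoeff (r i) = 0) (hr : Function.Injective r)
    (Ψ : PowerSeries (PowerSeries A₀)) (T : Finset ι)
    (hvan : ∀ i ∈ T, ∀ j < μ i, ev (r i) (hasse j Ψ) = 0) :
    ∃ Q, Ψ = Q * ∏ i ∈ T, (PowerSeries.X - PowerSeries.C (r i)) ^ μ i := by
  induction T using Finset.induction_on with
  | empty => exact ⟨Ψ, by rw [Finset.prod_empty, mul_one]⟩
  | insert i₀ T hi₀ ih =>
    obtain ⟨Q, hQ⟩ := ih (fun i hi => hvan i (Finset.mem_insert_of_mem hi))
    have hP : ev (r i₀) (∏ i ∈ T, (PowerSeries.X - PowerSeries.C (r i)) ^ μ i) ≠ 0 := by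
      rw [← evHom_apply _ (hr0 i₀), map_prod]
      refine Finset.prod_ne_zero_iff.mpr fun i hi => ?_
      rw [map_pow, evHom_apply, ev_X_sub_C (hr0 i₀)]
      refine pow_ne_zero _ (sub_ne_zero.mpr fun h => hi₀ ?_)
      rw [hr h]
      exact hi
    have hv : ∀ j < μ i₀, ev (r i₀) (hasse j Q) = 0 := by
      refine ev_hasse_eq_zero_of_mul (hr0 i₀) _ Q hP (μ i₀) fun j hj => ?_
      have h := hvan i₀ (Finset.mem_insert_self i₀ T) j hj
      rw [hQ, mul_comm Q] at h
      exact h
    obtain ⟨Q', hQ'⟩ := exists_eq_pow_mul (hr0 i₀) (μ i₀) Q hv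
    refine ⟨Q', ?_⟩
    rw [Finset.prod_insert hi₀]
    calc Ψ = Q * ∏ i ∈ T, (PowerSeries.X - PowerSeries.C (r i)) ^ μ i := hQ
      _ = (PowerSeries.X - PowerSeries.C (r i₀)) ^ μ i₀ * Q' *
            ∏ i ∈ T, (PowerSeries.X - PowerSeries.C (r i)) ^ μ i := by rw [← hQ']
      _ = _ := by ring

end Division

section Main

variable {K : Type*} [Field K]

/-- `(H_j Ψ)(π, r)` for `Ψ = ∑ l, C l (π) * W l (u)`: the `j`-th Hasse derivative in `u`,
evaluated at `u = r`. -/
noncomputable def jetAt {ι : Type*} [Fintype ι] (C W : ι → PowerSeries K) (j : ℕ)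
    (r : PowerSeries K) : PowerSeries K :=
  ∑ l, C l * (hasse j (W l)).subst r

/-- The closed fibre `Ψ(0, u) = ∑ l, C l (0) • W l`. -/
noncomputable def closedFibre {ι : Type*} [Fintype ι] (C W : ι → PowerSeries K) : PowerSeries K :=
  ∑ l, PowerSeries.constantCoeff (C l) • W l

/-- The two-variable series `∑ l, C l (π) * W l (u)` as a power series in `u` over `K[[π]]`. -/
noncomputable def toS {ι : Type*} [Fintype ι] (C W : ι → PowerSeries K) :
    PowerSeries (PowerSeries K) :=
  ∑ l, PowerSeries.C (C l) * PowerSeries.map (PowerSeries.C : K →+* PowerSeries K) (W l)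

theorem ev_map_C {r : PowerSeries K} (hr : PowerSeries.constantCoeff r = 0) (W : PowerSeries K) :
    ev r (PowerSeries.map (PowerSeries.C : K →+* PowerSeries K) W) = W.subst r := by
  have hs : PowerSeries.HasSubst r := PowerSeries.HasSubst.of_constantCoeff_zero' hr
  refine PowerSeries.ext fun e => ?_
  rw [coeff_ev hr _ (Nat.lt_succ_self e), PowerSeries.trunc_apply, Polynomial.eval_finsetSum,
    map_sum, PowerSeries.coeff_subst' hs, Nat.Ico_zero_eq_range,
    finsum_eq_finsetSum_of_support_subset _ (s := Finset.range (e + 1))]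
  · refine Finset.sum_congr rfl fun m _ => ?_
    rw [Polynomial.eval_monomial, PowerSeries.coeff_map, PowerSeries.coeff_C_mul, smul_eq_mul]
  · intro d hd
    rw [Function.mem_support] at hd
    rw [Finset.coe_range, Set.mem_Iio]
    by_contra hlt
    apply hd
    have h := coeff_mul_pow_eq_zero hr 1 (show e < d by omega)
    rw [one_mul] at h
    rw [h, smul_zero]

theorem ev_hasse_toS {ι : Type*} [Fintype ι] (C W : ι → PowerSeries K) {r : PowerSeries K}
    (hr : PowerSeries.constantCoeff r = 0) (j : ℕ) :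
    ev r (hasse j (toS C W)) = jetAt C W j r := by
  rw [toS, hasse_sum, ← evHom_apply r hr, map_sum, jetAt]
  refine Finset.sum_congr rfl fun l _ => ?_
  rw [hasse_C_mul, hasse_map, map_mul, evHom_apply, evHom_apply, ev_C hr, ev_map_C hr]

theorem map_constantCoeff_toS {ι : Type*} [Fintype ι] (C W : ι → PowerSeries K) :
    PowerSeries.map (PowerSeries.constantCoeff : PowerSeries K →+* K) (toS C W) =
      closedFibre C W := by
  rw [toS, map_sum, closedFibre]
  refine Finset.sum_congr rfl fun l _ => ?_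
  have hmm : PowerSeries.map (PowerSeries.constantCoeff : PowerSeries K →+* K)
      (PowerSeries.map (PowerSeries.C : K →+* PowerSeries K) (W l)) = W l := by
    refine PowerSeries.ext fun m => ?_
    rw [PowerSeries.coeff_map, PowerSeries.coeff_map, PowerSeries.constantCoeff_C]
  rw [map_mul, PowerSeries.map_C, PowerSeries.smul_eq_C_mul, hmm]

theorem coeff_zero_toS {ι : Type*} [Fintype ι] (C W : ι → PowerSeries K) :
    PowerSeries.coeff 0 (toS C W) =
      ∑ l, C l * PowerSeries.C (PowerSeries.constantCoeff (W l)) := by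
  rw [toS, map_sum]
  refine Finset.sum_congr rfl fun l _ => ?_
  rw [PowerSeries.coeff_C_mul, PowerSeries.coeff_map,
    PowerSeries.coeff_zero_eq_constantCoeff_apply]

theorem map_constantCoeff_prod {a : ℕ} (r : Fin a → PowerSeries K) (μ : Fin a → ℕ)
    (hr0 : ∀ i, PowerSeries.constantCoeff (r i) = 0) :
    PowerSeries.map (PowerSeries.constantCoeff : PowerSeries K →+* K)
        (∏ i, (PowerSeries.X - PowerSeries.C (r i)) ^ μ i) = PowerSeries.X ^ (∑ i, μ i) := by
  rw [map_prod, ← Finset.prod_pow_eq_pow_sum]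
  refine Finset.prod_congr rfl fun i _ => ?_
  rw [map_pow, map_sub, PowerSeries.map_X, PowerSeries.map_C, hr0 i, map_zero, sub_zero]

/-- The factorisation `Ψ = Q * ∏ (u - r i) ^ μ i`. -/
theorem exists_factor {ι : Type*} [Fintype ι] {a : ℕ} (C W : ι → PowerSeries K)
    (r : Fin a → PowerSeries K) (μ : Fin a → ℕ)
    (hr0 : ∀ i, PowerSeries.constantCoeff (r i) = 0) (hr : Function.Injective r)
    (hvan : ∀ i, ∀ j < μ i, jetAt C W j (r i) = 0) :
    ∃ Q, toS C W = Q * ∏ i, (PowerSeries.X - PowerSeries.C (r i)) ^ μ i :=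
  exists_eq_mul_prod r μ hr0 hr (toS C W) Finset.univ fun i _ j hj => by
    rw [ev_hasse_toS C W (hr0 i)]
    exact hvan i j hj

/-- Easy half: zeros of total multiplicity `∑ μ i` on the residue disc force the closed fibre to
vanish to that order. -/
theorem X_pow_dvd_closedFibre {ι : Type*} [Fintype ι] {a : ℕ} (C W : ι → PowerSeries K)
    (r : Fin a → PowerSeries K) (μ : Fin a → ℕ)
    (hr0 : ∀ i, PowerSeries.constantCoeff (r i) = 0) (hr : Function.Injective r)
    (hvan : ∀ i, ∀ j < μ i, jetAt C W j (r i) = 0) :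
    (PowerSeries.X : PowerSeries K) ^ (∑ i, μ i) ∣ closedFibre C W := by
  obtain ⟨Q, hQ⟩ := exists_factor C W r μ hr0 hr hvan
  rw [← map_constantCoeff_toS, hQ, map_mul, map_constantCoeff_prod r μ hr0]
  exact Dvd.intro_left _ rfl

/-- In the exact case the cofactor `Q` is a unit: its constant coefficient is a unit. -/
theorem constantCoeff_cofactor_ne_zero {ι : Type*} [Fintype ι] {a : ℕ} (C W : ι → PowerSeries K)
    (r : Fin a → PowerSeries K) (μ : Fin a → ℕ)
    (hr0 : ∀ i, PowerSeries.constantCoeff (r i) = 0)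
    (hord : (closedFibre C W).order = ((∑ i, μ i : ℕ) : ℕ∞))
    {Q : PowerSeries (PowerSeries K)}
    (hQ : toS C W = Q * ∏ i, (PowerSeries.X - PowerSeries.C (r i)) ^ μ i) :
    PowerSeries.constantCoeff (PowerSeries.constantCoeff Q) ≠ 0 := by
  have h1 : closedFibre C W =
      PowerSeries.map (PowerSeries.constantCoeff : PowerSeries K →+* K) Q *
        PowerSeries.X ^ (∑ i, μ i) := by
    rw [← map_constantCoeff_toS, hQ, map_mul, map_constantCoeff_prod r μ hr0]
  have h2 := (PowerSeries.order_eq_nat.mp hord).1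
  have h3 := PowerSeries.coeff_mul_X_pow
    (PowerSeries.map (PowerSeries.constantCoeff : PowerSeries K →+* K) Q) (∑ i, μ i) 0
  rw [zero_add] at h3
  rw [h1, h3, PowerSeries.coeff_map, PowerSeries.coeff_zero_eq_constantCoeff_apply] at h2
  exact h2

theorem order_ev_eq_zero {Q : PowerSeries (PowerSeries K)}
    (hQ0 : PowerSeries.constantCoeff (PowerSeries.constantCoeff Q) ≠ 0) {t : PowerSeries K}
    (ht : PowerSeries.constantCoeff t = 0) : (ev t Q).order = 0 := by
  apply PowerSeries.order_zero_of_unit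
  rw [PowerSeries.isUnit_iff_constantCoeff, constantCoeff_ev ht]
  exact isUnit_iff_ne_zero.mpr hQ0

/-- Normal form, value at `u = 0`: `Ψ(π, 0) = unit * ∏ (- r i) ^ μ i`. -/
theorem order_value_zero {ι : Type*} [Fintype ι] {a : ℕ} (C W : ι → PowerSeries K)
    (r : Fin a → PowerSeries K) (μ : Fin a → ℕ)
    (hr0 : ∀ i, PowerSeries.constantCoeff (r i) = 0) (hr : Function.Injective r)
    (hvan : ∀ i, ∀ j < μ i, jetAt C W j (r i) = 0)
    (hord : (closedFibre C W).order = ((∑ i, μ i : ℕ) : ℕ∞)) :
    (∑ l, C l * PowerSeries.C (PowerSeries.constantCoeff (W l))).order =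
      ∑ i, (μ i : ℕ∞) * (r i).order := by
  obtain ⟨Q, hQ⟩ := exists_factor C W r μ hr0 hr hvan
  have hQ0 := constantCoeff_cofactor_ne_zero C W r μ hr0 hord hQ
  have h0 : PowerSeries.constantCoeff (0 : PowerSeries K) = 0 := map_zero _
  rw [← coeff_zero_toS, ← ev_zero_eq, hQ, ← evHom_apply 0 h0, map_mul, map_prod,
    PowerSeries.order_mul, PowerSeries.order_prod, evHom_apply, order_ev_eq_zero hQ0 h0, zero_add]
  refine Finset.sum_congr rfl fun i _ => ?_
  rw [map_pow, evHom_apply, ev_X_sub_C h0, zero_sub, PowerSeries.order_pow, PowerSeries.order_neg,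
    nsmul_eq_mul]

/-- Normal form, leading jet at `r i`:
`(H_{μ i} Ψ)(π, r i) = unit * ∏_{i' ≠ i} (r i - r i') ^ μ i'`. -/
theorem order_jetAt {ι : Type*} [Fintype ι] {a : ℕ} (C W : ι → PowerSeries K)
    (r : Fin a → PowerSeries K) (μ : Fin a → ℕ)
    (hr0 : ∀ i, PowerSeries.constantCoeff (r i) = 0) (hr : Function.Injective r)
    (hvan : ∀ i, ∀ j < μ i, jetAt C W j (r i) = 0)
    (hord : (closedFibre C W).order = ((∑ i, μ i : ℕ) : ℕ∞)) (i : Fin a) :
    (jetAt C W (μ i) (r i)).order =
      ∑ i' ∈ Finset.univ.erase i, (μ i' : ℕ∞) * (r i - r i').order := by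
  obtain ⟨Q, hQ⟩ := exists_factor C W r μ hr0 hr hvan
  have hQ0 := constantCoeff_cofactor_ne_zero C W r μ hr0 hord hQ
  have hi := hr0 i
  have h1 : toS C W = (PowerSeries.X - PowerSeries.C (r i)) ^ μ i *
      (Q * ∏ i' ∈ Finset.univ.erase i, (PowerSeries.X - PowerSeries.C (r i')) ^ μ i') := by
    rw [hQ, ← Finset.mul_prod_erase Finset.univ _ (Finset.mem_univ i)]
    ring
  rw [← ev_hasse_toS C W hi (μ i), h1, ev_hasse_pow_mul hi, ← evHom_apply _ hi, map_mul, map_prod,
    PowerSeries.order_mul, PowerSeries.order_prod, evHom_apply, order_ev_eq_zero hQ0 hi, zero_add]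
  refine Finset.sum_congr rfl fun i' _ => ?_
  rw [map_pow, evHom_apply, ev_X_sub_C hi, PowerSeries.order_pow, nsmul_eq_mul]

end Main

section Vandermonde

variable {K : Type*} [Field K] {g : ℕ} {γ : Type*} [DecidableEq γ]

/-- The indices `< n` of the group `c`. -/
def below (grp : Fin g → γ) (c : γ) (n : ℕ) : Finset (Fin g) :=
  Finset.univ.filter fun i' : Fin g => i'.val < n ∧ grp i' = c

theorem mem_below (grp : Fin g → γ) (c : γ) (n : ℕ) (k : Fin g) :
    k ∈ below grp c n ↔ k.val < n ∧ grp k = c := by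
  rw [below, Finset.mem_filter]
  exact ⟨fun h => h.2, fun h => ⟨Finset.mem_univ k, h⟩⟩

theorem sum_below {M : Type*} [AddCommMonoid M] (grp : Fin g → γ) (c : γ) (n : ℕ)
    (G : Fin g → M) :
    ∑ k ∈ below grp c n, G k = ∑ k, if k.val < n ∧ grp k = c then G k else 0 :=
  Finset.sum_filter _ _

theorem below_zero (grp : Fin g → γ) (c : γ) : below grp c 0 = ∅ := by
  refine Finset.eq_empty_of_forall_notMem fun k hk => ?_
  exact Nat.not_lt_zero _ ((mem_below grp c 0 k).mp hk).1

theorem below_succ_of_mem (grp : Fin g → γ) (c : γ) {n : ℕ} (h : n < g)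
    (hc : grp ⟨n, h⟩ = c) : below grp c (n + 1) = insert ⟨n, h⟩ (below grp c n) := by
  ext k
  rw [Finset.mem_insert, mem_below, mem_below]
  constructor
  · rintro ⟨hk, hkc⟩
    rcases Nat.lt_succ_iff_lt_or_eq.mp hk with h1 | h1
    · exact Or.inr ⟨h1, hkc⟩
    · exact Or.inl (Fin.ext h1)
  · rintro (rfl | ⟨h1, hkc⟩)
    · exact ⟨Nat.lt_succ_self _, hc⟩
    · exact ⟨Nat.lt_succ_of_lt h1, hkc⟩

theorem notMem_below (grp : Fin g → γ) (c : γ) {n : ℕ} (h : n < g) :
    (⟨n, h⟩ : Fin g) ∉ below grp c n := by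
  rw [mem_below]
  exact fun h' => lt_irrefl n h'.1

theorem below_succ_of_not (grp : Fin g → γ) (c : γ) {n : ℕ}
    (h : ∀ h' : n < g, grp ⟨n, h'⟩ ≠ c) : below grp c (n + 1) = below grp c n := by
  ext k
  rw [mem_below, mem_below]
  constructor
  · rintro ⟨hk, hkc⟩
    rcases Nat.lt_succ_iff_lt_or_eq.mp hk with h1 | h1
    · exact ⟨h1, hkc⟩
    · exfalso
      rcases k with ⟨kv, hkv⟩
      change kv = n at h1
      subst h1
      exact h hkv hkc
  · rintro ⟨h1, hkc⟩
    exact ⟨Nat.lt_succ_of_lt h1, hkc⟩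

/-- Iterated quotients along the points of the group `c` with index `< n` (Newton's divided
differences). -/
noncomputable def iter (grp : Fin g → γ) (r : Fin g → PowerSeries K) (c : γ) :
    ℕ → PowerSeries (PowerSeries K) → PowerSeries (PowerSeries K)
  | 0, F => F
  | n + 1, F =>
    if h : n < g then
      (if grp ⟨n, h⟩ = c then quot (r ⟨n, h⟩) (iter grp r c n F) else iter grp r c n F)
    else iter grp r c n F

/-- Newton's interpolation formula along the points of the group of `i`. -/
theorem newton (grp : Fin g → γ) (r : Fin g → PowerSeries K)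
    (hr0 : ∀ i, PowerSeries.constantCoeff (r i) = 0) (i : Fin g)
    (F : PowerSeries (PowerSeries K)) (n : ℕ) :
    ev (r i) F =
      ∑ k ∈ below grp (grp i) n,
          (∏ i' ∈ below grp (grp i) k.val, (r i - r i')) *
            ev (r k) (iter grp r (grp i) k.val F) +
        (∏ i' ∈ below grp (grp i) n, (r i - r i')) * ev (r i) (iter grp r (grp i) n F) := by
  induction n with
  | zero =>
    rw [below_zero, Finset.sum_empty, Finset.prod_empty, zero_add, one_mul]
    rfl
  | succ n ih =>
    by_cases h : n < g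
    · by_cases hc : grp ⟨n, h⟩ = grp i
      · have hit : iter grp r (grp i) (n + 1) F = quot (r ⟨n, h⟩) (iter grp r (grp i) n F) := by
          rw [iter, dif_pos h, if_pos hc]
        have key := ev_eq_add_mul (hr0 ⟨n, h⟩) (hr0 i) (iter grp r (grp i) n F)
        rw [below_succ_of_mem grp (grp i) h hc, Finset.sum_insert (notMem_below grp (grp i) h),
          Finset.prod_insert (notMem_below grp (grp i) h), hit]
        have e : ((⟨n, h⟩ : Fin g) : ℕ) = n := rfl
        rw [e]
        conv_lhs => rw [ih, key]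
        ring
      · have hit : iter grp r (grp i) (n + 1) F = iter grp r (grp i) n F := by
          rw [iter, dif_pos h, if_neg hc]
        rw [below_succ_of_not grp (grp i) (fun h' => hc), hit]
        exact ih
    · have hit : iter grp r (grp i) (n + 1) F = iter grp r (grp i) n F := by
        rw [iter, dif_neg h]
      rw [below_succ_of_not grp (grp i) (fun h' => absurd h' h), hit]
      exact ih

/-- The lower triangular factor. -/
noncomputable def matL (grp : Fin g → γ) (r : Fin g → PowerSeries K) :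
    Matrix (Fin g) (Fin g) (PowerSeries K) :=
  Matrix.of fun i k =>
    if k ≤ i ∧ grp k = grp i then ∏ i' ∈ below grp (grp i) k.val, (r i - r i') else 0

/-- The matrix of divided differences. -/
noncomputable def matC (grp : Fin g → γ) (r : Fin g → PowerSeries K)
    (f : γ → Fin g → PowerSeries K) : Matrix (Fin g) (Fin g) (PowerSeries K) :=
  Matrix.of fun k b =>
    ev (r k) (iter grp r (grp k) k.val
      (PowerSeries.map (PowerSeries.C : K →+* PowerSeries K) (f (grp k) b)))

theorem subst_matrix_eq (grp : Fin g → γ) (r : Fin g → PowerSeries K)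
    (hr0 : ∀ i, PowerSeries.constantCoeff (r i) = 0) (f : γ → Fin g → PowerSeries K) :
    (Matrix.of fun i b => (f (grp i) b).subst (r i)) = matL grp r * matC grp r f := by
  refine Matrix.ext fun i b => ?_
  rw [Matrix.mul_apply, Matrix.of_apply, ← ev_map_C (hr0 i)]
  have hN := newton grp r hr0 i
    (PowerSeries.map (PowerSeries.C : K →+* PowerSeries K) (f (grp i) b)) (i.val + 1)
  have hz : ∏ i' ∈ below grp (grp i) (i.val + 1), (r i - r i') = 0 :=
    Finset.prod_eq_zero (i := i)
      ((mem_below grp (grp i) (i.val + 1) i).mpr ⟨Nat.lt_succ_self _, rfl⟩) (sub_self _)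
  rw [hz, zero_mul, add_zero] at hN
  rw [hN, sum_below grp (grp i) (i.val + 1)]
  refine Finset.sum_congr rfl fun k _ => ?_
  simp only [matL, matC, Matrix.of_apply]
  by_cases hk : k.val < i.val + 1 ∧ grp k = grp i
  · rw [if_pos hk, if_pos ⟨Fin.le_def.mpr (Nat.lt_succ_iff.mp hk.1), hk.2⟩, hk.2]
  · rw [if_neg hk, if_neg (fun h => hk ⟨Nat.lt_succ_iff.mpr (Fin.le_def.mp h.1), h.2⟩), zero_mul]

/-- Block Vandermonde divisibility: rows `i` with the same centre `grp i` are the values at the
points `r i` of the same family of power series. -/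
theorem vandermonde_dvd_det {g : ℕ} {γ : Type*} [DecidableEq γ] (grp : Fin g → γ)
    (r : Fin g → PowerSeries K) (hr0 : ∀ i, PowerSeries.constantCoeff (r i) = 0)
    (f : γ → Fin g → PowerSeries K) :
    (∏ i : Fin g, ∏ i' ∈ Finset.univ.filter (fun i' : Fin g => i' < i ∧ grp i' = grp i),
        (r i - r i')) ∣
      Matrix.det (Matrix.of fun i b => (f (grp i) b).subst (r i)) := by
  have hL : (matL grp r).det = ∏ i, matL grp r i i :=
    Matrix.det_of_isLowerTriangular _ (by
      intro i j hij
      have hij' : i < j := OrderDual.toDual_lt_toDual.mp hij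
      simp only [matL, Matrix.of_apply]
      rw [if_neg]
      rintro ⟨hle, -⟩
      exact absurd hij' (not_lt.mpr hle))
  have hd : ∀ i, matL grp r i i =
      ∏ i' ∈ Finset.univ.filter (fun i' : Fin g => i' < i ∧ grp i' = grp i), (r i - r i') := by
    intro i
    have e : matL grp r i i =
        if i ≤ i ∧ grp i = grp i then ∏ i' ∈ below grp (grp i) i.val, (r i - r i') else 0 := rfl
    rw [e, if_pos ⟨le_refl i, rfl⟩]
    exact Finset.prod_congr (Finset.filter_congr fun i' _ => Iff.rfl) fun _ _ => rfl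
  rw [subst_matrix_eq grp r hr0 f, Matrix.det_mul, hL, Finset.prod_congr rfl fun i _ => hd i]
  exact Dvd.intro _ rfl

end Vandermonde

end Fermat.Agent.S17.HB.Loc1
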