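import Mathlib
import Fermat.Prelude.Def_AlgebraicCurve_Repartitions
import Fermat.Prelude.Def_AlgebraicCurve_IsCurveOver
import Fermat.Agent.S17.R.LSpace

/-!
# Program MW (statement S17), strand HB (route beta): the division curve

`DivCurve M n Q₀ E₀ ∂` is the ONE hypothesis structure of the leaf chain B5 (`DivPt`) of strand
HB.  `F / K` is a function field of one variable, `Q₀` a place ("`oo`"), `E₀` a non-special set of
`g` places off `Q₀`, `n ≥ 1`, and `∂` a non-zero `K`-derivation of `F`.  `M` is a second function
field of one variable over `K` (the division curve) with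

* `ρ₀ : F →ₐ[K] M`, the generic point `P`, and `ρ k : F →ₐ[K] M` (`k : Fin g`), the moving
  points `R k`; they are pairwise distinct and different from `ρ₀`;
* a linearly independent family `v j` of `L(n E₀ + Q₀)` with `v 0 = 1` and coefficients
  `c j : M`, `c 0 = 1`: the function `Ψ = ∑ c j • v j` of the curve over `M`;
* `generic` : `Ψ` vanishes at the generic point;
* `jets` : `Ψ` vanishes to order `n` at every moving point (through the derivation `∂`);
* a divisor `W` of degree `2 g - 2` and `g` functions `u b ∈ L(W)` whose evaluation matrix at the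
  moving points is invertible (`G1_ne`).

So, on the curve over `M`, `div Ψ = P + n ∑ R k - n E₀ - Q₀`: the class of `E₀ - ∑ R k` is an
`n`-th root of the class of `P - Q₀`.  The structure is produced from strand D's formal solution
(`D.Setup`), `M` being the subfield of `LaurentSeries K` generated by the expansions; every
consumer (LOC, DEG, HT of the HB contract) is typed against this structure for an abstract `M`.
-/

set_option autoImplicit false

open AlgebraicCurve

namespace Fermat.Agent.S17.HB

/-- The division curve of strand HB: see the header of the file. -/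
structure DivCurve {K F : Type*} [Field K] [Field F] [Algebra K F] (M : Type*) [Field M]
    [Algebra K M] (n : ℕ) (Q₀ : Place K F) (E₀ : Finset (Place K F)) (δ : Derivation K F F) where
  δ_ne : δ ≠ 0
  /-- the number of moving points, the genus -/
  g : ℕ
  g_eq : g = R.gR K F
  /-- the base points -/
  E : Fin g → Place K F
  E_inj : Function.Injective E
  mem_E₀ : ∀ v : Place K F, v ∈ E₀ ↔ ∃ k, E k = v
  /-- the generic point -/
  ρ₀ : F →ₐ[K] M
  /-- the moving points -/
  ρ : Fin g → (F →ₐ[K] M)
  ρ_ne₀ : ∀ k, ρ k ≠ ρ₀
  ρ_ne : ∀ k k', k ≠ k' → ρ k ≠ ρ k'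
  /-- the functions -/
  m : ℕ
  v : Fin (m + 1) → F
  v_zero : v 0 = 1
  v_indep : LinearIndependent K v
  v_mem : ∀ j, v j ∈ riemannRochSpace ((n : ℤ) • ∑ P ∈ E₀, Finsupp.single P (1 : ℤ) +
    Finsupp.single Q₀ 1)
  /-- the coefficients of the generic function `Ψ = ∑ c j • v j` -/
  c : Fin (m + 1) → M
  c_zero : c 0 = 1
  /-- `Ψ` vanishes at the generic point -/
  generic : ∑ j, c j * ρ₀ (v j) = 0
  /-- `Ψ` vanishes to order `n` at the moving points -/
  jets : ∀ k, ∀ i < n, ∑ j, c j * ρ k ((⇑δ)^[i] (v j)) = 0
  /-- a canonical divisor and a basis of its sections, independent at the moving points -/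
  W : Divisor K F
  W_degree : Divisor.degree W = 2 * (g : ℤ) - 2
  u : Fin g → F
  u_mem : ∀ b, u b ∈ riemannRochSpace W
  G1_ne : (Matrix.of fun k b => ρ k (u b)).det ≠ 0

end Fermat.Agent.S17.HB
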