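/-
Program MW (S17), strand HB (route beta): the DIVPT assembly, core (helper152).

`F / Qb` a function field of one variable, `Q₀` a base place, `y` a function regular off `Q₀`
with a pole of order `n0` at `Q₀`; the place height is `P ↦ hQ (y(P))`.

* `FibrePt Q₀ y G n κ₀` : THE SEAM PROP fed by the division curve.  There are a set `E₀` of at
  most `G` places off `Q₀`, a number `g ≤ G` of moving points and a finite exceptional set `S`
  such that for every `P ∉ S` there are moving points `R k ≠ Q₀` with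
  `div Ψ = P + n ∑ R k - n ∑ E₀ - Q₀` for some `Ψ ≠ 0`, and
  `∑ hQ (y(R k)) ≤ κ₀ / n ^ 2 * hQ (y(P)) + C₁`.
* `divPt_core` : `FibrePt` and (RED) for effective presentations of degree `≤ G * n0` give,
  for every `P ∉ S`, a class `z` with `n • z = [P - Q₀]` and
  `H z ≤ (A * (n0 - 1) * κ₀) / n ^ 2 * hQ (y(P)) + C_n`.
* `divPt` : the contract's `Contract.DivPt N (fun P => hQ (evalAt P y))` on `X_0(N)`.

Proof of the core.  `c_k := y(R k)`; `Z_k := div (y - c_k) + n0 Q₀` is effective off `Q₀` and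
contains `R k`; `D_k := Z_k - R k` has degree `n0 - 1`, all its points have `y`-value `c_k`, and
its class is `-[R k - Q₀]` (inversion is free).  `D := ∑ E₀ + ∑ D_k` is an effective presentation
of `z := [∑ E₀ - ∑ R k]`, of degree `≤ G * n0`, and `n • z = [P - Q₀]` because `div Ψ` is
principal.  All class computations go through the additive map `R.Move.cls`.
-/
import Mathlib
import Fermat.Agent.S17.R.Move
import Fermat.Agent.S17.R.Reduced
import Fermat.Agent.S17.R.PoleDegree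
import Fermat.Agent.S17.R.PoleOrder
import Fermat.Agent.S17.R.NonSpecialStep
import Fermat.Agent.S17.H.Glob.Eval
import Fermat.Agent.S17.HB.Red.Defs
import Fermat.Agent.S17.HB.Contract

set_option autoImplicit false

namespace Fermat.Agent.S17.HB.DivPtCore

open AlgebraicCurve ModularCurve
open Fermat.Agent.S17 Fermat.Agent.S17.R Fermat.Agent.S17.H Fermat.Agent.S17.H.Glob
open Fermat.Agent.S17.HB.Red

local notation "Qb" => AlgebraicClosure ℚ

section Core

variable {F : Type*} [Field F] [Algebra Qb F] [Algebra.EssFiniteType Qb F]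

/-- **The seam Prop of (DIVPT)**: what the division curve delivers for one `n`. -/
def FibrePt (Q₀ : Place Qb F) (y : F) (G n : ℕ) (κ₀ : ℝ) : Prop :=
  ∃ (E₀ : Finset (Place Qb F)) (g : ℕ) (C₁ : ℝ) (S : Finset (Place Qb F)),
    Q₀ ∉ E₀ ∧ E₀.card ≤ G ∧ g ≤ G ∧
    ∀ P : Place Qb F, P ∉ S → ∃ R : Fin g → Place Qb F, (∀ k, R k ≠ Q₀) ∧
      (∃ Ψ : F, Ψ ≠ 0 ∧ divOf Qb Ψ =
        Finsupp.single P (1 : ℤ) + (n : ℤ) • ∑ k, Finsupp.single (R k) (1 : ℤ)
          - (n : ℤ) • ∑ v ∈ E₀, Finsupp.single v (1 : ℤ) - Finsupp.single Q₀ (1 : ℤ)) ∧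
      ∑ k, hQ (evalAt (R k) y) ≤ κ₀ / (n : ℝ) ^ 2 * hQ (evalAt P y) + C₁

/-- `cls` kills the multiples of the base place. -/
theorem cls_single_base (htr : Algebra.trdeg Qb F = 1) (Q₀ : Place Qb F) (b : ℤ) :
    Move.cls htr Q₀ (Finsupp.single Q₀ b) = 0 := by
  have h0 : Move.toDegZero htr Q₀ (Finsupp.single Q₀ b) = 0 := by
    apply Subtype.ext
    rw [Move.coe_toDegZero, Divisor.degree_single, Fermat.Agent.S24.FF.deg_eq_one htr Q₀,
      Nat.cast_one, mul_one, sub_self]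
    rfl
  have h1 : Move.cls htr Q₀ (Finsupp.single Q₀ b) = Move.cls htr Q₀ 0 := by
    rw [Move.cls_apply, Move.cls_apply, h0, map_zero]
  rw [h1, map_zero]

omit [Algebra.EssFiniteType Qb F] in
/-- The `y`-height of the zero divisor. -/
theorem divH_zero (y : F) : divH evalAt y (0 : Divisor Qb F) = 0 := by
  unfold divH
  exact Finsupp.sum_zero_index

omit [Algebra.EssFiniteType Qb F] in
/-- The `y`-height is additive on finite sums of divisors. -/
theorem divH_sum {ι : Type*} (s : Finset ι) (y : F) (D : ι → Divisor Qb F) :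
    divH evalAt y (∑ i ∈ s, D i) = ∑ i ∈ s, divH evalAt y (D i) := by
  classical
  induction s using Finset.induction_on with
  | empty => simp [divH_zero]
  | insert a s ha ih => rw [Finset.sum_insert ha, Finset.sum_insert ha, divH_add, ih]

/-- An effective divisor presents its own class. -/
theorem isEffRep_cls (htr : Algebra.trdeg Qb F = 1) (Q₀ : Place Qb F) {D : Divisor Qb F}
    (hD0 : 0 ≤ D) : IsEffRep Q₀ (Move.cls htr Q₀ D) (Divisor.degree D).toNat D := by
  have hdcast : (((Divisor.degree D).toNat : ℕ) : ℤ) = Divisor.degree D :=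
    Int.toNat_of_nonneg (ReducedCore.degree_nonneg hD0)
  have hmem : D - ((Divisor.degree D).toNat : ℤ) • Finsupp.single Q₀ (1 : ℤ) ∈
      Divisor.degZero (K := Qb) (F := F) := by
    rw [Divisor.mem_degZero, map_sub, PoleOrder.degree_zsmul_single htr, hdcast, sub_self]
  refine ⟨hD0, hmem, ?_⟩
  rw [Move.cls_apply]
  congr 1
  apply Subtype.ext
  show D - ((Divisor.degree D).toNat : ℤ) • Finsupp.single Q₀ (1 : ℤ) =
    (Move.toDegZero htr Q₀ D : Divisor Qb F)
  rw [Move.coe_toDegZero, hdcast, Finsupp.smul_single, smul_eq_mul, mul_one]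

/-- **Inversion is free**: the residual of the `y`-fibre through a point `R ≠ Q₀`. -/
theorem exists_fibre_compl (htr : Algebra.trdeg Qb F = 1) (Q₀ : Place Qb F) {y : F}
    (hy : RegOff Q₀ y) (hy0 : Q₀.ord y < 0) (R : Place Qb F) (hR : R ≠ Q₀) :
    ∃ D' : Divisor Qb F, 0 ≤ D' ∧ D' Q₀ = 0 ∧
      Divisor.degree D' = -(Q₀.ord y) - 1 ∧
      Move.cls htr Q₀ D' = -Move.cls htr Q₀ (Finsupp.single R 1) ∧
      divH evalAt y D' = (((-(Q₀.ord y)).toNat : ℝ) - 1) * hQ (evalAt R y) := by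
  classical
  have hev : IsEval (evalAt : Place Qb F → F → Qb) := isEval_evalAt htr
  set c : Qb := evalAt R y with hc
  set f : F := y - algebraMap Qb F c with hf
  have hordQ : Q₀.ord f = Q₀.ord y := PoleDegree.ord_sub_algebraMap hy0 c
  have hf0 : f ≠ 0 := by
    intro h
    rw [h, Place.ord_zero] at hordQ
    omega
  have hfmem : ∀ v : Place Qb F, v ≠ Q₀ → f ∈ v.toValuationSubring := fun v hv =>
    v.toValuationSubring.sub_mem (hy v hv) (v.algebraMap_mem' c)
  have hfnn : ∀ v : Place Qb F, v ≠ Q₀ → 0 ≤ v.ord f := fun v hv =>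
    Fermat.Agent.S24.FF.ord_nonneg_of_mem v (hfmem v hv)
  have hfR : 0 < R.ord f := by
    rcases (valuation_lt_one_iff R f).mp (hev R y (hy R hR)) with h | h
    · exact absurd h hf0
    · exact h
  have hs : ∀ a b : Place Qb F, a ≠ b → (Finsupp.single a (1 : ℤ) : Divisor Qb F) b = 0 :=
    fun a b h => by rw [Finsupp.single_apply, if_neg h]
  set Z : Divisor Qb F := divOf Qb f + (-(Q₀.ord y)) • Finsupp.single Q₀ (1 : ℤ) with hZ
  have hZQ : Z Q₀ = 0 := by
    rw [hZ, Finsupp.add_apply, divOf_apply htr, Finsupp.smul_apply, Finsupp.single_eq_same, hordQ]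
    simp
  have hZv : ∀ v : Place Qb F, v ≠ Q₀ → Z v = v.ord f := by
    intro v hv
    rw [hZ, Finsupp.add_apply, divOf_apply htr, Finsupp.smul_apply, hs Q₀ v (Ne.symm hv)]
    simp
  have hZdeg : Divisor.degree Z = -(Q₀.ord y) := by
    rw [hZ, map_add, degree_divOf htr, PoleOrder.degree_zsmul_single htr, zero_add]
  have hZcls : Move.cls htr Q₀ Z = 0 := by
    rw [hZ, map_add, Move.cls_principal htr Q₀ (divOf_mem_principal htr hf0), map_zsmul,
      cls_single_base, smul_zero, add_zero]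
  refine ⟨Z - Finsupp.single R (1 : ℤ), ?_, ?_, ?_, ?_, ?_⟩
  · refine Finsupp.le_def.mpr fun v => ?_
    rw [Finsupp.zero_apply, Finsupp.sub_apply]
    by_cases hvQ : v = Q₀
    · rw [hvQ, hZQ, hs R Q₀ hR]
      simp
    · rw [hZv v hvQ]
      by_cases hvR : v = R
      · rw [hvR, Finsupp.single_eq_same]
        omega
      · rw [hs R v (Ne.symm hvR)]
        have := hfnn v hvQ
        omega
  · rw [Finsupp.sub_apply, hZQ, hs R Q₀ hR]
    simp
  · rw [map_sub, hZdeg, Divisor.degree_single, Fermat.Agent.S24.FF.deg_eq_one htr R]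
    simp
  · rw [map_sub, hZcls, zero_sub]
  · -- every point of the residual has `y`-value `c`
    have hval : ∀ v ∈ (Z - Finsupp.single R (1 : ℤ)).support, evalAt v y = c := by
      intro v hv
      rw [Finsupp.mem_support_iff, Finsupp.sub_apply] at hv
      by_cases hvR : v = R
      · rw [hvR]
      · have hvQ : v ≠ Q₀ := by
          intro hvQ'
          apply hv
          rw [hvQ', hZQ, hs R Q₀ hR]
          simp
        rw [hs R v (Ne.symm hvR), sub_zero, hZv v hvQ] at hv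
        have hpos : 0 < v.ord f := lt_of_le_of_ne (hfnn v hvQ) (Ne.symm hv)
        exact hev.eq_of_valuation_lt (hy v hvQ) ((valuation_lt_one_iff v f).mpr (Or.inr hpos))
    have hdeg : Divisor.degree (Z - Finsupp.single R (1 : ℤ)) = -(Q₀.ord y) - 1 := by
      rw [map_sub, hZdeg, Divisor.degree_single, Fermat.Agent.S24.FF.deg_eq_one htr R]
      simp
    have hsum := NonSpecialStep.degree_eq_sum_support htr (Z - Finsupp.single R (1 : ℤ))
    have hn0 : (((-(Q₀.ord y)).toNat : ℤ)) = -(Q₀.ord y) := Int.toNat_of_nonneg (by omega)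
    have hn0R' : ((-(Q₀.ord y)).toNat : ℝ) = ((-(Q₀.ord y) : ℤ) : ℝ) := by
      have h := congrArg (Int.cast : ℤ → ℝ) hn0
      rwa [Int.cast_natCast] at h
    have hcast : (((-(Q₀.ord y)).toNat : ℝ) - 1) =
        ((∑ v ∈ (Z - Finsupp.single R (1 : ℤ)).support,
          (Z - Finsupp.single R (1 : ℤ)) v : ℤ) : ℝ) := by
      rw [← hsum, hdeg, hn0R']
      push_cast
      ring
    unfold divH Finsupp.sum
    rw [hcast, Int.cast_sum, Finset.sum_mul]
    exact Finset.sum_congr rfl fun v hv => by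
      beta_reduce
      rw [hval v hv]

/-- **(DIVPT), core**: the fibre statement and (RED) for effective presentations give the
division of the point classes with the height bound. -/
theorem divPt_core (htr : Algebra.trdeg Qb F = 1) (Q₀ : Place Qb F) {y : F} (hy : RegOff Q₀ y)
    (hy0 : Q₀.ord y < 0) (G : ℕ) {A C : ℝ} (hA : 0 ≤ A)
    (hRED : ∀ (x : Pic0 Qb F) (d : ℕ) (D : Divisor Qb F), d ≤ G * (-(Q₀.ord y)).toNat →
      IsEffRep Q₀ x d D → D Q₀ = 0 →
      divH evalAt y (redDiv Q₀ x) ≤ A * divH evalAt y D + C)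
    {κ₀ : ℝ} {n : ℕ} (hfib : FibrePt Q₀ y G n κ₀) :
    ∃ (Cl : ℝ) (S : Finset (Place Qb F)), ∀ P : Place Qb F, P ∉ S →
      ∃ z : Pic0 Qb F, n • z = Move.cls htr Q₀ (Finsupp.single P 1) ∧
        divH evalAt y (redDiv Q₀ z) ≤
          A * (((-(Q₀.ord y)).toNat : ℝ) - 1) * κ₀ / (n : ℝ) ^ 2 * hQ (evalAt P y) + Cl := by
  classical
  obtain ⟨E₀, g, C₁, S, hQ₀E, hEcard, hgG, hP⟩ := hfib
  have hn0z : (((-(Q₀.ord y)).toNat : ℕ) : ℤ) = -(Q₀.ord y) := Int.toNat_of_nonneg (by omega)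
  have hn0pos : 1 ≤ (-(Q₀.ord y)).toNat := by omega
  have hn0R : (0 : ℝ) ≤ ((-(Q₀.ord y)).toNat : ℝ) - 1 := by
    have : (1 : ℝ) ≤ ((-(Q₀.ord y)).toNat : ℝ) := by exact_mod_cast hn0pos
    linarith
  refine ⟨A * divH evalAt y (∑ v ∈ E₀, Finsupp.single v (1 : ℤ)) +
    A * (((-(Q₀.ord y)).toNat : ℝ) - 1) * C₁ + C, S, fun P hPS => ?_⟩
  obtain ⟨R, hRQ, ⟨Ψ, hΨ0, hΨ⟩, hht⟩ := hP P hPS
  choose D' hD'0 hD'Q hD'deg hD'cls hD'H using
    fun k => exists_fibre_compl htr Q₀ hy hy0 (R k) (hRQ k)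
  -- the divisor `∑ E₀`
  have hE₀0 : (0 : Divisor Qb F) ≤ ∑ v ∈ E₀, Finsupp.single v (1 : ℤ) :=
    Finset.sum_nonneg fun v _ => Finsupp.le_def.mpr fun w => by
      rw [Finsupp.zero_apply, Finsupp.single_apply]
      split_ifs <;> simp
  have hE₀Q : (∑ v ∈ E₀, Finsupp.single v (1 : ℤ) : Divisor Qb F) Q₀ = 0 := by
    rw [Finsupp.finsetSum_apply]
    refine Finset.sum_eq_zero fun v hv => ?_
    rw [Finsupp.single_apply, if_neg (fun h : v = Q₀ => hQ₀E (h ▸ hv))]
  have hE₀deg : Divisor.degree (∑ v ∈ E₀, Finsupp.single v (1 : ℤ) : Divisor Qb F) =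
      (E₀.card : ℤ) := by
    have h1 : ∀ v ∈ E₀, Divisor.degree (Finsupp.single v (1 : ℤ) : Divisor Qb F) = 1 :=
      fun v _ => by
        rw [Divisor.degree_single, Fermat.Agent.S24.FF.deg_eq_one htr v, Nat.cast_one, mul_one]
    rw [map_sum, Finset.sum_congr rfl h1]
    simp
  -- the effective presentation
  have hD0 : (0 : Divisor Qb F) ≤ ∑ v ∈ E₀, Finsupp.single v (1 : ℤ) + ∑ k, D' k :=
    add_nonneg hE₀0 (Finset.sum_nonneg fun k _ => hD'0 k)
  have hDQ : (∑ v ∈ E₀, Finsupp.single v (1 : ℤ) + ∑ k, D' k : Divisor Qb F) Q₀ = 0 := by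
    rw [Finsupp.add_apply, hE₀Q, Finsupp.finsetSum_apply, zero_add]
    exact Finset.sum_eq_zero fun k _ => hD'Q k
  have hDdeg : Divisor.degree (∑ v ∈ E₀, Finsupp.single v (1 : ℤ) + ∑ k, D' k : Divisor Qb F) =
      (E₀.card : ℤ) + (g : ℤ) * (-(Q₀.ord y) - 1) := by
    rw [map_add, hE₀deg, map_sum, Finset.sum_congr rfl fun k _ => hD'deg k]
    simp
    ring
  have hdegnn : 0 ≤ Divisor.degree
      (∑ v ∈ E₀, Finsupp.single v (1 : ℤ) + ∑ k, D' k : Divisor Qb F) :=
    ReducedCore.degree_nonneg hD0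
  have hdle : (Divisor.degree (∑ v ∈ E₀, Finsupp.single v (1 : ℤ) + ∑ k, D' k :
      Divisor Qb F)).toNat ≤ G * (-(Q₀.ord y)).toNat := by
    have h1 : (E₀.card : ℤ) ≤ G := by exact_mod_cast hEcard
    have h2 : (g : ℤ) ≤ G := by exact_mod_cast hgG
    have h3 : (0 : ℤ) ≤ -(Q₀.ord y) - 1 := by omega
    have h4 : (g : ℤ) * (-(Q₀.ord y) - 1) ≤ (G : ℤ) * (-(Q₀.ord y) - 1) :=
      mul_le_mul_of_nonneg_right h2 h3
    have h5 : Divisor.degree (∑ v ∈ E₀, Finsupp.single v (1 : ℤ) + ∑ k, D' k :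
        Divisor Qb F) ≤ ((G * (-(Q₀.ord y)).toNat : ℕ) : ℤ) := by
      rw [hDdeg]
      push_cast
      rw [hn0z]
      nlinarith
    exact Int.toNat_le.mpr h5
  have hrep := isEffRep_cls htr Q₀ hD0
  refine ⟨Move.cls htr Q₀ (∑ v ∈ E₀, Finsupp.single v (1 : ℤ) + ∑ k, D' k), ?_, ?_⟩
  · -- `n • z = [P - Q₀]`
    have h1 : Move.cls htr Q₀ (divOf Qb Ψ) = 0 :=
      Move.cls_principal htr Q₀ (divOf_mem_principal htr hΨ0)
    rw [hΨ, map_sub, map_sub, map_add, map_zsmul, map_zsmul, cls_single_base, sub_zero,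
      sub_eq_zero] at h1
    have h2 : Move.cls htr Q₀ (∑ v ∈ E₀, Finsupp.single v (1 : ℤ) + ∑ k, D' k) =
        Move.cls htr Q₀ (∑ v ∈ E₀, Finsupp.single v (1 : ℤ)) -
          Move.cls htr Q₀ (∑ k, Finsupp.single (R k) (1 : ℤ)) := by
      rw [map_add, sub_eq_add_neg]
      congr 1
      rw [map_sum, map_sum, ← Finset.sum_neg_distrib]
      exact Finset.sum_congr rfl fun k _ => hD'cls k
    rw [h2, ← natCast_zsmul, zsmul_sub, ← h1]
    abel
  · -- the height
    have hred := hRED _ _ _ hdle hrep hDQ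
    have hDH : divH evalAt y (∑ v ∈ E₀, Finsupp.single v (1 : ℤ) + ∑ k, D' k) =
        divH evalAt y (∑ v ∈ E₀, Finsupp.single v (1 : ℤ)) +
          (((-(Q₀.ord y)).toNat : ℝ) - 1) * ∑ k, hQ (evalAt (R k) y) := by
      rw [divH_add, divH_sum Finset.univ y D', Finset.mul_sum]
      congr 1
      exact Finset.sum_congr rfl fun k _ => hD'H k
    have h5 : (((-(Q₀.ord y)).toNat : ℝ) - 1) * ∑ k, hQ (evalAt (R k) y) ≤
        (((-(Q₀.ord y)).toNat : ℝ) - 1) * (κ₀ / (n : ℝ) ^ 2 * hQ (evalAt P y) + C₁) :=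
      mul_le_mul_of_nonneg_left hht hn0R
    have h6 := mul_le_mul_of_nonneg_left
      (add_le_add_left h5 (divH evalAt y (∑ v ∈ E₀, Finsupp.single v (1 : ℤ)))) hA
    rw [hDH] at hred
    have e : A * (divH evalAt y (∑ v ∈ E₀, Finsupp.single v (1 : ℤ)) +
        (((-(Q₀.ord y)).toNat : ℝ) - 1) * (κ₀ / (n : ℝ) ^ 2 * hQ (evalAt P y) + C₁)) + C =
        A * (((-(Q₀.ord y)).toNat : ℝ) - 1) * κ₀ / (n : ℝ) ^ 2 * hQ (evalAt P y) +
          (A * divH evalAt y (∑ v ∈ E₀, Finsupp.single v (1 : ℤ)) +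
            A * (((-(Q₀.ord y)).toNat : ℝ) - 1) * C₁ + C) := by
      ring
    rw [← e]
    linarith

end Core

section Modular

variable (N : ℕ) [NeZero N]

local notation "Fb" => modularFunctionFieldBar

/-- **(B5) (DIVPT) on `X_0(N)`**, from the fibre statement of the division curve for
arbitrarily large primes and (RED) for effective presentations: the contract's `DivPt` for the
place height `P ↦ hQ (y(P))`, `y` regular off the cusp `∞` with a pole at `∞`. -/
theorem divPt {y : Fb N} (hy : RegOff (infPlace N) y) (hy0 : (infPlace N).ord y < 0)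
    (hRED : ∀ b : ℕ, ∃ A C : ℝ, 0 ≤ A ∧ ∀ (x : JZero N) (d : ℕ) (D : Divisor Qb (Fb N)),
      d ≤ b → IsEffRep (infPlace N) x d D → D (infPlace N) = 0 →
      Contract.clH N (fun P => hQ (evalAt P y)) x ≤
        A * Contract.divH N (fun P => hQ (evalAt P y)) D + C)
    {κ₀ : ℝ}
    (hfib : ∀ L₀ : ℕ, ∃ l : ℕ, l.Prime ∧ L₀ ≤ l ∧
      FibrePt (infPlace N) y (gR Qb (Fb N)) l κ₀) :
    Contract.DivPt N (fun P => hQ (evalAt P y)) := by
  obtain ⟨A, C, hA, hred⟩ := hRED (gR Qb (Fb N) * (-((infPlace N).ord y)).toNat)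
  refine ⟨A * (((-((infPlace N).ord y)).toNat : ℝ) - 1) * κ₀, fun L₀ => ?_⟩
  obtain ⟨l, hl, hL, hf⟩ := hfib L₀
  obtain ⟨Cl, S, h⟩ := divPt_core (Fermat.Agent.S30.HeckeInputs.trdeg_bar N) (infPlace N) hy hy0
    (gR Qb (Fb N)) hA (fun x d D hd hrep hDQ => hred x d D hd hrep hDQ) hf
  exact ⟨l, hl, hL, Cl, S, fun P hP => h P hP⟩

end Modular

end Fermat.Agent.S17.HB.DivPtCore
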