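import Mathlib
import Fermat.Agent.S17.R.Riemann
import Fermat.Agent.S17.H.Glob.Weighted

/-!
# Program MW (S17), strand HB: the weighted integral relation over `K[b]`, `b` with any poles

`F / K` a function field of one variable over an algebraically closed field of characteristic
zero, `b ∈ F` transcendental, `B = poleDiv K b` its pole divisor.

* `exists_gen_family` (GEN): there are `k₀` and a finite family `g ⊂ L(k₀ B)` with `g 0 = 1` such
  that every `f ∈ L((k₀ + j) B)` is `∑ p_r(b) g_r` with `deg p_r ≤ j`: a finite generating family,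
  with degree control, of the ring of functions regular off the poles of `b` over `K[b]`.
  (For a sole pole this is the Apéry basis of `R/Gaps`; here no freeness is claimed.)
* `exists_weighted_rel_uniform`, `exists_weighted_rel_gen`: every `w ∈ L(α B)` satisfies a monic
  relation `w ^ d + ∑ e_i(b) w ^ (d - 1 - i) = 0` with `deg e_i ≤ α (i + 1)`; the degree `d` of the
  relation does not depend on `w` or `α`.
* `mem_L_nsmul_poleDiv_iff`: the hypothesis `w ∈ L(α B)` in valuation form.

Proof of (GEN): for `k` past the threshold of Riemann's theorem, `b L(kB) ∩ L(kB) = b L((k-1)B)`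
(valuations), so `dim (b L(kB) + L(kB)) = 2 l(kB) - l((k-1)B) = l((k+1)B)` and
`L((k+1)B) = b L(kB) + L(kB)`; induct.  The relation: the structure matrix of `w` on `g` has all
its entries of degree `≤ α`; Cayley–Hamilton on a generating family (`Glob.Weighted.charpoly_rel`)
and the weighted degree of the coefficients of a characteristic polynomial
(`WeightedDet.charpoly_coeff_mem`).
-/

set_option autoImplicit false
set_option linter.unusedSectionVars false

namespace Fermat.Agent.S17.HB.WeightedGen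

open AlgebraicCurve Polynomial
open Fermat.Agent.S17.R Fermat.Agent.S17.R.RiemannAux
open Fermat.Agent.S17.H.Glob

variable {K F : Type*} [Field K] [Field F] [Algebra K F]
variable [IsAlgClosed K] [CharZero K] [Algebra.EssFiniteType K F]

/-- The value of a multiple of the pole divisor at a place. -/
theorem nsmul_poleDiv_apply (htr : Algebra.trdeg K F = 1) (b : F) (k : ℕ) (v : Place K F) :
    (k • poleDiv K b) v = (k : ℤ) * max (-v.ord b) 0 := by
  rw [Finsupp.smul_apply, poleDiv_apply htr, nsmul_eq_mul]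

/-- The hypothesis `w ∈ L(α · (b)_∞)` in valuation form. -/
theorem mem_L_nsmul_poleDiv_iff (htr : Algebra.trdeg K F = 1) (b : F) (α : ℕ) {w : F}
    (hw : w ≠ 0) :
    w ∈ riemannRochSpace (α • poleDiv K b) ↔
      ∀ v : Place K F, (α : ℤ) * min (v.ord b) 0 ≤ v.ord w := by
  rw [mem_L_of_ne_zero hw]
  refine forall_congr' fun v => ?_
  rw [nsmul_poleDiv_apply htr]
  have h : -((α : ℤ) * max (-v.ord b) 0) = (α : ℤ) * min (v.ord b) 0 := by
    rcases le_total (v.ord b) 0 with h | h
    · rw [max_eq_left (by omega), min_eq_left h]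
      ring
    · rw [max_eq_right (by omega), min_eq_right h]
      ring
  rw [h]

/-- `L(k B) ≤ L((k + 1) B)`. -/
theorem L_nsmul_le_succ (b : F) (k : ℕ) :
    riemannRochSpace (k • poleDiv K b) ≤ riemannRochSpace ((k + 1) • poleDiv K b) := by
  refine L_mono ?_
  rw [succ_nsmul]
  exact le_add_of_nonneg_right (poleDiv_nonneg K b)

/-- `L(k B) ≤ L((k + j) B)`. -/
theorem L_nsmul_le_add (b : F) (k j : ℕ) :
    riemannRochSpace (k • poleDiv K b) ≤ riemannRochSpace ((k + j) • poleDiv K b) := by
  induction j with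
  | zero => exact le_rfl
  | succ j ih => exact ih.trans (L_nsmul_le_succ b (k + j))

/-- `1 ∈ L(k B)`. -/
theorem one_mem_L_nsmul (b : F) (k : ℕ) : (1 : F) ∈ riemannRochSpace (k • poleDiv K b) := by
  have h := L_nsmul_le_add (K := K) b 0 k
  rw [zero_add, zero_nsmul] at h
  exact h one_mem_L_zero

/-- `b · L(k B) ⊆ L((k + 1) B)`. -/
theorem mul_mem_L_succ (htr : Algebra.trdeg K F = 1) (b : F) (k : ℕ) {f : F}
    (hf : f ∈ riemannRochSpace (k • poleDiv K b)) :
    b * f ∈ riemannRochSpace ((k + 1) • poleDiv K b) := by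
  have h := mul_mem_L (mem_L_poleDiv htr b) hf
  rwa [add_comm, ← succ_nsmul] at h

/-- If `f` and `b f` both lie in `L((k + 1) B)`, then `f ∈ L(k B)`. -/
theorem mem_L_of_mul_mem (htr : Algebra.trdeg K F = 1) {b f : F} (hb0 : b ≠ 0) (k : ℕ)
    (hf : f ∈ riemannRochSpace ((k + 1) • poleDiv K b))
    (hbf : b * f ∈ riemannRochSpace ((k + 1) • poleDiv K b)) :
    f ∈ riemannRochSpace (k • poleDiv K b) := by
  by_cases hf0 : f = 0
  · rw [hf0]
    exact Submodule.zero_mem _
  rw [mem_L_of_ne_zero hf0] at hf ⊢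
  rw [mem_L_of_ne_zero (mul_ne_zero hb0 hf0)] at hbf
  intro v
  have h1 := hf v
  have h2 := hbf v
  rw [v.ord_mul hb0 hf0] at h2
  rw [nsmul_poleDiv_apply htr] at h1 h2 ⊢
  push_cast at h1 h2
  rcases le_total (-v.ord b) 0 with hle | hle
  · rw [max_eq_right hle] at h1 h2 ⊢
    linarith
  · rw [max_eq_left hle] at h1 h2 ⊢
    have h3 : ((k : ℤ) + 1) * (-v.ord b) = (k : ℤ) * (-v.ord b) - v.ord b := by ring
    linarith

/-- The degree of the pole divisor of a transcendental function is positive. -/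
theorem degree_poleDiv_pos (htr : Algebra.trdeg K F = 1) {b : F} (hb : Transcendental K b) :
    0 < Divisor.degree (poleDiv K b) := by
  rw [degree_poleDiv htr hb]
  have : Module.Finite (IntermediateField.adjoin K {b}) F :=
    Fermat.Agent.S24.FF.finite_adjoin_simple htr hb
  exact_mod_cast Module.finrank_pos

/-- **The step**: past the threshold of Riemann's theorem, `L((k + 2) B) = b L((k + 1) B) +
L((k + 1) B)`. -/
theorem exists_L_eq_sup (htr : Algebra.trdeg K F = 1) {b : F} (hb : Transcendental K b) :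
    ∃ k₁ : ℕ, ∀ k, k₁ ≤ k →
      riemannRochSpace ((k + 2) • poleDiv K b) =
        (riemannRochSpace ((k + 1) • poleDiv K b)).map (LinearMap.mulLeft K b) ⊔
          riemannRochSpace ((k + 1) • poleDiv K b) := by
  obtain ⟨c, hc⟩ := riemann_eq_of_large (K := K) (F := F) htr
  have hb0 : b ≠ 0 := by
    rintro rfl
    exact hb (isAlgebraic_zero)
  have hdeg := degree_poleDiv_pos htr hb
  have hμ : Function.Injective (LinearMap.mulLeft K b) := by
    intro x y hxy
    simp only [LinearMap.mulLeft_apply] at hxy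
    exact mul_left_cancel₀ hb0 hxy
  refine ⟨c.toNat, fun k hk => ?_⟩
  set B := poleDiv K b with hB
  have hdk : ∀ m : ℕ, k ≤ m → c ≤ Divisor.degree (m • B) := by
    intro m hm
    rw [map_nsmul, nsmul_eq_mul]
    have h1 : c ≤ (c.toNat : ℤ) := Int.self_le_toNat c
    have h2 : (c.toNat : ℤ) ≤ (m : ℤ) := by exact_mod_cast hk.trans hm
    have h3 : (m : ℤ) * 1 ≤ (m : ℤ) * Divisor.degree B :=
      mul_le_mul_of_nonneg_left (by omega) (Int.natCast_nonneg m)
    linarith
  have e0 := hc (k • B) (hdk k le_rfl)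
  have e1 := hc ((k + 1) • B) (hdk (k + 1) (by omega))
  have e2 := hc ((k + 2) • B) (hdk (k + 2) (by omega))
  rw [map_nsmul, nsmul_eq_mul] at e0 e1 e2
  have := finite_L htr (k • B)
  have := finite_L htr ((k + 1) • B)
  have := finite_L htr ((k + 2) • B)
  set V0 := riemannRochSpace (k • B) with hV0
  set V1 := riemannRochSpace ((k + 1) • B) with hV1
  set V2 := riemannRochSpace ((k + 2) • B) with hV2
  set μ := LinearMap.mulLeft K b with hμdef
  -- the sum lies in `V2`
  have hle : V1.map μ ⊔ V1 ≤ V2 := by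
    refine sup_le ?_ (L_nsmul_le_succ b (k + 1))
    rintro _ ⟨f, hf, rfl⟩
    exact mul_mem_L_succ htr b (k + 1) hf
  -- the intersection lies in `b V0`
  have hinf : V1.map μ ⊓ V1 ≤ V0.map μ := by
    rintro x ⟨⟨f, hf, rfl⟩, hx⟩
    exact ⟨f, mem_L_of_mul_mem htr hb0 k hf hx, rfl⟩
  have hf1 : Module.finrank K ↥(V1.map μ) = Module.finrank K ↥V1 :=
    (Submodule.equivMapOfInjective μ hμ V1).finrank_eq.symm
  have hf0 : Module.finrank K ↥(V0.map μ) = Module.finrank K ↥V0 :=
    (Submodule.equivMapOfInjective μ hμ V0).finrank_eq.symm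
  have hsum := Submodule.finrank_sup_add_finrank_inf_eq (V1.map μ) V1
  have hmono : Module.finrank K ↥(V1.map μ ⊓ V1) ≤ Module.finrank K ↥(V0.map μ) :=
    Submodule.finrank_mono hinf
  have hfin : Module.finrank K ↥V2 ≤ Module.finrank K ↥(V1.map μ ⊔ V1) := by
    have h4 : (Module.finrank K ↥V2 : ℤ) ≤ (Module.finrank K ↥(V1.map μ ⊔ V1) : ℤ) := by
      have h5 : (Module.finrank K ↥(V1.map μ ⊔ V1) : ℤ) +
          (Module.finrank K ↥(V1.map μ ⊓ V1) : ℤ) =
          (Module.finrank K ↥(V1.map μ) : ℤ) + (Module.finrank K ↥V1 : ℤ) := by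
        exact_mod_cast hsum
      have h5' : (Module.finrank K ↥(V1.map μ) : ℤ) = (Module.finrank K ↥V1 : ℤ) := by
        exact_mod_cast hf1
      have h6 : (Module.finrank K ↥(V1.map μ ⊓ V1) : ℤ) ≤ (Module.finrank K ↥(V0.map μ) : ℤ) := by
        exact_mod_cast hmono
      have h6' : (Module.finrank K ↥(V0.map μ) : ℤ) = (Module.finrank K ↥V0 : ℤ) := by
        exact_mod_cast hf0
      push_cast at e0 e1 e2
      linarith
    exact_mod_cast h4
  exact (Submodule.eq_of_le_of_finrank_le hle hfin).symm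

/-- **(GEN)**: a finite generating family, with degree control, of the functions regular off the
poles of `b` over `K[b]`. -/
theorem exists_gen_family (htr : Algebra.trdeg K F = 1) {b : F} (hb : Transcendental K b) :
    ∃ (k₀ n : ℕ) (g : Fin (n + 1) → F), g 0 = 1 ∧
      (∀ r, g r ∈ riemannRochSpace (k₀ • poleDiv K b)) ∧
      ∀ (j : ℕ) (f : F), f ∈ riemannRochSpace ((k₀ + j) • poleDiv K b) →
        ∃ p : Fin (n + 1) → K[X], (∀ r, (p r).natDegree ≤ j) ∧
          f = ∑ r, aeval b (p r) * g r := by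
  obtain ⟨k₁, hk₁⟩ := exists_L_eq_sup htr hb
  have := finite_L htr ((k₁ + 1) • poleDiv K b)
  let bas := Module.finBasis K ↥(riemannRochSpace ((k₁ + 1) • poleDiv K b))
  refine ⟨k₁ + 1, Module.finrank K ↥(riemannRochSpace ((k₁ + 1) • poleDiv K b)),
    Fin.cons 1 (fun r => (bas r : F)), rfl, ?_, ?_⟩
  · intro r
    refine Fin.cases ?_ (fun i => ?_) r
    · rw [Fin.cons_zero]
      exact one_mem_L_nsmul b (k₁ + 1)
    · rw [Fin.cons_succ]
      exact (bas i).2
  · intro j
    induction j with
    | zero =>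
      intro f hf
      rw [add_zero] at hf
      refine ⟨Fin.cons 0 (fun r => C (bas.repr ⟨f, hf⟩ r)), fun r => ?_, ?_⟩
      · refine Fin.cases ?_ (fun i => ?_) r
        · rw [Fin.cons_zero, natDegree_zero]
        · rw [Fin.cons_succ, natDegree_C]
      · rw [Fin.sum_univ_succ]
        simp only [Fin.cons_zero, Fin.cons_succ, map_zero, zero_mul, zero_add, aeval_C]
        have h : ((∑ i, bas.repr ⟨f, hf⟩ i • bas i :
            ↥(riemannRochSpace ((k₁ + 1) • poleDiv K b))) : F) = f :=
          congrArg (Subtype.val) (bas.sum_repr ⟨f, hf⟩)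
        rw [AddSubmonoidClass.coe_finsetSum] at h
        refine h.symm.trans (Finset.sum_congr rfl fun r _ => ?_)
        rw [Submodule.coe_smul, Algebra.smul_def]
    | succ j ih =>
      intro f hf
      have hk : k₁ + 1 + (j + 1) = (k₁ + j) + 2 := by omega
      rw [hk, hk₁ (k₁ + j) (Nat.le_add_right k₁ j)] at hf
      obtain ⟨x, hx, y, hy, rfl⟩ := Submodule.mem_sup.mp hf
      obtain ⟨f1, hf1, rfl⟩ := Submodule.mem_map.mp hx
      have e1 : (k₁ + j) + 1 = k₁ + 1 + j := by omega
      rw [e1] at hf1 hy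
      obtain ⟨p1, hp1, h1⟩ := ih f1 hf1
      obtain ⟨p2, hp2, h2⟩ := ih y hy
      refine ⟨fun r => X * p1 r + p2 r, fun r => ?_, ?_⟩
      · refine (natDegree_add_le _ _).trans (max_le ?_ ((hp2 r).trans (Nat.le_succ j)))
        refine (natDegree_mul_le).trans ?_
        have := hp1 r
        have hX : (X : K[X]).natDegree ≤ 1 := natDegree_X_le
        omega
      · rw [LinearMap.mulLeft_apply, h1, h2, Finset.mul_sum, ← Finset.sum_add_distrib]
        refine Finset.sum_congr rfl fun r _ => ?_
        rw [map_add, map_mul, aeval_X]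
        ring

/-- **The weighted integral relation over `K[b]`, uniform form**: there is `d > 0` such that every
`w ∈ L(α · (b)_∞)` satisfies a monic relation of degree `d` over `K[b]` whose `i`-th coefficient
has degree `≤ α (i + 1)`. -/
theorem exists_weighted_rel_uniform (htr : Algebra.trdeg K F = 1) {b : F}
    (hb : Transcendental K b) :
    ∃ d : ℕ, 0 < d ∧ ∀ (α : ℕ) (w : F), w ∈ riemannRochSpace (α • poleDiv K b) →
      ∃ e : Fin d → K[X], (∀ i, (e i).natDegree ≤ α * (i.val + 1)) ∧
        w ^ d + ∑ i : Fin d, Polynomial.aeval b (e i) * w ^ (d - 1 - i.val) = 0 := by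
  classical
  obtain ⟨k₀, n, g, hg0, hgL, hgen⟩ := exists_gen_family htr hb
  refine ⟨n + 1, Nat.succ_pos n, fun α w hw => ?_⟩
  -- the structure matrix of `w` on the generating family
  have hex : ∀ c : Fin (n + 1), ∃ p : Fin (n + 1) → K[X], (∀ r, (p r).natDegree ≤ α) ∧
      w * g c = ∑ r, aeval b (p r) * g r := by
    intro c
    have hmem : w * g c ∈ riemannRochSpace ((k₀ + α) • poleDiv K b) := by
      have h := mul_mem_L hw (hgL c)
      rwa [← add_nsmul, add_comm α k₀] at h
    exact hgen α (w * g c) hmem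
  choose p hpd hp using hex
  have hM : ∀ c, w * g c =
      ∑ r, aeval b ((Matrix.of fun r c => p c r : Matrix (Fin (n + 1)) (Fin (n + 1)) K[X]) r c) *
        g r := by
    intro c
    rw [hp c]
    rfl
  have hent : ∀ r c, (Matrix.of fun r c => p c r : Matrix (Fin (n + 1)) (Fin (n + 1)) K[X]) r c ∈
      WeightedDet.degFilt K (1 : ℤ) ((α : ℤ) + (fun _ : Fin (n + 1) => (0 : ℤ)) c -
        (fun _ : Fin (n + 1) => (0 : ℤ)) r) := by
    intro r c
    have hrc : (Matrix.of fun r c => p c r : Matrix (Fin (n + 1)) (Fin (n + 1)) K[X]) r c =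
        p c r := rfl
    rw [hrc]
    refine WeightedDet.mem_degFilt_of_natDegree_le zero_le_one ?_
    have h1 : ((p c r).natDegree : ℤ) ≤ (α : ℤ) := by exact_mod_cast hpd c r
    simp only [add_zero, sub_zero, one_mul]
    exact h1
  have hcoeff := WeightedDet.charpoly_coeff_mem
    (WeightedDet.isMulFilt_degFilt (B := K) (1 : ℤ))
    (fun _ : Fin (n + 1) => (0 : ℤ)) (α : ℤ) (Matrix.of fun r c => p c r) hent
  refine ⟨fun i => (Matrix.of fun r c => p c r :
    Matrix (Fin (n + 1)) (Fin (n + 1)) K[X]).charpoly.coeff (n + 1 - 1 - i.val), fun i => ?_, ?_⟩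
  · have h1 := hcoeff (n + 1 - 1 - i.val)
    rw [Fintype.card_fin] at h1
    have hi : i.val < n + 1 := i.2
    have hcast : ((n + 1 - 1 - i.val : ℕ) : ℤ) = (n : ℤ) - (i.val : ℤ) := by omega
    have he : (((n + 1 : ℕ) : ℤ) - ((n + 1 - 1 - i.val : ℕ) : ℤ)) * (α : ℤ) =
        ((α * (i.val + 1) : ℕ) : ℤ) := by
      rw [hcast]
      push_cast
      ring
    rw [he] at h1
    have h2 := WeightedDet.natDegree_le_of_mem_degFilt h1 (Int.natCast_nonneg _)
    rw [one_mul] at h2
    exact_mod_cast h2
  · exact Weighted.charpoly_rel b w g (Matrix.of fun r c => p c r) hM 0 hg0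

/-- **The weighted integral relation over `K[b]`** for `b` with any poles: every
`w ∈ L(α · (b)_∞)` satisfies a monic relation over `K[b]` whose `i`-th coefficient has degree
`≤ α (i + 1)`. -/
theorem exists_weighted_rel_gen (htr : Algebra.trdeg K F = 1) {b w : F} (hb : Transcendental K b)
    {α : ℕ} (hw : w ∈ riemannRochSpace (α • poleDiv K b)) :
    ∃ (d : ℕ) (e : Fin d → K[X]), 0 < d ∧ (∀ i, (e i).natDegree ≤ α * (i.val + 1)) ∧
      w ^ d + ∑ i : Fin d, Polynomial.aeval b (e i) * w ^ (d - 1 - i.val) = 0 := by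
  obtain ⟨d, hd, h⟩ := exists_weighted_rel_uniform htr hb
  obtain ⟨e, he, hrel⟩ := h α w hw
  exact ⟨d, e, hd, he, hrel⟩

end Fermat.Agent.S17.HB.WeightedGen
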