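/-
Program MW (S17), strand HB (route (beta)), leaf HT: the UPPER QUASI-EQUIVALENCE OF HEIGHTS on a
curve (helper91).

`M / Qb` an arbitrary function field of one variable, `a b : M`, `b` non-constant.  Off a finite
set of places `c` of `M`

  `hQ (a(c)) ≤ (deg (a)_∞ / deg (b)_∞ + ε) * hQ (b(c)) + C`.

Integer form: if `β * deg (a)_∞ + g ≤ α * deg (b)_∞` then `β * hQ (a(c)) ≤ α * hQ (b(c)) + C`.

Proof.  `Δ := α (b)_∞ - β (a)_∞` has degree `≥ g`, so by Riemann's inequality there is `δ ≠ 0` in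
`L(Δ)`; `δ` and `δ a ^ β` lie in `L(α (b)_∞)`, hence (the weighted integral relation (WG), leaf
`WeightedGen.exists_weighted_rel_gen`) each satisfies a monic relation over `Qb[b]` whose `i`-th
coefficient has degree `≤ α (i + 1)`.  Evaluated at a place `c` where `a`, `b` are regular and
`δ` is a unit, the Cauchy bound at every absolute value of `Qb` (block B) and the local-global
assembly (block A) give `hT ![δ(c) a(c) ^ β, δ(c)] ≤ α * hQ (b(c)) + C`, and the left side is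
`β * hQ (a(c))` by projective invariance.
-/
import Mathlib
import Fermat.Agent.S17.R.Riemann
import Fermat.Agent.S17.H.Glob.Eval
import Fermat.Agent.S17.H.Glob.CompareCore
import Fermat.Agent.S17.H.A.LocConstQb
import Fermat.Agent.S17.H.Cert.IntegralRel
import Fermat.Agent.S17.HB.WeightedGen

set_option autoImplicit false

namespace Fermat.Agent.S17.HB.Ht

open AlgebraicCurve Polynomial
open Fermat.Agent.S17.H Fermat.Agent.S17.H.Glob Fermat.Agent.S17.R

local notation "Qb" => AlgebraicClosure ℚ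

/-! ### Local part: a weighted monic relation at an absolute value -/

section Local

variable {A : Type*} [Field A]

/-- A root `W` of a monic relation over `A[B]` whose `i`-th coefficient has degree
`≤ α * (i + 1)` and coefficients `0` or in `Γ` has size at most `max 1 |B| ^ α`, up to a constant
of the `locConst` shape. -/
theorem abv_le_of_weighted_gen (v : AbsoluteValue A ℝ) (α : ℕ) {d : ℕ} (e : Fin d → A[X])
    (he : ∀ i, (e i).natDegree ≤ α * (i.val + 1)) (Γ : Multiset A)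
    (hΓ : ∀ i k, (e i).coeff k = 0 ∨ (e i).coeff k ∈ Γ) {c₀ : ℝ}
    (hc₀ : (α : ℝ) * (d : ℝ) + 1 ≤ c₀) (B W : A)
    (h : W ^ d + ∑ i : Fin d, (e i).eval B * W ^ (d - 1 - i.val) = 0) :
    v W ≤ Cert.locConst (2 * c₀) Γ v * max 1 (v B) ^ α := by
  have hαd : (0 : ℝ) ≤ (α : ℝ) * (d : ℝ) := mul_nonneg (Nat.cast_nonneg _) (Nat.cast_nonneg _)
  have hc₀1 : (1 : ℝ) ≤ c₀ := by linarith
  have hT1 : (1 : ℝ) ≤ max 1 (v B) := le_max_left _ _
  have hT0 : (0 : ℝ) ≤ max 1 (v B) ^ α := pow_nonneg (le_trans zero_le_one hT1) α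
  have hL1 : 1 ≤ Cert.locConst c₀ Γ v := Cert.one_le_locConst hc₀1 Γ v
  have hb : ∀ i : Fin d, v ((e i).eval B) ≤
      (Cert.locConst c₀ Γ v * max 1 (v B) ^ α) ^ (i.val + 1) := by
    intro i
    have h1 : v ((e i).eval B) ≤
        Cert.locConst (((α * (i.val + 1) : ℕ) : ℝ) + 1) Γ v * max 1 (v B) ^ (α * (i.val + 1)) := by
      rw [Polynomial.eval_eq_sum_range' (Nat.lt_succ_of_le (he i))]
      exact Compare.abv_polyval_le v Γ (α * (i.val + 1)) (fun k => (e i).coeff k) (hΓ i) B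
    have hi : ((i.val + 1 : ℕ) : ℝ) ≤ (d : ℝ) := Nat.cast_le.mpr (Nat.succ_le_of_lt i.isLt)
    have hcast : ((α * (i.val + 1) : ℕ) : ℝ) + 1 ≤ c₀ := by
      have h2 : ((α * (i.val + 1) : ℕ) : ℝ) = (α : ℝ) * ((i.val + 1 : ℕ) : ℝ) := by push_cast; ring
      have h3 : (α : ℝ) * ((i.val + 1 : ℕ) : ℝ) ≤ (α : ℝ) * (d : ℝ) :=
        mul_le_mul_of_nonneg_left hi (Nat.cast_nonneg _)
      rw [h2]
      linarith
    have h0 : (0 : ℝ) ≤ ((α * (i.val + 1) : ℕ) : ℝ) + 1 := by positivity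
    have h2 : Cert.locConst (((α * (i.val + 1) : ℕ) : ℝ) + 1) Γ v ≤ Cert.locConst c₀ Γ v :=
      Cert.locConst_mono h0 hcast le_rfl v
    have h3 : Cert.locConst c₀ Γ v ≤ Cert.locConst c₀ Γ v ^ (i.val + 1) :=
      le_self_pow₀ hL1 (Nat.succ_ne_zero _)
    calc v ((e i).eval B)
        ≤ Cert.locConst (((α * (i.val + 1) : ℕ) : ℝ) + 1) Γ v
            * max 1 (v B) ^ (α * (i.val + 1)) := h1
      _ ≤ Cert.locConst c₀ Γ v ^ (i.val + 1) * max 1 (v B) ^ (α * (i.val + 1)) :=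
          mul_le_mul_of_nonneg_right (le_trans h2 h3)
            (pow_nonneg (le_trans zero_le_one hT1) _)
      _ = (Cert.locConst c₀ Γ v * max 1 (v B) ^ α) ^ (i.val + 1) := by
          rw [mul_pow, ← pow_mul]
  exact Cert.abv_le_locConst_of_monic_rel v (fun i : Fin d => (e i).eval B) W Γ hc₀1 hT0 hb h

end Local

/-! ### Values: weighted monic relations over `Qb[B]` bound the height by `α * hQ B` -/

section Values

/-- The local bound, in the shape consumed by the local-global assembly. -/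
theorem abv_le_of_weighted_gen_pair (v : AbsoluteValue Qb ℝ) (α : ℕ) {d : ℕ} (e : Fin d → Qb[X])
    (he : ∀ i, (e i).natDegree ≤ α * (i.val + 1)) (Γ : Multiset Qb)
    (hΓ : ∀ i k, (e i).coeff k = 0 ∨ (e i).coeff k ∈ Γ) {c₀ : ℝ}
    (hc₀ : (α : ℝ) * (d : ℝ) + 1 ≤ c₀) (B W : Qb)
    (h : W ^ d + ∑ i : Fin d, (e i).eval B * W ^ (d - 1 - i.val) = 0) :
    v W ≤ Cert.locConst (2 * c₀) Γ v * (⨆ a : Fin 2, v ((![B, 1] : Fin 2 → Qb) a)) ^ α := by
  have hαd : (0 : ℝ) ≤ (α : ℝ) * (d : ℝ) := mul_nonneg (Nat.cast_nonneg _) (Nat.cast_nonneg _)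
  have hsupB : v B ≤ ⨆ a : Fin 2, v ((![B, 1] : Fin 2 → Qb) a) :=
    Finite.le_ciSup (fun a : Fin 2 => v ((![B, 1] : Fin 2 → Qb) a)) 0
  have hsup1 : (1 : ℝ) ≤ ⨆ a : Fin 2, v ((![B, 1] : Fin 2 → Qb) a) := by
    have h1 := Finite.le_ciSup (fun a : Fin 2 => v ((![B, 1] : Fin 2 → Qb) a)) 1
    have h2 : v ((![B, 1] : Fin 2 → Qb) 1) = 1 := by
      show v (1 : Qb) = 1
      exact map_one v
    rw [h2] at h1
    exact h1
  have hT1 : (1 : ℝ) ≤ max 1 (v B) := le_max_left _ _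
  have hmax : max 1 (v B) ^ α ≤ (⨆ a : Fin 2, v ((![B, 1] : Fin 2 → Qb) a)) ^ α :=
    pow_le_pow_left₀ (le_trans zero_le_one hT1) (max_le hsup1 hsupB) α
  have hL0 : 0 ≤ Cert.locConst (2 * c₀) Γ v := Cert.locConst_nonneg (by linarith) Γ v
  exact le_trans (abv_le_of_weighted_gen v α e he Γ hΓ hc₀ B W h)
    (mul_le_mul_of_nonneg_left hmax hL0)

/-- If every `G j` satisfies a monic relation over `Qb[B]` whose `i`-th coefficient has degree
`≤ α * (i + 1)`, then `hT G ≤ α * hQ B + C`, with `C` depending only on the relations. -/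
theorem hT_le_of_weighted_gen {ι' : Type*} [Fintype ι'] (α : ℕ) (dd : ι' → ℕ)
    (e : ∀ j : ι', Fin (dd j) → Qb[X]) (he : ∀ j i, (e j i).natDegree ≤ α * (i.val + 1))
    (B : Qb) (G : ι' → Qb)
    (h : ∀ j, G j ^ dd j + ∑ i : Fin (dd j), (e j i).eval B * G j ^ (dd j - 1 - i.val) = 0) :
    hT G ≤ α * hQ B + Real.log (2 * ((α : ℝ) * (∑ j, (dd j : ℝ)) + 1)) +
      ((∑ j, Compare.polyCoeffs (e j)).map hQ).sum := by
  classical
  have hsum0 : (0 : ℝ) ≤ ∑ j, (dd j : ℝ) := Finset.sum_nonneg fun j _ => Nat.cast_nonneg _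
  have hα0 : (0 : ℝ) ≤ (α : ℝ) * ∑ j, (dd j : ℝ) := mul_nonneg (Nat.cast_nonneg _) hsum0
  have hc : (1 : ℝ) ≤ 2 * ((α : ℝ) * (∑ j, (dd j : ℝ)) + 1) := by linarith
  have hF : (![B, 1] : Fin 2 → Qb) ≠ 0 := by
    intro h0
    have h1 := congrFun h0 1
    have h2 : (![B, 1] : Fin 2 → Qb) 1 = 1 := rfl
    rw [h2] at h1
    exact one_ne_zero h1
  have hloc : ∀ v : AbsoluteValue Qb ℝ, (⨆ j, v (G j)) ≤
      Cert.locConst (2 * ((α : ℝ) * (∑ j, (dd j : ℝ)) + 1)) (∑ j, Compare.polyCoeffs (e j)) v *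
        (⨆ a : Fin 2, v ((![B, 1] : Fin 2 → Qb) a)) ^ α := by
    intro v
    have hsup0 : (0 : ℝ) ≤ ⨆ a : Fin 2, v ((![B, 1] : Fin 2 → Qb) a) :=
      Real.iSup_nonneg fun a => v.nonneg _
    refine Real.iSup_le (fun j => ?_)
      (mul_nonneg (Cert.locConst_nonneg (by linarith) _ v) (pow_nonneg hsup0 α))
    have hΓ : ∀ (i : Fin (dd j)) (k : ℕ), (e j i).coeff k = 0 ∨
        (e j i).coeff k ∈ ∑ j, Compare.polyCoeffs (e j) := by
      intro i k
      by_cases hk : (e j i).coeff k = 0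
      · exact Or.inl hk
      · refine Or.inr (Multiset.mem_of_le ?_ (Compare.coeff_mem_polyCoeffs (e j) i hk))
        exact Finset.single_le_sum (f := fun j => Compare.polyCoeffs (e j))
          (fun _ _ => Multiset.zero_le _) (Finset.mem_univ j)
    have hdj : (dd j : ℝ) ≤ ∑ j, (dd j : ℝ) :=
      Finset.single_le_sum (f := fun j => (dd j : ℝ)) (fun _ _ => Nat.cast_nonneg _)
        (Finset.mem_univ j)
    have hc₀ : (α : ℝ) * (dd j : ℝ) + 1 ≤ (α : ℝ) * (∑ j, (dd j : ℝ)) + 1 := by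
      have := mul_le_mul_of_nonneg_left hdj (Nat.cast_nonneg α (α := ℝ))
      linarith
    exact abv_le_of_weighted_gen_pair v α (e j) (he j) _ hΓ hc₀ B (G j) (h j)
  have key := LocConstQb.hT_le_of_locConst_abv hc (∑ j, Compare.polyCoeffs (e j)) α
    (![B, 1] : Fin 2 → Qb) G hF hloc
  exact key

/-- The case of two relations. -/
theorem hT_pair_le_of_weighted_gen (α : ℕ) {d1 d2 : ℕ} (e1 : Fin d1 → Qb[X])
    (e2 : Fin d2 → Qb[X]) (he1 : ∀ i, (e1 i).natDegree ≤ α * (i.val + 1))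
    (he2 : ∀ i, (e2 i).natDegree ≤ α * (i.val + 1)) (B W1 W2 : Qb)
    (h1 : W1 ^ d1 + ∑ i : Fin d1, (e1 i).eval B * W1 ^ (d1 - 1 - i.val) = 0)
    (h2 : W2 ^ d2 + ∑ i : Fin d2, (e2 i).eval B * W2 ^ (d2 - 1 - i.val) = 0) :
    hT (![W1, W2] : Fin 2 → Qb) ≤ α * hQ B +
      Real.log (2 * ((α : ℝ) * ((d1 : ℝ) + (d2 : ℝ)) + 1)) +
      ((Compare.polyCoeffs e1 + Compare.polyCoeffs e2).map hQ).sum := by
  classical
  have hd0 : (0 : ℝ) ≤ (d1 : ℝ) + (d2 : ℝ) := add_nonneg (Nat.cast_nonneg _) (Nat.cast_nonneg _)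
  have hα0 : (0 : ℝ) ≤ (α : ℝ) * ((d1 : ℝ) + (d2 : ℝ)) := mul_nonneg (Nat.cast_nonneg _) hd0
  have hc : (1 : ℝ) ≤ 2 * ((α : ℝ) * ((d1 : ℝ) + (d2 : ℝ)) + 1) := by linarith
  have hF : (![B, 1] : Fin 2 → Qb) ≠ 0 := by
    intro h0
    have h3 := congrFun h0 1
    have h4 : (![B, 1] : Fin 2 → Qb) 1 = 1 := rfl
    rw [h4] at h3
    exact one_ne_zero h3
  have hΓ1 : ∀ (i : Fin d1) (k : ℕ), (e1 i).coeff k = 0 ∨
      (e1 i).coeff k ∈ Compare.polyCoeffs e1 + Compare.polyCoeffs e2 := by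
    intro i k
    by_cases hk : (e1 i).coeff k = 0
    · exact Or.inl hk
    · exact Or.inr (Multiset.mem_add.mpr (Or.inl (Compare.coeff_mem_polyCoeffs e1 i hk)))
  have hΓ2 : ∀ (i : Fin d2) (k : ℕ), (e2 i).coeff k = 0 ∨
      (e2 i).coeff k ∈ Compare.polyCoeffs e1 + Compare.polyCoeffs e2 := by
    intro i k
    by_cases hk : (e2 i).coeff k = 0
    · exact Or.inl hk
    · exact Or.inr (Multiset.mem_add.mpr (Or.inr (Compare.coeff_mem_polyCoeffs e2 i hk)))
  have hc1 : (α : ℝ) * (d1 : ℝ) + 1 ≤ (α : ℝ) * ((d1 : ℝ) + (d2 : ℝ)) + 1 := by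
    have := mul_nonneg (Nat.cast_nonneg α (α := ℝ)) (Nat.cast_nonneg d2 (α := ℝ))
    linarith
  have hc2 : (α : ℝ) * (d2 : ℝ) + 1 ≤ (α : ℝ) * ((d1 : ℝ) + (d2 : ℝ)) + 1 := by
    have := mul_nonneg (Nat.cast_nonneg α (α := ℝ)) (Nat.cast_nonneg d1 (α := ℝ))
    linarith
  have hloc : ∀ v : AbsoluteValue Qb ℝ, (⨆ j : Fin 2, v ((![W1, W2] : Fin 2 → Qb) j)) ≤
      Cert.locConst (2 * ((α : ℝ) * ((d1 : ℝ) + (d2 : ℝ)) + 1))
        (Compare.polyCoeffs e1 + Compare.polyCoeffs e2) v *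
        (⨆ a : Fin 2, v ((![B, 1] : Fin 2 → Qb) a)) ^ α := by
    intro v
    have hsup0 : (0 : ℝ) ≤ ⨆ a : Fin 2, v ((![B, 1] : Fin 2 → Qb) a) :=
      Real.iSup_nonneg fun a => v.nonneg _
    refine Real.iSup_le (fun j => ?_)
      (mul_nonneg (Cert.locConst_nonneg (by linarith) _ v) (pow_nonneg hsup0 α))
    refine Fin.cases ?_ (fun j' => ?_) j
    · exact abv_le_of_weighted_gen_pair v α e1 he1 _ hΓ1 hc1 B W1 h1
    · have hj' : j' = 0 := Subsingleton.elim _ _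
      rw [hj']
      exact abv_le_of_weighted_gen_pair v α e2 he2 _ hΓ2 hc2 B W2 h2
  exact LocConstQb.hT_le_of_locConst_abv hc (Compare.polyCoeffs e1 + Compare.polyCoeffs e2) α
    (![B, 1] : Fin 2 → Qb) (![W1, W2] : Fin 2 → Qb) hF hloc

end Values

/-! ### The quasi-equivalence on a curve -/

section Riemann

variable {K F : Type*} [Field K] [Field F] [Algebra K F]
variable [IsAlgClosed K] [CharZero K] [Algebra.EssFiniteType K F]

/-- A divisor of degree `≥ g` has a nonzero section (Riemann's inequality). -/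
theorem exists_section (htr : Algebra.trdeg K F = 1) (Δ : Divisor K F)
    (h : (gR K F : ℤ) ≤ Divisor.degree Δ) : ∃ δ : F, δ ≠ 0 ∧ δ ∈ riemannRochSpace Δ := by
  have hne : riemannRochSpace Δ ≠ ⊥ := by
    intro hbot
    have h1 := riemann_inequality htr Δ
    have h2 : Module.finrank K ↥(riemannRochSpace Δ) = 0 := by
      rw [hbot]
      simp
    rw [h2] at h1
    simp only [Nat.cast_zero] at h1
    omega
  obtain ⟨δ, hδ, hδ0⟩ := Submodule.exists_mem_ne_zero_of_ne_bot hne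
  exact ⟨δ, hδ0, hδ⟩

/-- A function is regular at the places off its pole divisor. -/
theorem mem_of_poleDiv_eq_zero (htr : Algebra.trdeg K F = 1) {f : F} {c : Place K F}
    (h : RiemannAux.poleDiv K f c = 0) : f ∈ c.toValuationSubring := by
  by_cases hf : f = 0
  · rw [hf]
    exact zero_mem _
  · rw [RiemannAux.poleDiv_apply htr] at h
    have h1 := le_max_left (-c.ord f) 0
    rw [h] at h1
    exact (Fermat.Agent.S24.FF.ord_nonneg_iff c hf).mp (by omega)

end Riemann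

section Curve

variable {M : Type*} [Field M] [Algebra Qb M]

/-- **(WG)** the weighted integral relation over `Qb[b]` for a function `b` with arbitrary poles
(leaf `WeightedGen`): every `w ∈ L(α (b)_∞)` satisfies a monic relation over `Qb[b]` whose `i`-th
coefficient has degree `≤ α (i + 1)`. -/
def WeightedRelGen (b : M) : Prop :=
  ∀ (α : ℕ) (w : M), w ∈ riemannRochSpace (α • RiemannAux.poleDiv Qb b) →
    ∃ (d : ℕ) (e : Fin d → Qb[X]), 0 < d ∧ (∀ i, (e i).natDegree ≤ α * (i.val + 1)) ∧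
      w ^ d + ∑ i : Fin d, Polynomial.aeval b (e i) * w ^ (d - 1 - i.val) = 0

/-- Evaluation of a monic relation over `Qb[b]` at a place where `b` and `w` are regular. -/
theorem eval_rel {ev : Place Qb M → M → Qb} (hev : IsEval ev) {c : Place Qb M} {b w : M}
    (hb : b ∈ c.toValuationSubring) (hw : w ∈ c.toValuationSubring) {d : ℕ}
    (e : Fin d → Qb[X])
    (h : w ^ d + ∑ i : Fin d, Polynomial.aeval b (e i) * w ^ (d - 1 - i.val) = 0) :
    ev c w ^ d + ∑ i : Fin d, (e i).eval (ev c b) * ev c w ^ (d - 1 - i.val) = 0 := by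
  have haev : ∀ p : Qb[X], Polynomial.aeval b p ∈ c.toValuationSubring := by
    intro p
    rw [Polynomial.aeval_eq_sum_range]
    refine c.toValuationSubring.sum_mem fun i _ => ?_
    rw [Algebra.smul_def]
    exact c.toValuationSubring.mul_mem _ _ (c.algebraMap_mem' _)
      (c.toValuationSubring.pow_mem hb i)
  have hterm : ∀ i : Fin d, Polynomial.aeval b (e i) * w ^ (d - 1 - i.val) ∈
      c.toValuationSubring := fun i =>
    c.toValuationSubring.mul_mem _ _ (haev (e i)) (c.toValuationSubring.pow_mem hw _)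
  have h0 := congrArg (ev c) h
  rw [hev.map_zero, hev.map_add (c.toValuationSubring.pow_mem hw _)
    (c.toValuationSubring.sum_mem fun i _ => hterm i), hev.map_pow hw,
    hev.map_sum _ _ (fun i _ => hterm i)] at h0
  rw [← h0]
  congr 1
  refine Finset.sum_congr rfl fun i _ => ?_
  rw [hev.map_mul (haev (e i)) (c.toValuationSubring.pow_mem hw _), hev.map_aeval hb,
    hev.map_pow hw]

variable [Algebra.EssFiniteType Qb M]

/-- **HT, integer form.** -/
theorem exists_quasi_le_nat (htr : Algebra.trdeg Qb M = 1) {ev : Place Qb M → M → Qb}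
    (hev : IsEval ev) (a b : M) (hWG : WeightedRelGen b) {α β : ℕ}
    (hαβ : (β : ℤ) * Divisor.degree (RiemannAux.poleDiv Qb a) + (gR Qb M : ℤ)
      ≤ (α : ℤ) * Divisor.degree (RiemannAux.poleDiv Qb b)) :
    ∃ (C : ℝ) (S : Finset (Place Qb M)), ∀ c : Place Qb M, c ∉ S →
      (β : ℝ) * hQ (ev c a) ≤ (α : ℝ) * hQ (ev c b) + C := by
  classical
  -- the auxiliary section
  have hdeg : (gR Qb M : ℤ) ≤ Divisor.degree
      (α • RiemannAux.poleDiv Qb b - β • RiemannAux.poleDiv Qb a) := by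
    rw [map_sub, map_nsmul, map_nsmul, nsmul_eq_mul, nsmul_eq_mul]
    linarith
  obtain ⟨δ, hδ0, hδ⟩ := exists_section htr _ hdeg
  have h0 : (0 : Divisor Qb M) ≤ β • RiemannAux.poleDiv Qb a :=
    nsmul_nonneg (RiemannAux.poleDiv_nonneg Qb a) β
  have hsum : α • RiemannAux.poleDiv Qb b - β • RiemannAux.poleDiv Qb a
      + β • RiemannAux.poleDiv Qb a = α • RiemannAux.poleDiv Qb b := sub_add_cancel _ _
  have hw2 : δ ∈ riemannRochSpace (α • RiemannAux.poleDiv Qb b) := by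
    have h1 := mul_mem_L hδ (L_mono h0 (RiemannAux.one_mem_L_zero (K := Qb) (F := M)))
    rwa [hsum, mul_one] at h1
  have hw1 : δ * a ^ β ∈ riemannRochSpace (α • RiemannAux.poleDiv Qb b) := by
    have h1 := mul_mem_L hδ (RiemannAux.pow_mem_L (RiemannAux.mem_L_poleDiv htr a) β)
    rwa [hsum] at h1
  obtain ⟨d1, e1, -, he1, hr1⟩ := hWG α (δ * a ^ β) hw1
  obtain ⟨d2, e2, -, he2, hr2⟩ := hWG α δ hw2
  refine ⟨Real.log (2 * ((α : ℝ) * ((d1 : ℝ) + (d2 : ℝ)) + 1)) +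
      ((Compare.polyCoeffs e1 + Compare.polyCoeffs e2).map hQ).sum,
    (RiemannAux.poleDiv Qb a).support ∪ (RiemannAux.poleDiv Qb b).support ∪
      (divOf Qb δ).support, fun c hc => ?_⟩
  rw [Finset.mem_union, Finset.mem_union, not_or, not_or, Finsupp.mem_support_iff,
    Finsupp.mem_support_iff, Finsupp.mem_support_iff, not_not, not_not, not_not] at hc
  obtain ⟨⟨hca, hcb⟩, hcδ⟩ := hc
  rw [divOf_apply htr] at hcδ
  -- regularity at `c`
  have hamem : a ∈ c.toValuationSubring := mem_of_poleDiv_eq_zero htr hca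
  have hbmem : b ∈ c.toValuationSubring := mem_of_poleDiv_eq_zero htr hcb
  have hδmem : δ ∈ c.toValuationSubring :=
    (Fermat.Agent.S24.FF.ord_nonneg_iff c hδ0).mp (le_of_eq hcδ.symm)
  have hδev : ev c δ ≠ 0 := by
    intro h
    rcases (hev.eq_zero_iff hδmem).mp h with h1 | h1
    · exact hδ0 h1
    · rw [hcδ] at h1
      exact lt_irrefl _ h1
  have hwmem : δ * a ^ β ∈ c.toValuationSubring :=
    c.toValuationSubring.mul_mem _ _ hδmem (c.toValuationSubring.pow_mem hamem β)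
  -- the relations between the values
  have hv1 := eval_rel hev hbmem hwmem e1 hr1
  have hv2 := eval_rel hev hbmem hδmem e2 hr2
  have key := hT_pair_le_of_weighted_gen α e1 e2 he1 he2 (ev c b) (ev c (δ * a ^ β)) (ev c δ)
    hv1 hv2
  -- the left side is `β * hQ (a(c))`
  have hvec : (![ev c (δ * a ^ β), ev c δ] : Fin 2 → Qb) = ev c δ • ![ev c a ^ β, 1] := by
    rw [hev.map_mul hδmem (c.toValuationSubring.pow_mem hamem β), hev.map_pow hamem]
    funext i
    refine Fin.cases ?_ (fun j => ?_) i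
    · simp
    · have hj : j = 0 := Subsingleton.elim _ _
      rw [hj]
      simp
  have hleft : hT (![ev c (δ * a ^ β), ev c δ] : Fin 2 → Qb) = (β : ℝ) * hQ (ev c a) := by
    rw [hvec, hT_smul _ hδev, ← hQ_pow]
    rfl
  rw [hleft] at key
  linarith

/-- **HT (quasi-equivalence).** -/
theorem exists_quasi_le (htr : Algebra.trdeg Qb M = 1) {ev : Place Qb M → M → Qb}
    (hev : IsEval ev) (a b : M) (hb : Transcendental Qb b) (hWG : WeightedRelGen b)
    {ε : ℝ} (hε : 0 < ε) :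
    ∃ (C : ℝ) (S : Finset (Place Qb M)), ∀ c : Place Qb M, c ∉ S →
      hQ (ev c a) ≤ ((Divisor.degree (RiemannAux.poleDiv Qb a) : ℝ) /
        (Divisor.degree (RiemannAux.poleDiv Qb b) : ℝ) + ε) * hQ (ev c b) + C := by
  -- the two degrees
  have hna : (0 : ℤ) ≤ Divisor.degree (RiemannAux.poleDiv Qb a) :=
    degree_nonneg htr (RiemannAux.poleDiv_nonneg Qb a)
  have hnb : (0 : ℤ) < Divisor.degree (RiemannAux.poleDiv Qb b) := by
    rw [RiemannAux.degree_poleDiv htr hb]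
    have : Module.Finite (IntermediateField.adjoin Qb {b}) M :=
      Fermat.Agent.S24.FF.finite_adjoin_simple htr hb
    have hpos : 0 < Module.finrank (IntermediateField.adjoin Qb {b}) M := Module.finrank_pos
    exact_mod_cast hpos
  set nA : ℝ := (Divisor.degree (RiemannAux.poleDiv Qb a) : ℝ) with hnA
  set nB : ℝ := (Divisor.degree (RiemannAux.poleDiv Qb b) : ℝ) with hnB
  have hA0 : (0 : ℝ) ≤ nA := by rw [hnA]; exact_mod_cast hna
  have hB0 : (0 : ℝ) < nB := by rw [hnB]; exact_mod_cast hnb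
  have hg0 : (0 : ℝ) ≤ (gR Qb M : ℝ) := Nat.cast_nonneg _
  -- the choice of `β` and `α`
  set β : ℕ := ⌈((gR Qb M : ℝ) / nB + 1) / ε⌉₊ + 1 with hβ
  have hβpos : (0 : ℝ) < (β : ℝ) := by
    rw [hβ]
    push_cast
    have : (0 : ℝ) ≤ (⌈((gR Qb M : ℝ) / nB + 1) / ε⌉₊ : ℝ) := Nat.cast_nonneg _
    linarith
  have hβε : (gR Qb M : ℝ) / nB + 1 ≤ ε * (β : ℝ) := by
    have h1 : ((gR Qb M : ℝ) / nB + 1) / ε ≤ (β : ℝ) := by
      rw [hβ]
      push_cast
      have := Nat.le_ceil (((gR Qb M : ℝ) / nB + 1) / ε)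
      linarith
    rw [div_le_iff₀ hε] at h1
    linarith
  have hx0 : (0 : ℝ) ≤ ((β : ℝ) * nA + (gR Qb M : ℝ)) / nB :=
    div_nonneg (add_nonneg (mul_nonneg hβpos.le hA0) hg0) hB0.le
  set α : ℕ := ⌈((β : ℝ) * nA + (gR Qb M : ℝ)) / nB⌉₊ with hα
  have hα1 : ((β : ℝ) * nA + (gR Qb M : ℝ)) / nB ≤ (α : ℝ) := Nat.le_ceil _
  have hα2 : (α : ℝ) < ((β : ℝ) * nA + (gR Qb M : ℝ)) / nB + 1 := Nat.ceil_lt_add_one hx0
  have hαβ : (β : ℤ) * Divisor.degree (RiemannAux.poleDiv Qb a) + (gR Qb M : ℤ)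
      ≤ (α : ℤ) * Divisor.degree (RiemannAux.poleDiv Qb b) := by
    have h1 : (β : ℝ) * nA + (gR Qb M : ℝ) ≤ (α : ℝ) * nB := by
      rw [div_le_iff₀ hB0] at hα1
      exact hα1
    rw [hnA, hnB] at h1
    exact_mod_cast h1
  obtain ⟨C, S, hCS⟩ := exists_quasi_le_nat htr hev a b hWG hαβ
  refine ⟨C / (β : ℝ), S, fun c hc => ?_⟩
  have h1 := hCS c hc
  have hQb0 : (0 : ℝ) ≤ hQ (ev c b) := hQ_nonneg _
  -- `α ≤ β * (nA / nB + ε)`
  have hαle : (α : ℝ) ≤ (β : ℝ) * (nA / nB + ε) := by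
    have e1 : ((β : ℝ) * nA + (gR Qb M : ℝ)) / nB + 1
        = (β : ℝ) * (nA / nB) + ((gR Qb M : ℝ) / nB + 1) := by
      field_simp
      ring
    rw [e1] at hα2
    have e2 : (β : ℝ) * (nA / nB + ε) = (β : ℝ) * (nA / nB) + ε * (β : ℝ) := by ring
    rw [e2]
    linarith
  have h2 : (α : ℝ) * hQ (ev c b) ≤ (β : ℝ) * (nA / nB + ε) * hQ (ev c b) :=
    mul_le_mul_of_nonneg_right hαle hQb0
  have h3 : (β : ℝ) * hQ (ev c a) ≤ (β : ℝ) * ((nA / nB + ε) * hQ (ev c b) + C / (β : ℝ)) := by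
    have e3 : (β : ℝ) * ((nA / nB + ε) * hQ (ev c b) + C / (β : ℝ))
        = (β : ℝ) * (nA / nB + ε) * hQ (ev c b) + C := by
      field_simp
    rw [e3]
    linarith
  exact le_of_mul_le_mul_left h3 hβpos

/-! ### The hypothesis-free forms (the weighted integral relation is leaf `WeightedGen`) -/

/-- **(WG)** holds for every non-constant `b`. -/
theorem weightedRelGen (htr : Algebra.trdeg Qb M = 1) {b : M} (hb : Transcendental Qb b) :
    WeightedRelGen b :=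
  fun _ _ hw => WeightedGen.exists_weighted_rel_gen htr hb hw

/-- **HT, integer form**: if `β * deg (a)_∞ + g ≤ α * deg (b)_∞` then, off a finite set of
places, `β * hQ (a(c)) ≤ α * hQ (b(c)) + C`. -/
theorem quasi_le_nat (htr : Algebra.trdeg Qb M = 1) {ev : Place Qb M → M → Qb}
    (hev : IsEval ev) (a b : M) (hb : Transcendental Qb b) {α β : ℕ}
    (hαβ : (β : ℤ) * Divisor.degree (RiemannAux.poleDiv Qb a) + (gR Qb M : ℤ)
      ≤ (α : ℤ) * Divisor.degree (RiemannAux.poleDiv Qb b)) :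
    ∃ (C : ℝ) (S : Finset (Place Qb M)), ∀ c : Place Qb M, c ∉ S →
      (β : ℝ) * hQ (ev c a) ≤ (α : ℝ) * hQ (ev c b) + C :=
  exists_quasi_le_nat htr hev a b (weightedRelGen htr hb) hαβ

/-- **HT (upper quasi-equivalence of heights on a curve)**: off a finite set of places,
`hQ (a(c)) ≤ (deg (a)_∞ / deg (b)_∞ + ε) * hQ (b(c)) + C`. -/
theorem quasi_le (htr : Algebra.trdeg Qb M = 1) {ev : Place Qb M → M → Qb}
    (hev : IsEval ev) (a b : M) (hb : Transcendental Qb b) {ε : ℝ} (hε : 0 < ε) :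
    ∃ (C : ℝ) (S : Finset (Place Qb M)), ∀ c : Place Qb M, c ∉ S →
      hQ (ev c a) ≤ ((Divisor.degree (RiemannAux.poleDiv Qb a) : ℝ) /
        (Divisor.degree (RiemannAux.poleDiv Qb b) : ℝ) + ε) * hQ (ev c b) + C :=
  exists_quasi_le htr hev a b hb (weightedRelGen htr hb) hε

/-- **HT, sum form**: for a finite family `a k`, off a finite set of places,
`∑ k, hQ (a k (c)) ≤ ((∑ k, deg (a k)_∞) / deg (b)_∞ + ε) * hQ (b(c)) + C`. -/
theorem quasi_le_sum {κ : Type*} [Fintype κ] (htr : Algebra.trdeg Qb M = 1)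
    {ev : Place Qb M → M → Qb} (hev : IsEval ev) (a : κ → M) (b : M)
    (hb : Transcendental Qb b) {ε : ℝ} (hε : 0 < ε) :
    ∃ (C : ℝ) (S : Finset (Place Qb M)), ∀ c : Place Qb M, c ∉ S →
      ∑ k, hQ (ev c (a k)) ≤ ((∑ k, (Divisor.degree (RiemannAux.poleDiv Qb (a k)) : ℝ)) /
        (Divisor.degree (RiemannAux.poleDiv Qb b) : ℝ) + ε) * hQ (ev c b) + C := by
  classical
  have hcard0 : (0 : ℝ) ≤ (Fintype.card κ : ℝ) := Nat.cast_nonneg _
  have hcard : (0 : ℝ) < (Fintype.card κ : ℝ) + 1 := by linarith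
  have hε' : 0 < ε / ((Fintype.card κ : ℝ) + 1) := div_pos hε hcard
  choose C S hCS using fun k => quasi_le htr hev (a k) b hb hε'
  refine ⟨∑ k, C k, Finset.univ.biUnion S, fun c hc => ?_⟩
  have hc' : ∀ k, c ∉ S k := fun k hk =>
    hc (Finset.mem_biUnion.mpr ⟨k, Finset.mem_univ k, hk⟩)
  have hQb0 : (0 : ℝ) ≤ hQ (ev c b) := hQ_nonneg _
  have h1 : ∑ k, hQ (ev c (a k)) ≤ ∑ k,
      (((Divisor.degree (RiemannAux.poleDiv Qb (a k)) : ℝ) /
        (Divisor.degree (RiemannAux.poleDiv Qb b) : ℝ) + ε / ((Fintype.card κ : ℝ) + 1))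
          * hQ (ev c b) + C k) :=
    Finset.sum_le_sum fun k _ => hCS k c (hc' k)
  refine le_trans h1 ?_
  rw [Finset.sum_add_distrib, ← Finset.sum_mul, Finset.sum_add_distrib, ← Finset.sum_div,
    Finset.sum_const, Finset.card_univ, nsmul_eq_mul]
  have h2 : (Fintype.card κ : ℝ) * (ε / ((Fintype.card κ : ℝ) + 1)) ≤ ε := by
    rw [← mul_div_assoc, div_le_iff₀ hcard]
    nlinarith
  have h3 := mul_le_mul_of_nonneg_right h2 hQb0
  nlinarith

end Curve

end Fermat.Agent.S17.HB.Ht
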