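/-
MW strand HB (route beta), leaf LOC2, the value side: for an embedding `ρ : F →ₐ[K] M` of function
fields of one variable and a place `c` of `M` with centre `T` on `F`
(`T.toValuationSubring = c.toValuationSubring.comap ρ`),

* `0 < T.ord g ↔ 0 < c.ord (ρ g)`            (`ord_map_pos_iff`);
* `g ∈ O_T ↔ ρ g ∈ O_c`                       (`map_mem_iff`);
* the value of `ρ f` at `c` is the value of `f` at `T`, for every value function
  (`eval_map`), in particular for `H.Glob.evalAt` (`evalAt_map`, `evalAt_map_centre`).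
-/
import Mathlib
import Fermat.Agent.S17.H.Glob.Eval
import Fermat.Agent.S17.HB.Loc2

set_option autoImplicit false

namespace Fermat.Agent.S17.HB.Loc2Eval

open AlgebraicCurve Fermat.Agent.S17.H.Glob

variable {K F M : Type*} [Field K] [Field F] [Field M] [Algebra K F] [Algebra K M]

/-- `g` is regular at the centre iff `ρ g` is regular at `c`. -/
theorem map_mem_iff (ρ : F →ₐ[K] M) (c : Place K M) (T : Place K F)
    (hT : T.toValuationSubring = c.toValuationSubring.comap (ρ : F →+* M)) (g : F) :
    g ∈ T.toValuationSubring ↔ ρ g ∈ c.toValuationSubring := by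
  rw [hT]
  exact Iff.rfl

/-- `g` vanishes at the centre iff `ρ g` vanishes at `c`. -/
theorem ord_map_pos_iff (ρ : F →ₐ[K] M) (c : Place K M) (T : Place K F)
    (hT : T.toValuationSubring = c.toValuationSubring.comap (ρ : F →+* M)) (g : F) :
    0 < T.ord g ↔ 0 < c.ord (ρ g) := by
  rcases eq_or_ne g 0 with rfl | hg
  · simp
  have hρg : ρ g ≠ 0 := (map_ne_zero ρ).mpr hg
  have h1 : 0 < T.ord g ↔ g⁻¹ ∉ T.toValuationSubring := by
    rw [← Fermat.Agent.S24.FF.ord_nonneg_iff T (inv_ne_zero hg), T.ord_inv]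
    omega
  have h2 : 0 < c.ord (ρ g) ↔ (ρ g)⁻¹ ∉ c.toValuationSubring := by
    rw [← Fermat.Agent.S24.FF.ord_nonneg_iff c (inv_ne_zero hρg), c.ord_inv]
    omega
  rw [h1, h2, map_mem_iff ρ c T hT g⁻¹, map_inv₀]

/-- The value of `ρ f` at `c` is the value of `f` at the centre `T`, for any two value
functions. -/
theorem eval_map {evF : Place K F → F → K} (hevF : IsEval evF) {evM : Place K M → M → K}
    (hevM : IsEval evM) (ρ : F →ₐ[K] M) (c : Place K M) (T : Place K F)
    (hT : T.toValuationSubring = c.toValuationSubring.comap (ρ : F →+* M)) (f : F)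
    (hf : f ∈ T.toValuationSubring) : evM c (ρ f) = evF T f := by
  have hρf : ρ f ∈ c.toValuationSubring := (map_mem_iff ρ c T hT f).mp hf
  refine hevM.eq_of_valuation_lt hρf ((valuation_lt_one_iff c _).mpr ?_)
  have e : ρ f - algebraMap K M (evF T f) = ρ (f - algebraMap K F (evF T f)) := by
    rw [map_sub, AlgHom.commutes]
  rw [e]
  rcases hevF.sub_eq_zero_or_ord_pos hf with h0 | h0
  · left
    rw [h0, map_zero]
  · right
    exact (ord_map_pos_iff ρ c T hT _).mp h0

variable [IsAlgClosed K]

/-- The value of `ρ f` at `c` is the value of `f` at the centre `T` (`H.Glob.evalAt`). -/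
theorem evalAt_map (htrF : Algebra.trdeg K F = 1) (htrM : Algebra.trdeg K M = 1)
    (ρ : F →ₐ[K] M) (c : Place K M) (T : Place K F)
    (hT : T.toValuationSubring = c.toValuationSubring.comap (ρ : F →+* M)) (f : F)
    (hf : f ∈ T.toValuationSubring) : evalAt c (ρ f) = evalAt T f :=
  eval_map (isEval_evalAt htrF) (isEval_evalAt htrM) ρ c T hT f hf

/-- The value of `ρ f` at `c` is the value of `f` at `Loc2.centre ρ hρ c`. -/
theorem evalAt_map_centre (htrF : Algebra.trdeg K F = 1) (htrM : Algebra.trdeg K M = 1)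
    (ρ : F →ₐ[K] M) (hρ : ρ.toRingHom.IsIntegral) (c : Place K M) (f : F)
    (hf : f ∈ (Loc2.centre ρ hρ c).toValuationSubring) :
    evalAt c (ρ f) = evalAt (Loc2.centre ρ hρ c) f :=
  evalAt_map htrF htrM ρ c _ (Loc2.centre_toValuationSubring ρ hρ c) f hf

end Fermat.Agent.S17.HB.Loc2Eval
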