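/-
Program MW (S17), strand HB (route beta): the DIVPT assembly, curve side (helper152).

`F / Qb` with base place `Q₀` and coordinate `y` (regular off `Q₀`, pole at `Q₀`), `M / Qb` the
division curve with its embeddings `ρ₀, ρ k : F → M`.  This file produces the seam Prop
`DivPtCore.FibrePt` from

* the specialised divisor at every place `c` of `M` (LOC3),
* the count `n² ∑ [M : ρ k F] ≤ κ' [M : ρ₀ F]` (DEG),

through `Ht.quasi_le_sum` (the upper quasi-equivalence of heights on `M`) for `a k = ρ k y`,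
`b = ρ₀ y`, `ε = 1 / n²`.

* `exists_place_over`   : every place of `F` is the centre of a place of `M`;
* `poleDiv_map`, `degree_poleDiv_map` : the pole divisor of `ρ f` is the pull-back of the pole
  divisor of `f`; its degree is `[M : ρ F] * deg (f)_∞`;
* `exists_normalising`  : the normalising exponent of a vector of functions at a place;
* `fibrePt_of_curve`    : `FibrePt` from the two inputs in hypothesis form (centres in comap form);
* `easyHalf`            : `Loc3.EasyHalf` from `Loc1.X_pow_dvd_closedFibre`;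
* `fibrePt_of_data`     : `FibrePt` from a `Loc3.Data` with `cM 0 = 1` and the count.
-/
import Mathlib
import Fermat.Agent.Lib.FFNorm.Value
import Fermat.Agent.S17.HB.Loc1
import Fermat.Agent.S17.HB.Loc2Eval
import Fermat.Agent.S17.HB.Loc3
import Fermat.Agent.S17.HB.Ht
import Fermat.Agent.S17.HB.DivPtCore

set_option autoImplicit false
set_option linter.style.haveILetI false
set_option linter.unusedSectionVars false

namespace Fermat.Agent.S17.HB.DivPtOfCurve

open AlgebraicCurve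
open Fermat.Agent.S17 Fermat.Agent.S17.R Fermat.Agent.S17.R.RiemannAux
open Fermat.Agent.S17.H Fermat.Agent.S17.H.Glob
open Fermat.Agent.S17.HB.DivPtCore

section General

variable {K F M : Type*} [Field K] [Field F] [Field M] [Algebra K F] [Algebra K M]
variable [IsAlgClosed K] [CharZero K] [Algebra.EssFiniteType K F] [Algebra.EssFiniteType K M]

/-- Every place of `F` is the centre of a place of `M`. -/
theorem exists_place_over (htr : Algebra.trdeg K F = 1) (htrM : Algebra.trdeg K M = 1)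
    (ρ : F →ₐ[K] M) (P : Place K F) :
    ∃ c : Place K M, P.toValuationSubring = c.toValuationSubring.comap (ρ : F →+* M) := by
  classical
  have hρ : ρ.toRingHom.IsIntegral := Loc2.algHom_isIntegral htr htrM ρ
  haveI : HasPrincipalDivisors K M := Fermat.Agent.Lib.FFNorm.hasPrincipalDivisors htrM
  have hsum := Fermat.Agent.Lib.FFNorm.sum_ramificationIndexAlong_fiberAlong ρ hρ htr htrM P
  have hpos : 0 < finrankAlong K ρ := by
    letI := algebraAlong ρ
    haveI := isScalarTower_along ρ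
    haveI : Module.Finite F M := Fermat.Agent.Lib.FFNorm.finite_of_trdeg htr htrM
    exact Module.finrank_pos
  have hne : (Place.fiberAlong ρ hρ P).Nonempty := by
    by_contra hemp
    rw [Finset.not_nonempty_iff_eq_empty] at hemp
    rw [hemp, Finset.sum_empty] at hsum
    omega
  obtain ⟨c, hc⟩ := hne
  refine ⟨c, ?_⟩
  rw [Place.mem_fiberAlong] at hc
  rw [← hc]
  rfl

/-- The pole divisor of `ρ f` is the pull-back of the pole divisor of `f`. -/
theorem poleDiv_map (htr : Algebra.trdeg K F = 1) (htrM : Algebra.trdeg K M = 1)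
    (ρ : F →ₐ[K] M) (hρ : ρ.toRingHom.IsIntegral) [HasPrincipalDivisors K M] (f : F) :
    poleDiv K (ρ f) = Divisor.pullbackAlong ρ hρ (poleDiv K f) := by
  ext w
  rw [poleDiv_apply htrM, Divisor.pullbackAlong_apply, poleDiv_apply htr,
    Place.ord_restrictAlong ρ hρ w f,
    mul_max_of_nonneg _ _ (Nat.cast_nonneg (Place.ramificationIndexAlong ρ w)), mul_zero,
    mul_neg]

/-- The degree of the pole divisor of `ρ f` is `[M : ρ F]` times that of `f`. -/
theorem degree_poleDiv_map (htr : Algebra.trdeg K F = 1) (htrM : Algebra.trdeg K M = 1)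
    (ρ : F →ₐ[K] M) (f : F) :
    Divisor.degree (poleDiv K (ρ f)) =
      (finrankAlong K ρ : ℤ) * Divisor.degree (poleDiv K f) := by
  have hρ : ρ.toRingHom.IsIntegral := Loc2.algHom_isIntegral htr htrM ρ
  haveI : HasPrincipalDivisors K M := Fermat.Agent.Lib.FFNorm.hasPrincipalDivisors htrM
  rw [poleDiv_map htr htrM ρ hρ f]
  exact Divisor.degree_pullbackAlong ρ hρ
    (Fermat.Agent.Lib.FFNorm.fundamentalIdentityAlong ρ hρ htr htrM) _

omit [IsAlgClosed K] [CharZero K] [Algebra.EssFiniteType K F] [Algebra.EssFiniteType K M]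
  [Field F] [Algebra K F] in
/-- The normalising exponent at a place `c` of a finite vector of functions containing `1`. -/
theorem exists_normalising (c : Place K M) {m : ℕ} (cM : Fin (m + 1) → M) (h0 : cM 0 = 1)
    (ϖ : M) (hϖ : c.ord ϖ = 1) :
    ∃ e : ℕ, (∀ j, ϖ ^ e * cM j ∈ c.toValuationSubring) ∧
      ∃ j, cM j ≠ 0 ∧ c.ord (ϖ ^ e * cM j) = 0 := by
  classical
  have hϖ0 : ϖ ≠ 0 := by
    rintro rfl
    rw [Place.ord_zero] at hϖ
    omega
  have hs : (Finset.univ.filter fun j : Fin (m + 1) => cM j ≠ 0).Nonempty :=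
    ⟨0, by rw [Finset.mem_filter]; exact ⟨Finset.mem_univ _, by rw [h0]; exact one_ne_zero⟩⟩
  obtain ⟨j₀, hj₀, hmin⟩ := Finset.exists_min_image _ (fun j => c.ord (cM j)) hs
  rw [Finset.mem_filter] at hj₀
  have h00 : c.ord (cM j₀) ≤ 0 := by
    have := hmin 0 (by rw [Finset.mem_filter]; exact ⟨Finset.mem_univ _, by rw [h0]; exact one_ne_zero⟩)
    rwa [h0, Place.ord_one] at this
  have hord : ∀ (e : ℕ) (x : M), x ≠ 0 → c.ord (ϖ ^ e * x) = (e : ℤ) + c.ord x := by
    intro e x hx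
    rw [c.ord_mul (pow_ne_zero e hϖ0) hx, ← zpow_natCast, Place.ord_zpow, hϖ, mul_one]
  have he : (((-(c.ord (cM j₀))).toNat : ℕ) : ℤ) = -(c.ord (cM j₀)) :=
    Int.toNat_of_nonneg (by omega)
  refine ⟨(-(c.ord (cM j₀))).toNat, fun j => ?_, j₀, hj₀.2, ?_⟩
  · by_cases hj : cM j = 0
    · rw [hj, mul_zero]
      exact zero_mem _
    · have hne : ϖ ^ (-(c.ord (cM j₀))).toNat * cM j ≠ 0 := mul_ne_zero (pow_ne_zero _ hϖ0) hj
      refine (Fermat.Agent.S24.FF.ord_nonneg_iff c hne).mp ?_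
      rw [hord _ _ hj, he]
      have := hmin j (by rw [Finset.mem_filter]; exact ⟨Finset.mem_univ _, hj⟩)
      omega
  · rw [hord _ _ hj₀.2, he]
    omega

omit [IsAlgClosed K] [CharZero K] [Algebra.EssFiniteType K F] [Algebra.EssFiniteType K M]
  [Field F] [Algebra K F] [Field M] [Algebra K M] in
/-- The easy half of LOC1, in the hypothesis form of LOC3. -/
theorem easyHalf (ι : Type*) [Fintype ι] : Loc3.EasyHalf K ι :=
  fun _ C W r μ hr0 hr hvan => Loc1.X_pow_dvd_closedFibre C W r μ hr0 hr hvan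

end General

section Heights

local notation "Qb" => AlgebraicClosure ℚ

variable {F : Type*} [Field F] [Algebra Qb F] [Algebra.EssFiniteType Qb F]
variable {M : Type*} [Field M] [Algebra Qb M] [Algebra.EssFiniteType Qb M]

/-- **The seam Prop from the division curve**, inputs in hypothesis form: the specialised
divisor at every place of `M` (centres in comap form) and the count on the degrees of the
embeddings. -/
theorem fibrePt_of_curve (htr : Algebra.trdeg Qb F = 1) (htrM : Algebra.trdeg Qb M = 1)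
    (Q₀ : Place Qb F) {y : F} (hy : RegOff Q₀ y) (hy0 : Q₀.ord y < 0) {n g G : ℕ} (hn : 0 < n)
    (E₀ : Finset (Place Qb F)) (hQ₀E : Q₀ ∉ E₀) (hE : E₀.card ≤ G) (hg : g ≤ G)
    (ρ₀ : F →ₐ[Qb] M) (ρ : Fin g → (F →ₐ[Qb] M))
    (hspec : ∀ (c : Place Qb M) (P : Place Qb F) (R : Fin g → Place Qb F),
      P.toValuationSubring = c.toValuationSubring.comap (ρ₀ : F →+* M) →
      (∀ k, (R k).toValuationSubring = c.toValuationSubring.comap (ρ k : F →+* M)) →
      ∃ Ψ : F, Ψ ≠ 0 ∧ divOf Qb Ψ =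
        Finsupp.single P (1 : ℤ) + (n : ℤ) • ∑ k, Finsupp.single (R k) (1 : ℤ)
          - (n : ℤ) • ∑ v ∈ E₀, Finsupp.single v (1 : ℤ) - Finsupp.single Q₀ (1 : ℤ))
    {κ' : ℝ}
    (hcount : (n : ℝ) ^ 2 * ∑ k, (finrankAlong Qb (ρ k) : ℝ) ≤ κ' * (finrankAlong Qb ρ₀ : ℝ)) :
    FibrePt Q₀ y G n (κ' + 1) := by
  classical
  have hevM : IsEval (evalAt : Place Qb M → M → Qb) := isEval_evalAt htrM
  have hytr : Transcendental Qb y :=
    PoleDegree.transcendental_of_ord_ne_zero (v := Q₀) (by omega)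
  have hb : Transcendental Qb (ρ₀ y) := fun halg =>
    hytr ((isAlgebraic_algHom_iff ρ₀ ρ₀.injective).mp halg)
  have hyposZ : 0 < Divisor.degree (poleDiv Qb y) := WeightedGen.degree_poleDiv_pos htr hytr
  have hBposZ : 0 < Divisor.degree (poleDiv Qb (ρ₀ y)) := WeightedGen.degree_poleDiv_pos htrM hb
  have hnR : (0 : ℝ) < (n : ℝ) ^ 2 := by positivity
  have hε : (0 : ℝ) < 1 / (n : ℝ) ^ 2 := by positivity
  obtain ⟨C, SM, hSM⟩ := Ht.quasi_le_sum htrM hevM (fun k => ρ k y) (ρ₀ y) hb hε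
  have hρ₀ : ρ₀.toRingHom.IsIntegral := Loc2.algHom_isIntegral htr htrM ρ₀
  have hρ : ∀ k, (ρ k).toRingHom.IsIntegral := fun k => Loc2.algHom_isIntegral htr htrM (ρ k)
  refine ⟨E₀, g, C, insert Q₀ ((SM ∪ Finset.univ.biUnion
    fun k => (poleDiv Qb (ρ k y)).support).image (Loc2.centre ρ₀ hρ₀)), hQ₀E, hE, hg,
    fun P hP => ?_⟩
  rw [Finset.mem_insert, not_or] at hP
  obtain ⟨hPQ, hPim⟩ := hP
  obtain ⟨c, hc⟩ := exists_place_over htr htrM ρ₀ P
  have hcen : Loc2.centre ρ₀ hρ₀ c = P :=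
    Place.ext (by rw [Loc2.centre_toValuationSubring, hc])
  have hcS : c ∉ SM ∪ Finset.univ.biUnion fun k => (poleDiv Qb (ρ k y)).support :=
    fun h => hPim (Finset.mem_image.mpr ⟨c, h, hcen⟩)
  rw [Finset.mem_union, not_or] at hcS
  obtain ⟨hcSM, hck⟩ := hcS
  have hRc : ∀ k, (Loc2.centre (ρ k) (hρ k) c).toValuationSubring =
      c.toValuationSubring.comap (ρ k : F →+* M) :=
    fun k => Loc2.centre_toValuationSubring (ρ k) (hρ k) c
  have hreg : ∀ k, ρ k y ∈ c.toValuationSubring := by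
    intro k
    by_contra hnot
    apply hck
    rw [Finset.mem_biUnion]
    refine ⟨k, Finset.mem_univ k, ?_⟩
    rw [Finsupp.mem_support_iff, poleDiv_apply htrM]
    have hne : ρ k y ≠ 0 := fun h0 => hnot (h0 ▸ zero_mem _)
    have hlt : c.ord (ρ k y) < 0 := by
      by_contra hge
      exact hnot ((Fermat.Agent.S24.FF.ord_nonneg_iff c hne).mp (not_lt.mp hge))
    intro hmax
    have := le_max_left (-(c.ord (ρ k y))) 0
    omega
  have hRQ : ∀ k, Loc2.centre (ρ k) (hρ k) c ≠ Q₀ := by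
    intro k hk
    have hmem : y ∈ (Loc2.centre (ρ k) (hρ k) c).toValuationSubring :=
      (Loc2Eval.map_mem_iff (ρ k) c _ (hRc k) y).mpr (hreg k)
    rw [hk] at hmem
    have := Fermat.Agent.S24.FF.ord_nonneg_of_mem Q₀ hmem
    omega
  refine ⟨fun k => Loc2.centre (ρ k) (hρ k) c, hRQ, hspec c P _ hc hRc, ?_⟩
  have hval : ∀ k, evalAt c (ρ k y) = evalAt (Loc2.centre (ρ k) (hρ k) c) y := fun k =>
    Loc2Eval.evalAt_map htr htrM (ρ k) c _ (hRc k) y (hy _ (hRQ k))
  have hval0 : evalAt c (ρ₀ y) = evalAt P y :=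
    Loc2Eval.evalAt_map htr htrM ρ₀ c P hc y (hy P hPQ)
  have h1 := hSM c hcSM
  rw [hval0, Finset.sum_congr rfl fun k _ => congrArg hQ (hval k)] at h1
  -- the coefficient
  have hyR : (0 : ℝ) < (Divisor.degree (poleDiv Qb y) : ℝ) := by exact_mod_cast hyposZ
  have hdegk : ∀ k, (Divisor.degree (poleDiv Qb (ρ k y)) : ℝ) =
      (finrankAlong Qb (ρ k) : ℝ) * (Divisor.degree (poleDiv Qb y) : ℝ) := fun k => by
    rw [degree_poleDiv_map htr htrM (ρ k) y]
    push_cast
    ring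
  have hdeg0 : (Divisor.degree (poleDiv Qb (ρ₀ y)) : ℝ) =
      (finrankAlong Qb ρ₀ : ℝ) * (Divisor.degree (poleDiv Qb y) : ℝ) := by
    rw [degree_poleDiv_map htr htrM ρ₀ y]
    push_cast
    ring
  have hB : (0 : ℝ) < (Divisor.degree (poleDiv Qb (ρ₀ y)) : ℝ) := by exact_mod_cast hBposZ
  have hcoef : (∑ k, (Divisor.degree (poleDiv Qb (ρ k y)) : ℝ)) /
      (Divisor.degree (poleDiv Qb (ρ₀ y)) : ℝ) + 1 / (n : ℝ) ^ 2 ≤ (κ' + 1) / (n : ℝ) ^ 2 := by
    have h2 : (∑ k, (Divisor.degree (poleDiv Qb (ρ k y)) : ℝ)) /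
        (Divisor.degree (poleDiv Qb (ρ₀ y)) : ℝ) ≤ κ' / (n : ℝ) ^ 2 := by
      rw [div_le_div_iff₀ hB hnR, Finset.sum_congr rfl fun k _ => hdegk k, ← Finset.sum_mul,
        hdeg0]
      have h3 := mul_le_mul_of_nonneg_right hcount hyR.le
      calc (∑ k, (finrankAlong Qb (ρ k) : ℝ)) * (Divisor.degree (poleDiv Qb y) : ℝ) *
            (n : ℝ) ^ 2
          = (n : ℝ) ^ 2 * (∑ k, (finrankAlong Qb (ρ k) : ℝ)) *
            (Divisor.degree (poleDiv Qb y) : ℝ) := by ring
        _ ≤ κ' * (finrankAlong Qb ρ₀ : ℝ) * (Divisor.degree (poleDiv Qb y) : ℝ) := h3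
        _ = κ' * ((finrankAlong Qb ρ₀ : ℝ) * (Divisor.degree (poleDiv Qb y) : ℝ)) := by ring
    rw [add_div]
    linarith
  have hh : 0 ≤ hQ (evalAt P y) := hQ_nonneg _
  have h4 := mul_le_mul_of_nonneg_right hcoef hh
  linarith

/-- **The seam Prop from the data of LOC3**: a `Loc3.Data` on the division curve with
`cM 0 = 1` and the count of DEG give `FibrePt`. -/
theorem fibrePt_of_data (htr : Algebra.trdeg Qb F = 1) (htrM : Algebra.trdeg Qb M = 1)
    (Q₀ : Place Qb F) {y : F} (hy : RegOff Q₀ y) (hy0 : Q₀.ord y < 0) {n g m : ℕ} (hn : 0 < n)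
    {E₀ : Finset (Place Qb F)} (hQ₀E : Q₀ ∉ E₀) (d : Loc3.Data htr M n g m Q₀ E₀)
    (hc0 : d.cM 0 = 1) {κ' : ℝ}
    (hcount : (n : ℝ) ^ 2 * ∑ k, (finrankAlong Qb (d.ρ (some k)) : ℝ) ≤
      κ' * (finrankAlong Qb (d.ρ none) : ℝ)) :
    FibrePt Q₀ y g n (κ' + 1) := by
  classical
  refine fibrePt_of_curve htr htrM Q₀ hy hy0 hn E₀ hQ₀E (le_of_eq d.card_E₀) le_rfl (d.ρ none)
    (fun k => d.ρ (some k)) (fun c P R hP hR => ?_) hcount
  obtain ⟨ϖ, hϖ⟩ := Loc3.exists_unif c
  obtain ⟨e, he, he0⟩ := exists_normalising c d.cM hc0 ϖ hϖ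
  have hcen : ∀ x : Option (Fin g), Loc3.IsCentre (d.ρ x) c (Option.elim x P R) := by
    intro x
    cases x with
    | none => exact hP
    | some k => exact hR k
  obtain ⟨hΨ0, hΨ⟩ := Loc3.divOf_spec_of_easy htr htrM (easyHalf (Fin (m + 1))) d c
    (fun x => Option.elim x P R) hcen ϖ hϖ e he he0
  refine ⟨_, hΨ0, ?_⟩
  rw [hΨ, Fintype.sum_option]
  simp only [Loc3.mult, Option.elim, Nat.cast_one, one_smul, Finset.smul_sum]

end Heights

end Fermat.Agent.S17.HB.DivPtOfCurve
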