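/-
MW strand HB (route beta): the place height of record and its structural properties.

The height of record of the strand is strand H's place height
`Glob.plH Glob.evalAt φ m₀`, `P ↦ hT (φ(P)) / m₀`, for a family `φ : Fin r → Fb N` one of whose
members is `1` and one of whose members is Galois-fixed and non-constant (for the good families
of `H.GoodX.exists_x_phi`: the top member `x ^ k`).

* `plH_nonneg'`     : the height is non-negative;
* `orbitNorthcott`  : the bounded-orbit Northcott property `Contract.OrbitNorthcott`;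
* `northcott`       : (B3 at the height of record) finitely many points of `MW N` of bounded
  `Contract.clH N (Glob.plH Glob.evalAt φ m₀)`;
* `notMem_range_of_ord` : a function with a pole at `∞` is not a constant;
* `clH_plH`         : the height of a class, unfolded.
-/
import Mathlib
import Fermat.Agent.S17.HB.Contract
import Fermat.Agent.S17.H.Pos.PlaceNorthcott

set_option autoImplicit false

namespace Fermat.Agent.S17.HB.Height

open AlgebraicCurve ModularCurve Fermat.Agent.S17 Fermat.Agent.S17.R Fermat.Agent.S17.H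

local notation "Qb" => AlgebraicClosure ℚ
local notation "Fb" => modularFunctionFieldBar

/-- The place height of record is non-negative. -/
theorem plH_nonneg' (N : ℕ) {r : ℕ} (φ : Fin r → Fb N) (m₀ : ℕ) (P : Place Qb (Fb N)) :
    0 ≤ Glob.plH Glob.evalAt φ m₀ P :=
  Glob.plH_nonneg _ φ m₀ P

/-- A function with a pole at `∞` is not a constant. -/
theorem notMem_range_of_ord (N : ℕ) [NeZero N] {f : Fb N} {m₀ : ℕ} (hm : m₀ ≠ 0)
    (htop : (infPlace N).ord f = -(m₀ : ℤ)) : f ∉ Set.range (algebraMap Qb (Fb N)) := by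
  rintro ⟨c, rfl⟩
  rw [Fermat.Agent.S24.FF.ord_algebraMap] at htop
  omega

/-- The bounded-orbit Northcott property of the place height of record: one member of `φ` is
`1`, one member is Galois-fixed and non-constant. -/
theorem orbitNorthcott (N : ℕ) [NeZero N] {r : ℕ} (φ : Fin r → Fb N) {m₀ : ℕ} (hm : m₀ ≠ 0)
    {i₀ i₁ : Fin r} (h1 : φ i₀ = 1)
    (hfix : ∀ σ : Qb ≃ₐ[ℚ] Qb, arithmeticGalois (modularFunctionFieldFull N) σ • φ i₁ = φ i₁)
    (hnc : φ i₁ ∉ Set.range (algebraMap Qb (Fb N))) :
    Contract.OrbitNorthcott N (Glob.plH Glob.evalAt φ m₀) :=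
  Pos.PlaceNorthcott.plH_evalAt_orbit_northcott N φ hm h1 hfix hnc

/-- **(B3) at the height of record**: finitely many points of the Mordell-Weil group of
bounded height. -/
theorem northcott (N : ℕ) [NeZero N] {r : ℕ} (φ : Fin r → Fb N) {m₀ : ℕ} (hm : m₀ ≠ 0)
    {i₀ i₁ : Fin r} (h1 : φ i₀ = 1)
    (hfix : ∀ σ : Qb ≃ₐ[ℚ] Qb, arithmeticGalois (modularFunctionFieldFull N) σ • φ i₁ = φ i₁)
    (hnc : φ i₁ ∉ Set.range (algebraMap Qb (Fb N))) (B : ℝ) :
    {x : ↥(MW N) | Contract.clH N (Glob.plH Glob.evalAt φ m₀) (x : JZero N) ≤ B}.Finite :=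
  Contract.northcott N _ (plH_nonneg' N φ m₀) (orbitNorthcott N φ hm h1 hfix hnc) B

/-- The height of a class at the height of record, unfolded: the sum over the reduced divisor
of `n_P * (hT (φ(P)) / m₀)`. -/
theorem clH_plH (N : ℕ) [NeZero N] {r : ℕ} (φ : Fin r → Fb N) (m₀ : ℕ) (x : JZero N) :
    Contract.clH N (Glob.plH Glob.evalAt φ m₀) x
      = (redDivInf N x).sum fun P n =>
          (n : ℝ) * (hT (fun i => Glob.evalAt P (φ i)) / (m₀ : ℝ)) := rfl

end Fermat.Agent.S17.HB.Height
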