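/-
MW strand HB (route beta): the exit of the strand against its two open inputs.

* `heightDescent_of_family` : for `N ≥ 5` prime and ONE family `φ` with a member `1` and a
  Galois-fixed non-constant member, (RED) and (DIVPT) at the place height of record
  `Glob.plH Glob.evalAt φ m₀` give the contract's `HeightDescent N`.  Divisibility is strand D's
  exit (`D.divisible`), the finiteness of the torsion is `S19.TorsionFinite.finite_torsion`,
  Northcott is `Height.orbitNorthcott`.
* `heightDescent_of_x_phi` : the same in the quantifier order of `H.GoodX.exists_x_phi`: the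
  leaves see the coordinate `x` and its degree `n0`, name a threshold `k₁`, and deliver (RED)
  and (DIVPT) for every good family `φ` of `L(k n0 ∞)` with top `x ^ k`, `k ≥ k₁`.
-/
import Mathlib
import Fermat.Agent.S17.HB.Height
import Fermat.Agent.S17.H.X.GoodX
import Fermat.Agent.S17.D.Exit
import Fermat.Agent.S19.TorsionFinite

set_option autoImplicit false

namespace Fermat.Agent.S17.HB.ExitCore

open AlgebraicCurve ModularCurve Fermat.Agent.S17 Fermat.Agent.S17.R Fermat.Agent.S17.H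

local notation "Qb" => AlgebraicClosure ℚ
local notation "Fb" => modularFunctionFieldBar

/-- The `l`-torsion of `JZero N` is finite, as a set. -/
theorem finite_torsion_set (N : ℕ) [NeZero N] (l : ℕ) (hl : 0 < l) :
    {t : JZero N | l • t = 0}.Finite := by
  haveI := Fermat.Agent.S19.TorsionFinite.finite_torsion N l hl
  refine (Set.toFinite (Submodule.torsionBy ℤ (JZero N) (l : ℤ) : Set (JZero N))).subset ?_
  intro t ht
  have ht' : l • t = 0 := ht
  show t ∈ Submodule.torsionBy ℤ (JZero N) (l : ℤ)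
  rw [Submodule.mem_torsionBy_iff, natCast_zsmul]
  exact ht'

/-- **The exit of strand HB against (RED) and (DIVPT)** at the place height of record of one
family `φ`. -/
theorem heightDescent_of_family (N : ℕ) [NeZero N] (hN : N.Prime) (hN5 : 5 ≤ N) {r : ℕ}
    (φ : Fin r → Fb N) {m₀ : ℕ} (hm : m₀ ≠ 0) {i₀ i₁ : Fin r} (h1 : φ i₀ = 1)
    (hfix : ∀ σ : Qb ≃ₐ[ℚ] Qb, arithmeticGalois (modularFunctionFieldFull N) σ • φ i₁ = φ i₁)
    (hnc : φ i₁ ∉ Set.range (algebraMap Qb (Fb N)))
    (hRED : Contract.RedBound N (Glob.plH Glob.evalAt φ m₀))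
    (hDIV : Contract.DivPt N (Glob.plH Glob.evalAt φ m₀)) : HeightDescent N :=
  Contract.heightDescent_of_chain N _ (Height.plH_nonneg' N φ m₀)
    (Height.orbitNorthcott N φ hm h1 hfix hnc) hRED hDIV
    (Fermat.Agent.S17.D.divisible N hN hN5) (finite_torsion_set N)

/-- **The exit of strand HB in the quantifier order of `GoodX.exists_x_phi`.**  The leaves see
the coordinate `x` (Galois-fixed, in `L(n0 ∞)`, exact pole order `n0 ≥ 2`), name a threshold
`k₁`, and must then deliver (RED) and (DIVPT) for every good family `φ` of `L(k n0 ∞)` with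
top `x ^ k`, `k ≥ k₁`. -/
theorem heightDescent_of_x_phi (N : ℕ) [NeZero N] (hN : N.Prime) (hN5 : 5 ≤ N)
    (hblocks : ∀ (n0 : ℕ) (x : Fb N), 2 ≤ n0 →
      (∀ σ : Qb ≃ₐ[ℚ] Qb, arithmeticGalois (modularFunctionFieldFull N) σ • x = x) →
      x ∈ riemannRochSpace ((n0 : ℤ) • Finsupp.single (infPlace N) (1 : ℤ)) →
      (infPlace N).ord x = -(n0 : ℤ) →
      ∃ k₁ : ℕ, ∀ k : ℕ, k₁ ≤ k → ∀ (r : ℕ) (φ : Fin (r + 1) → Fb N) (i1 : Fin (r + 1)),
        (∀ i, ∀ σ : Qb ≃ₐ[ℚ] Qb,
          arithmeticGalois (modularFunctionFieldFull N) σ • φ i = φ i) →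
        LinearIndependent Qb φ →
        Submodule.span Qb (Set.range φ) =
          riemannRochSpace (((k * n0 : ℕ) : ℤ) • Finsupp.single (infPlace N) (1 : ℤ)) →
        φ i1 = 1 → i1 ≠ Fin.last r →
        φ (Fin.last r) = x ^ k →
        (infPlace N).ord (φ (Fin.last r)) = -((k * n0 : ℕ) : ℤ) →
        (∀ i, i ≠ Fin.last r → -(((k * n0 : ℕ) : ℤ) - 1) ≤ (infPlace N).ord (φ i)) →
        ((r : ℤ) + 1 = ((k * n0 : ℕ) : ℤ) + 1 - (gR Qb (Fb N) : ℤ)) →
        Contract.RedBound N (Glob.plH Glob.evalAt φ (k * n0)) ∧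
          Contract.DivPt N (Glob.plH Glob.evalAt φ (k * n0))) :
    HeightDescent N := by
  obtain ⟨n0, x, hn0, hxfix, hxL, hxord, k₀, hφ⟩ := GoodX.exists_x_phi N
  obtain ⟨k₁, hk₁⟩ := hblocks n0 x hn0 hxfix hxL hxord
  obtain ⟨r, φ, i1, hfix, hli, hspan, h1, hi1, hlast, htop, htop1, hdim⟩ :=
    hφ (max (max k₀ k₁) 1) (le_trans (le_max_left _ _) (le_max_left _ _))
  obtain ⟨hRED, hDIV⟩ := hk₁ (max (max k₀ k₁) 1)
    (le_trans (le_max_right _ _) (le_max_left _ _)) r φ i1 hfix hli hspan h1 hi1 hlast htop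
    htop1 hdim
  have hk1 : 1 ≤ max (max k₀ k₁) 1 := le_max_right _ _
  have hm : max (max k₀ k₁) 1 * n0 ≠ 0 :=
    Nat.pos_iff_ne_zero.mp (Nat.mul_pos (by omega) (by omega))
  exact heightDescent_of_family N hN hN5 φ hm h1 (hfix (Fin.last r))
    (Height.notMem_range_of_ord N hm htop) hRED hDIV

end Fermat.Agent.S17.HB.ExitCore
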