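/-
MW strand HB (route beta): the exit of the chain from the POINT form of (DIVPT), with no
inversion bound.

Leaf B5 produces, for a place `P` of `Fb N`, a bounded number `m` of places `R k` and a fixed
class `e` with `l • (∑ k, [R k - ∞] - e) = -[P - ∞]` and `∑ k, Hpl (R k) ≤ κ / l ^ 2 * Hpl P + Cl`
(`PtDiv N Hpl`; for the division curve: `R k` = the moving points, `e` = the class of `E₀`).
The quotient `z = ∑ k, [R k - ∞] - e` divides `-[P - ∞]`, not `[P - ∞]`; to turn this into the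
contract's descent WITHOUT bounding the height of an inverse, the descent height is the
symmetrised height `x ↦ clH x + clH (-x)`.

* `contraction_neg_abs` : abstract contraction `H x ≤ A ^ (g + 1) * κ * H (-(l • x)) + c₀` from
  the division of `-cls P`;
* `DivPtNeg N Hpl`      : (DIVPT) for `-[P - ∞]`;
* `heightDescent_of_chain_neg` : `RedBound`, `DivPtNeg`, `OrbitNorthcott`, divisibility and
  the finiteness of the torsion give `HeightDescent N`;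
* `clH_ptCls_le`        : `clH [P - ∞] ≤ Hpl P`;
* `PtDiv N Hpl`, `divPtNeg_of_ptDiv`, `heightDescent_of_ptDiv` : the point form; only
  `RedBound` is consumed from leaf B4.
-/
import Mathlib
import Fermat.Agent.S17.HB.Contract

set_option autoImplicit false

namespace Fermat.Agent.S17.HB.Sym

open AlgebraicCurve ModularCurve Fermat.Agent.S17 Fermat.Agent.S17.R
open Fermat.Agent.S17.HB.Contract

section Abstract

variable {J Pt : Type*} [AddCommGroup J]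

/-- Iterating `H (x + y) ≤ A * (H x + H y) + C` along a sum over `Fin m`. -/
theorem red_fin_sum {H : J → ℝ} (hH0 : ∀ x, 0 ≤ H x) {A C : ℝ} (hA : 1 ≤ A) (hC : 0 ≤ C)
    (hred : ∀ x y : J, H (x + y) ≤ A * (H x + H y) + C) (m : ℕ) (Z : Fin m → J) :
    H (∑ k, Z k) ≤ A ^ m * (∑ k, H (Z k) + H 0 + (m : ℝ) * C) := by
  have h := red_sum hH0 hA hC hred Z (fun _ => 1) Finset.univ
  simpa using h

/-- **The contraction for the division of `-cls P`**: under the hypotheses of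
`Contract.contraction_abs` with `l • z = -cls P` in place of `l • z = cls P`,
`H x ≤ A ^ (g + 1) * κ * H (-(l • x)) + c₀`. -/
theorem contraction_neg_abs (l g : ℕ) (cls : Pt → J) (hP : Pt → ℝ) (H : J → ℝ)
    (hH0 : ∀ x, 0 ≤ H x) {A C : ℝ} (hA : 1 ≤ A) (hC : 0 ≤ C)
    (hred : ∀ x y : J, H (x + y) ≤ A * (H x + H y) + C)
    (hrep : ∀ y : J, ∃ (S : Finset Pt) (m : Pt → ℕ), ∑ a ∈ S, m a ≤ g ∧
      ∑ a ∈ S, m a • cls a = y ∧ ∑ a ∈ S, (m a : ℝ) * hP a ≤ H y)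
    {κ Cl : ℝ} (hκ : 0 ≤ κ) (hCl : 0 ≤ Cl)
    (hdiv : ∀ P : Pt, ∃ z : J, l • z = -cls P ∧ H z ≤ κ * hP P + Cl)
    (htors : {t : J | l • t = 0}.Finite) :
    ∃ c₀ : ℝ, ∀ x : J, H x ≤ A ^ (g + 1) * κ * H (-(l • x)) + c₀ := by
  classical
  choose Z hZ1 hZ2 using hdiv
  have hA0 : (0 : ℝ) ≤ A := le_trans zero_le_one hA
  set T : ℝ := ∑ t ∈ htors.toFinset, H t with hT
  have hTle : ∀ t : J, l • t = 0 → H t ≤ T := by
    intro t ht
    rw [hT]
    exact Finset.single_le_sum (f := fun t => H t) (fun t _ => hH0 t)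
      ((Set.Finite.mem_toFinset htors).mpr ht)
  refine ⟨A ^ (g + 1) * ((g : ℝ) * Cl + H 0 + (g : ℝ) * C) + A * T + C, fun x => ?_⟩
  obtain ⟨S, m, hmg, hsum, hle⟩ := hrep (-(l • x))
  set w : J := ∑ a ∈ S, m a • Z a with hw
  have hlw : l • w = l • x := by
    have h1 : l • w = ∑ a ∈ S, m a • (-cls a) := by
      rw [hw, Finset.smul_sum]
      refine Finset.sum_congr rfl fun a _ => ?_
      rw [smul_comm, hZ1]
    have h2 : ∑ a ∈ S, m a • (-cls a) = -∑ a ∈ S, m a • cls a := by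
      rw [← Finset.sum_neg_distrib]
      exact Finset.sum_congr rfl fun a _ => smul_neg _ _
    rw [h1, h2, hsum, neg_neg]
  have htor : l • (x - w) = 0 := by rw [smul_sub, hlw, sub_self]
  have hx : x = (x - w) + w := by abel
  have h1 : H x ≤ A * (H (x - w) + H w) + C := by
    have := hred (x - w) w
    rwa [← hx] at this
  have h2 : H (x - w) ≤ T := hTle _ htor
  have h3 := red_sum hH0 hA hC hred Z m S
  rw [← hw] at h3
  have h4 : ∑ a ∈ S, (m a : ℝ) * H (Z a) ≤ κ * H (-(l • x)) + (g : ℝ) * Cl := by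
    have h5 : ∑ a ∈ S, (m a : ℝ) * H (Z a) ≤ ∑ a ∈ S, (m a : ℝ) * (κ * hP a + Cl) :=
      Finset.sum_le_sum fun a _ => mul_le_mul_of_nonneg_left (hZ2 a) (Nat.cast_nonneg _)
    have h6 : ∑ a ∈ S, (m a : ℝ) * (κ * hP a + Cl)
        = κ * ∑ a ∈ S, (m a : ℝ) * hP a + ((∑ a ∈ S, m a : ℕ) : ℝ) * Cl := by
      rw [Finset.mul_sum, Nat.cast_sum, Finset.sum_mul, ← Finset.sum_add_distrib]
      refine Finset.sum_congr rfl fun a _ => ?_
      ring
    have h7 : κ * ∑ a ∈ S, (m a : ℝ) * hP a ≤ κ * H (-(l • x)) :=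
      mul_le_mul_of_nonneg_left hle hκ
    have h8 : ((∑ a ∈ S, m a : ℕ) : ℝ) * Cl ≤ (g : ℝ) * Cl :=
      mul_le_mul_of_nonneg_right (by exact_mod_cast hmg) hCl
    linarith
  have hM : ((∑ a ∈ S, m a : ℕ) : ℝ) * C ≤ (g : ℝ) * C :=
    mul_le_mul_of_nonneg_right (by exact_mod_cast hmg) hC
  have hpow : A ^ (∑ a ∈ S, m a) ≤ A ^ g := pow_le_pow_right₀ hA hmg
  have hY0 : 0 ≤ κ * H (-(l • x)) + (g : ℝ) * Cl + H 0 + (g : ℝ) * C := by
    have := hH0 (-(l • x))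
    have := hH0 (0 : J)
    have : (0 : ℝ) ≤ (g : ℝ) := Nat.cast_nonneg g
    positivity
  have h9 : H w ≤ A ^ g * (κ * H (-(l • x)) + (g : ℝ) * Cl + H 0 + (g : ℝ) * C) := by
    refine le_trans h3 ?_
    have hpos : (0 : ℝ) ≤ A ^ (∑ a ∈ S, m a) := pow_nonneg hA0 _
    calc A ^ (∑ a ∈ S, m a) * (∑ a ∈ S, (m a : ℝ) * H (Z a) + H 0
            + ((∑ a ∈ S, m a : ℕ) : ℝ) * C)
        ≤ A ^ (∑ a ∈ S, m a) * (κ * H (-(l • x)) + (g : ℝ) * Cl + H 0 + (g : ℝ) * C) :=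
          mul_le_mul_of_nonneg_left (by linarith) hpos
      _ ≤ A ^ g * (κ * H (-(l • x)) + (g : ℝ) * Cl + H 0 + (g : ℝ) * C) :=
          mul_le_mul_of_nonneg_right hpow hY0
  have h10 : A * H w
      ≤ A * (A ^ g * (κ * H (-(l • x)) + (g : ℝ) * Cl + H 0 + (g : ℝ) * C)) :=
    mul_le_mul_of_nonneg_left h9 hA0
  have h11 : A * H (x - w) ≤ A * T := mul_le_mul_of_nonneg_left h2 hA0
  have e : A * (A ^ g * (κ * H (-(l • x)) + (g : ℝ) * Cl + H 0 + (g : ℝ) * C))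
      = A ^ (g + 1) * κ * H (-(l • x))
        + A ^ (g + 1) * ((g : ℝ) * Cl + H 0 + (g : ℝ) * C) := by
    rw [pow_succ]; ring
  linarith

end Abstract

section Modular

variable (N : ℕ) [NeZero N]

local notation "Qb" => AlgebraicClosure ℚ
local notation "Fb" => modularFunctionFieldBar

/-- **(B5) (DIVPT), negative form**: as `Contract.DivPt`, for the division of `-[P - ∞]`. -/
def DivPtNeg (Hpl : Place Qb (Fb N) → ℝ) : Prop :=
  ∃ κ : ℝ, ∀ L₀ : ℕ, ∃ l : ℕ, l.Prime ∧ L₀ ≤ l ∧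
    ∃ (Cl : ℝ) (S : Finset (Place Qb (Fb N))), ∀ P : Place Qb (Fb N), P ∉ S →
      ∃ z : JZero N, l • z = -ptCls N P ∧ clH N Hpl z ≤ κ / (l : ℝ) ^ 2 * Hpl P + Cl

/-- **(B5), point form**: there are `κ` and a number `m` of points such that for arbitrarily
large primes `l` there is a class `e` such that for every place `P` outside a finite set there
are places `R k`, `k < m`, with `l • (∑ k, [R k - ∞] - e) = -[P - ∞]` and
`∑ k, Hpl (R k) ≤ κ / l ^ 2 * Hpl P + Cl`. -/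
def PtDiv (Hpl : Place Qb (Fb N) → ℝ) : Prop :=
  ∃ (κ : ℝ) (m : ℕ), ∀ L₀ : ℕ, ∃ l : ℕ, l.Prime ∧ L₀ ≤ l ∧
    ∃ (e : JZero N) (Cl : ℝ) (S : Finset (Place Qb (Fb N))), ∀ P : Place Qb (Fb N), P ∉ S →
      ∃ R : Fin m → Place Qb (Fb N), l • (∑ k, ptCls N (R k) - e) = -ptCls N P ∧
        ∑ k, Hpl (R k) ≤ κ / (l : ℝ) ^ 2 * Hpl P + Cl

/-- The height of a point class is at most the height of the point. -/
theorem clH_ptCls_le (Hpl : Place Qb (Fb N) → ℝ) (hH0 : ∀ P, 0 ≤ Hpl P)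
    (P : Place Qb (Fb N)) : clH N Hpl (ptCls N P) ≤ Hpl P := by
  classical
  have htr := Fermat.Agent.S30.HeckeInputs.trdeg_bar N
  by_cases h0 : ptCls N P = 0
  · have h1 : redDivInf N (0 : JZero N) = 0 := redDiv_zero htr (infPlace N)
    rw [h0]
    unfold clH divH
    rw [h1, Finsupp.sum_zero_index]
    exact hH0 P
  · have e : (Finsupp.single P (1 : ℤ) - ((1 : ℕ) : ℤ) • Finsupp.single (infPlace N) (1 : ℤ) :
        Divisor Qb (Fb N)) = Finsupp.single P (1 : ℤ) - Finsupp.single (infPlace N) (1 : ℤ) := by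
      rw [Nat.cast_one, one_smul]
    have hmem : (Finsupp.single P (1 : ℤ) - ((1 : ℕ) : ℤ) • Finsupp.single (infPlace N) (1 : ℤ) :
        Divisor Qb (Fb N)) ∈ Divisor.degZero (K := Qb) (F := Fb N) := by
      rw [e]
      exact single_sub_single_mem_degZero htr P (infPlace N)
    have hrep : IsEffRep (infPlace N) (ptCls N P) 1 (Finsupp.single P (1 : ℤ)) := by
      refine ⟨?_, hmem, ?_⟩
      · rw [Finsupp.le_def]
        intro a
        rw [Finsupp.single_apply]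
        split_ifs <;> simp
      · unfold ptCls
        rw [Move.cls_single_one]
        congr 1
        exact Subtype.ext e
    have hle : redDegInf N (ptCls N P) ≤ 1 := redDeg_le hrep
    have hne : redDegInf N (ptCls N P) ≠ 0 := fun h => h0 ((redDegInf_eq_zero_iff N _).mp h)
    have h1 : redDegInf N (ptCls N P) = 1 := by omega
    have hE : Finsupp.single P (1 : ℤ) = redDivInf N (ptCls N P) :=
      eq_redDivInf N (by rw [h1]; exact hrep)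
    unfold clH divH
    rw [← hE, Finsupp.sum_single_index (by simp)]
    simp

/-- **The exit of the chain from the negative form of (DIVPT)**, with the symmetrised height
`x ↦ clH x + clH (-x)` as the descent height. -/
theorem heightDescent_of_chain_neg (Hpl : Place Qb (Fb N) → ℝ) (hH0 : ∀ P, 0 ≤ Hpl P)
    (hNor : OrbitNorthcott N Hpl) (hRED : RedBound N Hpl) (hDIV : DivPtNeg N Hpl)
    (hD : Divisible N) (htors : ∀ l : ℕ, 0 < l → {t : JZero N | l • t = 0}.Finite) :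
    HeightDescent N := by
  classical
  obtain ⟨A₀, C₀, hred₀⟩ := hRED
  obtain ⟨κ₀, hdiv₀⟩ := hDIV
  obtain ⟨LD, hLD⟩ := hD
  have hH : ∀ x : JZero N, 0 ≤ clH N Hpl x := clH_nonneg N Hpl hH0
  have hA1 : (1 : ℝ) ≤ max A₀ 1 := le_max_right _ _
  have hA0 : (0 : ℝ) ≤ max A₀ 1 := le_trans zero_le_one hA1
  have hC0 : (0 : ℝ) ≤ max C₀ 0 := le_max_right _ _
  have hκ1 : (1 : ℝ) ≤ max κ₀ 1 := le_max_right _ _
  have hκ0 : (0 : ℝ) < max κ₀ 1 := lt_of_lt_of_le zero_lt_one hκ1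
  have hred : ∀ x y : JZero N,
      clH N Hpl (x + y) ≤ max A₀ 1 * (clH N Hpl x + clH N Hpl y) + max C₀ 0 := by
    intro x y
    have h1 := hred₀ x y
    have h2 : A₀ * (clH N Hpl x + clH N Hpl y) ≤ max A₀ 1 * (clH N Hpl x + clH N Hpl y) :=
      mul_le_mul_of_nonneg_right (le_max_left _ _) (add_nonneg (hH x) (hH y))
    have h3 : C₀ ≤ max C₀ 0 := le_max_left _ _
    linarith
  intro L₀
  obtain ⟨l, hl, hle, Cl₀, S, hS⟩ :=
    hdiv₀ (max (max L₀ LD) (⌈max A₀ 1 ^ (gR Qb (Fb N) + 2) * max κ₀ 1⌉₊ + 1))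
  have hL₀ : L₀ ≤ l := le_trans (le_trans (le_max_left _ _) (le_max_left _ _)) hle
  have hLDl : LD ≤ l := le_trans (le_trans (le_max_right _ _) (le_max_left _ _)) hle
  have hl1 : (1 : ℝ) ≤ (l : ℝ) := by exact_mod_cast hl.pos
  have hl2 : (l : ℝ) ≤ (l : ℝ) ^ 2 := by nlinarith
  have hl20 : (0 : ℝ) < (l : ℝ) ^ 2 := by positivity
  have hbig : max A₀ 1 ^ (gR Qb (Fb N) + 2) * max κ₀ 1 < (l : ℝ) ^ 2 := by
    have h1 : ⌈max A₀ 1 ^ (gR Qb (Fb N) + 2) * max κ₀ 1⌉₊ + 1 ≤ l :=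
      le_trans (le_max_right _ _) hle
    have h2 : max A₀ 1 ^ (gR Qb (Fb N) + 2) * max κ₀ 1
        ≤ (⌈max A₀ 1 ^ (gR Qb (Fb N) + 2) * max κ₀ 1⌉₊ : ℝ) := Nat.le_ceil _
    have h3 : ((⌈max A₀ 1 ^ (gR Qb (Fb N) + 2) * max κ₀ 1⌉₊ + 1 : ℕ) : ℝ) ≤ (l : ℝ) := by
      exact_mod_cast h1
    push_cast at h3
    linarith
  have hdivall : ∀ P : Place Qb (Fb N), ∃ z : JZero N, l • z = -ptCls N P :=
    fun P => hLD l hl hLDl _
  choose Z₁ hZ₁ using hdivall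
  have hκl : 0 ≤ max κ₀ 1 / (l : ℝ) ^ 2 := div_nonneg hκ0.le hl20.le
  have hsum0 : 0 ≤ ∑ Q ∈ S, clH N Hpl (Z₁ Q) := Finset.sum_nonneg fun Q _ => hH _
  have hCl0 : 0 ≤ max Cl₀ 0 + ∑ Q ∈ S, clH N Hpl (Z₁ Q) :=
    add_nonneg (le_max_right _ _) hsum0
  have hdiv : ∀ P : Place Qb (Fb N), ∃ z : JZero N, l • z = -ptCls N P ∧
      clH N Hpl z ≤ max κ₀ 1 / (l : ℝ) ^ 2 * Hpl P
        + (max Cl₀ 0 + ∑ Q ∈ S, clH N Hpl (Z₁ Q)) := by
    intro P
    by_cases hP : P ∈ S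
    · refine ⟨Z₁ P, hZ₁ P, ?_⟩
      have h1 : clH N Hpl (Z₁ P) ≤ ∑ Q ∈ S, clH N Hpl (Z₁ Q) :=
        Finset.single_le_sum (f := fun Q => clH N Hpl (Z₁ Q)) (fun Q _ => hH _) hP
      have h2 : 0 ≤ max κ₀ 1 / (l : ℝ) ^ 2 * Hpl P := mul_nonneg hκl (hH0 P)
      have h3 : (0 : ℝ) ≤ max Cl₀ 0 := le_max_right _ _
      linarith
    · obtain ⟨z, hz1, hz2⟩ := hS P hP
      refine ⟨z, hz1, ?_⟩
      have h1 : κ₀ / (l : ℝ) ^ 2 * Hpl P ≤ max κ₀ 1 / (l : ℝ) ^ 2 * Hpl P :=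
        mul_le_mul_of_nonneg_right
          (div_le_div_of_nonneg_right (le_max_left _ _) hl20.le) (hH0 P)
      have h2 : Cl₀ ≤ max Cl₀ 0 := le_max_left _ _
      linarith
  obtain ⟨c₀, hc₀⟩ := contraction_neg_abs l (gR Qb (Fb N)) (ptCls N) Hpl (clH N Hpl) hH hA1 hC0
    hred (fun y => exists_rep N Hpl y) hκl hCl0 hdiv (htors l hl.pos)
  have hpow0 : (0 : ℝ) < max A₀ 1 ^ (gR Qb (Fb N) + 1) :=
    pow_pos (lt_of_lt_of_le zero_lt_one hA1) _
  have hθ0 : 0 < max A₀ 1 ^ (gR Qb (Fb N) + 1) * (max κ₀ 1 / (l : ℝ) ^ 2) :=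
    mul_pos hpow0 (div_pos hκ0 hl20)
  have hAθ : max A₀ 1 * (max A₀ 1 ^ (gR Qb (Fb N) + 1) * (max κ₀ 1 / (l : ℝ) ^ 2)) < 1 := by
    have e : max A₀ 1 * (max A₀ 1 ^ (gR Qb (Fb N) + 1) * (max κ₀ 1 / (l : ℝ) ^ 2))
        = max A₀ 1 ^ (gR Qb (Fb N) + 2) * max κ₀ 1 / (l : ℝ) ^ 2 := by
      rw [pow_succ (max A₀ 1) (gR Qb (Fb N) + 1)]
      ring
    rw [e]
    exact (div_lt_one hl20).mpr hbig
  refine ⟨l, hl, hL₀, fun x => clH N Hpl (x : JZero N) + clH N Hpl (-(x : JZero N)), ?_,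
    max A₀ 1, (max A₀ 1 ^ (gR Qb (Fb N) + 1) * (max κ₀ 1 / (l : ℝ) ^ 2))⁻¹,
    (max A₀ 1 ^ (gR Qb (Fb N) + 1) * (max κ₀ 1 / (l : ℝ) ^ 2))⁻¹ * (2 * c₀),
    fun g' => max A₀ 1 * (clH N Hpl (g' : JZero N) + clH N Hpl (-(g' : JZero N)))
      + 2 * max C₀ 0, hA0, ?_, fun g' x => ?_, fun x => ?_⟩
  · intro B
    refine (northcott N Hpl hH0 hNor B).subset fun x hx => ?_
    have hx' : clH N Hpl (x : JZero N) + clH N Hpl (-(x : JZero N)) ≤ B := hx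
    have := hH (-(x : JZero N))
    show clH N Hpl (x : JZero N) ≤ B
    linarith
  · rw [← one_div, lt_div_iff₀ hθ0]
    exact hAθ
  · show clH N Hpl (x : JZero N) + clH N Hpl (-(x : JZero N))
      ≤ max A₀ 1 * (clH N Hpl ((g' + x : ↥(MW N)) : JZero N)
          + clH N Hpl (-((g' + x : ↥(MW N)) : JZero N)))
        + (max A₀ 1 * (clH N Hpl (g' : JZero N) + clH N Hpl (-(g' : JZero N)))
          + 2 * max C₀ 0)
    rw [AddSubgroup.coe_add]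
    have h1 := hred ((g' : JZero N) + (x : JZero N)) (-(g' : JZero N))
    rw [add_neg_cancel_comm] at h1
    have h2 := hred (-((g' : JZero N) + (x : JZero N))) (g' : JZero N)
    have e2 : -((g' : JZero N) + (x : JZero N)) + (g' : JZero N) = -(x : JZero N) := by abel
    rw [e2] at h2
    linarith
  · show (max A₀ 1 ^ (gR Qb (Fb N) + 1) * (max κ₀ 1 / (l : ℝ) ^ 2))⁻¹
          * (clH N Hpl (x : JZero N) + clH N Hpl (-(x : JZero N)))
        - (max A₀ 1 ^ (gR Qb (Fb N) + 1) * (max κ₀ 1 / (l : ℝ) ^ 2))⁻¹ * (2 * c₀)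
      ≤ clH N Hpl ((l • x : ↥(MW N)) : JZero N) + clH N Hpl (-((l • x : ↥(MW N)) : JZero N))
    rw [AddSubgroup.coe_nsmul]
    have h1 := hc₀ (x : JZero N)
    have h2 := hc₀ (-(x : JZero N))
    rw [neg_nsmul, neg_neg] at h2
    have h3 := mul_le_mul_of_nonneg_left (add_le_add h1 h2) (inv_nonneg.mpr hθ0.le)
    have h4 : (max A₀ 1 ^ (gR Qb (Fb N) + 1) * (max κ₀ 1 / (l : ℝ) ^ 2))⁻¹
        * (max A₀ 1 ^ (gR Qb (Fb N) + 1) * (max κ₀ 1 / (l : ℝ) ^ 2)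
            * clH N Hpl (-(l • (x : JZero N))) + c₀
          + (max A₀ 1 ^ (gR Qb (Fb N) + 1) * (max κ₀ 1 / (l : ℝ) ^ 2)
            * clH N Hpl (l • (x : JZero N)) + c₀))
        = clH N Hpl (l • (x : JZero N)) + clH N Hpl (-(l • (x : JZero N)))
          + (max A₀ 1 ^ (gR Qb (Fb N) + 1) * (max κ₀ 1 / (l : ℝ) ^ 2))⁻¹ * (2 * c₀) := by
      field_simp
      ring
    linarith

/-- **(DIVPT), negative form, from the point form and (RED).** -/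
theorem divPtNeg_of_ptDiv (Hpl : Place Qb (Fb N) → ℝ) (hH0 : ∀ P, 0 ≤ Hpl P)
    (hRED : RedBound N Hpl) (hPT : PtDiv N Hpl) : DivPtNeg N Hpl := by
  obtain ⟨A₀, C₀, hred₀⟩ := hRED
  obtain ⟨κ, m, hpt⟩ := hPT
  have hH : ∀ x : JZero N, 0 ≤ clH N Hpl x := clH_nonneg N Hpl hH0
  have hA1 : (1 : ℝ) ≤ max A₀ 1 := le_max_right _ _
  have hA0 : (0 : ℝ) ≤ max A₀ 1 := le_trans zero_le_one hA1
  have hC0 : (0 : ℝ) ≤ max C₀ 0 := le_max_right _ _
  have hred : ∀ x y : JZero N,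
      clH N Hpl (x + y) ≤ max A₀ 1 * (clH N Hpl x + clH N Hpl y) + max C₀ 0 := by
    intro x y
    have h1 := hred₀ x y
    have h2 : A₀ * (clH N Hpl x + clH N Hpl y) ≤ max A₀ 1 * (clH N Hpl x + clH N Hpl y) :=
      mul_le_mul_of_nonneg_right (le_max_left _ _) (add_nonneg (hH x) (hH y))
    have h3 : C₀ ≤ max C₀ 0 := le_max_left _ _
    linarith
  refine ⟨max A₀ 1 ^ (m + 1) * κ, fun L₀ => ?_⟩
  obtain ⟨l, hl, hle, e, Cl, S, hS⟩ := hpt L₀
  refine ⟨l, hl, hle, max A₀ 1 ^ (m + 1) * Cl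
    + (max A₀ 1 ^ (m + 1) * (clH N Hpl 0 + (m : ℝ) * max C₀ 0)
      + max A₀ 1 * clH N Hpl (-e) + max C₀ 0), S, fun P hP => ?_⟩
  obtain ⟨R, hR1, hR2⟩ := hS P hP
  refine ⟨∑ k, ptCls N (R k) - e, hR1, ?_⟩
  have h1 := hred (∑ k, ptCls N (R k)) (-e)
  rw [← sub_eq_add_neg] at h1
  have h2 := red_fin_sum hH hA1 hC0 hred m (fun k => ptCls N (R k))
  have h3 : ∑ k, clH N Hpl (ptCls N (R k)) ≤ ∑ k, Hpl (R k) :=
    Finset.sum_le_sum fun k _ => clH_ptCls_le N Hpl hH0 (R k)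
  have hpm : (0 : ℝ) ≤ max A₀ 1 ^ m := pow_nonneg hA0 m
  have h4 : max A₀ 1 ^ m * (∑ k, clH N Hpl (ptCls N (R k)) + clH N Hpl 0 + (m : ℝ) * max C₀ 0)
      ≤ max A₀ 1 ^ m * (κ / (l : ℝ) ^ 2 * Hpl P + Cl + clH N Hpl 0 + (m : ℝ) * max C₀ 0) :=
    mul_le_mul_of_nonneg_left (by linarith) hpm
  have h5 : max A₀ 1 * clH N Hpl (∑ k, ptCls N (R k))
      ≤ max A₀ 1 * (max A₀ 1 ^ m
          * (κ / (l : ℝ) ^ 2 * Hpl P + Cl + clH N Hpl 0 + (m : ℝ) * max C₀ 0)) :=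
    mul_le_mul_of_nonneg_left (le_trans h2 h4) hA0
  have e5 : max A₀ 1 * (max A₀ 1 ^ m
        * (κ / (l : ℝ) ^ 2 * Hpl P + Cl + clH N Hpl 0 + (m : ℝ) * max C₀ 0))
      = max A₀ 1 ^ (m + 1) * κ / (l : ℝ) ^ 2 * Hpl P + max A₀ 1 ^ (m + 1) * Cl
        + max A₀ 1 ^ (m + 1) * (clH N Hpl 0 + (m : ℝ) * max C₀ 0) := by
    rw [pow_succ]
    ring
  linarith

/-- **The exit of the chain from the point form of (DIVPT)**: only `RedBound` is consumed from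
leaf B4. -/
theorem heightDescent_of_ptDiv (Hpl : Place Qb (Fb N) → ℝ) (hH0 : ∀ P, 0 ≤ Hpl P)
    (hNor : OrbitNorthcott N Hpl) (hRED : RedBound N Hpl) (hPT : PtDiv N Hpl)
    (hD : Divisible N) (htors : ∀ l : ℕ, 0 < l → {t : JZero N | l • t = 0}.Finite) :
    HeightDescent N :=
  heightDescent_of_chain_neg N Hpl hH0 hNor hRED (divPtNeg_of_ptDiv N Hpl hH0 hRED hPT) hD htors

end Modular

end Fermat.Agent.S17.HB.Sym
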