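/-
MW strand HB (route beta): the place height of ONE coordinate, `P ↦ hQ (y(P))`.

Leaf B4 (`Red.redBound`) and leaf HT (`Ht.quasi_le_sum`) are stated for the height
`fun P => hQ (Glob.evalAt P y)` of the value of one function `y` (for the strand: the
Galois-fixed coordinate `x` of `H.GoodX.exists_x_phi`, regular off `∞` with a pole at `∞`).

* `Hy N y`            : the height `P ↦ hQ (Glob.evalAt P y)`;
* `Hy_nonneg`, `Hy_eq_of_ord_pos`, `Hy_galois`;
* `orbitNorthcott`    : `Contract.OrbitNorthcott N (Hy N y)` for `y` Galois-fixed, non-constant;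
* `northcott`         : (B3) for `Contract.clH N (Hy N y)`;
* `heightDescent_of_divPt`, `heightDescent_of_ptDiv` : the exits of the chain at this height
  (the point form consumes only `RedBound` from leaf B4);
* `heightDescent_of_x` : the exit in the quantifier order of `GoodX.exists_x_phi`.
-/
import Mathlib
import Fermat.Agent.S17.HB.Sym
import Fermat.Agent.S17.HB.ExitCore
import Fermat.Agent.S17.R.EvalSmul

set_option autoImplicit false

namespace Fermat.Agent.S17.HB.HeightY

open AlgebraicCurve ModularCurve Fermat.Agent.S17 Fermat.Agent.S17.R Fermat.Agent.S17.H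

local notation "Qb" => AlgebraicClosure ℚ
local notation "Fb" => modularFunctionFieldBar

/-- The place height of one coordinate: the height of the value of `y` at the place. -/
noncomputable def Hy (N : ℕ) (y : Fb N) (P : Place Qb (Fb N)) : ℝ := hQ (Glob.evalAt P y)

theorem Hy_def (N : ℕ) (y : Fb N) : Hy N y = fun P => hQ (Glob.evalAt P y) := rfl

theorem Hy_nonneg (N : ℕ) (y : Fb N) (P : Place Qb (Fb N)) : 0 ≤ Hy N y P := hQ_nonneg _

/-- At a place where `y - c` vanishes the height is `hQ c`. -/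
theorem Hy_eq_of_ord_pos (N : ℕ) [NeZero N] {y : Fb N} {P : Place Qb (Fb N)} {c : Qb}
    (h : 0 < P.ord (y - algebraMap Qb (Fb N) c)) : Hy N y P = hQ c := by
  unfold Hy
  rw [Pos.PlaceNorthcott.ev_eq_of_ord_pos
    (Glob.isEval_evalAt (Fermat.Agent.S30.HeckeInputs.trdeg_bar N)) h]

/-- The height of a Galois-fixed coordinate is Galois-invariant. -/
theorem Hy_galois (N : ℕ) {y : Fb N}
    (hfix : ∀ σ : Qb ≃ₐ[ℚ] Qb, arithmeticGalois (modularFunctionFieldFull N) σ • y = y)
    (σ : Qb ≃ₐ[ℚ] Qb) (P : Place Qb (Fb N)) :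
    Hy N y (arithmeticGalois (modularFunctionFieldFull N) σ • P) = Hy N y P := by
  unfold Hy
  rw [EvalSmul.glob_evalAt_galois_fixed N σ P (hfix σ), hQ_algEquiv]

/-- The bounded-orbit Northcott property of the height of a Galois-fixed non-constant
coordinate. -/
theorem orbitNorthcott (N : ℕ) [NeZero N] {y : Fb N}
    (hfix : ∀ σ : Qb ≃ₐ[ℚ] Qb, arithmeticGalois (modularFunctionFieldFull N) σ • y = y)
    (hnc : y ∉ Set.range (algebraMap Qb (Fb N))) : Contract.OrbitNorthcott N (Hy N y) :=
  fun B d =>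
    Pos.orbit_northcott N (Hy N y) hfix hnc hQ finite_setOf_natDegree_minpoly_le_and_hQ_le
      (a := 1) (C := 0) zero_le_one
      (fun P c h => by rw [one_mul, add_zero, Hy_eq_of_ord_pos N h]) B d

/-- **(B3)** at the height of one coordinate. -/
theorem northcott (N : ℕ) [NeZero N] {y : Fb N}
    (hfix : ∀ σ : Qb ≃ₐ[ℚ] Qb, arithmeticGalois (modularFunctionFieldFull N) σ • y = y)
    (hnc : y ∉ Set.range (algebraMap Qb (Fb N))) (B : ℝ) :
    {x : ↥(MW N) | Contract.clH N (Hy N y) (x : JZero N) ≤ B}.Finite :=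
  Contract.northcott N (Hy N y) (Hy_nonneg N y) (orbitNorthcott N hfix hnc) B

/-- The exit of the chain at the height of one coordinate, from (RED) and (DIVPT). -/
theorem heightDescent_of_divPt (N : ℕ) [NeZero N] (hN : N.Prime) (hN5 : 5 ≤ N) {y : Fb N}
    (hfix : ∀ σ : Qb ≃ₐ[ℚ] Qb, arithmeticGalois (modularFunctionFieldFull N) σ • y = y)
    (hnc : y ∉ Set.range (algebraMap Qb (Fb N)))
    (hRED : Contract.RedBound N (Hy N y)) (hDIV : Contract.DivPt N (Hy N y)) :
    HeightDescent N :=
  Contract.heightDescent_of_chain N (Hy N y) (Hy_nonneg N y) (orbitNorthcott N hfix hnc) hRED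
    hDIV (Fermat.Agent.S17.D.divisible N hN hN5) (ExitCore.finite_torsion_set N)

/-- The exit of the chain at the height of one coordinate, from (RED) and the point form of
(DIVPT). -/
theorem heightDescent_of_ptDiv (N : ℕ) [NeZero N] (hN : N.Prime) (hN5 : 5 ≤ N) {y : Fb N}
    (hfix : ∀ σ : Qb ≃ₐ[ℚ] Qb, arithmeticGalois (modularFunctionFieldFull N) σ • y = y)
    (hnc : y ∉ Set.range (algebraMap Qb (Fb N)))
    (hRED : Contract.RedBound N (Hy N y)) (hPT : Sym.PtDiv N (Hy N y)) :
    HeightDescent N :=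
  Sym.heightDescent_of_ptDiv N (Hy N y) (Hy_nonneg N y) (orbitNorthcott N hfix hnc) hRED hPT
    (Fermat.Agent.S17.D.divisible N hN hN5) (ExitCore.finite_torsion_set N)

/-- **The exit of strand HB in the quantifier order of `GoodX.exists_x_phi`**: the leaves see
the Galois-fixed coordinate `x ∈ L(n0 ∞)` of exact pole order `n0 ≥ 2` at `∞` and deliver
(RED) and the point form of (DIVPT) for the height `P ↦ hQ (x(P))`. -/
theorem heightDescent_of_x (N : ℕ) [NeZero N] (hN : N.Prime) (hN5 : 5 ≤ N)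
    (hblocks : ∀ (n0 : ℕ) (x : Fb N), 2 ≤ n0 →
      (∀ σ : Qb ≃ₐ[ℚ] Qb, arithmeticGalois (modularFunctionFieldFull N) σ • x = x) →
      x ∈ riemannRochSpace ((n0 : ℤ) • Finsupp.single (infPlace N) (1 : ℤ)) →
      (infPlace N).ord x = -(n0 : ℤ) →
      Contract.RedBound N (Hy N x) ∧ Sym.PtDiv N (Hy N x)) :
    HeightDescent N := by
  obtain ⟨n0, x, hn0, hxfix, hxL, hxord, -⟩ := GoodX.exists_x_phi N
  obtain ⟨hRED, hPT⟩ := hblocks n0 x hn0 hxfix hxL hxord
  have hn : n0 ≠ 0 := by omega
  exact heightDescent_of_ptDiv N hN hN5 hxfix (Height.notMem_range_of_ord N hn hxord) hRED hPT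

end Fermat.Agent.S17.HB.HeightY
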