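import Fermat.Agent.S17.H.A.Eval
import Fermat.Agent.S17.H.AbsHeight.Tuple

/-!
# Program MW (statement S17), twin HB, leaf (KER): a frame of the kernel of a matrix, by Cramer

For a matrix `M` over a field, a maximal non-zero minor `Δ = det M[r, c]` gives the *Cramer kernel
vectors*

`kvec M r c j = Δ e_j - ∑ a, (cramer M[r, c] M[r, j]) a • e_(c a)`      (one for every column `j`).

* `det_smul_eq_sum_kvec` : `M *ᵥ z = 0 → Δ • z = ∑ j, z j • kvec M r c j`  (any commutative ring,
  any `r`, `c`);
* `mulVec_kvec` : `M *ᵥ kvec M r c j = 0` if `Δ ≠ 0` and all minors of size `ρ + 1` vanish;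
* `exists_max_minor`, `exists_frame` : such `r`, `c` exist;
* `isHomogeneous_kvec`, `kvec_map` : the coordinates of the `kvec` are polynomial forms of degree
  `ρ * δ` in the parameters if the entries of the matrix are forms of degree `δ`;
* `exists_frame_hT_le` : **the height of the kernel frame**.  If the entries of `Mp` are forms of
  degree `δ` in `ξ`, then for every `ξ` the kernel of `Mp(ξ)` is spanned by a family
  `F : n → n → Qb` (of fixed length, zero vectors allowed) with
  `hT (1, all coordinates of F) ≤ C + (card n * δ) * hT ξ`, `C` independent of `ξ`.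
* `exists_hT_le_of_ker_line` : if the kernel of `Mp(ξ)` is a line `Qb z`, then
  `hT z ≤ C + (card n * δ) * hT ξ`.
* `exists_proj_frame_hT_le` : the frame statement for the projection of the kernel of a matrix with columns
  `n ⊕ n'` to the first block of coordinates (the shape "`b` such that `∃ q, M₁ b = M₂ q`").
-/

set_option autoImplicit false

namespace Fermat.Agent.S17.HB.KerFrame

open Matrix

section Ring

variable {R : Type*} [CommRing R] {m n : Type*} [Fintype n] [DecidableEq n] {ρ : ℕ}

/-- The Cramer kernel vector attached to the column `j` and the minor with rows `r` and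
columns `c`. -/
noncomputable def kvec (M : Matrix m n R) (r : Fin ρ → m) (c : Fin ρ → n) (j : n) : n → R :=
  fun l => (if l = j then (M.submatrix r c).det else 0) -
    ∑ a, if l = c a then ((M.submatrix r c).updateCol a fun i => M (r i) j).det else 0

omit [Fintype n] in
theorem kvec_apply_cramer (M : Matrix m n R) (r : Fin ρ → m) (c : Fin ρ → n) (j l : n) :
    kvec M r c j l = (if l = j then (M.submatrix r c).det else 0) -
      ∑ a, if l = c a then (M.submatrix r c).cramer (fun i => M (r i) j) a else 0 := by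
  simp only [kvec, Matrix.cramer_apply]

/-- A kernel vector is, up to the factor `Δ`, a combination of the Cramer kernel vectors. -/
theorem det_smul_eq_sum_kvec (M : Matrix m n R) (r : Fin ρ → m) (c : Fin ρ → n) {z : n → R}
    (hz : M *ᵥ z = 0) : (M.submatrix r c).det • z = ∑ j, z j • kvec M r c j := by
  have h0 : ∀ a, ∑ j, z j * (M.submatrix r c).cramer (fun i => M (r i) j) a = 0 := by
    intro a
    have h1 : (∑ j, z j • fun i => M (r i) j) = (0 : Fin ρ → R) := by
      funext i
      have h := congr_fun hz (r i)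
      simp only [Matrix.mulVec, dotProduct, Pi.zero_apply] at h
      simp only [Finset.sum_apply, Pi.smul_apply, smul_eq_mul, Pi.zero_apply]
      rw [← h]
      exact Finset.sum_congr rfl fun j _ => mul_comm _ _
    have h2 := congr_arg (fun b => (M.submatrix r c).cramer b a) h1
    simp only [map_sum, map_smul, map_zero, Finset.sum_apply, Pi.smul_apply, smul_eq_mul,
      Pi.zero_apply] at h2
    exact h2
  funext l
  have h3 : ∑ j, z j * ∑ a, (if l = c a then (M.submatrix r c).cramer (fun i => M (r i) j) a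
      else 0) = 0 := by
    simp only [Finset.mul_sum]
    rw [Finset.sum_comm]
    refine Finset.sum_eq_zero fun a _ => ?_
    by_cases hl : l = c a
    · simp only [if_pos hl]
      exact h0 a
    · simp only [if_neg hl, mul_zero, Finset.sum_const_zero]
  have h4 : ∑ j, z j * (if l = j then (M.submatrix r c).det else 0)
      = z l * (M.submatrix r c).det := by
    rw [Finset.sum_eq_single l]
    · rw [if_pos rfl]
    · intro j _ hj
      rw [if_neg (Ne.symm hj), mul_zero]
    · intro h
      exact absurd (Finset.mem_univ l) h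
  simp only [Pi.smul_apply, Finset.sum_apply, smul_eq_mul, kvec_apply_cramer, mul_sub,
    Finset.sum_sub_distrib]
  rw [h3, h4, sub_zero, mul_comm]

omit [Fintype n] in
/-- The Cramer kernel vectors are compatible with ring homomorphisms. -/
theorem kvec_map {S : Type*} [CommRing S] (f : R →+* S) (M : Matrix m n R) (r : Fin ρ → m)
    (c : Fin ρ → n) (j l : n) : kvec (M.map f) r c j l = f (kvec M r c j l) := by
  have h1 : (M.map f).submatrix r c = f.mapMatrix (M.submatrix r c) := by
    rw [RingHom.mapMatrix_apply, Matrix.submatrix_map]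
  have h2 : ∀ a, (f.mapMatrix (M.submatrix r c)).updateCol a (fun i => (M.map f) (r i) j)
      = f.mapMatrix ((M.submatrix r c).updateCol a fun i => M (r i) j) := by
    intro a
    rw [RingHom.mapMatrix_apply, RingHom.mapMatrix_apply, Matrix.map_updateCol]
    rfl
  simp only [kvec, h1, h2, ← RingHom.map_det, map_sub, map_sum, apply_ite f, map_zero]

end Ring

section Field

variable {K : Type*} [Field K] {m n : Type*} [Fintype n] [DecidableEq n] {ρ : ℕ}

/-- The Cramer kernel vectors lie in the kernel, if the minor is non-zero and maximal. -/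
theorem mulVec_kvec (M : Matrix m n K) (r : Fin ρ → m) (c : Fin ρ → n)
    (hΔ : (M.submatrix r c).det ≠ 0)
    (hmax : ∀ (r' : Fin (ρ + 1) → m) (c' : Fin (ρ + 1) → n), (M.submatrix r' c').det = 0)
    (j : n) : M *ᵥ kvec M r c j = 0 := by
  funext i
  set A := M.submatrix r c with hA
  set b : Fin ρ → K := fun a => M (r a) j with hb
  -- the bordered minor vanishes
  have hbord : (Matrix.fromBlocks A (fun a (_ : Fin 1) => M (r a) j)
      (fun (_ : Fin 1) a => M i (c a)) (fun _ _ => M i j)).det = 0 := by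
    have e1 : Matrix.fromBlocks A (fun a (_ : Fin 1) => M (r a) j)
        (fun (_ : Fin 1) a => M i (c a)) (fun _ _ => M i j)
        = M.submatrix (Sum.elim r fun _ => i) (Sum.elim c fun _ => j) := by
      ext (a | a) (b | b) <;> rfl
    rw [e1, ← Matrix.det_submatrix_equiv_self finSumFinEquiv.symm]
    exact hmax _ _
  have : Invertible A := A.invertibleOfIsUnitDet (isUnit_iff_ne_zero.mpr hΔ)
  rw [Matrix.det_fromBlocks₁₁] at hbord
  have h1 := (mul_eq_zero.mp hbord).resolve_left hΔ
  have h2 : M i j = ∑ a, M i (c a) * (⅟A *ᵥ b) a := by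
    rw [Matrix.det_unique, Matrix.sub_apply, Matrix.mul_assoc, Matrix.mul_apply,
      sub_eq_zero] at h1
    exact h1
  -- Cramer
  have hx : A.cramer b = A.det • (⅟A *ᵥ b) := by
    have h := Matrix.mulVec_cramer A b
    have h' := congr_arg (fun v => ⅟A *ᵥ v) h
    simp only [Matrix.mulVec_mulVec, invOf_mul_self, Matrix.one_mulVec, Matrix.mulVec_smul]
      at h'
    exact h'
  have h4 : (M *ᵥ kvec M r c j) i = M i j * A.det - ∑ a, M i (c a) * A.cramer b a := by
    have h5 : ∑ l, M i l * (if l = j then A.det else 0) = M i j * A.det := by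
      rw [Finset.sum_eq_single j]
      · rw [if_pos rfl]
      · intro l _ hl
        rw [if_neg hl, mul_zero]
      · intro h
        exact absurd (Finset.mem_univ j) h
    have h6 : ∑ l, M i l * ∑ a, (if l = c a then A.cramer b a else 0)
        = ∑ a, M i (c a) * A.cramer b a := by
      simp only [Finset.mul_sum]
      rw [Finset.sum_comm]
      refine Finset.sum_congr rfl fun a _ => ?_
      rw [Finset.sum_eq_single (c a)]
      · rw [if_pos rfl]
      · intro l _ hl
        rw [if_neg hl, mul_zero]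
      · intro h
        exact absurd (Finset.mem_univ (c a)) h
    simp only [Matrix.mulVec, dotProduct, kvec_apply_cramer, mul_sub, Finset.sum_sub_distrib]
    rw [h5, h6]
  rw [h4, hx, h2]
  simp only [Pi.smul_apply, smul_eq_mul, Pi.zero_apply, Finset.sum_mul]
  rw [sub_eq_zero]
  exact Finset.sum_congr rfl fun a _ => by ring

omit [DecidableEq n] in
/-- A non-zero minor of maximal size. -/
theorem exists_max_minor (M : Matrix m n K) :
    ∃ (ρ : ℕ) (r : Fin ρ → m) (c : Fin ρ → n), ρ ≤ Fintype.card n ∧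
      (M.submatrix r c).det ≠ 0 ∧
      ∀ (r' : Fin (ρ + 1) → m) (c' : Fin (ρ + 1) → n), (M.submatrix r' c').det = 0 := by
  classical
  let P : ℕ → Prop := fun k => ∃ (r : Fin k → m) (c : Fin k → n), (M.submatrix r c).det ≠ 0
  have hP0 : P 0 := ⟨Fin.elim0, Fin.elim0, by simp⟩
  have hPle : ∀ k, P k → k ≤ Fintype.card n := by
    rintro k ⟨r, c, h⟩
    by_contra hk
    have hc : ¬ Function.Injective c := by
      intro hinj
      have h1 := Fintype.card_le_of_injective c hinj
      rw [Fintype.card_fin] at h1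
      exact hk h1
    obtain ⟨a, a', hcc, hne⟩ := Function.not_injective_iff.mp hc
    exact h (Matrix.det_zero_of_column_eq hne fun i => by
      simp only [Matrix.submatrix_apply, hcc])
  have hspec : P (Nat.findGreatest P (Fintype.card n)) :=
    Nat.findGreatest_spec (Nat.zero_le _) hP0
  obtain ⟨r, c, h⟩ := hspec
  refine ⟨Nat.findGreatest P (Fintype.card n), r, c, Nat.findGreatest_le _, h, fun r' c' => ?_⟩
  by_contra hne
  have hP1 : P (Nat.findGreatest P (Fintype.card n) + 1) := ⟨r', c', hne⟩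
  have h2 := Nat.le_findGreatest (hPle _ hP1) hP1
  omega

/-- **(KER)**: the Cramer kernel vectors of a maximal non-zero minor span the kernel. -/
theorem exists_frame (M : Matrix m n K) :
    ∃ (ρ : ℕ) (r : Fin ρ → m) (c : Fin ρ → n), ρ ≤ Fintype.card n ∧
      (M.submatrix r c).det ≠ 0 ∧ (∀ j, M *ᵥ kvec M r c j = 0) ∧
      ∀ z : n → K, M *ᵥ z = 0 → (M.submatrix r c).det • z = ∑ j, z j • kvec M r c j := by
  obtain ⟨ρ, r, c, hρ, hΔ, hmax⟩ := exists_max_minor M
  exact ⟨ρ, r, c, hρ, hΔ, mulVec_kvec M r c hΔ hmax,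
    fun z hz => det_smul_eq_sum_kvec M r c hz⟩

end Field

section Poly

open MvPolynomial

variable {K : Type*} [Field K] {ι : Type*} {m n : Type*} [Fintype n] [DecidableEq n] {ρ : ℕ}

/-- The determinant of a matrix of forms of degree `δ` is a form of degree `size * δ`. -/
theorem isHomogeneous_det {k : Type*} [Fintype k] [DecidableEq k]
    {A : Matrix k k (MvPolynomial ι K)} {δ : ℕ} (hA : ∀ i j, (A i j).IsHomogeneous δ) :
    A.det.IsHomogeneous (Fintype.card k * δ) := by
  rw [Matrix.det_apply]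
  refine IsHomogeneous.sum _ _ _ fun σ _ => ?_
  have hprod : (∏ i, A (σ i) i).IsHomogeneous (Fintype.card k * δ) := by
    have h := IsHomogeneous.prod Finset.univ (fun i => A (σ i) i) (fun _ => δ)
      (fun i _ => hA (σ i) i)
    simpa only [Finset.sum_const, Finset.card_univ, smul_eq_mul] using h
  rcases Int.units_eq_one_or (Equiv.Perm.sign σ) with h | h
  · rw [h, one_smul]
    exact hprod
  · rw [h, Units.neg_smul, one_smul]
    exact hprod.neg

omit [Fintype n] in
/-- The coordinates of the Cramer kernel vectors are forms of degree `ρ * δ`. -/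
theorem isHomogeneous_kvec (Mp : Matrix m n (MvPolynomial ι K)) {δ : ℕ}
    (hMp : ∀ i j, (Mp i j).IsHomogeneous δ) (r : Fin ρ → m) (c : Fin ρ → n) (j l : n) :
    (kvec Mp r c j l).IsHomogeneous (ρ * δ) := by
  have hd : ∀ A : Matrix (Fin ρ) (Fin ρ) (MvPolynomial ι K),
      (∀ i j, (A i j).IsHomogeneous δ) → A.det.IsHomogeneous (ρ * δ) := by
    intro A hA
    have h := isHomogeneous_det hA
    rwa [Fintype.card_fin] at h
  unfold kvec
  refine IsHomogeneous.sub ?_ (IsHomogeneous.sum _ _ _ fun a _ => ?_)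
  · split_ifs
    · exact hd _ fun i j => hMp _ _
    · exact isHomogeneous_zero _ _ _
  · split_ifs
    · refine hd _ fun i k => ?_
      rw [Matrix.updateCol_apply]
      split_ifs
      · exact hMp _ _
      · exact hMp _ _
    · exact isHomogeneous_zero _ _ _

end Poly

section Height

open MvPolynomial Fermat.Agent.S17.H

local notation "Qb" => AlgebraicClosure ℚ

variable {ι m n : Type*} [Fintype ι] [Fintype m] [Fintype n] [DecidableEq n]

/-- **The height of the kernel frame.**  If the entries of `Mp` are forms of degree `δ`, then for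
every `ξ` the kernel of the matrix `Mp(ξ)` is spanned by a family `F : n → n → Qb` whose affine
coordinate vector `(1, F)` has height at most `C + (card n * δ) * hT ξ`. -/
theorem exists_frame_hT_le (Mp : Matrix m n (MvPolynomial ι Qb)) {δ : ℕ}
    (hMp : ∀ i j, (Mp i j).IsHomogeneous δ) :
    ∃ C : ℝ, ∀ ξ : ι → Qb, ∃ F : n → n → Qb,
      (∀ j, (Mp.map (eval ξ)) *ᵥ F j = 0) ∧
      (∀ z : n → Qb, (Mp.map (eval ξ)) *ᵥ z = 0 → z = ∑ j, z j • F j) ∧
      hT (Sum.elim (fun _ : Unit => (1 : Qb)) (fun p : n × n => F p.1 p.2))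
        ≤ C + ((Fintype.card n * δ : ℕ) : ℝ) * hT ξ := by
  classical
  -- the family of forms attached to a minor
  let fam : (Σ ρ : Fin (Fintype.card n + 1), (Fin ρ → m) × (Fin ρ → n)) →
      (Unit ⊕ n × n) → MvPolynomial ι Qb :=
    fun t => Sum.elim (fun _ => (Mp.submatrix t.2.1 t.2.2).det)
      (fun p => kvec Mp t.2.1 t.2.2 p.1 p.2)
  have hfam : ∀ t q, (fam t q).IsHomogeneous ((t.1 : ℕ) * δ) := by
    intro t q
    rcases q with u | p
    · have h := isHomogeneous_det (A := Mp.submatrix t.2.1 t.2.2) (δ := δ)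
        (fun i j => hMp _ _)
      rwa [Fintype.card_fin] at h
    · exact isHomogeneous_kvec Mp hMp t.2.1 t.2.2 p.1 p.2
  have hC : ∀ t, ∃ C : ℝ, ∀ x : ι → Qb,
      hT (fun q => eval x (fam t q)) ≤ C + (((t.1 : ℕ) * δ : ℕ) : ℝ) * hT x :=
    fun t => hT_eval_le (fam t) (hfam t)
  choose C hC using hC
  refine ⟨∑ t, |C t|, fun ξ => ?_⟩
  obtain ⟨ρ, r, c, hρ, hΔ, hker, hspan⟩ := exists_frame (Mp.map (eval ξ))
  set Δ := ((Mp.map (eval ξ)).submatrix r c).det with hΔdef
  refine ⟨fun j => Δ⁻¹ • kvec (Mp.map (eval ξ)) r c j, fun j => ?_, fun z hz => ?_, ?_⟩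
  · rw [Matrix.mulVec_smul, hker j, smul_zero]
  · have h := hspan z hz
    calc z = Δ⁻¹ • (Δ • z) := by rw [smul_smul, inv_mul_cancel₀ hΔ, one_smul]
      _ = ∑ j, z j • (Δ⁻¹ • kvec (Mp.map (eval ξ)) r c j) := by
          rw [h, Finset.smul_sum]
          exact Finset.sum_congr rfl fun j _ => smul_comm _ _ _
  · let t : Σ ρ : Fin (Fintype.card n + 1), (Fin ρ → m) × (Fin ρ → n) :=
      ⟨⟨ρ, Nat.lt_succ_of_le hρ⟩, r, c⟩
    have hΔ' : Δ = eval ξ ((Mp.submatrix r c).det) := by
      rw [hΔdef, RingHom.map_det, RingHom.mapMatrix_apply, Matrix.submatrix_map]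
    have h1 : (Sum.elim (fun _ : Unit => (1 : Qb))
        (fun p : n × n => (Δ⁻¹ • kvec (Mp.map (eval ξ)) r c p.1) p.2))
        = Δ⁻¹ • (fun q => eval ξ (fam t q)) := by
      funext q
      rcases q with u | p
      · simp only [Sum.elim_inl, Pi.smul_apply, smul_eq_mul]
        show (1 : Qb) = Δ⁻¹ * eval ξ ((Mp.submatrix r c).det)
        rw [← hΔ', inv_mul_cancel₀ hΔ]
      · simp only [Sum.elim_inr, Pi.smul_apply, smul_eq_mul]
        show Δ⁻¹ * kvec (Mp.map (eval ξ)) r c p.1 p.2 = Δ⁻¹ * eval ξ (kvec Mp r c p.1 p.2)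
        rw [kvec_map]
    rw [h1, hT_smul _ (inv_ne_zero hΔ)]
    refine (hC t ξ).trans ?_
    have hh := hT_nonneg ξ
    have h2 : C t ≤ ∑ t, |C t| :=
      (le_abs_self _).trans
        (Finset.single_le_sum (f := fun t => |C t|) (fun _ _ => abs_nonneg _)
          (Finset.mem_univ t))
    have h3 : ((((t.1 : ℕ) * δ : ℕ) : ℝ)) * hT ξ ≤ ((Fintype.card n * δ : ℕ) : ℝ) * hT ξ := by
      refine mul_le_mul_of_nonneg_right ?_ hh
      exact_mod_cast Nat.mul_le_mul_right δ hρ
    linarith

/-- **The height of a kernel line.**  If the kernel of `Mp(ξ)` is the line spanned by `z ≠ 0`,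
then `hT z ≤ C + (card n * δ) * hT ξ` (the projective height of `z`), `C` independent of `ξ`
and `z`. -/
theorem exists_hT_le_of_ker_line (Mp : Matrix m n (MvPolynomial ι Qb)) {δ : ℕ}
    (hMp : ∀ i j, (Mp i j).IsHomogeneous δ) :
    ∃ C : ℝ, ∀ (ξ : ι → Qb) (z : n → Qb), z ≠ 0 → (Mp.map (eval ξ)) *ᵥ z = 0 →
      (∀ z' : n → Qb, (Mp.map (eval ξ)) *ᵥ z' = 0 → ∃ a : Qb, z' = a • z) →
      hT z ≤ C + ((Fintype.card n * δ : ℕ) : ℝ) * hT ξ := by
  classical
  obtain ⟨C, hC⟩ := exists_frame_hT_le Mp hMp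
  refine ⟨C, fun ξ z hz hker hline => ?_⟩
  obtain ⟨F, hF, hspan, hht⟩ := hC ξ
  -- some member of the frame is non-zero
  obtain ⟨j, hj⟩ : ∃ j, F j ≠ 0 := by
    by_contra hcon
    rw [not_exists] at hcon
    apply hz
    rw [hspan z hker]
    refine Finset.sum_eq_zero fun j _ => ?_
    rw [not_not.mp (hcon j), smul_zero]
  obtain ⟨a, ha⟩ := hline (F j) (hF j)
  have ha0 : a ≠ 0 := by
    rintro rfl
    exact hj (by rw [ha, zero_smul])
  have e : F j = (Sum.elim (fun _ : Unit => (1 : Qb)) (fun p : n × n => F p.1 p.2)) ∘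
      (fun l : n => Sum.inr (j, l)) := rfl
  calc hT z = hT (a • z) := (hT_smul z ha0).symm
    _ = hT (F j) := by rw [ha]
    _ ≤ hT (Sum.elim (fun _ : Unit => (1 : Qb)) (fun p : n × n => F p.1 p.2)) := by
        rw [e]
        exact Tuple.hT_comp_le _ _
    _ ≤ C + ((Fintype.card n * δ : ℕ) : ℝ) * hT ξ := hht

/-- **The height of a frame of a projected kernel.**  Columns `n ⊕ n'`; the space
`{b | ∃ q, Mp(ξ) *ᵥ (b, q) = 0}` is spanned by a family `G : n ⊕ n' → n → Qb` with
`hT (1, G) ≤ C + (card (n ⊕ n') * δ) * hT ξ`. -/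
theorem exists_proj_frame_hT_le {n' : Type*} [Fintype n'] [DecidableEq n']
    (Mp : Matrix m (n ⊕ n') (MvPolynomial ι Qb)) {δ : ℕ}
    (hMp : ∀ i j, (Mp i j).IsHomogeneous δ) :
    ∃ C : ℝ, ∀ ξ : ι → Qb, ∃ G : n ⊕ n' → n → Qb,
      (∀ j, ∃ q : n' → Qb, (Mp.map (eval ξ)) *ᵥ Sum.elim (G j) q = 0) ∧
      (∀ (b : n → Qb) (q : n' → Qb), (Mp.map (eval ξ)) *ᵥ Sum.elim b q = 0 →
        ∃ w : n ⊕ n' → Qb, b = ∑ j, w j • G j) ∧
      hT (Sum.elim (fun _ : Unit => (1 : Qb)) (fun p : (n ⊕ n') × n => G p.1 p.2))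
        ≤ C + ((Fintype.card (n ⊕ n') * δ : ℕ) : ℝ) * hT ξ := by
  classical
  obtain ⟨C, hC⟩ := exists_frame_hT_le Mp hMp
  refine ⟨C, fun ξ => ?_⟩
  obtain ⟨F, hker, hspan, hht⟩ := hC ξ
  refine ⟨fun j l => F j (Sum.inl l), fun j => ⟨fun l => F j (Sum.inr l), ?_⟩,
    fun b q hbq => ⟨Sum.elim b q, ?_⟩, ?_⟩
  · have e : Sum.elim (fun l => F j (Sum.inl l)) (fun l => F j (Sum.inr l)) = F j := by
      funext s
      rcases s with s | s <;> rfl
    rw [e]
    exact hker j
  · have h := hspan _ hbq
    funext l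
    have h' := congr_fun h (Sum.inl l)
    simp only [Sum.elim_inl, Finset.sum_apply, Pi.smul_apply, smul_eq_mul] at h' ⊢
    exact h'
  · refine le_trans ?_ hht
    have e : (Sum.elim (fun _ : Unit => (1 : Qb))
        (fun p : (n ⊕ n') × n => F p.1 (Sum.inl p.2)))
        = (Sum.elim (fun _ : Unit => (1 : Qb))
            (fun p : (n ⊕ n') × (n ⊕ n') => F p.1 p.2)) ∘
          (Sum.map id fun p : (n ⊕ n') × n => (p.1, Sum.inl p.2)) := by
      funext s
      rcases s with s | s <;> rfl
    rw [e]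
    exact Tuple.hT_comp_le _ _

end Height

end Fermat.Agent.S17.HB.KerFrame
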