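import Mathlib
import Fermat.Agent.S17.HB.Loc1
import Fermat.Agent.S17.HB.Loc3

/-!
# Program MW (statement S17), strand HB: the easy half of LOC1 discharges `Loc3.EasyHalf`

`Loc3.EasyHalf K ι` (the one hypothesis of the exits of `HB/Loc3.lean`) is
`Loc1.X_pow_dvd_closedFibre` with `Loc1.jetAt` / `Loc1.closedFibre` unfolded.
-/

set_option autoImplicit false

namespace Fermat.Agent.S17.HB.Loc1Easy

/-- The hypothesis `easy` of `Loc3.divOf_spec_of_easy`, `Loc3.ord_spec_of_easy`,
`Loc3.loc1_hyps_of_easy` holds for every field and every finite index type. -/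
theorem easyHalf (K : Type*) [Field K] (ι : Type*) [Fintype ι] : Loc3.EasyHalf K ι :=
  fun _ C W r μ h0 hr hv => Loc1.X_pow_dvd_closedFibre C W r μ h0 hr hv

end Fermat.Agent.S17.HB.Loc1Easy
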