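import Mathlib
import Fermat.Agent.S17.HB.Loc1

/-!
# Program MW (statement S17), strand HB, leaf LOC1: the local normal form over any finite index type

The three order statements of `HB/Loc1.lean` with the points indexed by an arbitrary `Fintype`
(there: `Fin a`), so that consumers indexing the points by a subtype need no reindexing.
Same definitions `Loc1.jetAt`, `Loc1.closedFibre`, same proofs.
-/

set_option autoImplicit false

namespace Fermat.Agent.S17.HB.Loc1Gen

open Fermat.Agent.S17.D Fermat.Agent.S17.HB.Loc1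

variable {K : Type*} [Field K]

theorem map_constantCoeff_prod {α : Type*} [Fintype α] (r : α → PowerSeries K) (μ : α → ℕ)
    (hr0 : ∀ i, PowerSeries.constantCoeff (r i) = 0) :
    PowerSeries.map (PowerSeries.constantCoeff : PowerSeries K →+* K)
        (∏ i, (PowerSeries.X - PowerSeries.C (r i)) ^ μ i) = PowerSeries.X ^ (∑ i, μ i) := by
  rw [map_prod, ← Finset.prod_pow_eq_pow_sum]
  refine Finset.prod_congr rfl fun i _ => ?_
  rw [map_pow, map_sub, PowerSeries.map_X, PowerSeries.map_C, hr0 i, map_zero, sub_zero]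

/-- The factorisation `Ψ = Q * ∏ (u - r i) ^ μ i`. -/
theorem exists_factor {ι : Type*} [Fintype ι] {α : Type*} [Fintype α] (C W : ι → PowerSeries K)
    (r : α → PowerSeries K) (μ : α → ℕ)
    (hr0 : ∀ i, PowerSeries.constantCoeff (r i) = 0) (hr : Function.Injective r)
    (hvan : ∀ i, ∀ j < μ i, jetAt C W j (r i) = 0) :
    ∃ Q, toS C W = Q * ∏ i, (PowerSeries.X - PowerSeries.C (r i)) ^ μ i := by
  classical
  exact exists_eq_mul_prod r μ hr0 hr (toS C W) Finset.univ fun i _ j hj => by
    rw [ev_hasse_toS C W (hr0 i)]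
    exact hvan i j hj

/-- Easy half: zeros of total multiplicity `∑ μ i` on the residue disc force the closed fibre to
vanish to that order. -/
theorem X_pow_dvd_closedFibre {ι : Type*} [Fintype ι] {α : Type*} [Fintype α]
    (C W : ι → PowerSeries K) (r : α → PowerSeries K) (μ : α → ℕ)
    (hr0 : ∀ i, PowerSeries.constantCoeff (r i) = 0) (hr : Function.Injective r)
    (hvan : ∀ i, ∀ j < μ i, jetAt C W j (r i) = 0) :
    (PowerSeries.X : PowerSeries K) ^ (∑ i, μ i) ∣ closedFibre C W := by
  obtain ⟨Q, hQ⟩ := exists_factor C W r μ hr0 hr hvan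
  rw [← map_constantCoeff_toS, hQ, map_mul, map_constantCoeff_prod r μ hr0]
  exact Dvd.intro_left _ rfl

/-- In the exact case the cofactor `Q` is a unit: its constant coefficient is a unit. -/
theorem constantCoeff_cofactor_ne_zero {ι : Type*} [Fintype ι] {α : Type*} [Fintype α]
    (C W : ι → PowerSeries K) (r : α → PowerSeries K) (μ : α → ℕ)
    (hr0 : ∀ i, PowerSeries.constantCoeff (r i) = 0)
    (hord : (closedFibre C W).order = ((∑ i, μ i : ℕ) : ℕ∞))
    {Q : PowerSeries (PowerSeries K)}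
    (hQ : toS C W = Q * ∏ i, (PowerSeries.X - PowerSeries.C (r i)) ^ μ i) :
    PowerSeries.constantCoeff (PowerSeries.constantCoeff Q) ≠ 0 := by
  have h1 : closedFibre C W =
      PowerSeries.map (PowerSeries.constantCoeff : PowerSeries K →+* K) Q *
        PowerSeries.X ^ (∑ i, μ i) := by
    rw [← map_constantCoeff_toS, hQ, map_mul, map_constantCoeff_prod r μ hr0]
  have h2 := (PowerSeries.order_eq_nat.mp hord).1
  have h3 := PowerSeries.coeff_mul_X_pow
    (PowerSeries.map (PowerSeries.constantCoeff : PowerSeries K →+* K) Q) (∑ i, μ i) 0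
  rw [zero_add] at h3
  rw [h1, h3, PowerSeries.coeff_map, PowerSeries.coeff_zero_eq_constantCoeff_apply] at h2
  exact h2

/-- Normal form, value at `u = 0`: `Ψ(π, 0) = unit * ∏ (- r i) ^ μ i`. -/
theorem order_value_zero {ι : Type*} [Fintype ι] {α : Type*} [Fintype α]
    (C W : ι → PowerSeries K) (r : α → PowerSeries K) (μ : α → ℕ)
    (hr0 : ∀ i, PowerSeries.constantCoeff (r i) = 0) (hr : Function.Injective r)
    (hvan : ∀ i, ∀ j < μ i, jetAt C W j (r i) = 0)
    (hord : (closedFibre C W).order = ((∑ i, μ i : ℕ) : ℕ∞)) :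
    (∑ l, C l * PowerSeries.C (PowerSeries.constantCoeff (W l))).order =
      ∑ i, (μ i : ℕ∞) * (r i).order := by
  obtain ⟨Q, hQ⟩ := exists_factor C W r μ hr0 hr hvan
  have hQ0 := constantCoeff_cofactor_ne_zero C W r μ hr0 hord hQ
  have h0 : PowerSeries.constantCoeff (0 : PowerSeries K) = 0 := map_zero _
  rw [← coeff_zero_toS, ← ev_zero_eq, hQ, ← evHom_apply 0 h0, map_mul, map_prod,
    PowerSeries.order_mul, PowerSeries.order_prod, evHom_apply, order_ev_eq_zero hQ0 h0, zero_add]
  refine Finset.sum_congr rfl fun i _ => ?_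
  rw [map_pow, evHom_apply, ev_X_sub_C h0, zero_sub, PowerSeries.order_pow, PowerSeries.order_neg,
    nsmul_eq_mul]

/-- Normal form, value at any point `t` of the disc:
`Ψ(π, t) = unit * ∏ (t - r i) ^ μ i`. -/
theorem order_jetAt_zero {ι : Type*} [Fintype ι] {α : Type*} [Fintype α]
    (C W : ι → PowerSeries K) (r : α → PowerSeries K) (μ : α → ℕ)
    (hr0 : ∀ i, PowerSeries.constantCoeff (r i) = 0) (hr : Function.Injective r)
    (hvan : ∀ i, ∀ j < μ i, jetAt C W j (r i) = 0)
    (hord : (closedFibre C W).order = ((∑ i, μ i : ℕ) : ℕ∞))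
    (t : PowerSeries K) (ht : PowerSeries.constantCoeff t = 0) :
    (jetAt C W 0 t).order = ∑ i, (μ i : ℕ∞) * (t - r i).order := by
  obtain ⟨Q, hQ⟩ := exists_factor C W r μ hr0 hr hvan
  have hQ0 := constantCoeff_cofactor_ne_zero C W r μ hr0 hord hQ
  rw [← ev_hasse_toS C W ht 0, hasse_zero, hQ, ← evHom_apply t ht, map_mul, map_prod,
    PowerSeries.order_mul, PowerSeries.order_prod, evHom_apply, order_ev_eq_zero hQ0 ht, zero_add]
  refine Finset.sum_congr rfl fun i _ => ?_
  rw [map_pow, evHom_apply, ev_X_sub_C ht, PowerSeries.order_pow, nsmul_eq_mul]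

/-- Normal form, leading jet at `r i`:
`(H_{μ i} Ψ)(π, r i) = unit * ∏_{i' ≠ i} (r i - r i') ^ μ i'`. -/
theorem order_jetAt {ι : Type*} [Fintype ι] {α : Type*} [Fintype α] [DecidableEq α]
    (C W : ι → PowerSeries K) (r : α → PowerSeries K) (μ : α → ℕ)
    (hr0 : ∀ i, PowerSeries.constantCoeff (r i) = 0) (hr : Function.Injective r)
    (hvan : ∀ i, ∀ j < μ i, jetAt C W j (r i) = 0)
    (hord : (closedFibre C W).order = ((∑ i, μ i : ℕ) : ℕ∞)) (i : α) :
    (jetAt C W (μ i) (r i)).order =
      ∑ i' ∈ Finset.univ.erase i, (μ i' : ℕ∞) * (r i - r i').order := by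
  obtain ⟨Q, hQ⟩ := exists_factor C W r μ hr0 hr hvan
  have hQ0 := constantCoeff_cofactor_ne_zero C W r μ hr0 hord hQ
  have hi := hr0 i
  have h1 : toS C W = (PowerSeries.X - PowerSeries.C (r i)) ^ μ i *
      (Q * ∏ i' ∈ Finset.univ.erase i, (PowerSeries.X - PowerSeries.C (r i')) ^ μ i') := by
    rw [hQ, ← Finset.mul_prod_erase Finset.univ _ (Finset.mem_univ i)]
    ring
  rw [← ev_hasse_toS C W hi (μ i), h1, ev_hasse_pow_mul hi, ← evHom_apply _ hi, map_mul, map_prod,
    PowerSeries.order_mul, PowerSeries.order_prod, evHom_apply, order_ev_eq_zero hQ0 hi, zero_add]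
  refine Finset.sum_congr rfl fun i' _ => ?_
  rw [map_pow, evHom_apply, ev_X_sub_C hi, PowerSeries.order_pow, nsmul_eq_mul]

end Fermat.Agent.S17.HB.Loc1Gen
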