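/-
MW strand HB (route beta): (RED) and (DIVPT) do not depend on the choice of the place height
up to linear comparison.

If two non-negative place heights `H`, `H'` on `Fb N` are linearly comparable off the cusp `∞`,
`H' P ≤ c₁ * H P + C` and `H P ≤ c₂ * H' P + C`, then

* `clH_le_of_le`        : `clH H x ≤ c * clH H' x + gR * C` from `H P ≤ c * H' P + C`;
* `redBound_of_compare` : `RedBound N H' → RedBound N H`;
* `divPt_of_compare`    : `DivPt N H' → DivPt N H`.

So leaf B4 may be proved for one height (e.g. the height of the value of one coordinate) and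
leaf B5 for another one (e.g. `Glob.plH Glob.evalAt φ m₀`); the exit needs one comparison.
-/
import Mathlib
import Fermat.Agent.S17.HB.Contract

set_option autoImplicit false

namespace Fermat.Agent.S17.HB.Transfer

open AlgebraicCurve ModularCurve Fermat.Agent.S17 Fermat.Agent.S17.R
open Fermat.Agent.S17.HB.Contract

variable (N : ℕ) [NeZero N]

local notation "Qb" => AlgebraicClosure ℚ
local notation "Fb" => modularFunctionFieldBar

/-- The sum of the multiplicities of the reduced divisor is at most `gR`. -/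
theorem sum_redDivInf_le (x : JZero N) :
    ∑ P ∈ (redDivInf N x).support, ((redDivInf N x P : ℤ) : ℝ) ≤ (gR Qb (Fb N) : ℝ) := by
  have htr := Fermat.Agent.S30.HeckeInputs.trdeg_bar N
  have h1 := NonSpecialStep.degree_eq_sum_support htr (redDivInf N x)
  have h2 : Divisor.degree (redDivInf N x) = redDegInf N x := degree_redDivInf N x
  have h3 := redDegInf_le_gR N x
  have h4 : (∑ P ∈ (redDivInf N x).support, redDivInf N x P : ℤ) ≤ (gR Qb (Fb N) : ℤ) := by
    rw [← h1, h2]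
    exact_mod_cast h3
  have h5 : ((∑ P ∈ (redDivInf N x).support, redDivInf N x P : ℤ) : ℝ)
      ≤ ((gR Qb (Fb N) : ℤ) : ℝ) := by exact_mod_cast h4
  push_cast at h5
  exact h5

/-- Monotonicity of the height of a class in the place height, for a linear comparison off
the cusp `∞`. -/
theorem clH_le_of_le (H H' : Place Qb (Fb N) → ℝ) {c C : ℝ} (hC : 0 ≤ C)
    (h : ∀ P : Place Qb (Fb N), P ≠ infPlace N → H P ≤ c * H' P + C) (x : JZero N) :
    clH N H x ≤ c * clH N H' x + (gR Qb (Fb N) : ℝ) * C := by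
  have hE0 : 0 ≤ redDivInf N x := redDivInf_nonneg N x
  have hnn : ∀ P, (0 : ℝ) ≤ ((redDivInf N x P : ℤ) : ℝ) := fun P => by
    exact_mod_cast (show (0 : ℤ) ≤ redDivInf N x P by simpa using Finsupp.le_def.mp hE0 P)
  have hne : ∀ P ∈ (redDivInf N x).support, P ≠ infPlace N := by
    intro P hP hPinf
    rw [hPinf, Finsupp.mem_support_iff] at hP
    exact hP (redDivInf_apply_infPlace N x)
  have h1 : clH N H x ≤ ∑ P ∈ (redDivInf N x).support,
      ((redDivInf N x P : ℤ) : ℝ) * (c * H' P + C) := by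
    unfold clH divH Finsupp.sum
    exact Finset.sum_le_sum fun P hP => mul_le_mul_of_nonneg_left (h P (hne P hP)) (hnn P)
  have h2 : ∑ P ∈ (redDivInf N x).support, ((redDivInf N x P : ℤ) : ℝ) * (c * H' P + C)
      = c * clH N H' x + (∑ P ∈ (redDivInf N x).support, ((redDivInf N x P : ℤ) : ℝ)) * C := by
    unfold clH divH Finsupp.sum
    rw [Finset.mul_sum, Finset.sum_mul, ← Finset.sum_add_distrib]
    refine Finset.sum_congr rfl fun P _ => ?_
    ring
  have h3 : (∑ P ∈ (redDivInf N x).support, ((redDivInf N x P : ℤ) : ℝ)) * C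
      ≤ (gR Qb (Fb N) : ℝ) * C :=
    mul_le_mul_of_nonneg_right (sum_redDivInf_le N x) hC
  linarith

/-- **(RED) transfers along a linear comparison of place heights.** -/
theorem redBound_of_compare (H H' : Place Qb (Fb N) → ℝ) (hH'0 : ∀ P, 0 ≤ H' P) {c₁ c₂ C : ℝ}
    (h1 : ∀ P : Place Qb (Fb N), P ≠ infPlace N → H' P ≤ c₁ * H P + C)
    (h2 : ∀ P : Place Qb (Fb N), P ≠ infPlace N → H P ≤ c₂ * H' P + C)
    (hRED : RedBound N H') : RedBound N H := by
  obtain ⟨A', C', hred⟩ := hRED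
  have hcl' : ∀ x : JZero N, 0 ≤ clH N H' x := clH_nonneg N H' hH'0
  have hC0 : (0 : ℝ) ≤ max C 0 := le_max_right _ _
  have hc0 : (0 : ℝ) ≤ max c₂ 0 := le_max_right _ _
  have hA0 : (0 : ℝ) ≤ max A' 0 := le_max_right _ _
  have h1' : ∀ P : Place Qb (Fb N), P ≠ infPlace N → H' P ≤ c₁ * H P + max C 0 := fun P hP =>
    le_trans (h1 P hP) (by linarith [le_max_left C 0])
  have h2' : ∀ P : Place Qb (Fb N), P ≠ infPlace N → H P ≤ max c₂ 0 * H' P + max C 0 :=
    fun P hP => by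
      have := h2 P hP
      have h3 : c₂ * H' P ≤ max c₂ 0 * H' P :=
        mul_le_mul_of_nonneg_right (le_max_left _ _) (hH'0 P)
      linarith [le_max_left C 0]
  refine ⟨max c₂ 0 * max A' 0 * c₁,
    max c₂ 0 * (max A' 0 * (2 * ((gR Qb (Fb N) : ℝ) * max C 0)) + C')
      + (gR Qb (Fb N) : ℝ) * max C 0, fun x y => ?_⟩
  have e1 := clH_le_of_le N H H' hC0 h2' (x + y)
  have e2 := clH_le_of_le N H' H hC0 h1' x
  have e3 := clH_le_of_le N H' H hC0 h1' y
  have e4 := hred x y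
  have e5 : A' * (clH N H' x + clH N H' y) ≤ max A' 0 * (clH N H' x + clH N H' y) :=
    mul_le_mul_of_nonneg_right (le_max_left _ _) (add_nonneg (hcl' x) (hcl' y))
  have e6 : max A' 0 * (clH N H' x + clH N H' y)
      ≤ max A' 0 * (c₁ * (clH N H x + clH N H y) + 2 * ((gR Qb (Fb N) : ℝ) * max C 0)) :=
    mul_le_mul_of_nonneg_left (by linarith) hA0
  have e7 : max c₂ 0 * clH N H' (x + y)
      ≤ max c₂ 0 * (max A' 0 * (c₁ * (clH N H x + clH N H y)
          + 2 * ((gR Qb (Fb N) : ℝ) * max C 0)) + C') :=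
    mul_le_mul_of_nonneg_left (by linarith) hc0
  calc clH N H (x + y) ≤ max c₂ 0 * clH N H' (x + y) + (gR Qb (Fb N) : ℝ) * max C 0 := e1
    _ ≤ max c₂ 0 * (max A' 0 * (c₁ * (clH N H x + clH N H y)
          + 2 * ((gR Qb (Fb N) : ℝ) * max C 0)) + C') + (gR Qb (Fb N) : ℝ) * max C 0 := by
        linarith
    _ = max c₂ 0 * max A' 0 * c₁ * (clH N H x + clH N H y)
          + (max c₂ 0 * (max A' 0 * (2 * ((gR Qb (Fb N) : ℝ) * max C 0)) + C')
            + (gR Qb (Fb N) : ℝ) * max C 0) := by ring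

/-- **(DIVPT) transfers along a linear comparison of place heights.** -/
theorem divPt_of_compare (H H' : Place Qb (Fb N) → ℝ) (hH'0 : ∀ P, 0 ≤ H' P) {c₁ c₂ C : ℝ}
    (h1 : ∀ P : Place Qb (Fb N), P ≠ infPlace N → H' P ≤ c₁ * H P + C)
    (h2 : ∀ P : Place Qb (Fb N), P ≠ infPlace N → H P ≤ c₂ * H' P + C)
    (hDIV : DivPt N H') : DivPt N H := by
  classical
  obtain ⟨κ', hdiv⟩ := hDIV
  have hC0 : (0 : ℝ) ≤ max C 0 := le_max_right _ _
  have hc0 : (0 : ℝ) ≤ max c₂ 0 := le_max_right _ _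
  have hκ0 : (0 : ℝ) ≤ max κ' 0 := le_max_right _ _
  have h2' : ∀ P : Place Qb (Fb N), P ≠ infPlace N → H P ≤ max c₂ 0 * H' P + max C 0 :=
    fun P hP => by
      have := h2 P hP
      have h3 : c₂ * H' P ≤ max c₂ 0 * H' P :=
        mul_le_mul_of_nonneg_right (le_max_left _ _) (hH'0 P)
      linarith [le_max_left C 0]
  refine ⟨max c₂ 0 * max κ' 0 * c₁, fun L₀ => ?_⟩
  obtain ⟨l, hl, hle, Cl, S, hS⟩ := hdiv L₀
  have hl0 : (0 : ℝ) < (l : ℝ) ^ 2 := by
    have : (0 : ℝ) < (l : ℝ) := by exact_mod_cast hl.pos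
    positivity
  refine ⟨l, hl, hle, max c₂ 0 * (max κ' 0 / (l : ℝ) ^ 2 * max C 0 + Cl)
    + (gR Qb (Fb N) : ℝ) * max C 0, insert (infPlace N) S, fun P hP => ?_⟩
  rw [Finset.mem_insert, not_or] at hP
  obtain ⟨z, hz1, hz2⟩ := hS P hP.2
  refine ⟨z, hz1, ?_⟩
  have e1 := clH_le_of_le N H H' hC0 h2' z
  have e2 : κ' / (l : ℝ) ^ 2 * H' P ≤ max κ' 0 / (l : ℝ) ^ 2 * H' P :=
    mul_le_mul_of_nonneg_right (div_le_div_of_nonneg_right (le_max_left _ _) hl0.le) (hH'0 P)
  have e3 : H' P ≤ c₁ * H P + max C 0 := le_trans (h1 P hP.1) (by linarith [le_max_left C 0])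
  have e4 : max κ' 0 / (l : ℝ) ^ 2 * H' P ≤ max κ' 0 / (l : ℝ) ^ 2 * (c₁ * H P + max C 0) :=
    mul_le_mul_of_nonneg_left e3 (div_nonneg hκ0 hl0.le)
  have e5 : max c₂ 0 * clH N H' z
      ≤ max c₂ 0 * (max κ' 0 / (l : ℝ) ^ 2 * (c₁ * H P + max C 0) + Cl) :=
    mul_le_mul_of_nonneg_left (by linarith) hc0
  calc clH N H z ≤ max c₂ 0 * clH N H' z + (gR Qb (Fb N) : ℝ) * max C 0 := e1
    _ ≤ max c₂ 0 * (max κ' 0 / (l : ℝ) ^ 2 * (c₁ * H P + max C 0) + Cl)
          + (gR Qb (Fb N) : ℝ) * max C 0 := by linarith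
    _ = max c₂ 0 * max κ' 0 * c₁ / (l : ℝ) ^ 2 * H P
          + (max c₂ 0 * (max κ' 0 / (l : ℝ) ^ 2 * max C 0 + Cl)
            + (gR Qb (Fb N) : ℝ) * max C 0) := by ring

end Fermat.Agent.S17.HB.Transfer
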